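/-
S59lib / Hub / LGCPoint (helper7): **LGC at a point, every odd `p`, `p ∣ M` allowed, `v = 2` allowed** — re-issue of
helper2's `LGC3/Point3.lgcPointStmtOdd` (= helper8's `S43lib.LGC.D.lgcPointStmt`): the hypotheses `¬ p ∣ M` and
`v ≠ 2` of the statement are never used by the proof, so they are dropped; the proof is verbatim.
-/
import Mathlib
import Fermat.Agent.S43lib.LGC.D.PointStmt
import Fermat.Agent.S59lib.LGC3.Final3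

set_option autoImplicit false
set_option linter.unusedSectionVars false
set_option linter.unusedVariables false
set_option linter.style.haveILetI false

noncomputable section

namespace Fermat.Agent.S59lib.Hub

open Fermat.Agent.S59lib.LGC3

open Polynomial IsLocalRing Fermat.Agent.S43lib.B1 Fermat.Agent.S43lib.B3
  Fermat.Agent.S43lib.B2.Bridge Fermat.Agent.S56lib.TW ExtCitation Fermat.Agent.S43lib.LGC.D

local notation "Qb" => AlgebraicClosure ℚ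
local notation "GQ" => (AlgebraicClosure ℚ ≃ₐ[ℚ] AlgebraicClosure ℚ)

/-- **Block LGC, per point, every odd `p`**: `Mod4.LGCPointStmt` with `p ≠ 2` in place of `5 ≤ p`, without
`¬ p ∣ M` and without `v ≠ 2`. -/
def LGCPointW : Prop :=
  ∀ {p : ℕ} [Fact p.Prime], p ≠ 2 →
  ∀ {𝒪' : Type} [CommRing 𝒪'] [IsDomain 𝒪'] [IsDiscreteValuationRing 𝒪']
    [IsAdicComplete (maximalIdeal 𝒪') 𝒪'] [Finite (ResidueField 𝒪')] [CharZero 𝒪'],
    (p : 𝒪') ∈ maximalIdeal 𝒪' →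
  ∀ {K' : Type} [Field K'] [Algebra 𝒪' K'] [IsFractionRing 𝒪' K']
    {M : ℕ} [NeZero M], Squarefree M →
  ∀ {G : Type} [CommGroup G] [Fintype G], IsPGroup p G →
  ∀ (χ : (ZMod M)ˣ →* G) (ψ : G →* 𝒪'ˣ)
    (W : Type) [AddCommGroup W] [Module K' W] [DistribMulAction G W] [SMulCommClass G K' W]
    [IsAddTorsionFree W],
    (∀ (g : G) (w : W), g • w = algebraMap 𝒪' K' (ψ g : 𝒪') • w) →
  ∀ (S : Finset ℕ), p ∈ S → (∀ ℓ : ℕ, ℓ.Prime → ℓ ∣ M → ℓ ∈ S) →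
  ∀ (c : H1 (levelPi χ) K' W), c ≠ 0 →
  ∀ (a : ℕ → 𝒪'),
    (∀ (ℓ : ℕ) [Fact ℓ.Prime] (hℓ : ¬ ℓ ∣ M), ℓ ∉ S →
      heckeH K' W (isEquivariant_levelPi χ (nData_equivariant hℓ)) c =
        algebraMap 𝒪' K' (a ℓ) • c) →
  -- the residual representation
  ∀ (ρ₀ : ResidualGaloisRep (ZMod p)), ρ₀.IsIrreducible →
  ∀ (a₀ : ℕ → ℤ) (S₀ : Finset ℕ),
    (∀ ℓ : ℕ, ℓ.Prime → ℓ ∉ S₀ → ∀ A : ValuationSubring (AlgebraicClosure ℚ), A.LiesOverPrime ℓ →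
      ∀ φ : GQ, A.IsFrobeniusAt φ ℓ →
        LinearMap.charpoly (ρ₀.ρ φ) =
          X ^ 2 - C ((a₀ ℓ : ℤ) : ZMod p) * X + C ((ℓ : ℕ) : ZMod p)) →
    (∀ ℓ : ℕ, ℓ.Prime → ℓ ∉ S → ℓ ∉ S₀ →
      residue 𝒪' (a ℓ) = ((a₀ ℓ : ℤ) : ResidueField 𝒪')) →
  -- non-Eisenstein primes, as deep as one wants
  (∀ m : ℕ, 0 < m → ∀ S₁ : Finset ℕ,
    ∃ (ℓ₀ : ℕ) (A : ValuationSubring (AlgebraicClosure ℚ)) (φ : GQ), ℓ₀.Prime ∧ ℓ₀ ∉ S₁ ∧
      m ∣ ℓ₀ - 1 ∧ A.LiesOverPrime ℓ₀ ∧ A.IsFrobeniusAt φ ℓ₀ ∧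
      (LinearMap.charpoly (ρ₀.ρ φ)).eval 1 ≠ 0) →
  -- the Galois representation of the twisted eigensystem
  ∀ (ρ : GaloisRepAdic 𝒪'),
    (∀ (ℓ : ℕ) (_ : ℓ.Prime) (hℓM : ℓ.Coprime M), ℓ ∉ S → ∀ g : G,
      g * g * χ (ZMod.unitOfCoprime ℓ hℓM) = 1 →
      ∀ A : ValuationSubring (AlgebraicClosure ℚ), A.LiesOverPrime ℓ →
      ∀ φ : GQ, A.IsFrobeniusAt φ ℓ →
        LinearMap.charpoly (ρ.ρ φ) = X ^ 2 - C ((ψ g : 𝒪') * a ℓ) * X + C ((ℓ : ℕ) : 𝒪')) →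
    Submodule.span 𝒪' (Set.range ρ.ρ) = (⊤ : Submodule 𝒪' (Module.End 𝒪' ρ.V)) →
  -- the conclusion at a prime `v ∥ M`
  ∀ (v : ℕ) [Fact v.Prime] (hvM : v ∣ M), v ≠ p →
  ∀ A : ValuationSubring (AlgebraicClosure ℚ), A.LiesOverPrime v →
  ∀ σ ∈ A.inertiaSubgroupIn ℚ,
  ∀ u : (ZMod M)ˣ, ZMod.unitsMap hvM u = cycloChar v σ →
    ZMod.unitsMap (Nat.div_dvd_of_dvd hvM) u = 1 →
  ∀ g : G, g * g = χ u →
    ρ.trace σ = (ψ g : 𝒪') + ((ψ g)⁻¹ : 𝒪'ˣ)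


set_option maxHeartbeats 1600000 in
/-- **Block LGC, per point, every odd `p`.** -/
theorem lgcPointW : LGCPointW := by
  intro p hpf hp2 𝒪' _ _ _ _ _ _ hp𝒪 K' _ _ _ M _ hsqM G _ _ hG χ ψ W _ _ _ _ _ hW S hpS hNS c
    hc a hca ρ₀ hirr a₀ S₀ h₀ hcong hnE ρ hρ hspan v hvf hvM hvp A hA σ hσ u hu1 hu2 g hg
  classical
  have hp : p.Prime := hpf.out
  have hv : v.Prime := hvf.out
  have hinj : Function.Injective (algebraMap 𝒪' K') := IsFractionRing.injective 𝒪' K'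
  haveI : CharZero K' := charZero_of_injective_algebraMap hinj
  -- the order of `G`
  obtain ⟨k, hk⟩ := IsPGroup.iff_card.1 hG
  rw [Nat.card_eq_fintype_card] at hk
  set n : ℕ := Fintype.card G with hn
  have hnodd : Odd n := by
    rw [hk]
    exact (hp.odd_of_ne_two hp2).pow
  have hGn : ∀ y : G, y ^ n = 1 := fun y => pow_card_eq_one
  -- the nebentypus
  set Ψ : (ZMod M)ˣ →* 𝒪'ˣ := ψ.comp χ with hΨ
  have hpow : ∀ u', Ψ u' ^ n = 1 := by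
    intro u'
    rw [hΨ, MonoidHom.comp_apply, ← map_pow, hGn, map_one]
  have hΨ1 : ∀ u', residue 𝒪' ((Ψ u' : 𝒪'ˣ) : 𝒪') = 1 := by
    intro u'
    refine residue_eq_one_of_pow_eq_one hp𝒪 (Ψ u') k ?_
    rw [← hk]
    exact hpow u'
  have hM : M = 1 * M := (one_mul M).symm
  have hcop : Nat.Coprime 1 M := Nat.coprime_one_left M
  have hTM : M ∣ M := dvd_refl M
  have hΨT : ∀ u', ZMod.unitsMap hTM u' = 1 → Ψ u' = 1 := by
    intro u' hu'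
    rw [ZMod.unitsMap_self] at hu'
    rw [show u' = 1 from hu', map_one]
  have hW' : ∀ (u' : (ZMod M)ˣ) (w : W),
      χ u' • w = algebraMap 𝒪' K' ((Ψ u' : 𝒪'ˣ) : 𝒪') • w := fun u' w => hW (χ u') w
  -- the square root in `G`
  have hsqrtG : ∀ y : G, y ^ ((n + 1) / 2) * y ^ ((n + 1) / 2) = y := fun y =>
    exists_sqrt_char (MonoidHom.id G) hnodd hGn y
  have hρ' : ∀ ℓ : ℕ, ℓ.Prime → ℓ ∉ S → ∀ u' : (ZMod M)ˣ, (u' : ZMod M) = (ℓ : ZMod M) →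
      ∀ B : ValuationSubring Qb, B.LiesOverPrime ℓ → ∀ φ : GQ, B.IsFrobeniusAt φ ℓ →
        LinearMap.charpoly (ρ.ρ φ) =
          X ^ 2 - C (((((Ψ u') ^ ((n + 1) / 2))⁻¹ : 𝒪'ˣ) : 𝒪') * a ℓ) * X + C ((ℓ : 𝒪')) := by
    intro ℓ hℓ hℓS u' hu' B hB φ hφ
    have hℓM : ℓ.Coprime M :=
      (Nat.Prime.coprime_iff_not_dvd hℓ).2 (fun hd => hℓS (hNS ℓ hℓ hd))
    have hu'' : ZMod.unitOfCoprime ℓ hℓM = u' := by
      apply Units.ext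
      rw [ZMod.coe_unitOfCoprime, hu']
    have hg' : ((χ u') ^ ((n + 1) / 2))⁻¹ * ((χ u') ^ ((n + 1) / 2))⁻¹ *
        χ (ZMod.unitOfCoprime ℓ hℓM) = 1 := by
      rw [hu'', ← mul_inv, hsqrtG, inv_mul_cancel]
    have h1 := hρ ℓ hℓ hℓM hℓS _ hg' B hB φ hφ
    rw [h1, map_inv, map_pow]
    rfl
  have hvT : v ∣ M := hvM
  have hMv : M / v ∣ M := Nat.div_dvd_of_dvd hvM
  have hψg : ψ g * ψ g = Ψ u := by
    rw [← map_mul, hg]
    rfl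
  have hψgn : ψ g ^ n = 1 := by rw [← map_pow, hGn, map_one]
  by_cases hΨv : ∀ u' : (ZMod M)ˣ, ZMod.unitsMap hMv u' = 1 → Ψ u' = 1
  · -- the trivial component: (D₀)
    have hunip := isUnipotentOnInertiaAt_of_trivial_component hp2 hp𝒪 hinj hM hsqM hcop hTM hpS hNS ρ₀
      hirr a₀ S₀ h₀ hnE χ W Ψ hnodd hpow hΨ1 hΨT hW' c hc a hca hcong ρ hρ' v hv hvp hvT hΨv
    have htr := trace_eq_two_of_isUnipotentOnInertiaAt ρ hunip A hA σ hσ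
    have hψg1 : ψ g = 1 := by
      refine Fermat.Agent.S43lib.LGC.D.eq_one_of_sq_of_odd_pow hnodd ?_ hψgn
      rw [hψg, hΨv u hu2]
    rw [htr, hψg1, inv_one, Units.val_one]
    norm_num
  · -- the nontrivial component: LGC-A..D
    have hcμ : ∀ μ : Qb, μ ^ v = 1 →
        σ μ = μ ^ ((ZMod.unitsMap hvM u : (ZMod v)ˣ) : ZMod v).val := by
      intro μ hμ
      rw [hu1]
      exact cycloChar_spec v σ μ hμ
    have key := trace_inertia_nontrivial_odd hp2 hp𝒪 hM hsqM hcop hTM hpS hNS ρ₀ a₀ S₀ h₀ hnE χ W Ψ hnodd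
      hpow hΨ1 hΨT hW' c hc a hca hcong ρ hρ' hspan v hv hvp hvT hvM hMv hΨv hA hσ u hu2 hcμ
    have hψg' : (Ψ u) ^ ((n + 1) / 2) = ψ g := by
      obtain ⟨m, hm⟩ := hnodd
      have h1 : (n + 1) / 2 = m + 1 := by omega
      rw [← hψg, h1, ← pow_two, ← pow_mul]
      have h2 : 2 * (m + 1) = n + 1 := by omega
      rw [h2, pow_succ, hψgn, one_mul]
    rw [key, hψg']


end Fermat.Agent.S59lib.Hub
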