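/-
S59lib / Hub / Ctx (helper7) — PROJECT I, the re-issue of Project H's hub (`S43lib`: Taylor's Ihara avoidance at
a minimal level) for an ARBITRARY residual representation.

`Ctx` = the arithmetic context of the hub, with NO elliptic curve in it:
* `p` odd, `ρ₀ : G_ℚ → GL₂(𝔽_p)` irreducible with big image, cyclotomic determinant, Frobenius traces `a ℓ`
  off the finite set `S₀`, non-Eisenstein primes in every progression `1 mod m`;
* `Smin ∋ p` = `{p} ∪ {primes at which ρ₀ is ramified}` (`hmin`), `R0` = the squarefree base part of all the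
  levels: the primes of `Smin ∖ {p}`, possibly `p` itself (modes "`p` carried in the level"), and the auxiliary
  primes `Aux` (`r ∉ Smin`, `r ≢ 1 mod p`, `ρ₀(Frob_r)` without eigenvalue ratio `r^{±1}`; used for `p = 3` to
  kill the elements of order `3` of `Γ₀`);
* the deformation type `𝒟` (flat `𝒟fl` or strict ordinary `𝒟so` in the applications) with its two oracles:
  `heckeType` (the Hecke–Galois representations at the levels of the hub are of type `𝒟`) and `gs`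
  (the Galois side: Taylor–Wiles sets and presentations, `Mod4/Gal.gs_surj` for `𝒟fl`);
* the modularity predicate `IsMod` with THETA (`theta`) and END (`endpt`: Mazur's principle in
  characteristic zero at a point unramified at `q`).

Namespace: everything of the re-issue lives FLAT in `Fermat.Agent.S59lib.Hub`, so that the copies shadow the
originals of the opened `S43lib` namespaces.
-/
import Mathlib
import Fermat.Agent.S43lib.Mod4.Gal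
import Fermat.Agent.S43lib.B3.HeckeTr

set_option autoImplicit false
set_option linter.unusedSectionVars false
set_option linter.style.haveILetI false

noncomputable section

namespace Fermat.Agent.S59lib.Hub

open IsLocalRing Polynomial Fermat.Agent.TeamA Fermat.Agent.TeamA.Rep Fermat.Agent.S55lib
  Fermat.Agent.S56lib.Dict Fermat.Agent.S56lib.PT9a Fermat.Agent.S56lib.TWSel
  Fermat.Agent.S56lib.Main Fermat.Agent.S56lib ExtCitation Fermat.Agent.S43lib.B3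

/-- `G_ℚ` -/
local notation "GQ" => (AlgebraicClosure ℚ ≃ₐ[ℚ] AlgebraicClosure ℚ)
local notation "Qb" => AlgebraicClosure ℚ

/-- A deformation type: a condition on the lifts to local `𝒪`-algebras, for every ramification set. -/
abbrev DefType : Type 1 :=
  ∀ (𝒪 : Type) [CommRing 𝒪], Finset ℕ →
    ∀ ⦃A : Type⦄ [CommRing A] [IsLocalRing A] [Algebra 𝒪 A], GaloisRepAdic A → Prop

/-- A trace ring of type `𝒟S` (generic version of `Mod4.TrRing`). -/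
structure TrRingG (𝒪 : Type) [CommRing 𝒪] [IsDomain 𝒪] [IsDiscreteValuationRing 𝒪]
    [IsAdicComplete (maximalIdeal 𝒪) 𝒪] (ρbar : ResidualGaloisRep (ResidueField 𝒪)) (p : ℕ)
    (𝒟S : ∀ ⦃A : Type⦄ [CommRing A] [IsLocalRing A] [Algebra 𝒪 A], GaloisRepAdic A → Prop) :
    Type 1 where
  R : Type
  [instCommRing : CommRing R]
  [instIsLocalRing : IsLocalRing R]
  [instIsNoetherianRing : IsNoetherianRing R]
  [instIsAdicComplete : IsAdicComplete (maximalIdeal R) R]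
  [instAlgebra : Algebra 𝒪 R]
  [instIsLocalHom : IsLocalHom (algebraMap 𝒪 R)]
  residue_surjective : Function.Surjective (residue R ∘ algebraMap 𝒪 R)
  ρ : GaloisRepAdic R
  isType : 𝒟S ρ
  detCyc : ρ.DetIsCyclotomic p
  residual_isEquiv : ρ.residual.IsEquiv
    (ρbar.baseChangeAlong (ResidueField.map (algebraMap 𝒪 R)))
  /-- `R` is generated by the traces -/
  trace_gen : ∀ (A : Type) [CommRing A] [Algebra 𝒪 A] (φ φ' : R →ₐ[𝒪] A),
    (∀ σ, φ (ρ.trace σ) = φ' (ρ.trace σ)) → φ = φ'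

attribute [instance] TrRingG.instCommRing TrRingG.instIsLocalRing TrRingG.instIsNoetherianRing
  TrRingG.instIsAdicComplete TrRingG.instAlgebra TrRingG.instIsLocalHom

/-- **The Galois side for the type `𝒟`** (the statement of `Mod4/Gal.gs_surj`, with a basis of the universal
representation instead of `Based`). -/
def GSFor (p : ℕ) (Smin : Finset ℕ) (𝒟 : DefType) : Prop :=
  ∀ {𝒪 : Type} [CommRing 𝒪] [IsDomain 𝒪] [IsDiscreteValuationRing 𝒪]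
    [IsAdicComplete (maximalIdeal 𝒪) 𝒪] [Finite (ResidueField 𝒪)]
    {ρbar : ResidualGaloisRep (ResidueField 𝒪)} (_habs : ρbar.IsAbsolutelyIrreducible)
    {good : Finset ℕ → Prop} (F : ∀ S' : Finset ℕ, good S' → TrRingG 𝒪 ρbar p (𝒟 𝒪 S'))
    (_hp𝒪 : (p : 𝒪) ∈ maximalIdeal 𝒪)
    (_hdet : (GaloisRepAdic.ofResidualGaloisRep ρbar).DetIsCyclotomic p)
    (_hsplit : ∀ σ : GQ,
      ∃ α β : ResidueField 𝒪, LinearMap.charpoly (ρbar.ρ σ) = (X - C α) * (X - C β))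
    (_hTW : ∀ (K : Type) [Field K] [Algebra (ResidueField 𝒪) K]
      (G : Subgroup GQ), G.index = 2 →
      ∀ V : Submodule K (ρbar.baseChange K).V,
        (∀ σ ∈ G, ∀ x ∈ V, (ρbar.baseChange K).ρ σ x ∈ V) → V = ⊥ ∨ V = ⊤)
    (S T : Finset ℕ) (_hSmin : Smin ⊆ S) (_hTS : T ⊆ S) (_hTdisj : Disjoint Smin T)
    (_hmin : ∀ q : ℕ, q.Prime → q ≠ p → (q ∈ Smin ↔ ¬ ρbar.IsUnramifiedAt q))
    (bbar : Module.Basis (Fin 2) (ResidueField 𝒪) ρbar.V)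
    (_hscal : ∀ v : Nat.Primes, (v : ℕ) ∈ T → ∀ g : Gloc v, ∃ a : ResidueField 𝒪,
      resHom ρbar bbar (rloc v g) = a • (1 : Matrix (Fin 2) (Fin 2) (ResidueField 𝒪)))
    (φ₀ : ↥(primesIn T) → 𝒪)
    (_hφ₀ : ∀ v : ↥(primesIn T), resHom ρbar bbar (globFrobAt (v : Nat.Primes)) =
      residue 𝒪 (φ₀ v) • (1 : Matrix (Fin 2) (Fin 2) (ResidueField 𝒪))),
    ∃ r : ℕ, ∀ n : ℕ, ∃ qv : Fin r → ℕ, Function.Injective qv ∧
      (∀ i, (qv i).Prime ∧ qv i ∉ S ∧ p ^ (n + 1) ∣ qv i - 1) ∧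
      (∀ i, ∀ P : ValuationSubring (AlgebraicClosure ℚ), P.LiesOverPrime (qv i) →
        ∀ φ : GQ, P.IsFrobeniusAt φ (qv i) →
          ∃ α β : ResidueField 𝒪, α ≠ β ∧
            LinearMap.charpoly (ρbar.ρ φ) = (X - C α) * (X - C β)) ∧
      ∀ hS' : good (Smin ∪ T ∪ Finset.univ.image qv),
        3 * (primesIn T).card ≤ r ∧
        ∃ bR : Module.Basis (Fin 2) (F (Smin ∪ T ∪ Finset.univ.image qv) hS').R
            (F (Smin ∪ T ∪ Finset.univ.image qv) hS').ρ.V,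
        ∃ γ : MvPowerSeries ((↥(primesIn T) × Bool × Fin 2 × Fin 2) ⊕
            Fin (r - 3 * (primesIn T).card)) 𝒪 →ₐ[𝒪]
            (F (Smin ∪ T ∪ Finset.univ.image qv) hS').R,
          Function.Surjective γ ∧
          (∀ (v : ↥(primesIn T)) (i j : Fin 2),
            γ (MvPowerSeries.X (Sum.inl (v, false, i, j))) =
              matOf (F (Smin ∪ T ∪ Finset.univ.image qv) hS').ρ bR
                  (globFrobAt (v : Nat.Primes)) i j -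
                (if i = j then algebraMap 𝒪 _ (φ₀ v) else 0)) ∧
          (∀ (v : ↥(primesIn T)) (i j : Fin 2),
            γ (MvPowerSeries.X (Sum.inl (v, true, i, j))) =
              matOf (F (Smin ∪ T ∪ Finset.univ.image qv) hS').ρ bR
                  (globGenAt (v : Nat.Primes) p) i j -
                (if i = j then 1 else 0))

/-- **The arithmetic context of the hub.** -/
structure Ctx : Type 1 where
  p : ℕ
  [hpf : Fact p.Prime]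
  hp2 : p ≠ 2
  /-- the residual representation -/
  ρ₀ : ResidualGaloisRep (ZMod p)
  hirr : ρ₀.IsIrreducible
  big : ∀ (k : Type) [Field k] [Algebra (ZMod p) k],
    (ρ₀.baseChange k).IsAbsolutelyIrreducible ∧
    ∀ (K : Type) [Field K] [Algebra k K] (G : Subgroup GQ), G.index = 2 →
      ∀ V : Submodule K ((ρ₀.baseChange k).baseChange K).V,
        (∀ σ ∈ G, ∀ x ∈ V, ((ρ₀.baseChange k).baseChange K).ρ σ x ∈ V) → V = ⊥ ∨ V = ⊤
  hdet₀ : ∀ (σ : GQ) (a : ℕ), (∀ μ : Qb, μ ^ p = 1 → σ μ = μ ^ a) →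
    LinearMap.det (ρ₀.ρ σ) = (a : ZMod p)
  /-- the Frobenius traces -/
  a : ℕ → ℤ
  S₀ : Finset ℕ
  h₀ : ∀ ℓ : ℕ, ℓ.Prime → ℓ ∉ S₀ → ∀ A : ValuationSubring Qb, A.LiesOverPrime ℓ →
    ∀ φ : GQ, A.IsFrobeniusAt φ ℓ →
      LinearMap.charpoly (ρ₀.ρ φ) =
        X ^ 2 - C ((a ℓ : ℤ) : ZMod p) * X + C ((ℓ : ℕ) : ZMod p)
  hne : ∀ m : ℕ, 0 < m → ∀ S₁ : Finset ℕ,
    ∃ (ℓ : ℕ) (A : ValuationSubring Qb) (φ : GQ), ℓ.Prime ∧ ℓ ∉ S₁ ∧ m ∣ ℓ - 1 ∧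
      A.LiesOverPrime ℓ ∧ A.IsFrobeniusAt φ ℓ ∧ (LinearMap.charpoly (ρ₀.ρ φ)).eval 1 ≠ 0
  /-- the minimal ramification set `{p} ∪ Ram ρ₀` -/
  Smin : Finset ℕ
  hpSmin : p ∈ Smin
  Smin_prime : ∀ q ∈ Smin, q.Prime
  hmin : ∀ q : ℕ, q.Prime → q ≠ p → (q ∈ Smin ↔ ¬ ρ₀.IsUnramifiedAt q)
  /-- the squarefree base part of the levels and the auxiliary primes -/
  R0 : ℕ
  R0_sq : Squarefree R0
  Aux : Finset ℕ
  R0_primes : ∀ q : ℕ, q.Prime → q ∣ R0 → q ∈ Smin ∪ Aux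
  Smin_dvd : ∀ q ∈ Smin, q ≠ p → q ∣ R0
  Aux_dvd : ∀ r ∈ Aux, r ∣ R0
  Aux_prime : ∀ r ∈ Aux, r.Prime
  Aux_disj : Disjoint Smin Aux
  /-- for `p = 3` a prime `r ≡ 2 mod 3` of the base level kills the elements of order `3` of `Γ₀` -/
  aux3 : p = 3 → ∃ r : ℕ, r.Prime ∧ r ∣ R0 ∧ r % 3 = 2
  /-- the deformation type and its two oracles -/
  𝒟 : DefType
  gs : GSFor p Smin 𝒟
  heckeType : ∀ {𝒪 : Type} [CommRing 𝒪] [IsDomain 𝒪] [IsDiscreteValuationRing 𝒪]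
    [IsAdicComplete (maximalIdeal 𝒪) 𝒪] [Finite (ResidueField 𝒪)] [CharZero 𝒪]
    [Algebra (ZMod p) (ResidueField 𝒪)]
    (_ : (p : 𝒪) ∈ maximalIdeal 𝒪) {N : ℕ} [NeZero N] (S' : Finset ℕ)
    {θ : CuspForm.heckeAlgebra N 2 (↑(S' ∪ Aux) : Set ℕ) →+* ResidueField 𝒪}
    {T : Type} [CommRing T] [IsLocalRing T] [IsNoetherianRing T]
    [IsAdicComplete (maximalIdeal T) T] [Algebra 𝒪 T] [IsLocalHom (algebraMap 𝒪 T)]
    [Module.Finite 𝒪 T] [Module.Free 𝒪 T]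
    (H : CuspForm.HeckeGaloisRepDatum N (↑(S' ∪ Aux) : Set ℕ) 𝒪 θ T),
    p ∈ S' → (∀ q : ℕ, q.Prime → q ∣ N → q ∈ S' ∪ Aux) →
    (∀ q ∈ Smin, q.Prime → q ≠ p → (q ∣ N ∧ ¬ q ^ 2 ∣ N) ∨ q ∉ S' ∪ Aux) →
    ((p ∣ N ↔ p ∣ R0) ∧ ¬ p ^ 2 ∣ N) →
    (∀ r ∈ Aux, r ∣ N ∧ ¬ r ^ 2 ∣ N) →
    (∀ ℓ ∈ S' ∪ Aux, ℓ.Prime ∧ ℓ ∣ N * p) →
    (∀ q : ℕ, q.Prime → ¬ q ^ 3 ∣ N) →
    H.ρ.residual.IsEquiv ((ρ₀.baseChange (ResidueField 𝒪)).baseChangeAlong
      (ResidueField.map (algebraMap 𝒪 T))) →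
    𝒟 𝒪 S' H.ρ
  /-- the modularity predicate with THETA and END -/
  IsMod : ℕ → Prop
  theta : ∀ {N M : ℕ} [NeZero M], N ∣ M → ∀ S : Finset ℕ, p ∈ S →
    (∀ q : ℕ, q.Prime → q ∣ M → q ∈ S) → IsMod N →
    ∀ (k : Type) [Field k] [Algebra (ZMod p) k],
      ∃ θ : CuspForm.heckeAlgebra M 2 (↑S : Set ℕ) →+* k,
        ∀ (ℓ : ℕ) (hℓ : ℓ.Prime) (hℓM : ¬ ℓ ∣ M) (hℓS : ℓ ∉ (↑S : Set ℕ)), ℓ ∉ S₀ →
          θ (CuspForm.heckeAlgebra.T hℓ hℓM hℓS) = ((a ℓ : ℤ) : k)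
  endpt : ∀ (N q : ℕ) [NeZero N], Squarefree N → (p ∣ N ↔ p ∣ R0) → q.Prime → 5 ≤ q → q ∣ N →
    q ≠ p → R0 ∣ N → ¬ q ∣ R0 →
    ∀ (S : Finset ℕ), (∀ ℓ ∈ S, ℓ.Prime ∧ ℓ ∣ N * p) → p ∈ S →
      (∀ ℓ : ℕ, ℓ.Prime → ℓ ∣ N → ℓ ∈ S) →
    ∀ (𝒪' : Type) [CommRing 𝒪'] [IsDomain 𝒪'] [IsDiscreteValuationRing 𝒪']
      [IsAdicComplete (maximalIdeal 𝒪') 𝒪'] [Finite (ResidueField 𝒪')] [CharZero 𝒪'],
      (p : 𝒪') ∈ maximalIdeal 𝒪' →
    ∀ (χ : CuspForm.heckeAlgebra N 2 (↑S : Set ℕ) →+* 𝒪'),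
      (∀ (ℓ : ℕ) (hℓ : ℓ.Prime) (hℓN : ¬ ℓ ∣ N) (hℓS : ℓ ∉ (↑S : Set ℕ)), ℓ ∉ S₀ →
        χ (CuspForm.heckeAlgebra.T hℓ hℓN hℓS) - ((a ℓ : ℤ) : 𝒪') ∈ maximalIdeal 𝒪') →
    ∀ ρ : GaloisRepAdic 𝒪',
      (∀ (ℓ : ℕ) (hℓ : ℓ.Prime) (hℓN : ¬ ℓ ∣ N) (hℓS : ℓ ∉ (↑S : Set ℕ)),
        ∀ A : ValuationSubring Qb, A.LiesOverPrime ℓ → ∀ σ : GQ, A.IsFrobeniusAt σ ℓ →
          LinearMap.charpoly (ρ.ρ σ) =
            X ^ 2 - C (χ (CuspForm.heckeAlgebra.T hℓ hℓN hℓS)) * X + C (ℓ : 𝒪')) →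
      Submodule.span 𝒪' (Set.range ρ.ρ) = (⊤ : Submodule 𝒪' (Module.End 𝒪' ρ.V)) →
      ρ.IsUnramifiedAt q → IsMod (N / q)

attribute [instance] Ctx.hpf

namespace Ctx

variable (P : Ctx)

theorem pp : P.p.Prime := P.hpf.out

/-- the residual representation over a field `k ⊇ 𝔽_p` -/
def res (k : Type) [Field k] [Algebra (ZMod P.p) k] : ResidualGaloisRep k := P.ρ₀.baseChange k

end Ctx

end Fermat.Agent.S59lib.Hub
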