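/-
S59lib / Hub / Res (helper7): the residual representation `P.res k = P.ρ₀ ⊗ k` of a hub context, with the
hypotheses of the frozen S56 (`habs`, `hTW`, `hdet`, `hsplit`, `hmin`, `hscal`).  Re-issue of
`S43lib/BigImg/FreyResidual` and `S43lib/B3/FreyInst` with the Frey curve replaced by `P.ρ₀`.
-/
import Mathlib
import Fermat.Agent.S59lib.Hub.Ctx
import Fermat.Agent.S43lib.B3.FreyInst

set_option autoImplicit false
set_option linter.unusedSectionVars false
set_option linter.style.haveILetI false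

open scoped TensorProduct

noncomputable section

namespace Fermat.Agent.S59lib.Hub

open IsLocalRing Polynomial Fermat.Agent.TeamA Fermat.Agent.TeamA.Rep Fermat.Agent.S55lib
  Fermat.Agent.S56lib.Dict Fermat.Agent.S56lib.PT9a Fermat.Agent.S56lib.TWSel
  Fermat.Agent.S56lib.Main Fermat.Agent.S56lib ExtCitation Fermat.Agent.S43lib.B3
  Fermat.Agent.S43lib.BigImg

local notation "GQ" => (AlgebraicClosure ℚ ≃ₐ[ℚ] AlgebraicClosure ℚ)
local notation "Qb" => AlgebraicClosure ℚ

attribute [local instance] dualNumberAlgebra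

variable (P : Ctx) (k : Type) [Field k] [Algebra (ZMod P.p) k]

theorem res_rho_apply (σ : GQ) : (P.res k).ρ σ = (P.ρ₀.ρ σ).baseChange k := rfl

theorem res_habs : (P.res k).IsAbsolutelyIrreducible := (P.big k).1

theorem res_hTW : ∀ (K : Type) [Field K] [Algebra k K] (G : Subgroup GQ), G.index = 2 →
    ∀ V : Submodule K ((P.res k).baseChange K).V,
      (∀ σ ∈ G, ∀ x ∈ V, ((P.res k).baseChange K).ρ σ x ∈ V) → V = ⊥ ∨ V = ⊤ := (P.big k).2

theorem natCast_p_eq_zero : ((P.p : ℕ) : k) = 0 := by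
  have h1 : ((P.p : ℕ) : k) = algebraMap (ZMod P.p) k ((P.p : ℕ) : ZMod P.p) := by
    rw [map_natCast]
  rw [h1, ZMod.natCast_self, _root_.map_zero]

/-- **`hdet` of the frozen S56** for `P.res k` -/
theorem res_hdet : (GaloisRepAdic.ofResidualGaloisRep (P.res k)).DetIsCyclotomic P.p := by
  refine ⟨?_, fun n σ a ha => ?_⟩
  · rw [natCast_p_eq_zero P k]
    exact Submodule.zero_mem _
  · rcases Nat.eq_zero_or_pos n with rfl | hn
    · rw [pow_zero, Nat.cast_one, Ideal.span_singleton_one]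
      exact Submodule.mem_top
    · have ha' : ∀ μ : Qb, μ ^ P.p = 1 → σ μ = μ ^ a := by
        intro μ hμ
        apply ha
        obtain ⟨m, rfl⟩ : ∃ m, n = m + 1 := ⟨n - 1, (Nat.sub_add_cancel hn).symm⟩
        rw [pow_succ', pow_mul, hμ, one_pow]
      have hdet : LinearMap.det ((GaloisRepAdic.ofResidualGaloisRep (P.res k)).ρ σ) =
          (a : k) := by
        change LinearMap.det ((P.ρ₀.ρ σ).baseChange k) = (a : k)
        rw [LinearMap.det_baseChange, P.hdet₀ σ a ha', map_natCast]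
      rw [hdet, sub_self]
      exact Submodule.zero_mem _

/-- **`hsplit` of the frozen S56** for `P.res k`, if every element of `𝔽_p` is a square in `k`. -/
theorem res_hsplit (hk : ∀ a : ZMod P.p, ∃ x : k, x ^ 2 = algebraMap (ZMod P.p) k a)
    (σ : GQ) : ∃ α β : k, LinearMap.charpoly ((P.res k).ρ σ) = (X - C α) * (X - C β) := by
  set f := P.ρ₀.ρ σ with hf
  have hmonic : f.charpoly.Monic := LinearMap.charpoly_monic f
  have hdeg : f.charpoly.natDegree = 2 := by
    rw [LinearMap.charpoly_natDegree, P.ρ₀.finrank_eq]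
  obtain ⟨b, c, hsum⟩ : ∃ b c : ZMod P.p, f.charpoly = X ^ 2 + C b * X + C c := by
    have h := hmonic.as_sum
    rw [hdeg, Finset.sum_range_succ, Finset.sum_range_one, pow_zero, mul_one, pow_one] at h
    exact ⟨f.charpoly.coeff 1, f.charpoly.coeff 0, h.trans (by ring)⟩
  have h2 : (2 : k) ≠ 0 := by
    have h2' : (2 : ZMod P.p) ≠ 0 := by
      intro h20
      have h3 : ((2 : ℕ) : ZMod P.p) = 0 := by exact_mod_cast h20
      rw [ZMod.natCast_eq_zero_iff] at h3
      exact P.hp2 ((Nat.prime_dvd_prime_iff_eq P.pp Nat.prime_two).1 h3)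
    have : (2 : k) = algebraMap (ZMod P.p) k 2 := by rw [map_ofNat]
    rw [this]
    exact (_root_.map_ne_zero _).2 h2'
  obtain ⟨x, hx⟩ := hk (b ^ 2 - 4 * c)
  have hch : LinearMap.charpoly (f.baseChange k) =
      (X - C ((-(algebraMap (ZMod P.p) k b) + x) / 2)) *
        (X - C ((-(algebraMap (ZMod P.p) k b) - x) / 2)) := by
    rw [LinearMap.charpoly_baseChange, hsum, Polynomial.map_add,
      Polynomial.map_add, Polynomial.map_mul, Polynomial.map_pow, Polynomial.map_X, Polynomial.map_C,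
      Polynomial.map_C]
    exact quad_eq_mul h2 _ _ x (hx.trans (map_disc _ _ _))
  exact ⟨_, _, hch⟩

/-- `P.res k` is unramified at `q` iff `P.ρ₀` is -/
theorem res_isUnramifiedAt_iff (q : ℕ) :
    (P.res k).IsUnramifiedAt q ↔ P.ρ₀.IsUnramifiedAt q := by
  haveI : FaithfulSMul (ZMod P.p) k :=
    (faithfulSMul_iff_algebraMap_injective _ _).2 (algebraMap (ZMod P.p) k).injective
  constructor
  · intro h A hA σ hσ
    have h1 : (P.ρ₀.ρ σ).baseChange k =
        (LinearMap.id : _ →ₗ[ZMod P.p] P.ρ₀.V).baseChange k :=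
      (h A hA σ hσ).trans LinearMap.baseChange_id.symm
    exact LinearMap.baseChangeHom_injective (ZMod P.p) _ k h1
  · intro h A hA σ hσ
    have h2 : (P.ρ₀.ρ σ).baseChange k = LinearMap.id := by
      rw [h A hA σ hσ]
      exact LinearMap.baseChange_id
    exact h2

/-- **`hmin`** -/
theorem res_hmin (q : ℕ) (hq : q.Prime) (hqp : q ≠ P.p) :
    q ∈ P.Smin ↔ ¬ (P.res k).IsUnramifiedAt q := by
  rw [res_isUnramifiedAt_iff]
  exact P.hmin q hq hqp

/-- Every decomposition group above `r` acts through scalars of `𝔽_p`. -/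
def DecompScalarAt (r : ℕ) : Prop :=
  ∀ A : ValuationSubring Qb, A.LiesOverPrime r →
    ∀ σ ∈ A.decompositionSubgroup ℚ, ∃ c : ZMod P.p, P.ρ₀.ρ σ = c • (1 : Module.End (ZMod P.p) P.ρ₀.V)

theorem res_rho_eq_smul (σ : GQ) (c : ZMod P.p)
    (h : P.ρ₀.ρ σ = c • (1 : Module.End (ZMod P.p) P.ρ₀.V)) :
    (P.res k).ρ σ = (algebraMap (ZMod P.p) k c) • (1 : Module.End k (P.res k).V) := by
  rw [res_rho_apply, h, LinearMap.baseChange_smul, Module.End.one_eq_id, LinearMap.baseChange_id,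
    ← algebraMap_smul k c (LinearMap.id : k ⊗[ZMod P.p] P.ρ₀.V →ₗ[k] k ⊗[ZMod P.p] P.ρ₀.V)]
  rfl

variable {𝒪 : Type} [CommRing 𝒪] [IsDomain 𝒪] [IsDiscreteValuationRing 𝒪]
  [IsAdicComplete (maximalIdeal 𝒪) 𝒪] [Algebra (ZMod P.p) (ResidueField 𝒪)]

/-- **`hscal`** -/
theorem res_hscal
    (bbar : Module.Basis (Fin 2) (ResidueField 𝒪) (P.res (ResidueField 𝒪)).V) (v : Nat.Primes)
    (h : DecompScalarAt P (v : ℕ)) (g : Gloc v) :
    ∃ a : ResidueField 𝒪, resHom (P.res (ResidueField 𝒪)) bbar (rloc v g) =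
      a • (1 : Matrix (Fin 2) (Fin 2) (ResidueField 𝒪)) := by
  obtain ⟨c, hc⟩ := h _ (primeLocalPlace_liesOverPrime v) _ (rloc_mem_decompositionSubgroup v g)
  refine ⟨algebraMap (ZMod P.p) (ResidueField 𝒪) c, ?_⟩
  rw [Dict.resHom_apply, matOfRes, res_rho_eq_smul P (ResidueField 𝒪) _ c hc, map_smul,
    LinearMap.toMatrix_one]

end Fermat.Agent.S59lib.Hub
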