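/-
S59lib / Hub / HeckeTr (helper7): **the family of trace rings given by the localised Hecke algebras**, re-issue of
`S43lib/B3/HeckeTr` (sections TrRing, Family, Twisted) for a hub context `P : Ctx`:
* the Hecke algebras are taken away from `S' ∪ P.Aux`, the deformation type is `P.𝒟 𝒪 S'` (oracle `P.heckeType`);
* the twisted levels are `lvlTw P S' = R0 · tp · tp`, `tp = ∏_{ℓ ∈ S' ∖ Smin} ℓ`;
* the good ramification sets are the finite sets of primes `S' ⊇ Smin ∪ T` disjoint from `Aux`.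
-/
import Mathlib
import Fermat.Agent.S59lib.Hub.Res

set_option autoImplicit false
set_option linter.unusedSectionVars false
set_option linter.unusedVariables false
set_option linter.style.haveILetI false

noncomputable section

namespace Fermat.Agent.S59lib.Hub

open IsLocalRing Polynomial CuspForm Fermat.Agent.S56lib.Main Fermat.Agent.S58lib.Cmp
  Fermat.Agent.S43lib.B3

local notation "Qb" => AlgebraicClosure ℚ

/-! ### the trace ring of a Hecke datum -/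

section TrRing

variable (P : Ctx) {N : ℕ} [NeZero N]
  {𝒪 : Type} [CommRing 𝒪] [IsDomain 𝒪] [IsDiscreteValuationRing 𝒪]
  [IsAdicComplete (maximalIdeal 𝒪) 𝒪] [Finite (ResidueField 𝒪)] [CharZero 𝒪]
  [Algebra (ZMod P.p) (ResidueField 𝒪)] (S' : Finset ℕ)
  {θ : heckeAlgebra N 2 (↑(S' ∪ P.Aux) : Set ℕ) →+* ResidueField 𝒪}
  {T : Type} [CommRing T] [IsLocalRing T] [IsNoetherianRing T]
  [IsAdicComplete (maximalIdeal T) T] [Algebra 𝒪 T] [IsLocalHom (algebraMap 𝒪 T)]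
  [Module.Finite 𝒪 T] [Module.Free 𝒪 T]

/-- **the trace ring of a Hecke datum** -/
def heckeTrOf (hp𝒪 : (P.p : 𝒪) ∈ maximalIdeal 𝒪) (hpS : P.p ∈ S')
    (hNS : ∀ q : ℕ, q.Prime → q ∣ N → q ∈ S' ∪ P.Aux)
    (H : HeckeGaloisRepDatum N (↑(S' ∪ P.Aux) : Set ℕ) 𝒪 θ T)
    (hSmin : ∀ q ∈ P.Smin, q.Prime → q ≠ P.p → (q ∣ N ∧ ¬ q ^ 2 ∣ N) ∨ q ∉ S' ∪ P.Aux)
    (hpl : (P.p ∣ N ↔ P.p ∣ P.R0) ∧ ¬ P.p ^ 2 ∣ N)
    (haux : ∀ r ∈ P.Aux, r ∣ N ∧ ¬ r ^ 2 ∣ N)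
    (hSdvd : ∀ ℓ ∈ S' ∪ P.Aux, ℓ.Prime ∧ ℓ ∣ N * P.p)
    (hcube : ∀ q : ℕ, q.Prime → ¬ q ^ 3 ∣ N)
    (hθ : ∀ (ℓ : ℕ) (hℓ : ℓ.Prime) (hℓN : ¬ ℓ ∣ N) (hℓS : ℓ ∉ (↑(S' ∪ P.Aux) : Set ℕ)), ℓ ∉ P.S₀ →
      θ (heckeAlgebra.T hℓ hℓN hℓS) = ((P.a ℓ : ℤ) : ResidueField 𝒪)) :
    TrRingG 𝒪 (P.res (ResidueField 𝒪)) P.p (P.𝒟 𝒪 S') where
  R := T
  residue_surjective := H.residue_surjective
  ρ := H.ρ
  isType := P.heckeType hp𝒪 S' H hpS hNS hSmin hpl haux hSdvd hcube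
    (heckeDatum_residual_isEquiv H P.ρ₀ P.a P.S₀ P.h₀ hθ)
  detCyc := heckeDatum_detIsCyclotomic P.pp hp𝒪 hNS H
  residual_isEquiv := heckeDatum_residual_isEquiv H P.ρ₀ P.a P.S₀ P.h₀ hθ
  trace_gen := heckeDatum_trace_gen H hNS

end TrRing

/-! ### the family -/

section Family

/-- **The data of a family of Hecke characters lifting `ρ₀`**: a level function `lvl`, a predicate `good` on the
ramification sets, and for every good `S'` a character `θ S' : 𝕋(lvl S')^{S' ∪ Aux} → k` with `θ(T_ℓ) = a_ℓ` off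
`S₀`. -/
structure HeckeFam (𝒪 : Type) [CommRing 𝒪] [IsDomain 𝒪] [IsDiscreteValuationRing 𝒪]
    [IsAdicComplete (maximalIdeal 𝒪) 𝒪] (P : Ctx)
    (lvl : Finset ℕ → ℕ) [∀ S', NeZero (lvl S')] (good : Finset ℕ → Prop) : Type where
  hp𝒪 : (P.p : 𝒪) ∈ maximalIdeal 𝒪
  p_mem : ∀ S', good S' → P.p ∈ S'
  primes_mem : ∀ S', good S' → ∀ q : ℕ, q.Prime → q ∣ lvl S' → q ∈ S' ∪ P.Aux
  hSmin : ∀ S', good S' → ∀ q ∈ P.Smin, q.Prime → q ≠ P.p →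
    (q ∣ lvl S' ∧ ¬ q ^ 2 ∣ lvl S') ∨ q ∉ S' ∪ P.Aux
  hpl : ∀ S', good S' → (P.p ∣ lvl S' ↔ P.p ∣ P.R0) ∧ ¬ P.p ^ 2 ∣ lvl S'
  haux : ∀ S', good S' → ∀ r ∈ P.Aux, r ∣ lvl S' ∧ ¬ r ^ 2 ∣ lvl S'
  hSdvd : ∀ S', good S' → ∀ ℓ ∈ S' ∪ P.Aux, ℓ.Prime ∧ ℓ ∣ lvl S' * P.p
  hcube : ∀ S', good S' → ∀ q : ℕ, q.Prime → ¬ q ^ 3 ∣ lvl S'
  θ : ∀ S' : Finset ℕ, good S' →
    heckeAlgebra (lvl S') 2 (↑(S' ∪ P.Aux) : Set ℕ) →+* ResidueField 𝒪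
  hθ : ∀ (S' : Finset ℕ) (hS' : good S') (ℓ : ℕ) (hℓ : ℓ.Prime) (hℓN : ¬ ℓ ∣ lvl S')
    (hℓS : ℓ ∉ (↑(S' ∪ P.Aux) : Set ℕ)), ℓ ∉ P.S₀ →
      θ S' hS' (heckeAlgebra.T hℓ hℓN hℓS) = ((P.a ℓ : ℤ) : ResidueField 𝒪)

variable {𝒪 : Type} [CommRing 𝒪] [IsDomain 𝒪] [IsDiscreteValuationRing 𝒪]
  [IsAdicComplete (maximalIdeal 𝒪) 𝒪] [Finite (ResidueField 𝒪)] [CharZero 𝒪]
variable {P : Ctx} [Algebra (ZMod P.p) (ResidueField 𝒪)]
variable {lvl : Finset ℕ → ℕ} [∀ S', NeZero (lvl S')] {good : Finset ℕ → Prop}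

theorem HeckeFam.p_mem' (D : HeckeFam 𝒪 P lvl good) (S' : Finset ℕ) (hS' : good S') :
    P.p ∈ S' ∪ P.Aux := Finset.mem_union_left _ (D.p_mem S' hS')

/-- the chosen Hecke–Galois datum at `S'` -/
def HeckeFam.H (D : HeckeFam 𝒪 P lvl good) (S' : Finset ℕ) (hS' : good S') :
    HeckeGaloisRepDatum (lvl S') (↑(S' ∪ P.Aux) : Set ℕ) 𝒪 (D.θ S' hS')
      (heckeLocal (lvl S') (↑(S' ∪ P.Aux) : Set ℕ) 𝒪 (D.θ S' hS')) :=
  Classical.choose (Fermat.Agent.S43lib.B2.exists_heckeGaloisRepDatum_π P.hp2 D.hp𝒪 (D.p_mem' S' hS')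
    (D.primes_mem S' hS') (D.θ S' hS') P.ρ₀ P.hirr P.a P.S₀ P.h₀ (D.hθ S' hS'))

/-- the structure map of the chosen datum is the canonical map to the localised Hecke algebra -/
theorem HeckeFam.H_π (D : HeckeFam 𝒪 P lvl good) (S' : Finset ℕ) (hS' : good S') :
    (D.H S' hS').π = heckeLocal.π (lvl S') (↑(S' ∪ P.Aux) : Set ℕ) 𝒪 (D.θ S' hS') :=
  Classical.choose_spec (Fermat.Agent.S43lib.B2.exists_heckeGaloisRepDatum_π P.hp2 D.hp𝒪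
    (D.p_mem' S' hS') (D.primes_mem S' hS') (D.θ S' hS') P.ρ₀ P.hirr P.a P.S₀ P.h₀
    (D.hθ S' hS'))

/-- **HeckeTr: the family of trace rings** `S' ↦ (𝕋(lvl S')_{𝔪}, ρ_{S'})`. -/
def heckeTr (D : HeckeFam 𝒪 P lvl good) (S' : Finset ℕ) (hS' : good S') :
    TrRingG 𝒪 (P.res (ResidueField 𝒪)) P.p (P.𝒟 𝒪 S') :=
  heckeTrOf P S' D.hp𝒪 (D.p_mem S' hS') (D.primes_mem S' hS') (D.H S' hS')
    (D.hSmin S' hS') (D.hpl S' hS') (D.haux S' hS') (D.hSdvd S' hS') (D.hcube S' hS') (D.hθ S' hS')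

theorem heckeTr_R (D : HeckeFam 𝒪 P lvl good) (S' : Finset ℕ) (hS' : good S') :
    (heckeTr D S' hS').R = heckeLocal (lvl S') (↑(S' ∪ P.Aux) : Set ℕ) 𝒪 (D.θ S' hS') := rfl

theorem heckeTr_ρ (D : HeckeFam 𝒪 P lvl good) (S' : Finset ℕ) (hS' : good S') :
    (heckeTr D S' hS').ρ = (D.H S' hS').ρ := rfl

/-- the Frobenius traces of `ρ_{S'}` are the images of the `T_ℓ` under the CANONICAL map -/
theorem heckeTr_trace_frob (D : HeckeFam 𝒪 P lvl good) (S' : Finset ℕ) (hS' : good S')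
    (ℓ : ℕ) (hℓ : ℓ.Prime) (hℓN : ¬ ℓ ∣ lvl S') (hℓS : ℓ ∉ (↑(S' ∪ P.Aux) : Set ℕ))
    (A : ValuationSubring Qb) (hA : A.LiesOverPrime ℓ) (σ : Qb ≃ₐ[ℚ] Qb)
    (hσ : A.IsFrobeniusAt σ ℓ) :
    (heckeTr D S' hS').ρ.trace σ =
      heckeLocal.π (lvl S') (↑(S' ∪ P.Aux) : Set ℕ) 𝒪 (D.θ S' hS')
        (heckeAlgebra.T hℓ hℓN hℓS) := by
  have h1 := heckeDatum_trace_frob (D.H S' hS') ℓ hℓ hℓN hℓS A hA σ hσ
  rw [D.H_π S' hS'] at h1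
  exact h1

end Family

/-! ### the twisted levels -/

section Twisted

variable (P : Ctx)

/-- the product of the primes of `S' ∖ Smin` -/
def tp (S' : Finset ℕ) : ℕ := ∏ ℓ ∈ (S' \ P.Smin).filter Nat.Prime, ℓ

/-- the twisted level at the ramification set `S'`: `R0 · tp · tp` -/
def lvlTw (S' : Finset ℕ) : ℕ := P.R0 * tp P S' * tp P S'

theorem lvlTw_def (S' : Finset ℕ) : lvlTw P S' = P.R0 * tp P S' * tp P S' := rfl

theorem R0_ne_zero : P.R0 ≠ 0 := P.R0_sq.ne_zero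

theorem tp_ne_zero (S' : Finset ℕ) : tp P S' ≠ 0 :=
  Finset.prod_ne_zero_iff.2 fun ℓ hℓ => (Finset.mem_filter.1 hℓ).2.ne_zero

instance tp_neZero (S' : Finset ℕ) : NeZero (tp P S') := ⟨tp_ne_zero P S'⟩

instance lvlTw_neZero (S' : Finset ℕ) : NeZero (lvlTw P S') :=
  ⟨mul_ne_zero (mul_ne_zero (R0_ne_zero P) (tp_ne_zero P S')) (tp_ne_zero P S')⟩

theorem tp_eq (S' : Finset ℕ) (h : ∀ ℓ ∈ S', ℓ.Prime) : tp P S' = ∏ ℓ ∈ S' \ P.Smin, ℓ := by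
  unfold tp
  rw [Finset.filter_true_of_mem fun ℓ hℓ => h ℓ (Finset.mem_sdiff.1 hℓ).1]

/-- the prime divisors of `tp` -/
theorem prime_dvd_tp {q : ℕ} {S' : Finset ℕ} (hq : q.Prime) (h : q ∣ tp P S') :
    q ∈ S' ∧ q ∉ P.Smin := by
  unfold tp at h
  obtain ⟨ℓ, hℓ, hdvd⟩ := (Prime.dvd_finsetProd_iff hq.prime _).1 h
  rw [Finset.mem_filter, Finset.mem_sdiff] at hℓ
  have h3 : q = ℓ := (Nat.prime_dvd_prime_iff_eq hq hℓ.2).1 hdvd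
  subst h3
  exact hℓ.1

theorem dvd_tp {ℓ : ℕ} {S' : Finset ℕ} (hℓ : ℓ.Prime) (hS : ℓ ∈ S')
    (hne : ℓ ∉ P.Smin) : ℓ ∣ tp P S' :=
  Finset.dvd_prod_of_mem (fun ℓ => ℓ)
    (Finset.mem_filter.2 ⟨Finset.mem_sdiff.2 ⟨hS, hne⟩, hℓ⟩)

/-- the prime divisors of the twisted level -/
theorem prime_dvd_lvlTw {q : ℕ} {S' : Finset ℕ} (hq : q.Prime) (h : q ∣ lvlTw P S') :
    q ∣ P.R0 ∨ (q ∈ S' ∧ q ∉ P.Smin) := by
  rw [lvlTw_def] at h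
  rcases (Nat.Prime.dvd_mul hq).1 h with h2 | h2
  · rcases (Nat.Prime.dvd_mul hq).1 h2 with h3 | h3
    · exact Or.inl h3
    · exact Or.inr (prime_dvd_tp P hq h3)
  · exact Or.inr (prime_dvd_tp P hq h2)

theorem R0_dvd_lvlTw (S' : Finset ℕ) : P.R0 ∣ lvlTw P S' :=
  Dvd.intro _ (mul_assoc P.R0 (tp P S') (tp P S')).symm

/-- a prime not dividing `tp` divides the twisted level at most once -/
theorem not_sq_dvd_lvlTw {q : ℕ} (hq : q.Prime) (S' : Finset ℕ) (h : ¬ q ∣ tp P S') :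
    ¬ q ^ 2 ∣ lvlTw P S' := by
  intro hd
  have hc : Nat.Coprime (q ^ 2) (tp P S') :=
    Nat.Coprime.pow_left 2 ((Nat.Prime.coprime_iff_not_dvd hq).2 h)
  rw [lvlTw_def] at hd
  have h1 : q ^ 2 ∣ P.R0 * tp P S' := hc.dvd_of_dvd_mul_right hd
  have h2 : q ^ 2 ∣ P.R0 := hc.dvd_of_dvd_mul_right h1
  have h3 : q * q ∣ P.R0 := by rwa [← pow_two]
  exact hq.one_lt.ne' (Nat.isUnit_iff.mp (P.R0_sq q h3))

/-- the good ramification sets: finite sets of primes containing `Smin ∪ T`, disjoint from `Aux` -/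
def goodTw (T : Finset ℕ) (S' : Finset ℕ) : Prop :=
  P.Smin ∪ T ⊆ S' ∧ (∀ ℓ ∈ S', ℓ.Prime) ∧ Disjoint S' P.Aux

variable {P}

theorem goodTw_p_mem {T S' : Finset ℕ} (hS' : goodTw P T S') : P.p ∈ S' :=
  hS'.1 (Finset.mem_union_left _ P.hpSmin)

theorem not_dvd_tp_of_mem_Smin {q : ℕ} (hq : q.Prime) (hqS : q ∈ P.Smin) (S' : Finset ℕ) :
    ¬ q ∣ tp P S' := fun h => (prime_dvd_tp P hq h).2 hqS

theorem not_dvd_tp_of_mem_Aux {T S' : Finset ℕ} (hS' : goodTw P T S') {r : ℕ} (hr : r ∈ P.Aux) :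
    ¬ r ∣ tp P S' := fun h =>
  (Finset.disjoint_left.1 hS'.2.2 (prime_dvd_tp P (P.Aux_prime r hr) h).1) hr

theorem goodTw_hpl (S' : Finset ℕ) :
    (P.p ∣ lvlTw P S' ↔ P.p ∣ P.R0) ∧ ¬ P.p ^ 2 ∣ lvlTw P S' := by
  refine ⟨⟨fun h => ?_, fun h => h.trans (R0_dvd_lvlTw P S')⟩,
    not_sq_dvd_lvlTw P P.pp S' (not_dvd_tp_of_mem_Smin P.pp P.hpSmin S')⟩
  rcases prime_dvd_lvlTw P P.pp h with h1 | h1
  · exact h1
  · exact absurd P.hpSmin h1.2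

theorem goodTw_primes_mem {T S' : Finset ℕ} (hS' : goodTw P T S') (q : ℕ) (hq : q.Prime)
    (h : q ∣ lvlTw P S') : q ∈ S' ∪ P.Aux := by
  rcases prime_dvd_lvlTw P hq h with h1 | h1
  · rcases Finset.mem_union.1 (P.R0_primes q hq h1) with h2 | h2
    · exact Finset.mem_union_left _ (hS'.1 (Finset.mem_union_left _ h2))
    · exact Finset.mem_union_right _ h2
  · exact Finset.mem_union_left _ h1.1

theorem goodTw_hSmin (S' : Finset ℕ) (q : ℕ) (hq : q ∈ P.Smin) (hqp : q.Prime) (hne : q ≠ P.p) :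
    (q ∣ lvlTw P S' ∧ ¬ q ^ 2 ∣ lvlTw P S') ∨ q ∉ S' ∪ P.Aux :=
  Or.inl ⟨(P.Smin_dvd q hq hne).trans (R0_dvd_lvlTw P S'),
    not_sq_dvd_lvlTw P hqp S' (not_dvd_tp_of_mem_Smin hqp hq S')⟩

theorem goodTw_haux {T S' : Finset ℕ} (hS' : goodTw P T S') (r : ℕ) (hr : r ∈ P.Aux) :
    r ∣ lvlTw P S' ∧ ¬ r ^ 2 ∣ lvlTw P S' :=
  ⟨(P.Aux_dvd r hr).trans (R0_dvd_lvlTw P S'),
    not_sq_dvd_lvlTw P (P.Aux_prime r hr) S' (not_dvd_tp_of_mem_Aux hS' hr)⟩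

/-- every prime of `S' ∪ Aux` divides `lvlTw P S' · p` -/
theorem goodTw_hSdvd {T S' : Finset ℕ} (hS' : goodTw P T S') (ℓ : ℕ) (hℓ : ℓ ∈ S' ∪ P.Aux) :
    ℓ.Prime ∧ ℓ ∣ lvlTw P S' * P.p := by
  rcases Finset.mem_union.1 hℓ with h | h
  · have hℓp : ℓ.Prime := hS'.2.1 ℓ h
    refine ⟨hℓp, ?_⟩
    by_cases hS : ℓ ∈ P.Smin
    · by_cases hp : ℓ = P.p
      · rw [hp]
        exact Dvd.intro_left _ rfl
      · exact Dvd.dvd.mul_right ((P.Smin_dvd ℓ hS hp).trans (R0_dvd_lvlTw P S')) _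
    · refine Dvd.dvd.mul_right ?_ _
      rw [lvlTw_def]
      exact Dvd.dvd.mul_left (dvd_tp P hℓp h hS) _
  · exact ⟨P.Aux_prime ℓ h, Dvd.dvd.mul_right ((P.Aux_dvd ℓ h).trans (R0_dvd_lvlTw P S')) _⟩

variable (P) in
/-- `tp` is squarefree -/
theorem squarefree_tp (S' : Finset ℕ) : Squarefree (tp P S') := by
  unfold tp
  refine Finset.squarefree_prod_of_pairwise_isCoprime ?_ ?_
  · intro a ha b hb hab
    have ha' : a.Prime := (Finset.mem_filter.1 (Finset.mem_coe.1 ha)).2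
    have hb' : b.Prime := (Finset.mem_filter.1 (Finset.mem_coe.1 hb)).2
    show IsRelPrime a b
    rw [← Nat.coprime_iff_isRelPrime]
    exact (Nat.coprime_primes ha' hb').2 hab
  · intro a ha
    exact (Finset.mem_filter.1 ha).2.prime.squarefree

/-- the twisted levels are cube-free -/
theorem goodTw_hcube {T S' : Finset ℕ} (hS' : goodTw P T S') (q : ℕ) (hq : q.Prime) :
    ¬ q ^ 3 ∣ lvlTw P S' := by
  intro hd
  by_cases h : q ∣ tp P S'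
  · -- `q ∤ R0`
    obtain ⟨hqS, hqSmin⟩ := prime_dvd_tp P hq h
    have hqR0 : ¬ q ∣ P.R0 := by
      intro hR
      rcases Finset.mem_union.1 (P.R0_primes q hq hR) with h1 | h1
      · exact hqSmin h1
      · exact Finset.disjoint_left.1 hS'.2.2 hqS h1
    have hc : Nat.Coprime (q ^ 3) P.R0 :=
      Nat.Coprime.pow_left 3 ((Nat.Prime.coprime_iff_not_dvd hq).2 hqR0)
    rw [lvlTw_def, mul_assoc] at hd
    have h1 : q ^ 3 ∣ tp P S' * tp P S' := hc.dvd_of_dvd_mul_left hd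
    obtain ⟨m, hm⟩ := h
    have hqm : ¬ q ∣ m := by
      intro hqm
      obtain ⟨m', rfl⟩ := hqm
      have : q * q ∣ tp P S' := ⟨m', by rw [hm]; ring⟩
      exact hq.one_lt.ne' (Nat.isUnit_iff.mp (squarefree_tp P S' q this))
    rw [hm] at h1
    have h2 : q ^ 2 * q ∣ q ^ 2 * (m * m) := by
      have e1 : q ^ 3 = q ^ 2 * q := by ring
      have e2 : q * m * (q * m) = q ^ 2 * (m * m) := by ring
      rwa [e1, e2] at h1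
    have h3 : q ∣ m * m := (Nat.mul_dvd_mul_iff_left (pow_pos hq.pos 2)).1 h2
    rcases (Nat.Prime.dvd_mul hq).1 h3 with h4 | h4 <;> exact hqm h4
  · exact not_sq_dvd_lvlTw P hq S' h (dvd_trans (pow_dvd_pow q (by norm_num)) hd)

/-- **the family at the twisted levels** `lvlTw P S'`, `S' ⊇ Smin ∪ T` a finite set of primes. -/
def HeckeFam.ofTw {𝒪 : Type} [CommRing 𝒪] [IsDomain 𝒪] [IsDiscreteValuationRing 𝒪]
    [IsAdicComplete (maximalIdeal 𝒪) 𝒪] (P : Ctx) (T : Finset ℕ)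
    (hp𝒪 : (P.p : 𝒪) ∈ maximalIdeal 𝒪)
    (θ : ∀ S' : Finset ℕ, goodTw P T S' →
      heckeAlgebra (lvlTw P S') 2 (↑(S' ∪ P.Aux) : Set ℕ) →+* ResidueField 𝒪)
    (hθ : ∀ (S' : Finset ℕ) (hS' : goodTw P T S') (ℓ : ℕ) (hℓ : ℓ.Prime)
      (hℓN : ¬ ℓ ∣ lvlTw P S') (hℓS : ℓ ∉ (↑(S' ∪ P.Aux) : Set ℕ)), ℓ ∉ P.S₀ →
        θ S' hS' (heckeAlgebra.T hℓ hℓN hℓS) = ((P.a ℓ : ℤ) : ResidueField 𝒪)) :
    HeckeFam 𝒪 P (lvlTw P) (goodTw P T) where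
  hp𝒪 := hp𝒪
  p_mem S' hS' := goodTw_p_mem hS'
  primes_mem S' hS' := goodTw_primes_mem hS'
  hSmin S' _ q hq hqp hne := goodTw_hSmin S' q hq hqp hne
  hpl S' _ := goodTw_hpl S'
  haux S' hS' := goodTw_haux hS'
  hSdvd S' hS' := goodTw_hSdvd hS'
  hcube S' hS' := goodTw_hcube hS'
  θ := θ
  hθ := hθ

end Twisted

end Fermat.Agent.S59lib.Hub
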