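/-
S59lib / Hub / HeckeFamExists (helper7): **the family of Hecke characters of a hub context exists** (re-issue of
`S43lib/B3/HeckeFamFrey` + `B3/TrivCompFrey`): THETA is the oracle `P.theta`.
-/
import Mathlib
import Fermat.Agent.S59lib.Hub.HeckeTr

set_option autoImplicit false
set_option linter.unusedSectionVars false
set_option linter.unusedVariables false
set_option linter.style.haveILetI false

noncomputable section

namespace Fermat.Agent.S59lib.Hub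

attribute [-instance] Fermat.Agent.S55lib.CFDual.instFiniteTrivialSelf
  Fermat.Agent.S55lib.CFDual.instFreeTrivialSelf

open IsLocalRing Polynomial CuspForm Fermat.Agent.S43lib.B3

local notation "Qb" => AlgebraicClosure ℚ

section Exists

variable {𝒪 : Type} [CommRing 𝒪] [IsDomain 𝒪] [IsDiscreteValuationRing 𝒪]
  [IsAdicComplete (maximalIdeal 𝒪) 𝒪]
variable (P : Ctx) [Algebra (ZMod P.p) (ResidueField 𝒪)]

/-- **The family of Hecke characters exists**: `ρ₀` modular of a level `N` dividing all the `lvl S'`, `S'` good. -/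
theorem nonempty_heckeFam (lvl : Finset ℕ → ℕ) [∀ S', NeZero (lvl S')] (good : Finset ℕ → Prop)
    (hp𝒪 : (P.p : 𝒪) ∈ maximalIdeal 𝒪)
    (p_mem : ∀ S', good S' → P.p ∈ S')
    (primes_mem : ∀ S', good S' → ∀ q : ℕ, q.Prime → q ∣ lvl S' → q ∈ S' ∪ P.Aux)
    (hSmin : ∀ S', good S' → ∀ q ∈ P.Smin, q.Prime → q ≠ P.p →
      (q ∣ lvl S' ∧ ¬ q ^ 2 ∣ lvl S') ∨ q ∉ S' ∪ P.Aux)
    (hpl : ∀ S', good S' → (P.p ∣ lvl S' ↔ P.p ∣ P.R0) ∧ ¬ P.p ^ 2 ∣ lvl S')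
    (haux : ∀ S', good S' → ∀ r ∈ P.Aux, r ∣ lvl S' ∧ ¬ r ^ 2 ∣ lvl S')
    (hSdvd : ∀ S', good S' → ∀ ℓ ∈ S' ∪ P.Aux, ℓ.Prime ∧ ℓ ∣ lvl S' * P.p)
    (hcube : ∀ S', good S' → ∀ q : ℕ, q.Prime → ¬ q ^ 3 ∣ lvl S')
    {N : ℕ} (hmod : P.IsMod N) (hN : ∀ S', good S' → N ∣ lvl S') :
    Nonempty (HeckeFam 𝒪 P lvl good) := by
  have hex : ∀ (S' : Finset ℕ) (hS' : good S'),
      ∃ θ : heckeAlgebra (lvl S') 2 (↑(S' ∪ P.Aux) : Set ℕ) →+* ResidueField 𝒪,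
        ∀ (ℓ : ℕ) (hℓ : ℓ.Prime) (hℓM : ¬ ℓ ∣ lvl S') (hℓS : ℓ ∉ (↑(S' ∪ P.Aux) : Set ℕ)),
          ℓ ∉ P.S₀ →
            θ (heckeAlgebra.T hℓ hℓM hℓS) = ((P.a ℓ : ℤ) : ResidueField 𝒪) := by
    intro S' hS'
    exact P.theta (hN S' hS') (S' ∪ P.Aux) (Finset.mem_union_left _ (p_mem S' hS'))
      (primes_mem S' hS') hmod (ResidueField 𝒪)
  exact ⟨{ hp𝒪 := hp𝒪
           p_mem := p_mem
           primes_mem := primes_mem
           hSmin := hSmin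
           hpl := hpl
           haux := haux
           hSdvd := hSdvd
           hcube := hcube
           θ := fun S' hS' => Classical.choose (hex S' hS')
           hθ := fun S' hS' => Classical.choose_spec (hex S' hS') }⟩

/-- **The family of Hecke characters at the twisted levels exists.** -/
theorem nonempty_heckeFam_tw (T : Finset ℕ) (hp𝒪 : (P.p : 𝒪) ∈ maximalIdeal 𝒪)
    {N : ℕ} (hmod : P.IsMod N)
    (hN : ∀ S', goodTw P T S' → N ∣ lvlTw P S') :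
    Nonempty (HeckeFam 𝒪 P (lvlTw P) (goodTw P T)) :=
  nonempty_heckeFam P (lvlTw P) (goodTw P T) hp𝒪
    (fun _ hS' => goodTw_p_mem hS')
    (fun _ hS' => goodTw_primes_mem hS')
    (fun S' _ q hq hqp hne => goodTw_hSmin S' q hq hqp hne)
    (fun S' _ => goodTw_hpl S')
    (fun _ hS' => goodTw_haux hS') (fun _ hS' => goodTw_hSdvd hS') (fun _ hS' => goodTw_hcube hS')
    hmod hN

end Exists

/-! ### the non-Eisenstein primes -/

/-- in terms of the `a_ℓ`: there are primes `ℓ₀ ∉ S₁ ∪ S₀`, `ℓ₀ ≡ 1 (mod m)`, with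
`a_{ℓ₀} ≢ 1 + ℓ₀ (mod p)` -/
theorem exists_nonEis_ap (P : Ctx) {m : ℕ} (hm : 0 < m) (S₁ : Finset ℕ) :
    ∃ ℓ₀ : ℕ, ℓ₀.Prime ∧ ℓ₀ ∉ S₁ ∧ ℓ₀ ∉ P.S₀ ∧
      m ∣ ℓ₀ - 1 ∧ ((P.a ℓ₀ : ℤ) : ZMod P.p) ≠ 1 + ((ℓ₀ : ℕ) : ZMod P.p) := by
  obtain ⟨ℓ, A, φ, hℓ, hℓS, hdvd, hA, hφ, hev⟩ := P.hne m hm (S₁ ∪ P.S₀)
  rw [Finset.mem_union, not_or] at hℓS
  refine ⟨ℓ, hℓ, hℓS.1, hℓS.2, hdvd, fun heq => hev ?_⟩
  rw [P.h₀ ℓ hℓ hℓS.2 A hA φ hφ]
  simp only [eval_add, eval_sub, eval_mul, eval_pow, eval_X, eval_C, one_pow, mul_one]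
  rw [heq]
  ring

end Fermat.Agent.S59lib.Hub
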