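/-
S59lib / Hub / SideGal (helper7): **GAL-ASM — the Galois fields of `SideBase` for a hub context** (re-issue of
`S43lib/B3/SideGal`).  `T` = the set of Ihara primes (`ρ₀` unramified, `v ≡ 1 mod p`, scalar decomposition
groups), disjoint from `Smin` and `Aux`; `S = Smin ∪ T`; the Taylor–Wiles primes avoid `SA = Smin ∪ T ∪ Aux`.
-/
import Mathlib
import Fermat.Agent.S59lib.Hub.HeckeFamExists
import Fermat.Agent.S43lib.B3.SideGal

set_option autoImplicit false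
set_option linter.unusedSectionVars false
set_option linter.unusedVariables false
set_option linter.style.haveILetI false

noncomputable section

namespace Fermat.Agent.S59lib.Hub

open IsLocalRing Polynomial Fermat.Agent.TeamA Fermat.Agent.TeamA.Rep Fermat.Agent.S55lib
  Fermat.Agent.S56lib.Dict Fermat.Agent.S56lib.PT9a Fermat.Agent.S56lib.TWSel
  Fermat.Agent.S56lib.Main Fermat.Agent.S56lib ExtCitation Fermat.Agent.S43lib.B3

local notation "Qb" => AlgebraicClosure ℚ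

/-- **The Galois-side data** of `SideBase` for the hub context `P` and the set `T`. -/
structure SideGal (P : Ctx) (T : Finset ℕ) : Type 1 where
  /-- the coefficient ring -/
  𝒪 : Type
  [instCommRing𝒪 : CommRing 𝒪]
  [instIsDomain𝒪 : IsDomain 𝒪]
  [instIsDVR𝒪 : IsDiscreteValuationRing 𝒪]
  [instIsAdicComplete𝒪 : IsAdicComplete (maximalIdeal 𝒪) 𝒪]
  [instFiniteResidueField𝒪 : Finite (ResidueField 𝒪)]
  [instCharZero𝒪 : CharZero 𝒪]
  [instAlgebraZMod : Algebra (ZMod P.p) (ResidueField 𝒪)]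
  hp𝒪 : (P.p : 𝒪) ∈ maximalIdeal 𝒪
  /-- a primitive `p`-th root of unity -/
  ζ₀ : 𝒪ˣ
  ζ₀_pow : ((ζ₀ : 𝒪ˣ) : 𝒪) ^ P.p = 1
  ζ₀_sq : ((ζ₀ : 𝒪ˣ) : 𝒪) ^ 2 ≠ 1
  hk : ∀ a : ZMod P.p, ∃ x : ResidueField 𝒪, x ^ 2 = algebraMap (ZMod P.p) (ResidueField 𝒪) a
  bbar : Module.Basis (Fin 2) (ResidueField 𝒪) (P.res (ResidueField 𝒪)).V
  φ₀ : ↥(primesIn T) → 𝒪ˣ
  hφ₀ : ∀ v : ↥(primesIn T),
    resHom (P.res (ResidueField 𝒪)) bbar (globFrobAt (v : Nat.Primes)) =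
      residue 𝒪 (φ₀ v : 𝒪) • (1 : Matrix (Fin 2) (Fin 2) (ResidueField 𝒪))
  hφ₀sq : ∀ v : ↥(primesIn T),
    (((v : Nat.Primes) : ℕ) : 𝒪) - ((φ₀ v : 𝒪ˣ) : 𝒪) ^ 2 ∈ maximalIdeal 𝒪
  /-- the family of Hecke characters -/
  D : HeckeFam 𝒪 P (lvlTw P) (goodTw P T)

attribute [instance] SideGal.instCommRing𝒪 SideGal.instIsDomain𝒪 SideGal.instIsDVR𝒪
  SideGal.instIsAdicComplete𝒪 SideGal.instFiniteResidueField𝒪 SideGal.instCharZero𝒪
  SideGal.instAlgebraZMod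

/-- the hypotheses on the set `T` of Ihara primes -/
structure THyp (P : Ctx) (T : Finset ℕ) : Prop where
  prime : ∀ v ∈ T, v.Prime
  disjSmin : Disjoint P.Smin T
  disjAux : Disjoint T P.Aux
  one : ∀ v ∈ T, v ≡ 1 [MOD P.p]
  scal : ∀ v ∈ T, DecompScalarAt P v

namespace SideGal

variable {P : Ctx} {Ts : Finset ℕ} (Sg : SideGal P Ts)

/-- the residual representation -/
abbrev ρbar : ResidualGaloisRep (ResidueField Sg.𝒪) := P.res (ResidueField Sg.𝒪)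

/-- the set `T` of Ihara primes -/
abbrev T (_Sg : SideGal P Ts) : Finset ℕ := Ts

/-- `Smin` -/
abbrev Smin (_Sg : SideGal P Ts) : Finset ℕ := P.Smin

/-- `S = Smin ∪ T` -/
abbrev S (_Sg : SideGal P Ts) : Finset ℕ := P.Smin ∪ Ts

/-- the set avoided by the Taylor–Wiles primes: `SA = Smin ∪ T ∪ Aux` -/
abbrev SA (_Sg : SideGal P Ts) : Finset ℕ := P.Smin ∪ Ts ∪ P.Aux

/-- the good ramification sets -/
abbrev good (_Sg : SideGal P Ts) : Finset ℕ → Prop := goodTw P Ts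

/-- **the family of trace rings** -/
abbrev F : ∀ S' : Finset ℕ, Sg.good S' →
    TrRingG Sg.𝒪 Sg.ρbar P.p (P.𝒟 Sg.𝒪 S') :=
  heckeTr Sg.D

theorem hp2 (_Sg : SideGal P Ts) : P.p ≠ 2 := P.hp2

theorem habs : Sg.ρbar.IsAbsolutelyIrreducible := res_habs P (ResidueField Sg.𝒪)

theorem hTW :
    ∀ (K : Type) [Field K] [Algebra (ResidueField Sg.𝒪) K] (G : Subgroup (Qb ≃ₐ[ℚ] Qb)),
      G.index = 2 → ∀ V : Submodule K (Sg.ρbar.baseChange K).V,
        (∀ σ ∈ G, ∀ x ∈ V, (Sg.ρbar.baseChange K).ρ σ x ∈ V) → V = ⊥ ∨ V = ⊤ :=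
  res_hTW P (ResidueField Sg.𝒪)

theorem hdet : (GaloisRepAdic.ofResidualGaloisRep Sg.ρbar).DetIsCyclotomic P.p :=
  res_hdet P (ResidueField Sg.𝒪)

theorem hsplit (σ : Qb ≃ₐ[ℚ] Qb) :
    ∃ α β : ResidueField Sg.𝒪, LinearMap.charpoly (Sg.ρbar.ρ σ) = (X - C α) * (X - C β) :=
  res_hsplit P (ResidueField Sg.𝒪) Sg.hk σ

theorem hpSmin : P.p ∈ Sg.Smin := P.hpSmin

theorem hSmin : Sg.Smin ⊆ Sg.SA :=
  Finset.subset_union_left.trans Finset.subset_union_left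

theorem hTS : Sg.T ⊆ Sg.SA :=
  Finset.subset_union_right.trans Finset.subset_union_left

theorem hTdisj (hT : THyp P Ts) : Disjoint Sg.Smin Sg.T := hT.disjSmin

theorem hmin (r : ℕ) (hr : r.Prime) (hrp : r ≠ P.p) :
    r ∈ Sg.Smin ↔ ¬ Sg.ρbar.IsUnramifiedAt r :=
  res_hmin P (ResidueField Sg.𝒪) r hr hrp

theorem hscal (hT : THyp P Ts)
    (v : Nat.Primes) (hv : (v : ℕ) ∈ Sg.T) (g : Gloc v) :
    ∃ a : ResidueField Sg.𝒪, resHom Sg.ρbar Sg.bbar (rloc v g) =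
      a • (1 : Matrix (Fin 2) (Fin 2) (ResidueField Sg.𝒪)) :=
  res_hscal P Sg.bbar v (hT.scal _ hv) g

theorem hT1 (hT : THyp P Ts)
    (v : ↥(primesIn Sg.T)) : ((v : Nat.Primes) : ℕ) ≡ 1 [MOD P.p] :=
  hT.one _ (mem_primesIn.1 v.2)

/-- the prime `q` as an element of `T` -/
def q₀ (_Sg : SideGal P Ts) {q : ℕ} (hq : q.Prime) (hqT : q ∈ Ts) :
    ↥(primesIn Ts) :=
  ⟨⟨q, hq⟩, mem_primesIn.2 hqT⟩

theorem hgoodS (hT : THyp P Ts) : Sg.good (Sg.Smin ∪ Sg.T) := by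
  refine ⟨le_refl _, fun ℓ hℓ => ?_, ?_⟩
  · rcases Finset.mem_union.1 hℓ with h | h
    · exact P.Smin_prime ℓ h
    · exact hT.prime ℓ h
  · exact Finset.disjoint_union_left.2 ⟨P.Aux_disj, hT.disjAux⟩

theorem hgoodQ (hT : THyp P Ts) (r : ℕ) (qv : Fin r → ℕ) (hqv : ∀ i, (qv i).Prime ∧ qv i ∉ Sg.SA) :
    Sg.good (Sg.Smin ∪ Sg.T ∪ Finset.univ.image qv) := by
  refine ⟨Finset.subset_union_left, fun ℓ hℓ => ?_, ?_⟩
  · rcases Finset.mem_union.1 hℓ with h | h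
    · exact (Sg.hgoodS hT).2.1 ℓ h
    · obtain ⟨i, -, rfl⟩ := Finset.mem_image.1 h
      exact (hqv i).1
  · refine Finset.disjoint_union_left.2 ⟨(Sg.hgoodS hT).2.2, ?_⟩
    rw [Finset.disjoint_left]
    intro ℓ hℓ hA
    obtain ⟨i, -, rfl⟩ := Finset.mem_image.1 hℓ
    exact (hqv i).2 (Finset.mem_union_right _ hA)

end SideGal

/-! ### existence -/

/-- the base level `M₀ = R0 ∏_{v ∈ T} v` -/
def M₀ (P : Ctx) (T : Finset ℕ) : ℕ := P.R0 * ∏ v ∈ T.filter Nat.Prime, v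

theorem M₀_ne_zero (P : Ctx) (T : Finset ℕ) : M₀ P T ≠ 0 :=
  mul_ne_zero (R0_ne_zero P)
    (Finset.prod_ne_zero_iff.2 fun v hv => (Finset.mem_filter.1 hv).2.ne_zero)

instance M₀_neZero (P : Ctx) (T : Finset ℕ) : NeZero (M₀ P T) := ⟨M₀_ne_zero P T⟩

theorem M₀_def {P : Ctx} {T : Finset ℕ} (hT : THyp P T) : M₀ P T = P.R0 * ∏ v ∈ T, v := by
  unfold M₀
  rw [Finset.filter_true_of_mem hT.prime]

/-- the base level divides the twisted levels -/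
theorem M₀_dvd_lvlTw {P : Ctx} {T : Finset ℕ} (hT : THyp P T) (S' : Finset ℕ)
    (hS' : goodTw P T S') : M₀ P T ∣ lvlTw P S' := by
  rw [M₀_def hT, lvlTw_def, mul_assoc]
  refine Nat.mul_dvd_mul_left _ (Dvd.dvd.mul_right ?_ _)
  refine Finset.prod_primes_dvd _ (fun ℓ hℓ => (hT.prime ℓ hℓ).prime) ?_
  intro ℓ hℓ
  exact dvd_tp P (hT.prime ℓ hℓ) (hS'.1 (Finset.mem_union_right _ hℓ))
    (fun h => Finset.disjoint_left.1 hT.disjSmin h hℓ)

/-- **GAL-ASM: the Galois-side data exist.** -/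
theorem nonempty_sideGal (P : Ctx) (T : Finset ℕ) (hT : THyp P T) {N : ℕ} (hN : N ∣ M₀ P T)
    (hmod : P.IsMod N) : Nonempty (SideGal P T) := by
  have hp2 : P.p ≠ 2 := P.hp2
  obtain ⟨𝒪, i1, i2, i3, i4, i5, i6, i7, hpO, ⟨ζ, hζp, hζ1⟩, hsq⟩ :=
    Fermat.Agent.S43lib.Loc.exists_coeff_ring_zmod P.p hp2
  letI : Algebra (ZMod P.p) (ResidueField 𝒪) := ZMod.algebra _ P.p
  -- `ζ² ≠ 1`
  have hζ2 : ((ζ : 𝒪ˣ) : 𝒪) ^ 2 ≠ 1 := by
    intro h
    apply hζ1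
    have h2 : ζ ^ 2 = 1 := Units.ext (by rw [Units.val_pow_eq_pow_val, h, Units.val_one])
    have h3 := pow_gcd_eq_one.2 ⟨hζp, h2⟩
    have hcop : Nat.gcd P.p 2 = 1 := (Nat.coprime_primes P.pp Nat.prime_two).2 hp2
    rwa [hcop, pow_one] at h3
  -- a basis and the scalars
  let bbar : Module.Basis (Fin 2) (ResidueField 𝒪) (P.res (ResidueField 𝒪)).V :=
    Module.finBasisOfFinrankEq _ _ (P.res (ResidueField 𝒪)).finrank_eq
  have hscal : ∀ v : Nat.Primes, (v : ℕ) ∈ T → ∀ g : Gloc v, ∃ a : ResidueField 𝒪,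
      resHom (P.res (ResidueField 𝒪)) bbar (rloc v g) =
        a • (1 : Matrix (Fin 2) (Fin 2) (ResidueField 𝒪)) := by
    intro v hv g
    exact res_hscal P bbar v (hT.scal _ hv) g
  obtain ⟨φ₀', hφ₀'⟩ := exists_phi0 (P.res (ResidueField 𝒪)) bbar T hscal
  have hp0 : ((P.p : ℕ) : ResidueField 𝒪) = 0 := by
    rw [← map_natCast (residue 𝒪)]
    exact (residue_eq_zero_iff _).mpr hpO
  have hsqv : ∀ v : ↥(primesIn T),
      residue 𝒪 (φ₀' v) ^ 2 = ((((v : Nat.Primes) : ℕ)) : ResidueField 𝒪) := by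
    intro v
    have hvT : ((v : Nat.Primes) : ℕ) ∈ T := mem_primesIn.1 v.2
    have hpv : P.p ≠ ((v : Nat.Primes) : ℕ) := fun h =>
      Finset.disjoint_left.1 hT.disjSmin P.hpSmin (h ▸ hvT)
    exact sq_eq_natCast_of_frob_scalar P.p _ (res_hdet P (ResidueField 𝒪)) bbar
      (v : Nat.Primes) hpv _ (hφ₀' v)
  have hv1 : ∀ v : ↥(primesIn T),
      ((((v : Nat.Primes) : ℕ)) : ResidueField 𝒪) = 1 := by
    intro v
    have hmodv : ((v : Nat.Primes) : ℕ) ≡ 1 [MOD P.p] := hT.one _ (mem_primesIn.1 v.2)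
    haveI : CharP (ResidueField 𝒪) P.p := i7
    have := (CharP.natCast_eq_natCast (ResidueField 𝒪) P.p).2 hmodv
    rwa [Nat.cast_one] at this
  have hunit : ∀ v : ↥(primesIn T), IsUnit (φ₀' v) := by
    intro v
    by_contra hnu
    have h0 : residue 𝒪 (φ₀' v) = 0 := (residue_eq_zero_iff _).mpr hnu
    have := hsqv v
    rw [h0, hv1 v] at this
    simp at this
  refine ⟨{ 𝒪 := 𝒪
            hp𝒪 := hpO
            ζ₀ := ζ
            ζ₀_pow := by rw [← Units.val_pow_eq_pow_val, hζp, Units.val_one]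
            ζ₀_sq := hζ2
            hk := hsq
            bbar := bbar
            φ₀ := fun v => (hunit v).unit
            hφ₀ := fun v => by rw [IsUnit.unit_spec]; exact hφ₀' v
            hφ₀sq := fun v => by
              rw [IsUnit.unit_spec, ← residue_eq_zero_iff, map_sub, map_pow, hsqv v, map_natCast,
                sub_self]
            D := Classical.choice (nonempty_heckeFam_tw P T hpO hmod
              (fun S' hS' => hN.trans (M₀_dvd_lvlTw hT S' hS'))) }⟩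

end Fermat.Agent.S59lib.Hub
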