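/-
S59lib / Hub / HubDefs (helper7): the CONCRETE data of the Hecke side for a hub context `P` and a set `T` of
Ihara primes (re-issue of `S43lib/Mod4/HubDefs`): the base level `M₀ = R0 ∏_{v ∈ T} v`, the diamond group
`G₀ = ∏_{v ∈ T} ℤ/p`, the character `χ₀`, the point `t ℓ = tr ρ̄(Frob_ℓ)`, and at a Taylor–Wiles set `qv` of depth
`n`: `Q`, `Δ = ∏_i ℤ/p^{n+1}`, `κ`, `α`.  The `P`-free definitions (`kap`, `tFrob`, `alphaQ`, `QL`, `aQ`) are those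
of `S43lib.Mod4.Hub`.
-/
import Mathlib
import Fermat.Agent.S59lib.Hub.SideGal
import Fermat.Agent.S43lib.Mod4.HubDefs

set_option autoImplicit false
set_option linter.unusedSectionVars false
set_option linter.style.haveILetI false

noncomputable section

namespace Fermat.Agent.S59lib.Hub

open IsLocalRing Polynomial Fermat.Agent.S43lib.B3 Fermat.Agent.S43lib.Loc
  Fermat.Agent.S56lib.Main Fermat.Agent.S43lib.Mod4.HO Fermat.Agent.S43lib.Mod4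
  Fermat.Agent.S43lib.Mod4.Hub

/-- `G_ℚ` -/
local notation "GQ" => (AlgebraicClosure ℚ ≃ₐ[ℚ] AlgebraicClosure ℚ)

/-! ### the base level -/

/-- the index set of the primes of `T` -/
abbrev TT (T : Finset ℕ) : Type := ↥(primesIn T)

theorem TT_prime {T : Finset ℕ} (v : TT T) : ((v : Nat.Primes) : ℕ).Prime := (v : Nat.Primes).2

theorem TT_mem {T : Finset ℕ} (v : TT T) : ((v : Nat.Primes) : ℕ) ∈ T := mem_primesIn.1 v.2

theorem TT_dvd_M₀ (P : Ctx) {T : Finset ℕ} (v : TT T) : ((v : Nat.Primes) : ℕ) ∣ M₀ P T :=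
  Dvd.dvd.mul_left (Finset.dvd_prod_of_mem (fun v => v)
    (Finset.mem_filter.2 ⟨TT_mem v, TT_prime v⟩)) P.R0

/-- the number of primes of `T` -/
def mT (T : Finset ℕ) : ℕ := Fintype.card (TT T)

/-- an enumeration of `T` -/
def eT (T : Finset ℕ) : TT T ≃ Fin (mT T) := Fintype.equivFin (TT T)

/-- the exponents of `G₀` -/
abbrev aT (T : Finset ℕ) : Fin (mT T) → ℕ := fun _ => 1

variable (P : Ctx) (T : Finset ℕ)

/-- **the diamond group of the base level** `G₀ = ∏_{v ∈ T} ℤ/p` -/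
abbrev G₀ : Type := DeltaGrp P.p (aT T)

/-- **the character of the base level** -/
def χ₀ : (ZMod (M₀ P T))ˣ →* G₀ P T :=
  MonoidHom.pi fun i : Fin (mT T) =>
    (kap P.p 1 (((eT T).symm i : Nat.Primes) : ℕ)).comp (ZMod.unitsMap (TT_dvd_M₀ P ((eT T).symm i)))

theorem χ₀_apply (u : (ZMod (M₀ P T))ˣ) (i : Fin (mT T)) :
    χ₀ P T u i = kap P.p 1 (((eT T).symm i : Nat.Primes) : ℕ)
      (ZMod.unitsMap (TT_dvd_M₀ P ((eT T).symm i)) u) := rfl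

/-- the group ring `Λ = 𝒪[G₀]` -/
abbrev Lam (𝒪 : Type) [CommRing 𝒪] : Type := MonoidAlgebra 𝒪 (G₀ P T)

/-- the units `g_v ∈ Λˣ` -/
def gT (𝒪 : Type) [CommRing 𝒪] (v : TT T) : (Lam P T 𝒪)ˣ := deltaUnit P.p (aT T) 𝒪 (eT T v)

/-! ### a Taylor–Wiles set -/

variable {r : ℕ} (n : ℕ) (qv : Fin r → ℕ)

/-- **the diamond group** `Δ_Q = ∏_i ℤ/p^{n+1}` -/
abbrev DelQ (r n : ℕ) : Type := DeltaGrp P.p (aQ r n)

/-- **the character** `κ : (ℤ/∏Q)ˣ → Δ_Q` -/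
def kapQ : (ZMod (QL qv).prod)ˣ →* DelQ P r n :=
  MonoidHom.pi fun i : Fin r =>
    (kap P.p (n + 1) (qv i)).comp (ZMod.unitsMap (dvd_QL_prod qv i))

theorem kapQ_apply (u : (ZMod (QL qv).prod)ˣ) (i : Fin r) :
    kapQ P n qv u i = kap P.p (n + 1) (qv i) (ZMod.unitsMap (dvd_QL_prod qv i) u) := rfl

/-! ### arithmetic of the levels -/

section Arith

variable {P T} {r : ℕ} {n : ℕ} {qv : Fin r → ℕ}

/-- the set `S' = Smin ∪ T ∪ Q` -/
abbrev SQ (P : Ctx) (T : Finset ℕ) (qv : Fin r → ℕ) : Finset ℕ :=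
  P.Smin ∪ T ∪ Finset.univ.image qv

theorem tp_SQ (hT : THyp P T) (hinj : Function.Injective qv)
    (hqv : ∀ i, (qv i).Prime ∧ qv i ∉ (P.Smin ∪ T : Finset ℕ)) :
    tp P (SQ P T qv) = (∏ v ∈ T, v) * (QL qv).prod := by
  classical
  have hqS : ∀ i, qv i ∉ P.Smin ∧ qv i ∉ T := fun i =>
    ⟨fun h => (hqv i).2 (Finset.mem_union_left _ h), fun h => (hqv i).2 (Finset.mem_union_right _ h)⟩
  have hset : ((SQ P T qv) \ P.Smin).filter Nat.Prime = T ∪ Finset.univ.image qv := by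
    ext ℓ
    simp only [Finset.mem_filter, Finset.mem_sdiff, Finset.mem_union, Finset.mem_image,
      Finset.mem_univ, true_and]
    constructor
    · rintro ⟨⟨(h | h) | h, h2⟩, -⟩
      · exact absurd h h2
      · exact Or.inl h
      · exact Or.inr h
    · rintro (h | ⟨i, rfl⟩)
      · exact ⟨⟨Or.inl (Or.inr h), fun h' => Finset.disjoint_left.1 hT.disjSmin h' h⟩,
          hT.prime ℓ h⟩
      · exact ⟨⟨Or.inr ⟨i, rfl⟩, (hqS i).1⟩, (hqv i).1⟩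
  have hdisj : Disjoint T (Finset.univ.image qv) := by
    rw [Finset.disjoint_right]
    intro ℓ hℓ
    obtain ⟨i, -, rfl⟩ := Finset.mem_image.1 hℓ
    exact (hqS i).2
  unfold tp
  rw [hset, Finset.prod_union hdisj, Finset.prod_image (fun i _ j _ h => hinj h), QL_prod]

/-- **the level equation** `M₀ · ∏Q = R0 · tp(S')` -/
theorem M₀_mul_prod (hT : THyp P T) (hinj : Function.Injective qv)
    (hqv : ∀ i, (qv i).Prime ∧ qv i ∉ (P.Smin ∪ T : Finset ℕ)) :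
    M₀ P T * (QL qv).prod = P.R0 * tp P (SQ P T qv) := by
  rw [tp_SQ hT hinj hqv, M₀_def hT, mul_assoc]

/-- the base level: `M₀ = R0 · tp(S)` -/
theorem M₀_eq (hT : THyp P T) : M₀ P T = P.R0 * tp P (P.Smin ∪ T) := by
  have h := M₀_mul_prod (P := P) (T := T) (qv := (Fin.elim0 : Fin 0 → ℕ)) hT
    (fun i => i.elim0) (fun i => i.elim0)
  have h1 : (QL (Fin.elim0 : Fin 0 → ℕ)).prod = 1 := by
    rw [QL_prod]
    rfl
  rw [h1, mul_one] at h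
  rw [h]
  congr 2
  ext ℓ
  simp

theorem prime_dvd_M₀ (hT : THyp P T) {ℓ : ℕ} (hℓ : ℓ.Prime) (h : ℓ ∣ M₀ P T) :
    ℓ ∣ P.R0 ∨ ℓ ∈ T := by
  rw [M₀_def hT] at h
  rcases (Nat.Prime.dvd_mul hℓ).1 h with h | h
  · exact Or.inl h
  · obtain ⟨v, hv, hdvd⟩ := (Prime.dvd_finsetProd_iff hℓ.prime _).1 h
    have : ℓ = v := (Nat.prime_dvd_prime_iff_eq hℓ (hT.prime v hv)).1 hdvd
    exact Or.inr (this ▸ hv)

/-- the primes of `M₀` lie in `SA = Smin ∪ T ∪ Aux` -/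
theorem mem_SA_of_prime_dvd_M₀ (hT : THyp P T) {ℓ : ℕ} (hℓ : ℓ.Prime) (h : ℓ ∣ M₀ P T) :
    ℓ ∈ P.Smin ∪ T ∪ P.Aux := by
  rcases prime_dvd_M₀ hT hℓ h with h1 | h1
  · rcases Finset.mem_union.1 (P.R0_primes ℓ hℓ h1) with h2 | h2
    · exact Finset.mem_union_left _ (Finset.mem_union_left _ h2)
    · exact Finset.mem_union_right _ h2
  · exact Finset.mem_union_left _ (Finset.mem_union_right _ h1)

theorem M₀_coprime_QL (hT : THyp P T)
    (hqv : ∀ i, (qv i).Prime ∧ qv i ∉ (P.Smin ∪ T ∪ P.Aux : Finset ℕ)) :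
    (M₀ P T).Coprime (QL qv).prod := by
  rw [QL_prod]
  refine Nat.Coprime.prod_right fun i _ => ?_
  rw [Nat.coprime_comm, Nat.Prime.coprime_iff_not_dvd (hqv i).1]
  intro h
  exact (hqv i).2 (mem_SA_of_prime_dvd_M₀ hT (hqv i).1 h)

theorem M₀_mul_QL_ne_zero (hqv : ∀ i, (qv i).Prime) :
    M₀ P T * (QL qv).prod ≠ 0 := by
  rw [QL_prod]
  exact mul_ne_zero (M₀_ne_zero P T)
    (Finset.prod_ne_zero_iff.2 fun i _ => (hqv i).ne_zero)

end Arith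

/-! ### the concrete Hecke objects -/

section Objects

variable {P T} (Sg : SideGal P T)

/-- the point `t ℓ = tr ρ̄(Frob_ℓ)` -/
abbrev tS : ℕ → ResidueField Sg.𝒪 := tFrob Sg.ρbar

/-- the values `α_q` -/
abbrev aS : ℕ → ResidueField Sg.𝒪 := alphaQ Sg.ρbar

/-- **the Hecke datum at the base level** -/
abbrev H0 : AbsHecke Sg.𝒪 (G₀ P T) (Idx P.p (M₀ P T)) := abs0 P.p (χ₀ P T) (tS Sg)

/-- **the Hecke module `M_∅`** -/
abbrev M0 : Type := Mod0 (𝒪 := Sg.𝒪) P.p (χ₀ P T) (tS Sg)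

/-- **the Hecke algebra `𝕋_∅`** -/
abbrev T0 : Type := HO.T0 (𝒪 := Sg.𝒪) P.p (χ₀ P T) (tS Sg)

variable {r : ℕ} (n : ℕ) (qv : Fin r → ℕ) [NeZero (M₀ P T * (QL qv).prod)]
  (hcop : (M₀ P T).Coprime (QL qv).prod)

/-- **the Hecke datum at the level `Q`** -/
abbrev HQ : AbsHecke Sg.𝒪 (G₀ P T × DelQ P r n) (Idx P.p (M₀ P T)) :=
  absQ P.p (χ₀ P T) (QL qv) hcop (kapQ P n qv) (tS Sg) (aS Sg)

/-- **the Hecke module `M_Q`** -/
abbrev MQ : Type := ModQ P.p (χ₀ P T) (QL qv) hcop (kapQ P n qv) (tS Sg) (aS Sg)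

/-- **the Hecke algebra `𝕋_Q`** -/
abbrev TQ : Type := HO.BQ P.p (χ₀ P T) (QL qv) hcop (kapQ P n qv) (tS Sg) (aS Sg)

/-- **the standing hypotheses of the Hecke side**: the values of the Hecke characters `θ_{S'}` are the
Frobenius traces of `ρ̄`, non-Eisenstein primes exist in every arithmetic progression `1 mod m`, and the base
Hecke module does not vanish. -/
structure HubHyp : Prop where
  hT : THyp P T
  hθ : ∀ (S' : Finset ℕ) (hS' : Sg.good S') (ℓ : ℕ) (hℓ : ℓ.Prime) (hℓN : ¬ ℓ ∣ lvlTw P S')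
    (hℓS : ℓ ∉ (↑(S' ∪ P.Aux) : Set ℕ)),
    Sg.D.θ S' hS' (CuspForm.heckeAlgebra.T hℓ hℓN hℓS) = tS Sg ℓ
  ha : ∀ ℓ : ℕ, ℓ.Prime → ℓ ∉ P.S₀ → tS Sg ℓ = ((P.a ℓ : ℤ) : ResidueField Sg.𝒪)
  hne : ∀ m : ℕ, 0 < m → ∀ S₀ : Finset ℕ, ∃ ℓ₀ : ℕ, ℓ₀.Prime ∧ ℓ₀ ∉ S₀ ∧ m ∣ ℓ₀ - 1 ∧
    tS Sg ℓ₀ ≠ ((ℓ₀ + 1 : ℕ) : ResidueField Sg.𝒪)
  nontriv : Nontrivial (M0 Sg)

end Objects

end Fermat.Agent.S59lib.Hub
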