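/-
S43lib / Mod4x / NonVan  (helper1, hub brick (2) NONVAN-INST for helper7).

**`M_∅ ≠ 0`**: the base Hecke module `M0 Sg` (the localisation of `H¹(Γ₀(M₀), Reg G₀ 𝒪)` at the point
`T_ℓ ↦ tr ρ̄(Frob_ℓ)`, diamonds `↦ 1`) does not vanish.  This is helper5's
`B2/Bridge/NonVan.lean : nontrivial_F_reg` at the level `M₀ P Ts = 2 ∏_{v ∈ T} v` with `S = {p, 2} ∪ T`:
* `θ₀ : 𝕋(M₀)^S → k` from helper8's THETA (`N ∣ M₀ P Ts`, `N` squarefree);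
* a Galois datum for `θ₀` from `B2.exists_heckeGaloisRepDatum`, so that `theta_eq_tFrob` gives
  `θ₀(T_ℓ) = tr ρ̄(Frob_ℓ)` at ALL indices;
* non-Eisenstein from `hubHyp_hne`.
-/
import Mathlib
import Fermat.Agent.S59lib.Hub.HubHyp
import Fermat.Agent.S43lib.Mod4x.NonVan
import Fermat.Agent.S43lib.Mod4x.HubHyp
import Fermat.Agent.S43lib.B2.Bridge.NonVan
import Fermat.Agent.S43lib.B3.HeckeFamFrey

set_option autoImplicit false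
set_option linter.unusedSectionVars false
set_option linter.unusedVariables false
set_option linter.style.haveILetI false

noncomputable section

namespace Fermat.Agent.S59lib.Hub

open Fermat.Agent.S43lib Fermat.Agent.S43lib.Mod4.Hub Fermat.Agent.S43lib.Mod4 Fermat.Agent.S43lib.B3

open IsLocalRing Polynomial CuspForm Fermat.Agent.S43lib.B3 Fermat.Agent.S43lib.Loc
  Fermat.Agent.S56lib.Main Fermat.Agent.S43lib.Mod4.HO Fermat.Agent.S56lib.TWSel ExtCitation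
  Fermat.Agent.S43lib.BigImg WeierstrassCurve WeierstrassCurve.Affine
  WeierstrassCurve.Affine.Point

local notation "GQ" => (AlgebraicClosure ℚ ≃ₐ[ℚ] AlgebraicClosure ℚ)
local notation "Qb" => AlgebraicClosure ℚ

variable {P : Ctx} {Ts : Finset ℕ} (Sg : SideGal P Ts)

/-- the primes of `M₀ P Ts` lie in `SA = Smin ∪ T ∪ Aux` -/
theorem mem_S_of_prime_dvd_M₀ (hT : THyp P Ts) {q : ℕ} (hq : q.Prime) (hd : q ∣ M₀ P Ts) :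
    q ∈ Sg.SA := mem_SA_of_prime_dvd_M₀ hT hq hd

/-- a prime `ℓ ∤ M₀ P Ts`, `ℓ ≠ p` is not in `SA` -/
theorem not_mem_S_of_not_dvd {ℓ : ℕ} (hℓ : ℓ.Prime) (hℓM : ¬ ℓ ∣ M₀ P Ts) (hℓp : ℓ ≠ P.p) :
    ℓ ∉ (↑Sg.SA : Set ℕ) := by
  intro h
  have h' : ℓ ∈ Sg.SA := Finset.mem_coe.1 h
  have hR0 : P.R0 ∣ M₀ P Ts := Dvd.intro _ rfl
  rcases Finset.mem_union.1 h' with h1 | h1
  · rcases Finset.mem_union.1 h1 with h2 | h2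
    · exact hℓM ((P.Smin_dvd ℓ h2 hℓp).trans hR0)
    · exact hℓM (Dvd.dvd.mul_left (Finset.dvd_prod_of_mem (fun v => v)
        (Finset.mem_filter.2 ⟨h2, hℓ⟩)) P.R0)
  · exact hℓM ((P.Aux_dvd ℓ h1).trans hR0)

/-! ## brick NONVAN-INST -/
theorem nontrivial_M0 (hT : THyp P Ts) {N : ℕ} (hNM : N ∣ M₀ P Ts) (hmod : P.IsMod N) :
    Nontrivial (M0 Sg) := by
  classical
  have hp2 : P.p ≠ 2 := P.hp2
  have hp𝒪 : (P.p : Sg.𝒪) ∈ maximalIdeal Sg.𝒪 := Sg.hp𝒪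
  have hpS : P.p ∈ Sg.SA := Sg.hSmin Sg.hpSmin
  have hMS : ∀ q : ℕ, q.Prime → q ∣ M₀ P Ts → q ∈ Sg.SA := fun q hq hd =>
    mem_S_of_prime_dvd_M₀ Sg hT hq hd
  -- the character `θ₀`
  obtain ⟨θ, hθ⟩ := P.theta hNM Sg.SA hpS hMS hmod (ResidueField Sg.𝒪)
  obtain ⟨H⟩ := Fermat.Agent.S43lib.B2.exists_heckeGaloisRepDatum hp2 hp𝒪 hpS hMS θ P.ρ₀
    P.hirr P.a P.S₀ P.h₀ hθ
  have hθt : ∀ (ℓ : ℕ) (hℓ : ℓ.Prime) (hℓN : ¬ ℓ ∣ M₀ P Ts) (hℓS : ℓ ∉ (↑Sg.SA : Set ℕ)),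
      θ (heckeAlgebra.T hℓ hℓN hℓS) = tS Sg ℓ := fun ℓ hℓ hℓN hℓS =>
    theta_eq_tFrob H P.ρ₀ P.a P.S₀ P.h₀ hθ ℓ hℓ hℓN hℓS
  -- the evaluation hypothesis of `nontrivial_F_reg`
  have hev : ∀ i : Idx P.p (M₀ P Ts),
      (∃ ℓ : Fermat.Agent.S43lib.B2.Bridge.GoodPrime (M₀ P Ts) (↑Sg.SA : Set ℕ),
        idx₀ P.p (M₀ P Ts) i = Fermat.Agent.S43lib.B2.Bridge.goodIdx₀ ℓ ∧
        evOf P.p (M₀ P Ts) (𝒪 := Sg.𝒪) (tS Sg) (MvPolynomial.X i) =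
          θ (CuspForm.heckeAlgebra.T ℓ.2.1 ℓ.2.2.1 ℓ.2.2.2)) ∨
      (∃ u : (ZMod (M₀ P Ts))ˣ, idx₀ P.p (M₀ P Ts) i = Sum.inr u ∧
        evOf P.p (M₀ P Ts) (𝒪 := Sg.𝒪) (tS Sg) (MvPolynomial.X i) = 1) := by
    rintro (ℓ | n)
    · left
      refine ⟨⟨ℓ.1, ℓ.2.1, ℓ.2.2.1, not_mem_S_of_not_dvd Sg ℓ.2.1 ℓ.2.2.1 ℓ.2.2.2⟩, rfl, ?_⟩
      rw [evOf_X_inl, hθt]
    · right
      exact ⟨_, rfl, evOf_X_inr P.p (M₀ P Ts) (tS Sg) n⟩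
  -- non-Eisenstein
  obtain ⟨ℓ₀, hℓ₀, hℓ₀S, -, hne⟩ := hubHyp_hne Sg 1 one_pos Sg.SA
  have hℓ₀M : ¬ ℓ₀ ∣ M₀ P Ts := fun hd => hℓ₀S (mem_S_of_prime_dvd_M₀ Sg hT hℓ₀ hd)
  have hℓ₀p : ℓ₀ ≠ P.p := fun h => hℓ₀S (h ▸ hpS)
  have hne' : (Fermat.Agent.S43lib.B1.lvlSys (χ₀ P Ts) (idx₀ P.p (M₀ P Ts))
      (Fermat.Agent.S43lib.B1.commStmt (M₀ P Ts))).NonEis
      (RingHom.ker (evOf P.p (M₀ P Ts) (𝒪 := Sg.𝒪) (tS Sg))) := by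
    refine ⟨Sum.inl ⟨ℓ₀, hℓ₀, hℓ₀M, hℓ₀p⟩, ?_⟩
    rw [RingHom.mem_ker, map_sub, evOf_X_inl, evOf_C, map_natCast]
    have hcard : Fintype.card (Fermat.Agent.S43lib.B1.lvlIota (M₀ P Ts)
        (Sum.inl (Sum.inl ⟨ℓ₀, hℓ₀, hℓ₀M⟩))) = ℓ₀ + 1 := by
      haveI : NeZero ℓ₀ := ⟨hℓ₀.ne_zero⟩
      rw [Fintype.card_eq_nat_card]
      show Nat.card (OnePoint (ZMod ℓ₀)) = ℓ₀ + 1
      rw [show OnePoint (ZMod ℓ₀) = Option (ZMod ℓ₀) from rfl, Finite.card_option,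
        Nat.card_zmod]
    have hcard' : Fintype.card ((Fermat.Agent.S43lib.B1.lvlSys (χ₀ P Ts) (idx₀ P.p (M₀ P Ts))
        (Fermat.Agent.S43lib.B1.commStmt (M₀ P Ts))).ι (Sum.inl ⟨ℓ₀, hℓ₀, hℓ₀M, hℓ₀p⟩)) =
        ℓ₀ + 1 := hcard
    rw [hcard']
    exact sub_ne_zero.mpr hne
  exact Fermat.Agent.S43lib.B2.Bridge.nontrivial_F_reg (χ₀ P Ts) (idx₀ P.p (M₀ P Ts))
    (Fermat.Agent.S43lib.B1.commStmt (M₀ P Ts)) Sg.𝒪 θ (evOf P.p (M₀ P Ts) (𝒪 := Sg.𝒪) (tS Sg)) hev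
    (RingHom.ker (evOf P.p (M₀ P Ts) (𝒪 := Sg.𝒪) (tS Sg))) (fun s => RingHom.mem_ker) hne'

end Fermat.Agent.S59lib.Hub
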