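/-
S59lib / Hub / HubHypMk (helper7): **`HubHyp Sg` holds** (re-issue of `S43lib/Mod4x/HubHypMk`).
-/
import Mathlib
import Fermat.Agent.S59lib.Hub.NonVan

set_option autoImplicit false
set_option linter.unusedSectionVars false
set_option linter.unusedVariables false

noncomputable section

namespace Fermat.Agent.S59lib.Hub

variable {P : Ctx} {Ts : Finset ℕ} (Sg : SideGal P Ts)

/-- **the standing hypotheses of the Hecke side hold** -/
theorem hubHyp_mk (hT : THyp P Ts) {N : ℕ} (hNM : N ∣ M₀ P Ts) (hmod : P.IsMod N) :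
    HubHyp Sg where
  hT := hT
  hθ := hubHyp_hθ Sg
  ha := hubHyp_ha Sg
  hne := hubHyp_hne Sg
  nontriv := nontrivial_M0 Sg hT hNM hmod

end Fermat.Agent.S59lib.Hub
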