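/-
S43lib / Mod4x / TR (helper2) — Project H, hub brick (7) TR.

The two trace identities of `SideLevel` (`tr_T`, `tr_Q`) for the concrete hub objects, from the
per-point local–global compatibility in the Hecke algebra (`tr_eq_of_LGC`, brick (4)), which enters
here as the hypothesis `GlueStmt`:  for `σ = globGenAt v p` (in the inertia group of the standard
place over `v`), the unit `u ≡ cyc_v(σ) (v)`, `u ≡ 1 (M/v)` has `χ(u) = g²` with `g` the standard
generator of the `v`-component of the diamond group (by the choice of `κ_v`, `kap_spec`).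
-/
import Mathlib
import Fermat.Agent.S59lib.Hub.HubHypMk
import Fermat.Agent.S43lib.Mod4x.TR
import Fermat.Agent.S56lib.TW.Cyclo

set_option autoImplicit false
set_option linter.unusedSectionVars false
set_option linter.style.haveILetI false

noncomputable section

namespace Fermat.Agent.S59lib.Hub

open Fermat.Agent.S43lib.Mod4.Hub Fermat.Agent.S43lib.Mod4.Hub.TRaux

open IsLocalRing Polynomial CuspForm Fermat.Agent.S43lib.B3 Fermat.Agent.S43lib.Loc
  Fermat.Agent.S56lib.Main Fermat.Agent.S43lib.Mod4.HO Fermat.Agent.S56lib.TW ExtCitation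

local notation "GQ" => (AlgebraicClosure ℚ ≃ₐ[ℚ] AlgebraicClosure ℚ)
local notation "Qb" => AlgebraicClosure ℚ

variable {P : Ctx} {Ts : Finset ℕ} (Sg : SideGal P Ts)

/-! ### the characters at the components -/

/-- the `w`-component of `χ₀` -/
theorem χ₀_eT (u₀ : (ZMod (M₀ P Ts))ˣ) (w : TT Ts) :
    χ₀ P Ts u₀ (eT Ts w) =
      kap P.p 1 (((w : Nat.Primes) : ℕ)) (ZMod.unitsMap (TT_dvd_M₀ P w) u₀) := by
  rw [χ₀_apply]
  have key : ∀ w₂ : TT Ts, w₂ = w →
      kap P.p 1 (((w₂ : Nat.Primes) : ℕ)) (ZMod.unitsMap (TT_dvd_M₀ P w₂) u₀) =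
        kap P.p 1 (((w : Nat.Primes) : ℕ)) (ZMod.unitsMap (TT_dvd_M₀ P w) u₀) := by
    rintro _ rfl
    rfl
  exact key _ ((eT Ts).symm_apply_apply w)

section TR

variable {r : ℕ} (n : ℕ) (qv : Fin r → ℕ)
  [NeZero (M₀ P Ts * (QL qv).prod)] (hcop : (M₀ P Ts).Coprime (QL qv).prod)
  (hS' : Sg.good (SQ P Ts qv))
  (β : (Sg.F (SQ P Ts qv) hS').R →ₐ[Sg.𝒪] TQ Sg n qv hcop)

/-- **the conclusion of `tr_eq_of_LGC`** (brick (4)), universally quantified -/
def GlueStmt : Prop :=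
  ∀ (v : ℕ) [Fact v.Prime] (hvM : v ∣ M₀ P Ts * (QL qv).prod), v ≠ P.p →
    ∀ (A : ValuationSubring Qb), A.LiesOverPrime v → ∀ σ : GQ, σ ∈ A.inertiaSubgroupIn ℚ →
    ∀ u : (ZMod (M₀ P Ts * (QL qv).prod))ˣ, ZMod.unitsMap hvM u = cycloChar v σ →
      ZMod.unitsMap (Nat.div_dvd_of_dvd hvM) u = 1 →
    ∀ g : G₀ P Ts × DelQ P r n, g * g = chiQ (χ₀ P Ts) (kapQ P n qv) u →
      β ((Sg.F (SQ P Ts qv) hS').ρ.trace σ) =
        (HQ Sg n qv hcop).tG (JQ P.p (M₀ P Ts) (QL qv)) g +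
          (HQ Sg n qv hcop).tG (JQ P.p (M₀ P Ts) (QL qv)) g⁻¹

variable {n qv}

/-- the level is squarefree -/
theorem squarefree_level (hH : HubHyp Sg) (hinj : Function.Injective qv)
    (hqv : ∀ i, (qv i).Prime ∧ qv i ∉ Sg.SA ∧ P.p ^ (n + 1) ∣ qv i - 1) :
    Squarefree (M₀ P Ts * (QL qv).prod) := by
  classical
  have hqv' : ∀ i, (qv i).Prime ∧ qv i ∉ (P.Smin ∪ Ts : Finset ℕ) :=
    fun i => ⟨(hqv i).1, fun h => (hqv i).2.1 (Finset.mem_union_left _ h)⟩
  rw [M₀_mul_prod hH.hT hinj hqv', Nat.squarefree_mul_iff]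
  refine ⟨?_, P.R0_sq, ?_⟩
  · -- coprimality
    refine Nat.Coprime.symm (Nat.coprime_of_dvd ?_)
    intro k hk hk1 hk2
    obtain ⟨hkS, hkSmin⟩ := prime_dvd_tp P hk hk1
    rcases Finset.mem_union.1 (P.R0_primes k hk hk2) with h | h
    · exact hkSmin h
    · -- `k ∈ Aux`, but `k ∈ SQ` and `SQ` is disjoint from `Aux`
      rcases Finset.mem_union.1 hkS with h1 | h1
      · rcases Finset.mem_union.1 h1 with h2 | h2
        · exact hkSmin h2
        · exact Finset.disjoint_left.1 hH.hT.disjAux h2 h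
      · obtain ⟨i, -, rfl⟩ := Finset.mem_image.1 h1
        exact (hqv i).2.1 (Finset.mem_union_right _ h)
  · unfold tp
    refine Finset.squarefree_prod_of_pairwise_isCoprime ?_ ?_
    · intro a ha b hb hab
      have ha' : a.Prime := (Finset.mem_filter.1 ha).2
      have hb' : b.Prime := (Finset.mem_filter.1 hb).2
      exact Nat.coprime_iff_isRelPrime.1 ((Nat.coprime_primes ha' hb').2 hab)
    · intro a ha
      exact (Finset.mem_filter.1 ha).2.prime.squarefree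

/-- the odd primes of `N` are different from the Taylor–Wiles primes -/
theorem TT_ne_qv (hqv : ∀ i, (qv i).Prime ∧ qv i ∉ Sg.SA ∧ P.p ^ (n + 1) ∣ qv i - 1) (w : TT Ts)
    (i : Fin r) : ((w : Nat.Primes) : ℕ) ≠ qv i := by
  intro h
  exact (hqv i).2.1 (Finset.mem_union_left _ (Finset.mem_union_right _ (h ▸ TT_mem w)))

end TR


section TR

variable {P : Ctx} {Ts : Finset ℕ} (Sg : SideGal P Ts) {r : ℕ} {n : ℕ} {qv : Fin r → ℕ}
  [NeZero (M₀ P Ts * (QL qv).prod)] {hcop : (M₀ P Ts).Coprime (QL qv).prod}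
  {hS' : Sg.good (SQ P Ts qv)}
  {β : (Sg.F (SQ P Ts qv) hS').R →ₐ[Sg.𝒪] TQ Sg n qv hcop}

/-- **`tr_T`, from the glue statement** -/
theorem tr_T_of_glue (hGlue : GlueStmt Sg n qv hcop hS' β) (hH : HubHyp Sg)
    (hinj : Function.Injective qv)
    (hqv : ∀ i, (qv i).Prime ∧ qv i ∉ Sg.SA ∧ P.p ^ (n + 1) ∣ qv i - 1) (v : TT Ts) :
    β ((Sg.F (SQ P Ts qv) hS').ρ.trace (globGenAt (v : Nat.Primes) P.p)) =
      (HQ Sg n qv hcop).tG (JQ P.p (M₀ P Ts) (QL qv)) (deltaGen P.p (aT Ts) (eT Ts v), 1) +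
        (HQ Sg n qv hcop).tG (JQ P.p (M₀ P Ts) (QL qv)) ((deltaGen P.p (aT Ts) (eT Ts v))⁻¹, 1) := by
  classical
  set v' : ℕ := ((v : Nat.Primes) : ℕ) with hv'
  have hvp : v'.Prime := TT_prime v
  haveI : Fact v'.Prime := ⟨hvp⟩
  have hvne : v' ≠ P.p := fun h =>
    Finset.disjoint_left.1 hH.hT.disjSmin P.hpSmin (h ▸ TT_mem v)
  have hvM : v' ∣ M₀ P Ts * (QL qv).prod := Dvd.dvd.mul_right (TT_dvd_M₀ P v) _
  have hsqM := squarefree_level Sg hH hinj hqv
  have hcopv : v'.Coprime (M₀ P Ts * (QL qv).prod / v') := coprime_div_of_squarefree hsqM hvM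
  obtain ⟨u, hu1, hu2⟩ := exists_unit_crt' (Nat.mul_div_cancel' hvM).symm hcopv hvM
    (Nat.div_dvd_of_dvd hvM) (cycloChar v' (globGenAt (v : Nat.Primes) P.p)) 1
  have hp1 : P.p ^ 1 ∣ v' - 1 := by
    rw [pow_one]
    exact (Nat.modEq_iff_dvd' hvp.one_le).1 (hH.hT.one v' (TT_mem v)).symm
  have hg : ((deltaGen P.p (aT Ts) (eT Ts v), 1) : G₀ P Ts × DelQ P r n) *
      (deltaGen P.p (aT Ts) (eT Ts v), 1) = chiQ (χ₀ P Ts) (kapQ P n qv) u := by
    rw [chiQ_apply, Prod.mk_mul_mk, one_mul, deltaGen_mul_self, Prod.mk.injEq]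
    refine ⟨?_, ?_⟩
    · -- the `T`-components
      funext i
      obtain ⟨w, rfl⟩ := (eT Ts).surjective i
      show _ = χ₀ P Ts _ (eT Ts w)
      rw [χ₀_eT, unitsMap_unitsMap']
      by_cases hwv : w = v
      · subst hwv
        rw [Pi.mulSingle_eq_same]
        have h1 : ZMod.unitsMap ((TT_dvd_M₀ P w).trans (dvd_mul_right (M₀ P Ts) (QL qv).prod)) u =
            cycGen (w : Nat.Primes) P.p := hu1
        rw [h1]
        exact ((kap_spec hvp P.pp Sg.hp2 (Ne.symm hvne) hp1).2).symm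
      · have hne : ((w : Nat.Primes) : ℕ) ≠ v' := fun h => hwv (Subtype.ext (Subtype.ext h))
        rw [Pi.mulSingle_eq_of_ne (fun h => hwv ((eT Ts).injective h)),
          unitsMap_eq_one_of_ne hvp (TT_prime w) hvM _ hne u hu2, map_one]
    · -- the `Q`-components
      funext i
      show (1 : DelQ P r n) i = kapQ P n qv _ i
      rw [kapQ_apply, unitsMap_unitsMap',
        unitsMap_eq_one_of_ne hvp (hqv i).1 hvM _ (TT_ne_qv Sg hqv v i).symm u hu2, map_one]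
      rfl
  have key := hGlue v' hvM hvne _
    (Fermat.Agent.S56lib.TWSel.primeLocalPlace_liesOverPrime (v : Nat.Primes)) _
    (globGenAt_mem_inertia (v : Nat.Primes) P.p) u hu1 hu2 _ hg
  rw [key, Prod.inv_mk, inv_one]

/-- **`tr_Q`, from the glue statement** -/
theorem tr_Q_of_glue (hGlue : GlueStmt Sg n qv hcop hS' β) (hH : HubHyp Sg)
    (hinj : Function.Injective qv)
    (hqv : ∀ i, (qv i).Prime ∧ qv i ∉ Sg.SA ∧ P.p ^ (n + 1) ∣ qv i - 1) (i : Fin r) :
    β ((Sg.F (SQ P Ts qv) hS').ρ.trace (globGenAt ⟨qv i, (hqv i).1⟩ P.p)) =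
      (HQ Sg n qv hcop).tG (JQ P.p (M₀ P Ts) (QL qv)) (1, deltaGen P.p (aQ r n) i) +
        (HQ Sg n qv hcop).tG (JQ P.p (M₀ P Ts) (QL qv)) (1, (deltaGen P.p (aQ r n) i)⁻¹) := by
  classical
  set v' : ℕ := qv i with hv'
  have hvp : v'.Prime := (hqv i).1
  haveI : Fact v'.Prime := ⟨hvp⟩
  have hvne : v' ≠ P.p := fun h => (hqv i).2.1 (by
    have h' : qv i = P.p := h
    rw [h']
    exact Finset.mem_union_left _ (Finset.mem_union_left _ P.hpSmin))
  have hvQ : v' ∣ (QL qv).prod := dvd_QL_prod qv i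
  have hvM : v' ∣ M₀ P Ts * (QL qv).prod := Dvd.dvd.mul_left hvQ _
  have hsqM := squarefree_level Sg hH hinj hqv
  have hcopv : v'.Coprime (M₀ P Ts * (QL qv).prod / v') := coprime_div_of_squarefree hsqM hvM
  obtain ⟨u, hu1, hu2⟩ := exists_unit_crt' (Nat.mul_div_cancel' hvM).symm hcopv hvM
    (Nat.div_dvd_of_dvd hvM) (cycloChar v' (globGenAt ⟨qv i, (hqv i).1⟩ P.p)) 1
  have hg : ((1, deltaGen P.p (aQ r n) i) : G₀ P Ts × DelQ P r n) *
      (1, deltaGen P.p (aQ r n) i) = chiQ (χ₀ P Ts) (kapQ P n qv) u := by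
    rw [chiQ_apply, Prod.mk_mul_mk, one_mul, deltaGen_mul_self, Prod.mk.injEq]
    refine ⟨?_, ?_⟩
    · -- the `T`-components
      funext j
      obtain ⟨w, rfl⟩ := (eT Ts).surjective j
      show (1 : G₀ P Ts) (eT Ts w) = χ₀ P Ts _ (eT Ts w)
      rw [χ₀_eT, unitsMap_unitsMap',
        unitsMap_eq_one_of_ne hvp (TT_prime w) hvM _ (TT_ne_qv Sg hqv w i) u hu2, map_one]
      rfl
    · -- the `Q`-components
      funext j
      show _ = kapQ P n qv _ j
      rw [kapQ_apply, unitsMap_unitsMap']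
      by_cases hji : j = i
      · subst hji
        rw [Pi.mulSingle_eq_same]
        have h1 : ZMod.unitsMap ((dvd_QL_prod qv j).trans (dvd_mul_left (QL qv).prod (M₀ P Ts))) u =
            cycGen ⟨qv j, (hqv j).1⟩ P.p := hu1
        rw [h1]
        exact ((kap_spec hvp P.pp Sg.hp2 (Ne.symm hvne) (hqv j).2.2).2).symm
      · rw [Pi.mulSingle_eq_of_ne hji,
          unitsMap_eq_one_of_ne hvp (hqv j).1 hvM _ (fun h => hji (hinj h)) u hu2, map_one]
  have key := hGlue v' hvM hvne _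
    (Fermat.Agent.S56lib.TWSel.primeLocalPlace_liesOverPrime ⟨qv i, (hqv i).1⟩) _
    (globGenAt_mem_inertia ⟨qv i, (hqv i).1⟩ P.p) u hu1 hu2 _ hg
  rw [key, Prod.inv_mk, inv_one]

end TR

end Fermat.Agent.S59lib.Hub
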