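/-
S43lib / Mod4x / LGCGlue  (helper3).

Project H (S43), LAYER 4, brick LGC-GLUE: the TRACE identity
`β (tr ρ_{S'}(σ)) = ⟨g⟩ + ⟨g⁻¹⟩` in the Hecke algebra `𝕋_Q` (`σ` in an inertia group at a prime
`v ∣ M₀ ∏Q`, `v ∉ {2, p}`, `g² = χ(u)`, `u ≡ cyc_v(σ)` mod `v`, `u ≡ 1` mod `M / v`) out of the
per-point statement `LGCPointStmt`: the points of `𝕋_Q` with values in complete DVRs are jointly
injective (helper5's `exists_points_of_relations`), and at each point `LGCGlueA.trace_at_point`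
applies.
-/
import Mathlib
import Fermat.Agent.S59lib.Hub.LGCGlueA
import Fermat.Agent.S59lib.Hub.TR
import Fermat.Agent.S43lib.Mod4x.LGCGlue
import Fermat.Agent.S43lib.Mod4x.LGCGlueA
import Fermat.Agent.S43lib.Mod4.HubDefs
import Fermat.Agent.S43lib.B3.TrivCompFrey

set_option autoImplicit false
set_option linter.unusedSectionVars false
set_option linter.unusedVariables false
set_option linter.style.haveILetI false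

noncomputable section

open IsLocalRing Polynomial CuspForm Fermat.Agent.S43lib.B1 Fermat.Agent.S43lib.B3
  Fermat.Agent.S43lib.Loc Fermat.Agent.S56lib.Main Fermat.Agent.S43lib.Mod4.HO
  Fermat.Agent.S56lib.TW ExtCitation Fermat.Agent.S43lib.BigImg Fermat.Agent.S43lib.B2.Bridge
  WeierstrassCurve WeierstrassCurve.Affine WeierstrassCurve.Affine.Point FreyPackage

local notation "GQ" => (AlgebraicClosure ℚ ≃ₐ[ℚ] AlgebraicClosure ℚ)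
local notation "Qb" => AlgebraicClosure ℚ

namespace Fermat.Agent.S59lib.Hub

open Fermat.Agent.S43lib.Mod4.Hub Fermat.Agent.S43lib.Mod4.Hub.LG Fermat.Agent.S43lib.Mod4.Hub.TRaux

/-! ### arithmetic of the level -/

section Arith

variable {P : Ctx} {Ts : Finset ℕ} {r : ℕ} {qv : Fin r → ℕ}

theorem p_mem_SQ' (P : Ctx) (Ts : Finset ℕ) (qv : Fin r → ℕ) : P.p ∈ SQ P Ts qv :=
  Finset.mem_union_left _ (Finset.mem_union_left _ P.hpSmin)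

theorem qv_mem_SQ (P : Ctx) (Ts : Finset ℕ) (qv : Fin r → ℕ) (i : Fin r) : qv i ∈ SQ P Ts qv :=
  Finset.mem_union_right _ (Finset.mem_image_of_mem _ (Finset.mem_univ i))

theorem T_subset_SQ (P : Ctx) (Ts : Finset ℕ) (qv : Fin r → ℕ) {v : ℕ}
    (hv : v ∈ Ts) : v ∈ SQ P Ts qv :=
  Finset.mem_union_left _ (Finset.mem_union_right _ hv)

/-- the facts on a prime outside `S' ∪ Aux`, `S' = Smin ∪ T ∪ Q` -/
theorem not_mem_SQ_facts (hT : THyp P Ts) {ℓ : ℕ} (hℓ : ℓ.Prime) (hℓS : ℓ ∉ SQ P Ts qv ∪ P.Aux) :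
    (ℓ.Prime ∧ ¬ ℓ ∣ M₀ P Ts ∧ ℓ ≠ P.p) ∧ ℓ ∉ QL qv ∧ ¬ ℓ ∣ lvlTw P (SQ P Ts qv) := by
  have hS : ℓ ∉ SQ P Ts qv := fun h => hℓS (Finset.mem_union_left _ h)
  have hA : ℓ ∉ P.Aux := fun h => hℓS (Finset.mem_union_right _ h)
  refine ⟨⟨hℓ, fun h => ?_, fun h => hS (h ▸ p_mem_SQ' P Ts qv)⟩, fun h => ?_, fun h => ?_⟩
  · rcases Finset.mem_union.1 (mem_SA_of_prime_dvd_M₀ hT hℓ h) with h2 | h2
    · exact hS (Finset.mem_union_left _ h2)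
    · exact hA h2
  · obtain ⟨i, rfl⟩ := (mem_QL qv).1 h
    exact hS (qv_mem_SQ P Ts qv i)
  · rcases prime_dvd_lvlTw P hℓ h with h2 | h2
    · rcases Finset.mem_union.1 (P.R0_primes ℓ hℓ h2) with h3 | h3
      · exact hS (Finset.mem_union_left _ (Finset.mem_union_left _ h3))
      · exact hA h3
    · exact hS h2.1

theorem not_mem_SQ_of_adm {ℓ : ℕ} (h : ℓ.Prime ∧ ¬ ℓ ∣ M₀ P Ts ∧ ℓ ≠ P.p) (hQ : ℓ ∉ QL qv) :
    ℓ ∉ SQ P Ts qv ∪ P.Aux := by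
  intro hm
  rcases Finset.mem_union.1 hm with hm | hm
  · rcases Finset.mem_union.1 hm with hm | hm
    · rcases Finset.mem_union.1 hm with hm | hm
      · exact h.2.1 ((P.Smin_dvd ℓ hm h.2.2).trans (Dvd.intro _ rfl))
      · exact h.2.1 (TT_dvd_M₀ P ⟨⟨ℓ, h.1⟩, mem_primesIn.2 hm⟩)
    · obtain ⟨i, -, rfl⟩ := Finset.mem_image.1 hm
      exact hQ ((mem_QL qv).2 ⟨i, rfl⟩)
  · exact h.2.1 ((P.Aux_dvd ℓ hm).trans (Dvd.intro _ rfl))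

end Arith

/-! ### the TRACE identity -/

section Main

variable {P : Ctx} {Ts : Finset ℕ} (Sg : SideGal P Ts)

/-- **LGC-GLUE**, with the identification of the Hecke homomorphism of the chosen datum as a
hypothesis. -/
theorem tr_eq_of_LGC_aux (hLGC : LGCPointW) (hH : HubHyp Sg)
    {r : ℕ} (n : ℕ) (qv : Fin r → ℕ) (hinj : Function.Injective qv)
    (hqv : ∀ i, (qv i).Prime ∧ qv i ∉ Sg.SA ∧ P.p ^ (n + 1) ∣ qv i - 1)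
    [NeZero (M₀ P Ts * (QL qv).prod)] (hcop : (M₀ P Ts).Coprime (QL qv).prod)
    (hgood : (HQ Sg n qv hcop).Good P.p) (hS' : Sg.good (SQ P Ts qv))
    (hπ : (Sg.D.H (SQ P Ts qv) hS').π =
      heckeLocal.π (lvlTw P (SQ P Ts qv)) (↑(SQ P Ts qv ∪ P.Aux) : Set ℕ) Sg.𝒪 (Sg.D.θ (SQ P Ts qv) hS'))
    (hfree : Module.Free Sg.𝒪 (MQ Sg n qv hcop))
    (β : (Sg.F (SQ P Ts qv) hS').R →ₐ[Sg.𝒪] TQ Sg n qv hcop)
    (hβ : ∀ (ℓ : ℕ) (hℓ : ℓ.Prime) (hℓN : ¬ ℓ ∣ lvlTw P (SQ P Ts qv))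
        (hℓS : ℓ ∉ (↑(SQ P Ts qv ∪ P.Aux) : Set ℕ)) (hi : ℓ.Prime ∧ ¬ ℓ ∣ M₀ P Ts ∧ ℓ ≠ P.p)
        (hJ : (Sum.inl ⟨ℓ, hi⟩ : Idx P.p (M₀ P Ts)) ∈ JQ P.p (M₀ P Ts) (QL qv))
        (hℓM : ℓ.Coprime (M₀ P Ts * (QL qv).prod)) (g : G₀ P Ts × DelQ P r n),
        g * g * chiQ (χ₀ P Ts) (kapQ P n qv) (ZMod.unitOfCoprime ℓ hℓM) = 1 →
        β (heckeLocal.π _ _ _ _ (heckeAlgebra.T hℓ hℓN hℓS)) =
          (HQ Sg n qv hcop).tG (JQ P.p (M₀ P Ts) (QL qv)) g *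
            (HQ Sg n qv hcop).tX (JQ P.p (M₀ P Ts) (QL qv)) (Sum.inl ⟨ℓ, hi⟩) hJ)
    (v : ℕ) [Fact v.Prime] (hvM : v ∣ M₀ P Ts * (QL qv).prod) (hvp : v ≠ P.p)
    (A : ValuationSubring Qb) (hA : A.LiesOverPrime v) (σ : GQ) (hσ : σ ∈ A.inertiaSubgroupIn ℚ)
    (u : (ZMod (M₀ P Ts * (QL qv).prod))ˣ) (hu1 : ZMod.unitsMap hvM u = cycloChar v σ)
    (hu2 : ZMod.unitsMap (Nat.div_dvd_of_dvd hvM) u = 1)
    (g : G₀ P Ts × DelQ P r n) (hg : g * g = chiQ (χ₀ P Ts) (kapQ P n qv) u) :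
    β ((Sg.F (SQ P Ts qv) hS').ρ.trace σ) =
      (HQ Sg n qv hcop).tG (JQ P.p (M₀ P Ts) (QL qv)) g +
        (HQ Sg n qv hcop).tG (JQ P.p (M₀ P Ts) (QL qv)) g⁻¹ := by
  classical
  have hT : THyp P Ts := hH.hT
  have hsq : Squarefree (M₀ P Ts * (QL qv).prod) := squarefree_level Sg hH hinj hqv
  have hMS : ∀ ℓ : ℕ, ℓ.Prime → ℓ ∣ M₀ P Ts * (QL qv).prod → ℓ ∈ SQ P Ts qv ∪ P.Aux := by
    intro ℓ hℓ h
    rcases (Nat.Prime.dvd_mul hℓ).1 h with h2 | h2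
    · rcases Finset.mem_union.1 (mem_SA_of_prime_dvd_M₀ hT hℓ h2) with h3 | h3
      · exact Finset.mem_union_left _ (Finset.mem_union_left _ h3)
      · exact Finset.mem_union_right _ h3
    · rw [QL_prod] at h2
      obtain ⟨i, -, hdvd⟩ := (Prime.dvd_finsetProd_iff hℓ.prime _).1 h2
      have : ℓ = qv i := (Nat.prime_dvd_prime_iff_eq hℓ (hqv i).1).1 hdvd
      exact Finset.mem_union_left _ (this ▸ qv_mem_SQ P Ts qv i)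
  -- the Hecke algebra is finite and free
  haveI : Module.Free Sg.𝒪 (HQ Sg n qv hcop).Mod := hfree
  haveI : Module.Finite Sg.𝒪 (TQ Sg n qv hcop) := (HQ Sg n qv hcop).finite_hecke _ hgood
  haveI : Module.Free Sg.𝒪 (TQ Sg n qv hcop) := (HQ Sg n qv hcop).free_hecke _ hgood
  -- joint injectivity of the points
  refine eq_of_forall_point (N' := lvlTw P (SQ P Ts qv)) (S := (↑(SQ P Ts qv ∪ P.Aux) : Set ℕ))
    (G := G₀ P Ts × DelQ P r n) (𝒪 := Sg.𝒪) (E := TQ Sg n qv hcop)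
    (fun q hq hqN => Finset.mem_coe.2 (goodTw_primes_mem hS' q hq hqN))
    ((β : (Sg.F (SQ P Ts qv) hS').R →+* TQ Sg n qv hcop).comp
      (heckeLocal.π (lvlTw P (SQ P Ts qv)) (↑(SQ P Ts qv ∪ P.Aux) : Set ℕ) Sg.𝒪 (Sg.D.θ (SQ P Ts qv) hS')))
    ((HQ Sg n qv hcop).tG (JQ P.p (M₀ P Ts) (QL qv))) ?_ _ _ ?_
  · -- generation
    rw [eq_top_iff, ← (HQ Sg n qv hcop).adjoin_tX_tG (JQ P.p (M₀ P Ts) (QL qv))]
    apply Algebra.adjoin_le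
    rintro t (⟨j, hj, rfl⟩ | ⟨g', rfl⟩)
    · rcases j with ℓ | m
      · have hℓQ := not_mem_of_inl_mem_JQ P.p (M₀ P Ts) ℓ.2 (QL qv) hj
        have hℓS : ℓ.1 ∉ SQ P Ts qv ∪ P.Aux := not_mem_SQ_of_adm ℓ.2 hℓQ
        have hℓS' : ℓ.1 ∉ (↑(SQ P Ts qv ∪ P.Aux) : Set ℕ) := fun h => hℓS (Finset.mem_coe.1 h)
        have hℓN : ¬ ℓ.1 ∣ lvlTw P (SQ P Ts qv) := (not_mem_SQ_facts hT ℓ.2.1 hℓS).2.2
        have hℓM : ℓ.1.Coprime (M₀ P Ts * (QL qv).prod) :=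
          (Nat.Prime.coprime_iff_not_dvd ℓ.2.1).2 fun h => hℓS (hMS ℓ.1 ℓ.2.1 h)
        obtain ⟨g₁, hg₁⟩ := exists_mul_self_eq_of_isPGroup hgood.hp Sg.hp2 hgood.hG
          (chiQ (χ₀ P Ts) (kapQ P n qv) (ZMod.unitOfCoprime ℓ.1 hℓM))⁻¹
        have hg₁' : g₁ * g₁ * chiQ (χ₀ P Ts) (kapQ P n qv) (ZMod.unitOfCoprime ℓ.1 hℓM) = 1 := by
          rw [hg₁, inv_mul_cancel]
        have h1 := hβ ℓ.1 ℓ.2.1 hℓN hℓS' ℓ.2 hj hℓM g₁ hg₁'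
        have h2 : (HQ Sg n qv hcop).tX (JQ P.p (M₀ P Ts) (QL qv)) (Sum.inl ℓ) hj =
            (HQ Sg n qv hcop).tG (JQ P.p (M₀ P Ts) (QL qv)) g₁⁻¹ *
              β (heckeLocal.π _ _ _ _ (heckeAlgebra.T ℓ.2.1 hℓN hℓS')) := by
          rw [h1, ← mul_assoc, ← map_mul, inv_mul_cancel, map_one, one_mul]
        rw [h2]
        refine Subalgebra.mul_mem _ (Algebra.subset_adjoin (Or.inr ⟨g₁⁻¹, rfl⟩))
          (Algebra.subset_adjoin (Or.inl ⟨⟨ℓ.1, ℓ.2.1, hℓN, hℓS'⟩, rfl⟩))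
      · rw [absLvl_tX_eq_tG _ _ _ _ _ _ hj _ (idxQ_inr P.p hcop m)]
        exact Algebra.subset_adjoin (Or.inr ⟨_, rfl⟩)
    · exact Algebra.subset_adjoin (Or.inr ⟨g', rfl⟩)
  · -- the points
    intro O₁ _ _ _ _ _ _ _ _ _ hinjO x
    rw [map_add]
    refine trace_at_point (chiQ (χ₀ P Ts) (kapQ P n qv)) (idxQ P.p hcop)
      (evOf P.p (M₀ P Ts) (tQ (tS Sg) (aS Sg) (QL qv))) (evOf_C P.p (M₀ P Ts) _)
      (JQ P.p (M₀ P Ts) (QL qv)) hLGC P.hp2 hsq hgood hinjO x (SQ P Ts qv ∪ P.Aux)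
      (Finset.mem_union_left _ (p_mem_SQ' P Ts qv)) hMS
      (oIdx P.p (M₀ P Ts)) ?_ ?_ (P.ρ₀) P.hirr P.a P.S₀ P.h₀ ?_
      P.hne (Sg.F (SQ P Ts qv) hS').ρ
      (Sg.D.H (SQ P Ts qv) hS').residual_absIrr β ?_ v hvM hvp A hA σ hσ u hu1 hu2 g hg
    · intro ℓ hℓ hℓM hℓS
      exact oIdx_mem_JQ P.p (M₀ P Ts) (not_mem_SQ_facts hT hℓ hℓS).1 (QL qv) (not_mem_SQ_facts hT hℓ hℓS).2.1
    · intro ℓ hℓ hℓM hℓS
      rw [oIdx_of_adm P.p (M₀ P Ts) (not_mem_SQ_facts hT hℓ hℓS).1, idxQ_inl_of_not_dvd P.p hcop _ hℓM]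
    · intro ℓ hℓ hℓM hℓS hℓS₀
      rw [oIdx_of_adm P.p (M₀ P Ts) (not_mem_SQ_facts hT hℓ hℓS).1, evOf_X_inl]
      unfold tQ
      rw [if_neg (not_mem_SQ_facts hT hℓ hℓS).2.1]
      exact hH.ha ℓ hℓ hℓS₀
    · intro ℓ hℓ hℓM hℓS hJ g' hg' A' hA' φ hφ
      have facts := not_mem_SQ_facts hT hℓ hℓS
      have hℓS' : ℓ ∉ (↑(SQ P Ts qv ∪ P.Aux) : Set ℕ) := fun h => hℓS (Finset.mem_coe.1 h)
      refine ⟨(Sg.D.H (SQ P Ts qv) hS').π (heckeAlgebra.T hℓ facts.2.2 hℓS'),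
        (Sg.D.H (SQ P Ts qv) hS').charpoly_frob ℓ hℓ facts.2.2 hℓS' A' hA' φ hφ, ?_⟩
      rw [hπ]
      have e := oIdx_of_adm P.p (M₀ P Ts) facts.1
      revert hJ
      rw [e]
      intro hJ
      exact hβ ℓ hℓ facts.2.2 hℓS' facts.1 hJ hℓM g' hg'

/-- **LGC-GLUE**: the TRACE identity in `𝕋_Q` out of the per-point statement `LGCPointStmt`. -/
theorem tr_eq_of_LGC (hLGC : LGCPointW) (hH : HubHyp Sg)
    {r : ℕ} (n : ℕ) (qv : Fin r → ℕ) (hinj : Function.Injective qv)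
    (hqv : ∀ i, (qv i).Prime ∧ qv i ∉ Sg.SA ∧ P.p ^ (n + 1) ∣ qv i - 1)
    [NeZero (M₀ P Ts * (QL qv).prod)] (hcop : (M₀ P Ts).Coprime (QL qv).prod)
    (hgood : (HQ Sg n qv hcop).Good P.p) (hS' : Sg.good (SQ P Ts qv))
    (hfree : Module.Free Sg.𝒪 (MQ Sg n qv hcop))
    (β : (Sg.F (SQ P Ts qv) hS').R →ₐ[Sg.𝒪] TQ Sg n qv hcop)
    (hβ : ∀ (ℓ : ℕ) (hℓ : ℓ.Prime) (hℓN : ¬ ℓ ∣ lvlTw P (SQ P Ts qv))
        (hℓS : ℓ ∉ (↑(SQ P Ts qv ∪ P.Aux) : Set ℕ)) (hi : ℓ.Prime ∧ ¬ ℓ ∣ M₀ P Ts ∧ ℓ ≠ P.p)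
        (hJ : (Sum.inl ⟨ℓ, hi⟩ : Idx P.p (M₀ P Ts)) ∈ JQ P.p (M₀ P Ts) (QL qv))
        (hℓM : ℓ.Coprime (M₀ P Ts * (QL qv).prod)) (g : G₀ P Ts × DelQ P r n),
        g * g * chiQ (χ₀ P Ts) (kapQ P n qv) (ZMod.unitOfCoprime ℓ hℓM) = 1 →
        β (heckeLocal.π _ _ _ _ (heckeAlgebra.T hℓ hℓN hℓS)) =
          (HQ Sg n qv hcop).tG (JQ P.p (M₀ P Ts) (QL qv)) g *
            (HQ Sg n qv hcop).tX (JQ P.p (M₀ P Ts) (QL qv)) (Sum.inl ⟨ℓ, hi⟩) hJ)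
    (v : ℕ) [Fact v.Prime] (hvM : v ∣ M₀ P Ts * (QL qv).prod) (hvp : v ≠ P.p)
    (A : ValuationSubring Qb) (hA : A.LiesOverPrime v) (σ : GQ) (hσ : σ ∈ A.inertiaSubgroupIn ℚ)
    (u : (ZMod (M₀ P Ts * (QL qv).prod))ˣ) (hu1 : ZMod.unitsMap hvM u = cycloChar v σ)
    (hu2 : ZMod.unitsMap (Nat.div_dvd_of_dvd hvM) u = 1)
    (g : G₀ P Ts × DelQ P r n) (hg : g * g = chiQ (χ₀ P Ts) (kapQ P n qv) u) :
    β ((Sg.F (SQ P Ts qv) hS').ρ.trace σ) =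
      (HQ Sg n qv hcop).tG (JQ P.p (M₀ P Ts) (QL qv)) g +
        (HQ Sg n qv hcop).tG (JQ P.p (M₀ P Ts) (QL qv)) g⁻¹ :=
  tr_eq_of_LGC_aux Sg hLGC hH n qv hinj hqv hcop hgood hS' (Sg.D.H_π (SQ P Ts qv) hS') hfree β
    hβ v hvM hvp A hA σ hσ u hu1 hu2 g hg

end Main

end Fermat.Agent.S59lib.Hub
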