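/-
S43lib / B2 / Bridge / AsmHub (helper5).

**BETA-INST**: helper7's hub bricks `exists_betaQ`, `exists_beta0` (`Mod4/SPEC_bricks.txt`), i.e. the maps
`β_Q : R_{S'} = heckeLocal (lvlTw p S') S' 𝒪 θ_{S'} → 𝕋_Q` and `β₀ : R_S → 𝕋_∅` of `AsmQ.lean` in the vocabulary of the
hub (`Mod4/HubDefs`), with the diamond operator `⟨ℓ^k⟩` replaced by the group element `g` with `g² χ(ℓ) = 1`.
-/
import Mathlib
import Fermat.Agent.S59lib.Hub.AsmW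
import Fermat.Agent.S59lib.Hub.LGCGlue
import Fermat.Agent.S43lib.B2.Bridge.AsmHub
import Fermat.Agent.S43lib.Mod4.HubDefs
import Fermat.Agent.S43lib.Mod4.LGCIface
import Fermat.Agent.S43lib.B2.Bridge.Asm
import Fermat.Agent.S43lib.B2.Bridge.AsmQ

set_option autoImplicit false
set_option linter.unusedSectionVars false
set_option linter.unusedVariables false
set_option linter.style.haveILetI false

noncomputable section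

namespace Fermat.Agent.S59lib.Hub

open Fermat.Agent.S43lib.Mod4.Hub Fermat.Agent.S43lib.Mod4.Hub.H5

open IsLocalRing Polynomial CuspForm Fermat.Agent.S43lib.B3 Fermat.Agent.S43lib.Loc
  Fermat.Agent.S56lib.Main Fermat.Agent.S43lib.Mod4.HO Fermat.Agent.S56lib.TW ExtCitation
  Fermat.Agent.S43lib.BigImg WeierstrassCurve WeierstrassCurve.Affine WeierstrassCurve.Affine.Point FreyPackage

local notation "GQ" => (AlgebraicClosure ℚ ≃ₐ[ℚ] AlgebraicClosure ℚ)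
local notation "Qb" => AlgebraicClosure ℚ

/-! ### arithmetic -/

section Arith

variable (P : Ctx)

/-- `tp P S'` is a product of distinct primes -/
theorem squarefree_tpW (S' : Finset ℕ) : Squarefree (tp P S') := by
  unfold tp
  refine Finset.squarefree_prod_of_pairwise_isCoprime ?_ ?_
  · intro a ha b hb hab
    have ha' : a.Prime := (Finset.mem_filter.1 (Finset.mem_coe.1 ha)).2
    have hb' : b.Prime := (Finset.mem_filter.1 (Finset.mem_coe.1 hb)).2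
    show IsRelPrime a b
    rw [← Nat.coprime_iff_isRelPrime]
    exact (Nat.coprime_primes ha' hb').2 hab
  · intro a ha
    exact (Finset.mem_filter.1 ha).2.prime.squarefree

/-- `R0` is prime to `tp P S'` for a good `S'` -/
theorem coprime_R0_tp {T S' : Finset ℕ} (hS' : goodTw P T S') : Nat.Coprime P.R0 (tp P S') := by
  refine Nat.coprime_of_dvd ?_
  intro k hk hk1 hk2
  obtain ⟨hkS, hkSmin⟩ := prime_dvd_tp P hk hk2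
  rcases Finset.mem_union.1 (P.R0_primes k hk hk1) with h | h
  · exact hkSmin h
  · exact Finset.disjoint_left.1 hS'.2.2 hkS h

end Arith

section Chi

/-- a unit which is `1` modulo `b` is `1` modulo every divisor of `b` -/
theorem unitsMap_eq_one_of_dvd {a b c : ℕ} (hab : a ∣ b) (hbc : b ∣ c) (hac : a ∣ c) (u : (ZMod c)ˣ)
    (h : ZMod.unitsMap hbc u = 1) : ZMod.unitsMap hac u = 1 := by
  have h1 := DFunLike.congr_fun (ZMod.unitsMap_comp hab hbc) u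
  rw [MonoidHom.comp_apply, h, map_one] at h1
  exact h1.symm

theorem unitsMap_unitsMap_eq_one_of_dvd {a b c d : ℕ} (hab : a ∣ b) (hbc : b ∣ c) (had : a ∣ d)
    (hdc : d ∣ c) (u : (ZMod c)ˣ) (h : ZMod.unitsMap hbc u = 1) :
    ZMod.unitsMap had (ZMod.unitsMap hdc u) = 1 := by
  have h1 := DFunLike.congr_fun (ZMod.unitsMap_comp had hdc) u
  rw [MonoidHom.comp_apply] at h1
  rw [h1]
  exact unitsMap_eq_one_of_dvd hab hbc _ u h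

variable {P : Ctx} {Ts : Finset ℕ} {r : ℕ} {n : ℕ} {qv : Fin r → ℕ}

/-- `χ₀` is trivial on the units which are `1` modulo the primes of `T` -/
theorem χ₀_eq_one_of (u : (ZMod (M₀ P Ts))ˣ)
    (h : ∀ w : TT Ts, ZMod.unitsMap (TT_dvd_M₀ P w) u = 1) : χ₀ P Ts u = 1 := by
  funext i
  rw [χ₀_apply, h, map_one]
  rfl

/-- `κ_Q` is trivial on the units which are `1` modulo the primes of `Q` -/
theorem kapQ_eq_one_of (u : (ZMod (QL qv).prod)ˣ)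
    (h : ∀ i, ZMod.unitsMap (dvd_QL_prod qv i) u = 1) : kapQ P n qv u = 1 := by
  funext i
  rw [kapQ_apply, h, map_one]
  rfl

end Chi

open Fermat.Agent.S43lib.Mod4.Hub.H5 Fermat.Agent.S43lib.Mod4.Hub.TRaux

variable {P : Ctx} {Ts : Finset ℕ} (Sg : SideGal P Ts)

/-! ## brick BETA-INST -/

set_option synthInstance.maxHeartbeats 400000 in
set_option maxHeartbeats 4000000 in
theorem exists_betaQ (hH : HubHyp Sg) {r : ℕ} (n : ℕ) (qv : Fin r → ℕ) (hinj : Function.Injective qv)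
    (hqv : ∀ i, (qv i).Prime ∧ qv i ∉ Sg.SA ∧ P.p ^ (n + 1) ∣ qv i - 1)
    [NeZero (M₀ P Ts * (QL qv).prod)] (hcop : (M₀ P Ts).Coprime (QL qv).prod)
    (hgood : (HQ Sg n qv hcop).Good P.p) (hS' : Sg.good (SQ P Ts qv)) :
    ∃ β : (Sg.F (SQ P Ts qv) hS').R →ₐ[Sg.𝒪] TQ Sg n qv hcop,
      ∀ (ℓ : ℕ) (hℓ : ℓ.Prime) (hℓN : ¬ ℓ ∣ lvlTw P (SQ P Ts qv))
        (hℓS : ℓ ∉ (↑(SQ P Ts qv ∪ P.Aux) : Set ℕ)) (hi : ℓ.Prime ∧ ¬ ℓ ∣ M₀ P Ts ∧ ℓ ≠ P.p)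
        (hJ : (Sum.inl ⟨ℓ, hi⟩ : Idx P.p (M₀ P Ts)) ∈ JQ P.p (M₀ P Ts) (QL qv))
        (hℓM : ℓ.Coprime (M₀ P Ts * (QL qv).prod)) (g : G₀ P Ts × DelQ P r n),
        g * g * chiQ (χ₀ P Ts) (kapQ P n qv) (ZMod.unitOfCoprime ℓ hℓM) = 1 →
        β (heckeLocal.π _ _ _ _ (heckeAlgebra.T hℓ hℓN hℓS)) =
          (HQ Sg n qv hcop).tG (JQ P.p (M₀ P Ts) (QL qv)) g *
            (HQ Sg n qv hcop).tX (JQ P.p (M₀ P Ts) (QL qv)) (Sum.inl ⟨ℓ, hi⟩) hJ := by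
  classical
  have hp2 : P.p ≠ 2 := Sg.hp2
  have hqv' : ∀ i, (qv i).Prime ∧ qv i ∉ (P.Smin ∪ Ts : Finset ℕ) :=
    fun i => ⟨(hqv i).1, fun h => (hqv i).2.1 (Finset.mem_union_left _ h)⟩
  have hM : M₀ P Ts * (QL qv).prod = P.R0 * tp P (SQ P Ts qv) := M₀_mul_prod hH.hT hinj hqv'
  have hpS : P.p ∈ (↑(SQ P Ts qv ∪ P.Aux) : Set ℕ) :=
    Finset.mem_coe.2 (Finset.mem_union_left _ (goodTw_p_mem hS'))
  have hodd : Odd (Fintype.card (G₀ P Ts × DelQ P r n)) := by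
    rw [Fintype.card_prod]
    exact (odd_card_deltaGrp P.p hp2 _).mul (odd_card_deltaGrp P.p hp2 _)
  have hQp : ∀ q ∈ QL qv, q.Prime ∧ ¬ q ∣ M₀ P Ts ∧ q ≠ P.p := by
    intro q hq
    obtain ⟨i, rfl⟩ := (mem_QL qv).1 hq
    refine ⟨(hqv i).1, fun h => ?_, fun h => ?_⟩
    · exact (hqv i).2.1 (mem_SA_of_prime_dvd_M₀ hH.hT (hqv i).1 h)
    · exact (hqv' i).2 (Finset.mem_union_left _ (h ▸ P.hpSmin))
  obtain ⟨ℓ₀, hℓ₀, hℓ₀p, hℓ₀1, hℓ₀ne⟩ := hH.hne (lvlTw P (SQ P Ts qv))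
    (Nat.pos_of_ne_zero (NeZero.ne _)) {P.p}
  haveI : Fact ℓ₀.Prime := ⟨hℓ₀⟩
  have hχT : ∀ (hTM : tp P (SQ P Ts qv) ∣ M₀ P Ts * (QL qv).prod)
      (u : (ZMod (M₀ P Ts * (QL qv).prod))ˣ), ZMod.unitsMap hTM u = 1 →
      chiQ (χ₀ P Ts) (kapQ P n qv) u = 1 := by
    intro hTM u hu
    rw [chiQ_apply]
    refine Prod.ext ?_ ?_
    · refine χ₀_eq_one_of _ fun w => ?_
      have hwT : (((w : Nat.Primes) : ℕ)) ∈ Ts := mem_primesIn.1 w.2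
      refine unitsMap_unitsMap_eq_one_of_dvd (dvd_tp P (w : Nat.Primes).2
        (Finset.mem_union_left _ (Finset.mem_union_right _ hwT))
        (fun h => Finset.disjoint_left.1 hH.hT.disjSmin h hwT)) hTM _ _ u hu
    · refine kapQ_eq_one_of _ fun i => ?_
      refine unitsMap_unitsMap_eq_one_of_dvd (dvd_tp P (hqv i).1
        (Finset.mem_union_right _ (Finset.mem_image.2 ⟨i, Finset.mem_univ _, rfl⟩))
        (fun h => (hqv' i).2 (Finset.mem_union_left _ h))) hTM _ _ u hu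
  haveI : NeZero (P.R0 * tp P (SQ P Ts qv) * tp P (SQ P Ts qv)) := lvlTw_neZero P _
  obtain ⟨β, hβ⟩ := exists_betaQW (𝒪 := Sg.𝒪) P.p (χ₀ P Ts) (QL qv) hcop
    (kapQ P n qv) (tS Sg) (aS Sg) (N₁ := P.R0) (T := tp P (SQ P Ts qv))
    (S := (↑(SQ P Ts qv ∪ P.Aux) : Set ℕ)) hM hpS
    (squarefree_tpW P _) (coprime_R0_tp P hS') hχT
    (fun q hq h => Finset.mem_coe.2 (goodTw_primes_mem hS' q hq h))
    (Sg.D.θ (SQ P Ts qv) hS') hgood hodd hQp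
    (fun ℓ => hH.hθ (SQ P Ts qv) hS' ℓ.1 ℓ.2.1 ℓ.2.2.1 ℓ.2.2.2)
    (ℓ₀ := ℓ₀) (not_dvd_of_dvd_sub_one hℓ₀ hℓ₀1)
    (fun h => hℓ₀p (by rw [h]; simp))
    (int_dvd_sub_one hℓ₀ hℓ₀1)
    (by rw [add_comm]; exact hℓ₀ne)
  refine ⟨β, ?_⟩
  intro ℓ hℓ hℓN hℓS hi hJ hℓM g hg
  set ℓ' : Fermat.Agent.S43lib.B2.Bridge.GoodPrime (P.R0 * tp P (SQ P Ts qv) * tp P (SQ P Ts qv))
      (↑(SQ P Ts qv ∪ P.Aux) : Set ℕ) :=
    ⟨ℓ, hℓ, hℓN, hℓS⟩ with hℓ'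
  have h1 := hβ ℓ'
  set k := (Fintype.card (G₀ P Ts × DelQ P r n) - 1) / 2 with hk
  set v : (ZMod (M₀ P Ts * (QL qv).prod))ˣ := ZMod.unitOfCoprime ℓ hℓM with hv
  have hvℓ : ((v : (ZMod (M₀ P Ts * (QL qv).prod))ˣ) : ZMod (M₀ P Ts * (QL qv).prod)) =
      (ℓ : ZMod (M₀ P Ts * (QL qv).prod)) := ZMod.coe_unitOfCoprime ℓ hℓM
  have h2 := absLvl_tX_eq_tG (chiQ (χ₀ P Ts) (kapQ P n qv)) (idxQ P.p hcop)
    (evOf P.p (M₀ P Ts) (tQ (tS Sg) (aS Sg) (QL qv))) (evOf_C P.p (M₀ P Ts) _)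
    (JQ P.p (M₀ P Ts) (QL qv))
    (Fermat.Agent.S43lib.B2.Bridge.idxD P.p (dvd_sq_of_eq hM) k ℓ')
    (idxD_mem_JQ P.p (QL qv) hM hQp k ℓ') (v ^ k)
    (idxQ_idxD P.p (QL qv) hcop hM k ℓ' v hvℓ)
  have h3 : chiQ (χ₀ P Ts) (kapQ P n qv) (v ^ k) = g := by
    rw [map_pow]
    have e1 := Fermat.Agent.S43lib.B2.Bridge.pow_half_sq_mul hodd (chiQ (χ₀ P Ts) (kapQ P n qv) v)
    refine Fermat.Agent.S43lib.B2.Bridge.eq_of_sq_eq_of_odd_pow hodd ?_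
      (by rw [pow_right_comm, pow_card_eq_one, one_pow]) pow_card_eq_one
    exact mul_right_cancel (e1.trans hg.symm)
  rw [h3] at h2
  exact h1.trans (congrArg₂ (· * ·) h2 rfl)

set_option synthInstance.maxHeartbeats 400000 in
set_option maxHeartbeats 4000000 in
theorem exists_beta0 (hH : HubHyp Sg) (hgood : (H0 Sg).Good P.p) :
    ∃ β : (Sg.F Sg.S (Sg.hgoodS hH.hT)).R →ₐ[Sg.𝒪] T0 Sg,
      ∀ (ℓ : ℕ) (hℓ : ℓ.Prime) (hℓN : ¬ ℓ ∣ lvlTw P Sg.S)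
        (hℓS : ℓ ∉ (↑(Sg.S ∪ P.Aux) : Set ℕ)) (hi : ℓ.Prime ∧ ¬ ℓ ∣ M₀ P Ts ∧ ℓ ≠ P.p)
        (hℓM : ℓ.Coprime (M₀ P Ts)) (g : G₀ P Ts),
        g * g * χ₀ P Ts (ZMod.unitOfCoprime ℓ hℓM) = 1 →
        β (heckeLocal.π _ _ _ _ (heckeAlgebra.T hℓ hℓN hℓS)) =
          (H0 Sg).tG Set.univ g * (H0 Sg).tX Set.univ (Sum.inl ⟨ℓ, hi⟩) (Set.mem_univ _) := by
  classical
  have hp2 : P.p ≠ 2 := Sg.hp2
  have hS' : Sg.good Sg.S := Sg.hgoodS hH.hT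
  have hM : M₀ P Ts = P.R0 * tp P Sg.S := M₀_eq hH.hT
  have hpS : P.p ∈ (↑(Sg.S ∪ P.Aux) : Set ℕ) :=
    Finset.mem_coe.2 (Finset.mem_union_left _ (goodTw_p_mem hS'))
  have hodd : Odd (Fintype.card (G₀ P Ts)) := odd_card_deltaGrp P.p hp2 _
  obtain ⟨ℓ₀, hℓ₀, hℓ₀p, hℓ₀1, hℓ₀ne⟩ := hH.hne (lvlTw P Sg.S)
    (Nat.pos_of_ne_zero (NeZero.ne _)) {P.p}
  haveI : Fact ℓ₀.Prime := ⟨hℓ₀⟩
  have hχT : ∀ (hTM : tp P Sg.S ∣ M₀ P Ts) (u : (ZMod (M₀ P Ts))ˣ), ZMod.unitsMap hTM u = 1 →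
      χ₀ P Ts u = 1 := by
    intro hTM u hu
    refine χ₀_eq_one_of _ fun w => ?_
    have hwT : (((w : Nat.Primes) : ℕ)) ∈ Ts := mem_primesIn.1 w.2
    exact unitsMap_eq_one_of_dvd (dvd_tp P (w : Nat.Primes).2 (Finset.mem_union_right _ hwT)
      (fun h => Finset.disjoint_left.1 hH.hT.disjSmin h hwT)) hTM _ u hu
  haveI : NeZero (P.R0 * tp P Sg.S * tp P Sg.S) := lvlTw_neZero P _
  obtain ⟨β, hβ⟩ := exists_beta0W (𝒪 := Sg.𝒪) P.p (χ₀ P Ts)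
    (tS Sg) (N₁ := P.R0) (T₀ := tp P Sg.S) (S := (↑(Sg.S ∪ P.Aux) : Set ℕ)) hM hpS
    (squarefree_tpW P _) (coprime_R0_tp P hS') hχT
    (fun q hq h => Finset.mem_coe.2 (goodTw_primes_mem hS' q hq h))
    (Sg.D.θ Sg.S hS') hgood hodd
    (fun ℓ => hH.hθ Sg.S hS' ℓ.1 ℓ.2.1 ℓ.2.2.1 ℓ.2.2.2)
    (ℓ₀ := ℓ₀) (not_dvd_of_dvd_sub_one hℓ₀ hℓ₀1)
    (fun h => hℓ₀p (by rw [h]; simp))
    (int_dvd_sub_one hℓ₀ hℓ₀1)
    (by rw [add_comm]; exact hℓ₀ne)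
  refine ⟨β, ?_⟩
  intro ℓ hℓ hℓN hℓS hi hℓM g hg
  set ℓ' : Fermat.Agent.S43lib.B2.Bridge.GoodPrime (P.R0 * tp P Sg.S * tp P Sg.S)
    (↑(Sg.S ∪ P.Aux) : Set ℕ) := ⟨ℓ, hℓ, hℓN, hℓS⟩ with hℓ'
  have h1 := hβ ℓ'
  set k := (Fintype.card (G₀ P Ts) - 1) / 2 with hk
  set v : (ZMod (M₀ P Ts))ˣ := ZMod.unitOfCoprime ℓ hℓM with hv
  have hvℓ : ((v : (ZMod (M₀ P Ts))ˣ) : ZMod (M₀ P Ts)) = (ℓ : ZMod (M₀ P Ts)) :=
    ZMod.coe_unitOfCoprime ℓ hℓM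
  have hck : (ℓ ^ k).Coprime (M₀ P Ts) := Nat.Coprime.pow_left k hℓM
  have h2 := absLvl_tX_eq_tG (χ₀ P Ts) (idx₀ P.p (M₀ P Ts))
    (evOf P.p (M₀ P Ts) (𝒪 := Sg.𝒪) (tS Sg)) (evOf_C P.p (M₀ P Ts) _) Set.univ
    (Fermat.Agent.S43lib.B2.Bridge.idxD P.p (dvd_sq_of_eq₀ hM) k ℓ')
    (Set.mem_univ _) (ZMod.unitOfCoprime (ℓ ^ k) hck) rfl
  have h3 : χ₀ P Ts (ZMod.unitOfCoprime (ℓ ^ k) hck) = g := by
    have e0 : ZMod.unitOfCoprime (ℓ ^ k) hck = v ^ k := by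
      apply Fermat.Agent.S43lib.B2.Bridge.coe_unitOfCoprime_eq
      rw [Units.val_pow_eq_pow_val, hvℓ, Nat.cast_pow]
    rw [e0, map_pow]
    have e1 := Fermat.Agent.S43lib.B2.Bridge.pow_half_sq_mul hodd (χ₀ P Ts v)
    refine Fermat.Agent.S43lib.B2.Bridge.eq_of_sq_eq_of_odd_pow hodd ?_
      (by rw [pow_right_comm, pow_card_eq_one, one_pow]) pow_card_eq_one
    exact mul_right_cancel (e1.trans hg.symm)
  rw [h3] at h2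
  exact h1.trans (congrArg₂ (· * ·) h2 rfl)

end Fermat.Agent.S59lib.Hub
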