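-- Project H (S43), LAYER 2 of the interface, SECOND FORM (no local-global compatibility for `U_q`).
--
--   `IharaBlock`  ⇐  `LevelSystemBlock₂`  +  `IA.IABlock` (helper1)  +  the patching theorem
--   (`Patch/Trans.lean`)        [wiring: `Patch/Assemble2.lean`, theorem `iharaBlock_of_blocks₂`]
--
-- Difference with `LevelSystem` (`PatchIface.lean`): the diamond operators at the Taylor–Wiles primes
-- are NOT required to come from the Galois side.  The patching ring is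
-- `P' = Λ⟦IA.Var T h ⊕ Fin m⟧ = P̃⟦z_1,…,z_m⟧`; the variable `z_i` acts on the level-`n` module as the
-- Cayley transform `(δ_i − 1)/(δ_i + 1)` of a generator `δ_i` of the `i`-th diamond group (so that
-- inversion is `z ↦ −z`), the structure map `Λ⟦z⟧ → P'` is the CONSTANT inclusion, and the only link
-- with the Galois side is the TRACE relation: `z_i² = c n i` on the level-`n` module, with
-- `c n i ∈ 𝔪_P̃` (`= t/(4+t)`, `t = tr ρ_Q(σ_{q_i}) − 2`).
import Fermat.Agent.S43lib.PatchIface2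
import Fermat.Agent.S43lib.Iface
import Fermat.Agent.S43lib.Patch.Defs
import Fermat.Agent.S43lib.Patch.Spec
import Fermat.Agent.S43lib.IA.BlockDefs

set_option autoImplicit false
open WeierstrassCurve WeierstrassCurve.Affine WeierstrassCurve.Affine.Point

namespace Fermat.Agent.S59lib.Hub

open Fermat.Agent.S43lib

open IsLocalRing MvPowerSeries

/-- The data delivered by the modular side at a minimal level (second form). -/
structure LevelSystem₂ (Goal : Prop) : Type 1 where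
  /-- the coefficient ring -/
  𝒪 : Type
  [instCommRing𝒪 : CommRing 𝒪]
  [instIsDomain𝒪 : IsDomain 𝒪]
  [instIsLocalRing𝒪 : IsLocalRing 𝒪]
  [instIsNoetherianRing𝒪 : IsNoetherianRing 𝒪]
  [instIsAdicComplete𝒪 : IsAdicComplete (maximalIdeal 𝒪) 𝒪]
  ϖ : 𝒪
  ϖ_ne_zero : ϖ ≠ 0
  maximalIdeal_eq : maximalIdeal 𝒪 = Ideal.span {ϖ}
  isUnit_two : IsUnit (2 : 𝒪)
  /-- the base ring of the patching (in practice `𝒪[G_T]`) -/
  Λ : Type
  [instCommRingΛ : CommRing Λ]
  [instIsLocalRingΛ : IsLocalRing Λ]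
  [instIsNoetherianRingΛ : IsNoetherianRing Λ]
  [instIsAdicCompleteΛ : IsAdicComplete (maximalIdeal Λ) Λ]
  [instFiniteResidueFieldΛ : Finite (ResidueField Λ)]
  [instAlgebraΛ : Algebra 𝒪 Λ]
  /-- the auxiliary character and the trivial character -/
  χA : Λ →ₐ[𝒪] 𝒪
  χB : Λ →ₐ[𝒪] 𝒪
  ker_sup : RingHom.ker (χA : Λ →+* 𝒪) ⊔ Ideal.span {algebraMap 𝒪 Λ ϖ} =
    RingHom.ker (χB : Λ →+* 𝒪) ⊔ Ideal.span {algebraMap 𝒪 Λ ϖ}
  /-- the odd primes of the level -/
  T : Type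
  [instFintypeT : Fintype T]
  [instDecidableEqT : DecidableEq T]
  q₀ : T
  h : ℕ
  m : ℕ
  d : ℕ
  hm : 3 * Fintype.card T + h ≤ m
  hd : 0 < d
  D : T → IA.LocalDatum 𝒪 ϖ
  /-- the base level -/
  T0 : Type
  [instCommRingT0 : CommRing T0]
  [instAlgebraT0 : Algebra Λ T0]
  [instFiniteT0 : Module.Finite Λ T0]
  M0 : Type
  [instAddCommGroupM0 : AddCommGroup M0]
  [instModuleΛM0 : Module Λ M0]
  [instModuleT0M0 : Module T0 M0]
  [instIsScalarTowerM0 : IsScalarTower Λ T0 M0]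
  [instFiniteM0 : Module.Finite Λ M0]
  /-- the patching levels, over `P' = Λ⟦Var T h ⊕ Fin m⟧` -/
  L : ∀ n : ℕ, Patch.PatchLevel Λ m d (MvPowerSeries (IA.Var T h ⊕ Fin m) Λ) T0 M0 n
  /-- the structure map is the inclusion of the last `m` variables -/
  s_X : ∀ (n : ℕ) (i : Fin m),
    (L n).s (X i) = (X (Sum.inr i) : MvPowerSeries (IA.Var T h ⊕ Fin m) Λ)
  /-- the TRACE relation: `z_i²` comes from the Galois side -/
  c : ℕ → Fin m → MvPowerSeries (IA.Var T h) Λ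
  c_mem : ∀ (n : ℕ) (i : Fin m), c n i ∈ maximalIdeal (MvPowerSeries (IA.Var T h) Λ)
  sq_kill : ∀ (n : ℕ) (i : Fin m) (x : (L n).M),
    ((X (Sum.inr i) : MvPowerSeries (IA.Var T h ⊕ Fin m) Λ) ^ 2 -
      rename Sum.inl (c n i)) • x = 0
  /-- type `(χ, χ⁻¹)` after specialisation along `χA` -/
  killA : ∀ (n : ℕ) (r : T), ∀ t ∈ IA.relsA (h := h) D r, ∀ x : (L n).M,
    Patch.liftPS Λ (IA.Var T h ⊕ Fin m) (rename Sum.inl t) • x ∈
      (Patch.kerExt χA (IA.Var T h ⊕ Fin m) • ⊤ :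
        Submodule (MvPowerSeries (IA.Var T h ⊕ Fin m) Λ) (L n).M)
  /-- unipotent type after specialisation along `χB` -/
  killB : ∀ (n : ℕ) (r : T), ∀ t ∈ IA.relsB (h := h) D r, ∀ x : (L n).M,
    Patch.liftPS Λ (IA.Var T h ⊕ Fin m) (rename Sum.inl t) • x ∈
      (Patch.kerExt χB (IA.Var T h ⊕ Fin m) • ⊤ :
        Submodule (MvPowerSeries (IA.Var T h ⊕ Fin m) Λ) (L n).M)
  /-- the monodromy ideal at `q` on the base level (the ideal generated by the entries of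
  `ρ_∅(σ_q) − 1`; it does not depend on the choice of a basis) -/
  J₀ : Ideal T0
  e_mono : ∀ n : ℕ, J₀ ≤ Ideal.span (Set.range fun ij : Fin 2 × Fin 2 =>
    (L n).e (X (Sum.inl (Sum.inl (q₀, true, ij.1, ij.2))) :
      MvPowerSeries (IA.Var T h ⊕ Fin m) Λ))
  /-- READOUT -/
  readout : ∀ 𝔭 : Ideal T0, 𝔭.IsPrime →
    (RingHom.ker (χB : Λ →+* 𝒪)).map (algebraMap Λ T0) ≤ 𝔭 →
    algebraMap Λ T0 (algebraMap 𝒪 Λ ϖ) ∉ 𝔭 → J₀ ≤ 𝔭 →
    Goal

attribute [instance] LevelSystem₂.instCommRing𝒪 LevelSystem₂.instIsDomain𝒪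
  LevelSystem₂.instIsLocalRing𝒪 LevelSystem₂.instIsNoetherianRing𝒪
  LevelSystem₂.instIsAdicComplete𝒪
  LevelSystem₂.instCommRingΛ LevelSystem₂.instIsLocalRingΛ LevelSystem₂.instIsNoetherianRingΛ
  LevelSystem₂.instIsAdicCompleteΛ LevelSystem₂.instFiniteResidueFieldΛ LevelSystem₂.instAlgebraΛ
  LevelSystem₂.instFintypeT LevelSystem₂.instDecidableEqT LevelSystem₂.instCommRingT0
  LevelSystem₂.instAlgebraT0 LevelSystem₂.instFiniteT0 LevelSystem₂.instAddCommGroupM0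
  LevelSystem₂.instModuleΛM0 LevelSystem₂.instModuleT0M0 LevelSystem₂.instIsScalarTowerM0
  LevelSystem₂.instFiniteM0


end Fermat.Agent.S59lib.Hub
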