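-- Project H (S43), LAYER 3 of the interface: the purely algebraic output of the modular side.
--
--   `LevelSystemBlock₂`  ⇐  `ModLevelBlock`      [sorry-free: `Patch/Mod/Main.lean`]
--
-- `ModBase Goal` = the data that do not depend on the patching level: coefficients `𝒪`, `Λ = 𝒪[G_T]`
-- with its two augmentations, the local data at the primes of `T`, the base Hecke algebra `T0` acting
-- on the base module `M0`, the monodromy ideal `J₀` and the READOUT.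
-- `ModLevel Bs n` = what the modular side delivers at a set `Q_n` of `m` Taylor–Wiles primes
-- (`q ≡ 1 mod p^n`):
--   * `RΔ = Λ[Δ_Q]`, abstractly: a complete local `Λ`-algebra generated by units `δ_i` of order
--     dividing `p^(a_i)` (`n ≤ a_i + 1`) with the universal property of the group ring;
--   * a complete local `Λ`-algebra `B` (the Hecke algebra `𝕋_Q`) with `ι : RΔ → B`, acting on `M`
--     (`= M_Q`), which is FREE of rank `d` over `RΔ`;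
--   * the Galois side: a ring map `γ : 𝒪⟦IA.Var T h⟧ → B` (images of the entries of `ρ_Q(Φ_r) − φ₀`,
--     `ρ_Q(Σ_r) − 1` and of `h` further generators), with `det`, `trace` and tame relations at the
--     primes of `T` (equalities in `B`), and the TRACE relation at the primes of `Q`:
--     `δ_i + δ_i⁻¹ − 2 ∈ γ(𝔪)`;
--   * CONTROL: `v : M → M0` surjective with kernel `(δ_i − 1) M`, equivariant for `e₀ : B → T0`, and the
--     monodromy ideal `J₀` is generated by the images of the entries of `Σ_{q₀} − 1`.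
import Fermat.Agent.S43lib.PatchIfaceMod
import Fermat.Agent.S43lib.Iface
import Fermat.Agent.S43lib.IA.BlockDefs

set_option autoImplicit false
open WeierstrassCurve WeierstrassCurve.Affine WeierstrassCurve.Affine.Point

namespace Fermat.Agent.S59lib.Hub

open Fermat.Agent.S43lib

open IsLocalRing MvPowerSeries

/-- The level-independent data of the modular side. -/
structure ModBase (Goal : Prop) : Type 1 where
  /-- the coefficient ring -/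
  𝒪 : Type
  [instCommRing𝒪 : CommRing 𝒪]
  [instIsDomain𝒪 : IsDomain 𝒪]
  [instIsLocalRing𝒪 : IsLocalRing 𝒪]
  [instIsNoetherianRing𝒪 : IsNoetherianRing 𝒪]
  [instIsAdicComplete𝒪 : IsAdicComplete (maximalIdeal 𝒪) 𝒪]
  ϖ : 𝒪
  ϖ_ne_zero : ϖ ≠ 0
  maximalIdeal_eq : maximalIdeal 𝒪 = Ideal.span {ϖ}
  isUnit_two : IsUnit (2 : 𝒪)
  /-- the base ring `𝒪[G_T]` -/
  Λ : Type
  [instCommRingΛ : CommRing Λ]
  [instIsLocalRingΛ : IsLocalRing Λ]
  [instIsNoetherianRingΛ : IsNoetherianRing Λ]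
  [instIsAdicCompleteΛ : IsAdicComplete (maximalIdeal Λ) Λ]
  [instFiniteResidueFieldΛ : Finite (ResidueField Λ)]
  [instAlgebraΛ : Algebra 𝒪 Λ]
  /-- the residue characteristic -/
  p : ℕ
  p_prime : p.Prime
  p_mem : (p : Λ) ∈ maximalIdeal Λ
  χA : Λ →ₐ[𝒪] 𝒪
  χB : Λ →ₐ[𝒪] 𝒪
  ker_sup : RingHom.ker (χA : Λ →+* 𝒪) ⊔ Ideal.span {algebraMap 𝒪 Λ ϖ} =
    RingHom.ker (χB : Λ →+* 𝒪) ⊔ Ideal.span {algebraMap 𝒪 Λ ϖ}
  /-- the odd primes of the level -/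
  T : Type
  [instFintypeT : Fintype T]
  [instDecidableEqT : DecidableEq T]
  q₀ : T
  h : ℕ
  m : ℕ
  d : ℕ
  hm : 3 * Fintype.card T + h ≤ m
  hd : 0 < d
  D : T → IA.LocalDatum 𝒪 ϖ
  /-- the prime `r` as a natural number -/
  rN : T → ℕ
  rN_pos : ∀ r, 1 ≤ rN r
  rN_modEq : ∀ r, rN r ≡ 1 [MOD p]
  D_rr : ∀ r, (D r).rr = (rN r : 𝒪)
  ζ_pow : ∀ r, ((D r).ζ : 𝒪) ^ p = 1
  /-- the diamond `⟨σ_r⟩^{1/2} ∈ G_T ⊆ Λˣ` of the chosen generator of tame inertia at `r` -/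
  g : T → Λˣ
  χA_g : ∀ r, χA (g r) = ((D r).ζ : 𝒪)
  χB_g : ∀ r, χB (g r) = 1
  /-- the base level -/
  T0 : Type
  [instCommRingT0 : CommRing T0]
  [instAlgebraT0 : Algebra Λ T0]
  [instFiniteT0 : Module.Finite Λ T0]
  M0 : Type
  [instAddCommGroupM0 : AddCommGroup M0]
  [instModuleΛM0 : Module Λ M0]
  [instModuleT0M0 : Module T0 M0]
  [instIsScalarTowerM0 : IsScalarTower Λ T0 M0]
  [instFiniteM0 : Module.Finite Λ M0]
  /-- the monodromy ideal at `q` -/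
  J₀ : Ideal T0
  /-- READOUT -/
  readout : ∀ 𝔭 : Ideal T0, 𝔭.IsPrime →
    (RingHom.ker (χB : Λ →+* 𝒪)).map (algebraMap Λ T0) ≤ 𝔭 →
    algebraMap Λ T0 (algebraMap 𝒪 Λ ϖ) ∉ 𝔭 → J₀ ≤ 𝔭 →
    Goal

attribute [instance] ModBase.instCommRing𝒪 ModBase.instIsDomain𝒪
  ModBase.instIsLocalRing𝒪 ModBase.instIsNoetherianRing𝒪 ModBase.instIsAdicComplete𝒪
  ModBase.instCommRingΛ ModBase.instIsLocalRingΛ ModBase.instIsNoetherianRingΛ
  ModBase.instIsAdicCompleteΛ ModBase.instFiniteResidueFieldΛ ModBase.instAlgebraΛ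
  ModBase.instFintypeT ModBase.instDecidableEqT ModBase.instCommRingT0
  ModBase.instAlgebraT0 ModBase.instFiniteT0 ModBase.instAddCommGroupM0
  ModBase.instModuleΛM0 ModBase.instModuleT0M0 ModBase.instIsScalarTowerM0
  ModBase.instFiniteM0

/-- The output of the modular side at a set of `m` Taylor–Wiles primes of depth `n`. -/
structure ModLevel {Goal : Prop} (Bs : ModBase Goal) (n : ℕ) : Type 1 where
  /-- the exponents of the diamond groups -/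
  a : Fin Bs.m → ℕ
  hna : ∀ i, n ≤ a i + 1
  /-- the group ring `Λ[Δ_Q]` -/
  RΔ : Type
  [instCommRingRΔ : CommRing RΔ]
  [instIsLocalRingRΔ : IsLocalRing RΔ]
  [instIsAdicCompleteRΔ : IsAdicComplete (maximalIdeal RΔ) RΔ]
  [instAlgebraRΔ : Algebra Bs.Λ RΔ]
  RΔ_local : ∀ x ∈ maximalIdeal Bs.Λ, algebraMap Bs.Λ RΔ x ∈ maximalIdeal RΔ
  δ : Fin Bs.m → RΔˣ
  δ_pow : ∀ i, (δ i : RΔ) ^ Bs.p ^ a i = 1
  δ_gen : Algebra.adjoin Bs.Λ (Set.range fun i => (δ i : RΔ)) = ⊤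
  lift : ∀ (C : Type) [CommRing C] [Algebra Bs.Λ C] (u : Fin Bs.m → C),
    (∀ i, u i ^ Bs.p ^ a i = 1) → ∃ ψ : RΔ →ₐ[Bs.Λ] C, ∀ i, ψ (δ i) = u i
  /-- the Hecke algebra `𝕋_Q` -/
  B : Type
  [instCommRingB : CommRing B]
  [instIsLocalRingB : IsLocalRing B]
  [instIsAdicCompleteB : IsAdicComplete (maximalIdeal B) B]
  [instAlgebraB : Algebra Bs.Λ B]
  ι : RΔ →ₐ[Bs.Λ] B
  ι_local : ∀ x ∈ maximalIdeal RΔ, ι x ∈ maximalIdeal B
  /-- the Hecke module `M_Q` -/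
  M : Type
  [instAddCommGroupM : AddCommGroup M]
  [instModuleM : Module B M]
  b : Fin Bs.d → M
  free : ∀ x : M, ∃! c : Fin Bs.d → RΔ, x = ∑ j, ι (c j) • b j
  /-- the Galois side -/
  γ : MvPowerSeries (IA.Var Bs.T Bs.h) Bs.𝒪 →+* B
  γ_C : ∀ c : Bs.𝒪, γ (C c) = algebraMap Bs.Λ B (algebraMap Bs.𝒪 Bs.Λ c)
  γ_mem : ∀ v, γ (X v) ∈ maximalIdeal B
  det_Phi : ∀ r, ((IA.PhiMat (h := Bs.h) Bs.D r).map γ).det = γ (C (Bs.D r).d₀)
  det_Sig : ∀ r, ((IA.SigMat Bs.𝒪 Bs.h r).map γ).det = 1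
  tr_Sig : ∀ r, ((IA.SigMat Bs.𝒪 Bs.h r).map γ).trace =
    algebraMap Bs.Λ B (Bs.g r) + algebraMap Bs.Λ B ((Bs.g r)⁻¹ : Bs.Λˣ)
  tame : ∀ r, (IA.PhiMat (h := Bs.h) Bs.D r).map γ * (IA.SigMat Bs.𝒪 Bs.h r).map γ =
    ((IA.SigMat Bs.𝒪 Bs.h r).map γ) ^ Bs.rN r * (IA.PhiMat (h := Bs.h) Bs.D r).map γ
  tr_Q : ∀ i, ∃ f ∈ maximalIdeal (MvPowerSeries (IA.Var Bs.T Bs.h) Bs.𝒪),
    γ f = ι (δ i) + ι ((δ i)⁻¹ : RΔˣ) - 2
  /-- CONTROL -/
  e₀ : B →ₐ[Bs.Λ] Bs.T0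
  v : M →+ Bs.M0
  v_smul : ∀ (r : B) (x : M), v (r • x) = e₀ r • v x
  v_surjective : Function.Surjective v
  ker_v : ∀ x : M, v x = 0 ↔
    x ∈ (Ideal.span (Set.range fun i => ι (δ i) - 1)) • (⊤ : Submodule B M)
  mono : Bs.J₀ ≤ Ideal.span (Set.range fun ij : Fin 2 × Fin 2 =>
    e₀ (γ (X (Sum.inl (Bs.q₀, true, ij.1, ij.2)))))

attribute [instance] ModLevel.instCommRingRΔ ModLevel.instIsLocalRingRΔ
  ModLevel.instIsAdicCompleteRΔ ModLevel.instAlgebraRΔ ModLevel.instCommRingB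
  ModLevel.instIsLocalRingB ModLevel.instIsAdicCompleteB ModLevel.instAlgebraB
  ModLevel.instAddCommGroupM ModLevel.instModuleM


end Fermat.Agent.S59lib.Hub
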