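-- Project H (S43), Layer 3: from a `ModLevel` to a `PatchLevel` over `P' = Λ⟦IA.Var T h ⊕ Fin m⟧`.
--
--  * `z_i = (δ_i − 1)/(δ_i + 1) ∈ 𝔪_{RΔ}` (Cayley coordinates), `κ₀ : Λ⟦z⟧ ↠ RΔ`;
--  * `ev : P' → B`, `X_v ↦ γ(X_v)`, `z_i ↦ ι(z_i)`; the `B`-module `M` becomes a `P'`-module `PM`;
--  * `M` is generated by `b` over `Λ⟦z⟧` with relations in `𝔪^n` (`ker_cayley_le`);
--  * CONTROL: the kernel of `v` is `(z_1,…,z_m) M`.
import Mathlib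
import Fermat.Agent.S59lib.Hub.PatchIfaceMod
import Fermat.Agent.S43lib.Patch.Mod.Level
import Fermat.Agent.TeamA.MvPS
import Fermat.Agent.S43lib.PatchIfaceMod
import Fermat.Agent.S43lib.Patch.Defs
import Fermat.Agent.S43lib.Patch.Mod.Ext
import Fermat.Agent.S43lib.Patch.Mod.Cayley

set_option autoImplicit false

namespace Fermat.Agent.S59lib.Hub

open Fermat.Agent.S43lib Fermat.Agent.S43lib.Patch Fermat.Agent.S43lib.Patch.Mod

open IsLocalRing MvPowerSeries Fermat.Agent.TeamA Fermat.Agent.S43lib.Patch.Mod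

namespace Patch.Mod

section General

/-- Membership in `(a_1,…,a_k) M`. -/
theorem mem_span_range_smul_top_iff {R : Type*} [CommRing R] {M : Type*} [AddCommGroup M]
    [Module R M] {κ : Type*} [Fintype κ] (a : κ → R) (x : M) :
    x ∈ (Ideal.span (Set.range a) • (⊤ : Submodule R M)) ↔ ∃ y : κ → M, x = ∑ i, a i • y i := by
  constructor
  · intro hx
    refine Submodule.smul_induction_on hx ?_ ?_
    · intro r hr n _
      obtain ⟨c, rfl⟩ := (Ideal.mem_span_range_iff_exists_fun).mp hr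
      refine ⟨fun i => c i • n, ?_⟩
      rw [Finset.sum_smul]
      refine Finset.sum_congr rfl fun i _ => ?_
      rw [mul_comm, mul_smul]
    · rintro x y ⟨u, rfl⟩ ⟨w, rfl⟩
      refine ⟨fun i => u i + w i, ?_⟩
      rw [← Finset.sum_add_distrib]
      refine Finset.sum_congr rfl fun i _ => ?_
      rw [smul_add]
  · rintro ⟨y, rfl⟩
    refine Submodule.sum_mem _ fun i _ => ?_
    exact Submodule.smul_mem_smul (Ideal.subset_span ⟨i, rfl⟩) Submodule.mem_top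

/-- In a local ring with `p ∈ 𝔪`, an element with `w ^ (p ^ a) = 1` is `≡ 1 mod 𝔪`. -/
theorem sub_one_mem_of_pow_p_pow_eq_one {S : Type*} [CommRing S] [IsLocalRing S] {p : ℕ}
    (hp : p.Prime) (hpS : (p : S) ∈ maximalIdeal S) {w : S} {a : ℕ} (hw : w ^ p ^ a = 1) :
    w - 1 ∈ maximalIdeal S := by
  haveI : Fact p.Prime := ⟨hp⟩
  have h0 : ((p : ℕ) : ResidueField S) = 0 := by
    have : residue S ((p : ℕ) : S) = 0 := (residue_eq_zero_iff _).mpr hpS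
    rwa [map_natCast] at this
  haveI : CharP (ResidueField S) p := (CharP.charP_iff_prime_eq_zero hp).2 h0
  have h1 : (residue S w - 1) ^ p ^ a = 0 := by
    rw [sub_pow_char_pow, one_pow, ← map_pow, hw, map_one, sub_self]
  have h2 : residue S w - 1 = 0 := (pow_eq_zero_iff (pow_ne_zero a hp.ne_zero)).mp h1
  rw [← residue_eq_zero_iff, map_sub, map_one]
  exact h2

/-- In a local ring where `2` is a unit, `w ≡ 1 mod 𝔪` ⇒ `w + 1` is a unit. -/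
theorem isUnit_add_one_of_sub_one_mem {S : Type*} [CommRing S] [IsLocalRing S]
    (h2 : IsUnit (2 : S)) {w : S} (hw : w - 1 ∈ maximalIdeal S) : IsUnit (w + 1) := by
  by_contra hcon
  have hm : w + 1 ∈ maximalIdeal S := (mem_maximalIdeal _).mpr hcon
  have h3 := Ideal.sub_mem _ hm hw
  have e : w + 1 - (w - 1) = 2 := by ring
  rw [e] at h3
  exact ((mem_maximalIdeal _).mp h3) h2

end General

end Patch.Mod

variable {Goal : Prop} {Bs : ModBase Goal}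

namespace ModBase

variable (Bs)

theorem algebraMap_ϖ_mem : algebraMap Bs.𝒪 Bs.Λ Bs.ϖ ∈ maximalIdeal Bs.Λ := by
  rw [mem_maximalIdeal, mem_nonunits_iff]
  intro hu
  have h1 : IsUnit (Bs.χA (algebraMap Bs.𝒪 Bs.Λ Bs.ϖ)) := hu.map Bs.χA
  rw [AlgHom.commutes, Algebra.algebraMap_self, RingHom.id_apply] at h1
  have h2 : Bs.ϖ ∈ maximalIdeal Bs.𝒪 := by
    rw [Bs.maximalIdeal_eq]
    exact Ideal.subset_span rfl
  exact ((mem_maximalIdeal _).mp h2) h1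

theorem algebraMap_mem {c : Bs.𝒪} (hc : c ∈ maximalIdeal Bs.𝒪) :
    algebraMap Bs.𝒪 Bs.Λ c ∈ maximalIdeal Bs.Λ := by
  rw [Bs.maximalIdeal_eq, Ideal.mem_span_singleton] at hc
  obtain ⟨c', rfl⟩ := hc
  rw [map_mul]
  exact Ideal.mul_mem_right _ _ Bs.algebraMap_ϖ_mem

theorem isUnit_two_Λ : IsUnit (2 : Bs.Λ) := by
  have := Bs.isUnit_two.map (algebraMap Bs.𝒪 Bs.Λ)
  rwa [map_ofNat] at this

end ModBase

namespace ModLevel

variable {n : ℕ} (Lv : ModLevel Bs n)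

theorem isUnit_two_RΔ : IsUnit (2 : Lv.RΔ) := by
  have := Bs.isUnit_two_Λ.map (algebraMap Bs.Λ Lv.RΔ)
  rwa [map_ofNat] at this

theorem p_mem_RΔ : ((Bs.p : ℕ) : Lv.RΔ) ∈ maximalIdeal Lv.RΔ := by
  have := Lv.RΔ_local _ Bs.p_mem
  rwa [map_natCast] at this

theorem δ_sub_one_mem (i : Fin Bs.m) : (Lv.δ i : Lv.RΔ) - 1 ∈ maximalIdeal Lv.RΔ :=
  sub_one_mem_of_pow_p_pow_eq_one Bs.p_prime Lv.p_mem_RΔ (Lv.δ_pow i)

theorem isUnit_δ_add_one (i : Fin Bs.m) : IsUnit ((Lv.δ i : Lv.RΔ) + 1) :=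
  isUnit_add_one_of_sub_one_mem Lv.isUnit_two_RΔ (Lv.δ_sub_one_mem i)

/-- The Cayley coordinate `z_i = (δ_i − 1)/(δ_i + 1)`. -/
noncomputable def z (i : Fin Bs.m) : Lv.RΔ :=
  ((Lv.δ i : Lv.RΔ) - 1) * (((Lv.isUnit_δ_add_one i).unit⁻¹ : Lv.RΔˣ) : Lv.RΔ)

theorem z_mul (i : Fin Bs.m) : Lv.z i * ((Lv.δ i : Lv.RΔ) + 1) = (Lv.δ i : Lv.RΔ) - 1 := by
  unfold z
  rw [mul_assoc]
  have : (((Lv.isUnit_δ_add_one i).unit⁻¹ : Lv.RΔˣ) : Lv.RΔ) * ((Lv.δ i : Lv.RΔ) + 1) = 1 := by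
    have := (Lv.isUnit_δ_add_one i).unit.inv_mul
    rwa [IsUnit.unit_spec] at this
  rw [this, mul_one]

theorem z_mem (i : Fin Bs.m) : Lv.z i ∈ maximalIdeal Lv.RΔ :=
  Ideal.mul_mem_right _ _ (Lv.δ_sub_one_mem i)

/-- The Cayley presentation `Λ⟦z⟧ → RΔ`. -/
noncomputable def κ₀ : MvPowerSeries (Fin Bs.m) Bs.Λ →ₐ[Bs.Λ] Lv.RΔ :=
  evalPS (R := Bs.Λ) Lv.z Lv.z_mem

theorem κ₀_X (i : Fin Bs.m) : Lv.κ₀ (X i) = Lv.z i := evalPS_X _ _ i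

theorem κ₀_uS (i : Fin Bs.m) : Lv.κ₀ (uS i) = Lv.δ i :=
  evalPS_uS Lv.δ Lv.z Lv.z_mul Lv.z_mem i (Lv.isUnit_δ_add_one i)

theorem κ₀_surjective : Function.Surjective Lv.κ₀ := by
  rw [← AlgHom.range_eq_top, eq_top_iff, ← Lv.δ_gen]
  refine Algebra.adjoin_le ?_
  rintro _ ⟨i, rfl⟩
  exact ⟨uS i, Lv.κ₀_uS i⟩

/-- The kernel of the Cayley presentation lies in `𝔪^n`. -/
theorem ker_κ₀_le (f : MvPowerSeries (Fin Bs.m) Bs.Λ) (hf : Lv.κ₀ f = 0) :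
    f ∈ maximalIdeal (MvPowerSeries (Fin Bs.m) Bs.Λ) ^ n :=
  ker_cayley_le Bs.p_mem Bs.isUnit_two_Λ Lv.δ Lv.a Lv.z Lv.z_mul Lv.z_mem
    (fun C _ _ u hu => Lv.lift C u hu) n Lv.hna f hf

/-- The images of the variables of `P'` in `B`. -/
noncomputable def evVar : IA.Var Bs.T Bs.h ⊕ Fin Bs.m → Lv.B :=
  Sum.elim (fun v => Lv.γ (X v)) (fun i => Lv.ι (Lv.z i))

theorem evVar_mem (s : IA.Var Bs.T Bs.h ⊕ Fin Bs.m) : Lv.evVar s ∈ maximalIdeal Lv.B := by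
  rcases s with v | i
  · exact Lv.γ_mem v
  · exact Lv.ι_local _ (Lv.z_mem i)

/-- The evaluation `P' → B`. -/
noncomputable def ev : MvPowerSeries (IA.Var Bs.T Bs.h ⊕ Fin Bs.m) Bs.Λ →ₐ[Bs.Λ] Lv.B :=
  evalPS (R := Bs.Λ) Lv.evVar Lv.evVar_mem

theorem ev_X_inl (v : IA.Var Bs.T Bs.h) :
    Lv.ev (X (Sum.inl v) : MvPowerSeries (IA.Var Bs.T Bs.h ⊕ Fin Bs.m) Bs.Λ) = Lv.γ (X v) :=
  evalPS_X _ _ _

theorem ev_X_inr (i : Fin Bs.m) :
    Lv.ev (X (Sum.inr i) : MvPowerSeries (IA.Var Bs.T Bs.h ⊕ Fin Bs.m) Bs.Λ) = Lv.ι (Lv.z i) :=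
  evalPS_X _ _ _

/-- `ev ∘ (Λ⟦z⟧ ↪ P') = ι ∘ κ₀`. -/
theorem ev_rename_inr (f : MvPowerSeries (Fin Bs.m) Bs.Λ) :
    Lv.ev (rename Sum.inr f : MvPowerSeries (IA.Var Bs.T Bs.h ⊕ Fin Bs.m) Bs.Λ) =
      Lv.ι (Lv.κ₀ f) := by
  have h : (Lv.ev.comp (rename Sum.inr :
      MvPowerSeries (Fin Bs.m) Bs.Λ →ₐ[Bs.Λ] MvPowerSeries (IA.Var Bs.T Bs.h ⊕ Fin Bs.m) Bs.Λ)) =
      Lv.ι.comp Lv.κ₀ := by
    refine algHom_ext_of_local _ _ ?_ ?_
    · intro i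
      rw [AlgHom.comp_apply, rename_X, ev_X_inr]
      exact Lv.ι_local _ (Lv.z_mem i)
    · intro i
      rw [AlgHom.comp_apply, rename_X, ev_X_inr, AlgHom.comp_apply, κ₀_X]
  exact congrArg (fun φ => φ f) h

/-- `M` as a module over `P'` through `ev`. -/
def PM (Lv : ModLevel Bs n) : Type := Lv.M

noncomputable instance : AddCommGroup Lv.PM := inferInstanceAs (AddCommGroup Lv.M)

noncomputable instance : Module (MvPowerSeries (IA.Var Bs.T Bs.h ⊕ Fin Bs.m) Bs.Λ) Lv.PM :=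
  Module.compHom Lv.M (Lv.ev : MvPowerSeries (IA.Var Bs.T Bs.h ⊕ Fin Bs.m) Bs.Λ →+* Lv.B)

/-- The identity `M → PM`. -/
def PM.of (x : Lv.M) : Lv.PM := x

/-- The identity `PM → M`. -/
def PM.out (x : Lv.PM) : Lv.M := x

theorem PM.smul_def (r : MvPowerSeries (IA.Var Bs.T Bs.h ⊕ Fin Bs.m) Bs.Λ) (x : Lv.PM) :
    r • x = PM.of Lv (Lv.ev r • PM.out Lv x) := rfl

theorem PM.of_out (x : Lv.PM) : PM.of Lv (PM.out Lv x) = x := rfl

theorem PM.out_of (x : Lv.M) : PM.out Lv (PM.of Lv x) = x := rfl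

theorem PM.of_sum {κ : Type*} (t : Finset κ) (f : κ → Lv.M) :
    PM.of Lv (∑ i ∈ t, f i) = ∑ i ∈ t, PM.of Lv (f i) := rfl

theorem PM.out_sum {κ : Type*} (t : Finset κ) (f : κ → Lv.PM) :
    PM.out Lv (∑ i ∈ t, f i) = ∑ i ∈ t, PM.out Lv (f i) := rfl

theorem PM.of_injective : Function.Injective (PM.of Lv) := fun _ _ h => h

theorem PM.out_zero : PM.out Lv (0 : Lv.PM) = 0 := rfl

theorem PM.smul_rename_inr (f : MvPowerSeries (Fin Bs.m) Bs.Λ) (x : Lv.PM) :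
    (rename Sum.inr f : MvPowerSeries (IA.Var Bs.T Bs.h ⊕ Fin Bs.m) Bs.Λ) • x =
      PM.of Lv (Lv.ι (Lv.κ₀ f) • PM.out Lv x) := by
  rw [PM.smul_def, ev_rename_inr]

theorem b_span' (x : Lv.M) : ∃ c : Fin Bs.d → MvPowerSeries (Fin Bs.m) Bs.Λ,
    x = ∑ j, Lv.ι (Lv.κ₀ (c j)) • Lv.b j := by
  obtain ⟨c, hc, -⟩ := Lv.free x
  choose c' hc' using fun j => Lv.κ₀_surjective (c j)
  exact ⟨c', by simp only [hc']; exact hc⟩

theorem b_rel' (c : Fin Bs.d → MvPowerSeries (Fin Bs.m) Bs.Λ)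
    (h : ∑ j, Lv.ι (Lv.κ₀ (c j)) • Lv.b j = 0) (j : Fin Bs.d) :
    c j ∈ maximalIdeal (MvPowerSeries (Fin Bs.m) Bs.Λ) ^ n := by
  obtain ⟨c₀, -, huniq⟩ := Lv.free 0
  have h1 : (fun j => Lv.κ₀ (c j)) = c₀ := huniq _ h.symm
  have h2 : (fun _ => (0 : Lv.RΔ)) = c₀ := huniq _ (by simp)
  have h3 : Lv.κ₀ (c j) = 0 := by
    have := congrFun (h1.trans h2.symm) j
    exact this
  exact Lv.ker_κ₀_le _ h3

theorem ι_δ_sub_one (i : Fin Bs.m) :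
    Lv.ι (Lv.δ i) - 1 = Lv.ι (Lv.z i) * Lv.ι ((Lv.δ i : Lv.RΔ) + 1) := by
  rw [← map_mul, Lv.z_mul, map_sub, map_one]

theorem ι_z (i : Fin Bs.m) :
    Lv.ι (Lv.z i) = (Lv.ι (Lv.δ i) - 1) *
      Lv.ι (((Lv.isUnit_δ_add_one i).unit⁻¹ : Lv.RΔˣ) : Lv.RΔ) := by
  unfold z
  rw [map_mul, map_sub, map_one]

theorem ker_v' (x : Lv.M) : Lv.v x = 0 ↔ ∃ y : Fin Bs.m → Lv.M, x = ∑ i, Lv.ι (Lv.z i) • y i := by
  rw [Lv.ker_v, mem_span_range_smul_top_iff]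
  constructor
  · rintro ⟨y, rfl⟩
    refine ⟨fun i => Lv.ι ((Lv.δ i : Lv.RΔ) + 1) • y i, ?_⟩
    refine Finset.sum_congr rfl fun i _ => ?_
    rw [ι_δ_sub_one, mul_smul]
  · rintro ⟨y, rfl⟩
    refine ⟨fun i => Lv.ι (((Lv.isUnit_δ_add_one i).unit⁻¹ : Lv.RΔˣ) : Lv.RΔ) • y i, ?_⟩
    refine Finset.sum_congr rfl fun i _ => ?_
    rw [ι_z, mul_smul]

/-- **The patching level attached to a `ModLevel`.** -/
noncomputable def patchLevel : Patch.PatchLevel Bs.Λ Bs.m Bs.d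
    (MvPowerSeries (IA.Var Bs.T Bs.h ⊕ Fin Bs.m) Bs.Λ) Bs.T0 Bs.M0 n where
  s := rename Sum.inr
  s_X_mem := fun i => by
    rw [rename_X, mem_maximalIdeal_mvPowerSeries_iff, constantCoeff_X]
    exact zero_mem _
  M := Lv.PM
  b := fun j => PM.of Lv (Lv.b j)
  b_span := fun x => by
    obtain ⟨c, hc⟩ := Lv.b_span' (PM.out Lv x)
    refine ⟨c, ?_⟩
    simp only [PM.smul_rename_inr, PM.out_of]
    rw [← PM.of_sum, ← hc, PM.of_out]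
  b_rel := fun c hc j => by
    refine Lv.b_rel' c ?_ j
    simp only [PM.smul_rename_inr, PM.out_of] at hc
    rw [← PM.of_sum] at hc
    exact hc
  e := Lv.e₀.comp Lv.ev
  v := Lv.v
  v_smul := fun r x => by
    rw [PM.smul_def]
    exact Lv.v_smul (Lv.ev r) (PM.out Lv x)
  v_surjective := Lv.v_surjective
  ker_v := fun x => by
    rw [mem_span_range_smul_top_iff]
    have h := Lv.ker_v' (PM.out Lv x)
    refine h.trans ?_
    constructor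
    · rintro ⟨y, hy⟩
      refine ⟨fun i => PM.of Lv (y i), ?_⟩
      simp only [rename_X, PM.smul_def, ev_X_inr, PM.out_of]
      rw [← PM.of_sum, ← hy, PM.of_out]
    · rintro ⟨y, hy⟩
      refine ⟨fun i => PM.out Lv (y i), ?_⟩
      simp only [rename_X, PM.smul_def, ev_X_inr] at hy
      rw [← PM.of_sum] at hy
      exact hy

theorem patchLevel_s :
    Lv.patchLevel.s = (rename Sum.inr :
      MvPowerSeries (Fin Bs.m) Bs.Λ →ₐ[Bs.Λ] MvPowerSeries (IA.Var Bs.T Bs.h ⊕ Fin Bs.m) Bs.Λ) :=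
  rfl

theorem patchLevel_e : Lv.patchLevel.e = Lv.e₀.comp Lv.ev := rfl

end ModLevel

end Fermat.Agent.S59lib.Hub
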