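-- Project H (S43), Layer 3: the relations on the `P'`-module attached to a `ModLevel`:
--  * `ev (liftPS (rename inl t)) = γ t`;
--  * the TRACE relation `z_i² = c_i` on `PM`, `c_i = t_i/(4 + t_i)`;
--  * `relsA`/`relsB` kill `PM` modulo `ker χA`/`ker χB`.
import Mathlib
import Fermat.Agent.S59lib.Hub.PatchModLevel
import Fermat.Agent.S43lib.Patch.Mod.Kill
import Fermat.Agent.TeamA.MvPS
import Fermat.Agent.S43lib.PatchIfaceMod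
import Fermat.Agent.S43lib.Patch.Defs
import Fermat.Agent.S43lib.Patch.Spec
import Fermat.Agent.S43lib.Patch.Mod.Ext
import Fermat.Agent.S43lib.Patch.Mod.Cayley
import Fermat.Agent.S43lib.Patch.Mod.Level
import Fermat.Agent.S43lib.Patch.Mod.Rels

set_option autoImplicit false

namespace Fermat.Agent.S59lib.Hub

open Fermat.Agent.S43lib Fermat.Agent.S43lib.Patch Fermat.Agent.S43lib.Patch.Mod

open IsLocalRing MvPowerSeries Fermat.Agent.TeamA Fermat.Agent.S43lib.Patch.Mod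

variable {Goal : Prop} {Bs : ModBase Goal}

namespace ModLevel

variable {n : ℕ} (Lv : ModLevel Bs n)

/-- The `𝒪`-algebra structure of `B`. -/
@[reducible] noncomputable def algebra𝒪B : Algebra Bs.𝒪 Lv.B :=
  ((algebraMap Bs.Λ Lv.B).comp (algebraMap Bs.𝒪 Bs.Λ)).toAlgebra

attribute [local instance] algebra𝒪B

instance isScalarTower𝒪B : IsScalarTower Bs.𝒪 Bs.Λ Lv.B :=
  IsScalarTower.of_algebraMap_eq fun _ => rfl

/-- `γ` as an `𝒪`-algebra map. -/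
noncomputable def γA : MvPowerSeries (IA.Var Bs.T Bs.h) Bs.𝒪 →ₐ[Bs.𝒪] Lv.B :=
  { Lv.γ with
    commutes' := fun c => Lv.γ_C c }

theorem γA_apply (t : MvPowerSeries (IA.Var Bs.T Bs.h) Bs.𝒪) : Lv.γA t = Lv.γ t := rfl

theorem liftPS_X {ι : Type} (s : ι) :
    Patch.liftPS (𝒪 := Bs.𝒪) Bs.Λ ι (X s) = X s := by
  unfold Patch.liftPS
  rw [mapAlgHom_apply, map_X]

/-- `ev ∘ liftPS ∘ rename inl = γ`. -/
theorem ev_liftPS_rename (t : MvPowerSeries (IA.Var Bs.T Bs.h) Bs.𝒪) :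
    Lv.ev (Patch.liftPS Bs.Λ (IA.Var Bs.T Bs.h ⊕ Fin Bs.m) (rename Sum.inl t)) = Lv.γ t := by
  have h : ((Lv.ev.restrictScalars Bs.𝒪).comp
      ((Patch.liftPS Bs.Λ (IA.Var Bs.T Bs.h ⊕ Fin Bs.m)).comp
        (rename Sum.inl : MvPowerSeries (IA.Var Bs.T Bs.h) Bs.𝒪 →ₐ[Bs.𝒪]
          MvPowerSeries (IA.Var Bs.T Bs.h ⊕ Fin Bs.m) Bs.𝒪))) = Lv.γA := by
    refine algHom_ext_of_local _ _ ?_ ?_
    · intro v
      rw [AlgHom.comp_apply, AlgHom.comp_apply, rename_X, liftPS_X]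
      change Lv.ev _ ∈ _
      rw [ev_X_inl]
      exact Lv.γ_mem v
    · intro v
      rw [AlgHom.comp_apply, AlgHom.comp_apply, rename_X, liftPS_X, γA_apply]
      change Lv.ev _ = _
      rw [ev_X_inl]
  exact congrArg (fun φ => φ t) h

theorem rename_liftPS (f : MvPowerSeries (IA.Var Bs.T Bs.h) Bs.𝒪) :
    (rename Sum.inl (Patch.liftPS Bs.Λ (IA.Var Bs.T Bs.h) f) :
      MvPowerSeries (IA.Var Bs.T Bs.h ⊕ Fin Bs.m) Bs.Λ) =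
      Patch.liftPS Bs.Λ (IA.Var Bs.T Bs.h ⊕ Fin Bs.m) (rename Sum.inl f) := by
  unfold Patch.liftPS
  rw [mapAlgHom_apply, mapAlgHom_apply]
  exact rename_map (Sum.inl : IA.Var Bs.T Bs.h → IA.Var Bs.T Bs.h ⊕ Fin Bs.m)
    ((Algebra.ofId Bs.𝒪 Bs.Λ : Bs.𝒪 →ₐ[Bs.𝒪] Bs.Λ) : Bs.𝒪 →+* Bs.Λ) f

theorem ev_rename_liftPS (f : MvPowerSeries (IA.Var Bs.T Bs.h) Bs.𝒪) :
    Lv.ev (rename Sum.inl (Patch.liftPS Bs.Λ (IA.Var Bs.T Bs.h) f)) = Lv.γ f := by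
  rw [rename_liftPS, ev_liftPS_rename]

/-! ### The trace relation -/

/-- A preimage of `δ_i + δ_i⁻¹ − 2` under `γ`. -/
noncomputable def trF (i : Fin Bs.m) : MvPowerSeries (IA.Var Bs.T Bs.h) Bs.𝒪 :=
  Classical.choose (Lv.tr_Q i)

theorem trF_mem (i : Fin Bs.m) :
    Lv.trF i ∈ maximalIdeal (MvPowerSeries (IA.Var Bs.T Bs.h) Bs.𝒪) :=
  (Classical.choose_spec (Lv.tr_Q i)).1

theorem γ_trF (i : Fin Bs.m) :
    Lv.γ (Lv.trF i) = Lv.ι (Lv.δ i) + Lv.ι ((Lv.δ i)⁻¹ : Lv.RΔˣ) - 2 :=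
  (Classical.choose_spec (Lv.tr_Q i)).2

theorem liftPS_mem {ι : Type} {f : MvPowerSeries ι Bs.𝒪}
    (hf : f ∈ maximalIdeal (MvPowerSeries ι Bs.𝒪)) :
    Patch.liftPS Bs.Λ ι f ∈ maximalIdeal (MvPowerSeries ι Bs.Λ) := by
  rw [mem_maximalIdeal_mvPowerSeries_iff] at hf ⊢
  have : constantCoeff (Patch.liftPS Bs.Λ ι f) = algebraMap Bs.𝒪 Bs.Λ (constantCoeff f) := by
    rw [← coeff_zero_eq_constantCoeff_apply, Patch.coeff_liftPS, coeff_zero_eq_constantCoeff_apply]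
  rw [this]
  exact Bs.algebraMap_mem hf

theorem isUnit_four_add (i : Fin Bs.m) :
    IsUnit ((4 : MvPowerSeries (IA.Var Bs.T Bs.h) Bs.Λ) +
      Patch.liftPS Bs.Λ (IA.Var Bs.T Bs.h) (Lv.trF i)) := by
  by_contra hcon
  have hm := (mem_maximalIdeal _).mpr hcon
  have h3 := Ideal.sub_mem _ hm (liftPS_mem (Bs := Bs) (Lv.trF_mem i))
  rw [add_sub_cancel_right] at h3
  have h4 : IsUnit (4 : MvPowerSeries (IA.Var Bs.T Bs.h) Bs.Λ) := by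
    have h2 : IsUnit (2 : MvPowerSeries (IA.Var Bs.T Bs.h) Bs.Λ) := by
      have := Bs.isUnit_two_Λ.map (algebraMap Bs.Λ (MvPowerSeries (IA.Var Bs.T Bs.h) Bs.Λ))
      rwa [map_ofNat] at this
    have e : (4 : MvPowerSeries (IA.Var Bs.T Bs.h) Bs.Λ) = 2 * 2 := by norm_num
    rw [e]
    exact h2.mul h2
  exact ((mem_maximalIdeal _).mp h3) h4

/-- `c_i = t_i / (4 + t_i)`. -/
noncomputable def cc (i : Fin Bs.m) : MvPowerSeries (IA.Var Bs.T Bs.h) Bs.Λ :=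
  Patch.liftPS Bs.Λ (IA.Var Bs.T Bs.h) (Lv.trF i) *
    (((Lv.isUnit_four_add i).unit⁻¹ : (MvPowerSeries (IA.Var Bs.T Bs.h) Bs.Λ)ˣ) :
      MvPowerSeries (IA.Var Bs.T Bs.h) Bs.Λ)

theorem cc_mem (i : Fin Bs.m) :
    Lv.cc i ∈ maximalIdeal (MvPowerSeries (IA.Var Bs.T Bs.h) Bs.Λ) :=
  Ideal.mul_mem_right _ _ (liftPS_mem (Bs := Bs) (Lv.trF_mem i))

theorem cc_mul (i : Fin Bs.m) :
    Lv.cc i * ((4 : MvPowerSeries (IA.Var Bs.T Bs.h) Bs.Λ) +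
      Patch.liftPS Bs.Λ (IA.Var Bs.T Bs.h) (Lv.trF i)) =
      Patch.liftPS Bs.Λ (IA.Var Bs.T Bs.h) (Lv.trF i) := by
  unfold cc
  rw [mul_assoc]
  have := (Lv.isUnit_four_add i).unit.inv_mul
  rw [IsUnit.unit_spec] at this
  rw [this, mul_one]

theorem ev_sq_sub (i : Fin Bs.m) :
    Lv.ev ((X (Sum.inr i) : MvPowerSeries (IA.Var Bs.T Bs.h ⊕ Fin Bs.m) Bs.Λ) ^ 2 -
      rename Sum.inl (Lv.cc i)) = 0 := by
  rw [map_sub, map_pow, ev_X_inr, sub_eq_zero]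
  -- `t = ι δ + ι δ⁻¹ − 2`
  have hδ : Lv.ι (Lv.δ i) * Lv.ι ((Lv.δ i)⁻¹ : Lv.RΔˣ) = 1 := by
    rw [← map_mul, ← Units.val_mul, mul_inv_cancel, Units.val_one, map_one]
  have hz : Lv.ι (Lv.z i) * (Lv.ι (Lv.δ i) + 1) = Lv.ι (Lv.δ i) - 1 := by
    have := congrArg Lv.ι (Lv.z_mul i)
    rwa [map_mul, map_add, map_one, map_sub, map_one] at this
  have hu : IsUnit (Lv.ι (Lv.δ i) + 1) := by
    have := (Lv.isUnit_δ_add_one i).map Lv.ι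
    rwa [map_add, map_one] at this
  have h1 := cayley_sq_mul hδ hz hu
  -- the image of `c (4 + t) = t`
  have h2 := congrArg (fun f => Lv.ev (rename Sum.inl f :
    MvPowerSeries (IA.Var Bs.T Bs.h ⊕ Fin Bs.m) Bs.Λ)) (Lv.cc_mul i)
  simp only [map_mul, map_add, map_ofNat, ev_rename_liftPS, γ_trF] at h2
  have hunit : IsUnit ((4 : Lv.B) + (Lv.ι (Lv.δ i) + Lv.ι ((Lv.δ i)⁻¹ : Lv.RΔˣ) - 2)) := by
    have := (Lv.isUnit_four_add i).map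
      (Lv.ev.comp (rename Sum.inl : MvPowerSeries (IA.Var Bs.T Bs.h) Bs.Λ →ₐ[Bs.Λ]
        MvPowerSeries (IA.Var Bs.T Bs.h ⊕ Fin Bs.m) Bs.Λ))
    rwa [map_add, map_ofNat, AlgHom.comp_apply, ev_rename_liftPS, γ_trF] at this
  exact hunit.mul_left_injective (h1.trans h2.symm)

/-- **The TRACE relation on `PM`.** -/
theorem sq_kill (i : Fin Bs.m) (x : Lv.PM) :
    ((X (Sum.inr i) : MvPowerSeries (IA.Var Bs.T Bs.h ⊕ Fin Bs.m) Bs.Λ) ^ 2 -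
      rename Sum.inl (Lv.cc i)) • x = 0 := by
  rw [PM.smul_def, ev_sq_sub, zero_smul]
  rfl

/-! ### The relations at the primes of `T` -/

section Kill

variable (χ : Bs.Λ →ₐ[Bs.𝒪] Bs.𝒪)

/-- The extension of `ker χ` to `B`. -/
def KB : Ideal Lv.B := (RingHom.ker (χ : Bs.Λ →+* Bs.𝒪)).map (algebraMap Bs.Λ Lv.B)

theorem algebraMap_sub_mem_KB (a : Bs.Λ) :
    algebraMap Bs.Λ Lv.B a - algebraMap Bs.Λ Lv.B (algebraMap Bs.𝒪 Bs.Λ (χ a)) ∈ Lv.KB χ := by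
  rw [← map_sub]
  refine Ideal.mem_map_of_mem _ ?_
  rw [RingHom.mem_ker, map_sub]
  change χ a - χ (algebraMap Bs.𝒪 Bs.Λ (χ a)) = 0
  rw [AlgHom.commutes, Algebra.algebraMap_self, RingHom.id_apply, sub_self]

/-- If `ev r ∈ (ker χ) B` then `r PM ⊆ (ker χ) PM`. -/
theorem smul_mem_kerExt_smul_top {r : MvPowerSeries (IA.Var Bs.T Bs.h ⊕ Fin Bs.m) Bs.Λ}
    (hr : Lv.ev r ∈ Lv.KB χ) (x : Lv.PM) :
    r • x ∈ (Patch.kerExt χ (IA.Var Bs.T Bs.h ⊕ Fin Bs.m) • ⊤ :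
      Submodule (MvPowerSeries (IA.Var Bs.T Bs.h ⊕ Fin Bs.m) Bs.Λ) Lv.PM) := by
  rw [PM.smul_def]
  have key : ∀ b ∈ Lv.KB χ, ∀ y : Lv.PM, PM.of Lv (b • PM.out Lv y) ∈
      (Patch.kerExt χ (IA.Var Bs.T Bs.h ⊕ Fin Bs.m) • ⊤ :
        Submodule (MvPowerSeries (IA.Var Bs.T Bs.h ⊕ Fin Bs.m) Bs.Λ) Lv.PM) := by
    intro b hb
    unfold KB Ideal.map at hb
    refine Submodule.span_induction (p := fun b _ => ∀ y : Lv.PM, PM.of Lv (b • PM.out Lv y) ∈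
      (Patch.kerExt χ (IA.Var Bs.T Bs.h ⊕ Fin Bs.m) • ⊤ :
        Submodule (MvPowerSeries (IA.Var Bs.T Bs.h ⊕ Fin Bs.m) Bs.Λ) Lv.PM)) ?_ ?_ ?_ ?_ hb
    · rintro _ ⟨k, hk, rfl⟩ y
      have e : PM.of Lv (algebraMap Bs.Λ Lv.B k • PM.out Lv y) =
          (C k : MvPowerSeries (IA.Var Bs.T Bs.h ⊕ Fin Bs.m) Bs.Λ) • y := by
        rw [PM.smul_def]
        have : Lv.ev (C k) = algebraMap Bs.Λ Lv.B k := Lv.ev.commutes k
        rw [this]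
      rw [e]
      refine Submodule.smul_mem_smul ?_ Submodule.mem_top
      exact Ideal.mem_map_of_mem _ hk
    · intro y
      rw [zero_smul]
      exact Submodule.zero_mem _
    · intro b b' _ _ hb hb' y
      rw [add_smul]
      exact Submodule.add_mem _ (hb y) (hb' y)
    · intro a b _ hb y
      have e : PM.of Lv ((a • b) • PM.out Lv y) =
          PM.of Lv (b • PM.out Lv (PM.of Lv (a • PM.out Lv y))) := by
        rw [PM.out_of, smul_eq_mul, mul_comm, mul_smul]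
      rw [e]
      exact hb _
  exact key _ hr x

/-- The quotient map `𝒪⟦Var⟧ → B ⧸ (ker χ) B`. -/
noncomputable def γbar : MvPowerSeries (IA.Var Bs.T Bs.h) Bs.𝒪 →+* Lv.B ⧸ Lv.KB χ :=
  (Ideal.Quotient.mk (Lv.KB χ)).comp Lv.γ

theorem γbar_C (c : Bs.𝒪) : Lv.γbar χ (C c) = algebraMap Bs.𝒪 (Lv.B ⧸ Lv.KB χ) c := by
  unfold γbar
  rw [RingHom.comp_apply, Lv.γ_C]
  rfl

theorem mk_algebraMap (a : Bs.Λ) :
    Ideal.Quotient.mk (Lv.KB χ) (algebraMap Bs.Λ Lv.B a) =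
      algebraMap Bs.𝒪 (Lv.B ⧸ Lv.KB χ) (χ a) := by
  have := Ideal.Quotient.eq.mpr (Lv.algebraMap_sub_mem_KB χ a)
  rw [this]
  rfl

theorem γbar_mapMatrix (A : Matrix (Fin 2) (Fin 2) (MvPowerSeries (IA.Var Bs.T Bs.h) Bs.𝒪)) :
    (Lv.γbar χ).mapMatrix A = (Ideal.Quotient.mk (Lv.KB χ)).mapMatrix (A.map Lv.γ) := by
  ext i j
  rfl

theorem γbar_det_Phi (r : Bs.T) :
    ((Lv.γbar χ).mapMatrix (IA.PhiMat (h := Bs.h) Bs.D r)).det =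
      Lv.γbar χ (C (Bs.D r).d₀) := by
  rw [γbar_mapMatrix, ← RingHom.map_det, Lv.det_Phi]
  rfl

theorem γbar_det_Sig (r : Bs.T) :
    ((Lv.γbar χ).mapMatrix (IA.SigMat Bs.𝒪 Bs.h r)).det = 1 := by
  rw [γbar_mapMatrix, ← RingHom.map_det, Lv.det_Sig, map_one]

theorem γbar_tame (r : Bs.T) :
    (Lv.γbar χ).mapMatrix (IA.PhiMat (h := Bs.h) Bs.D r) *
      (Lv.γbar χ).mapMatrix (IA.SigMat Bs.𝒪 Bs.h r) =
    ((Lv.γbar χ).mapMatrix (IA.SigMat Bs.𝒪 Bs.h r)) ^ Bs.rN r *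
      (Lv.γbar χ).mapMatrix (IA.PhiMat (h := Bs.h) Bs.D r) := by
  rw [γbar_mapMatrix, γbar_mapMatrix, ← map_mul, Lv.tame, map_mul, map_pow]

theorem γbar_trace (r : Bs.T) :
    ((Lv.γbar χ).mapMatrix (IA.SigMat Bs.𝒪 Bs.h r)).trace =
      algebraMap Bs.𝒪 (Lv.B ⧸ Lv.KB χ) (χ (Bs.g r)) +
        algebraMap Bs.𝒪 (Lv.B ⧸ Lv.KB χ) (χ ((Bs.g r)⁻¹ : Bs.Λˣ)) := by
  rw [γbar_mapMatrix, Matrix.trace_fin_two]
  have h := Lv.tr_Sig r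
  rw [Matrix.trace_fin_two] at h
  have h' := congrArg (Ideal.Quotient.mk (Lv.KB χ)) h
  rw [map_add, map_add, mk_algebraMap, mk_algebraMap] at h'
  exact h'

end Kill

theorem χ_inv (χ : Bs.Λ →ₐ[Bs.𝒪] Bs.𝒪) (u : Bs.Λˣ) (w : Bs.𝒪ˣ) (h : χ u = w) :
    χ ((u⁻¹ : Bs.Λˣ) : Bs.Λ) = ((w⁻¹ : Bs.𝒪ˣ) : Bs.𝒪) := by
  have h1 : Units.map (χ : Bs.Λ →* Bs.𝒪) u = w := Units.ext h
  have h2 : Units.map (χ : Bs.Λ →* Bs.𝒪) u⁻¹ = w⁻¹ := by rw [map_inv, h1]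
  exact congrArg Units.val h2

/-- **Type `(χ, χ⁻¹)` after specialisation along `χA`.** -/
theorem killA (r : Bs.T) (t : MvPowerSeries (IA.Var Bs.T Bs.h) Bs.𝒪)
    (ht : t ∈ IA.relsA (h := Bs.h) Bs.D r) (x : Lv.PM) :
    Patch.liftPS Bs.Λ (IA.Var Bs.T Bs.h ⊕ Fin Bs.m) (rename Sum.inl t) • x ∈
      (Patch.kerExt Bs.χA (IA.Var Bs.T Bs.h ⊕ Fin Bs.m) • ⊤ :
        Submodule (MvPowerSeries (IA.Var Bs.T Bs.h ⊕ Fin Bs.m) Bs.Λ) Lv.PM) := by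
  refine Lv.smul_mem_kerExt_smul_top Bs.χA ?_ x
  rw [ev_liftPS_rename, ← Ideal.Quotient.eq_zero_iff_mem]
  refine relsA_map_eq_zero Bs.D r (Lv.γbar Bs.χA) (Lv.γbar_C Bs.χA) Bs.p (Bs.ζ_pow r) (Bs.rN r)
    (Bs.rN_pos r) (Bs.rN_modEq r) (Lv.γbar_det_Phi Bs.χA r) (Lv.γbar_det_Sig Bs.χA r) ?_
    (Lv.γbar_tame Bs.χA r) t ht
  rw [γbar_trace, Bs.χA_g, χ_inv Bs.χA (Bs.g r) (Bs.D r).ζ (Bs.χA_g r), map_add]

/-- **Unipotent type after specialisation along `χB`.** -/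
theorem killB (r : Bs.T) (t : MvPowerSeries (IA.Var Bs.T Bs.h) Bs.𝒪)
    (ht : t ∈ IA.relsB (h := Bs.h) Bs.D r) (x : Lv.PM) :
    Patch.liftPS Bs.Λ (IA.Var Bs.T Bs.h ⊕ Fin Bs.m) (rename Sum.inl t) • x ∈
      (Patch.kerExt Bs.χB (IA.Var Bs.T Bs.h ⊕ Fin Bs.m) • ⊤ :
        Submodule (MvPowerSeries (IA.Var Bs.T Bs.h ⊕ Fin Bs.m) Bs.Λ) Lv.PM) := by
  refine Lv.smul_mem_kerExt_smul_top Bs.χB ?_ x
  rw [ev_liftPS_rename, ← Ideal.Quotient.eq_zero_iff_mem]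
  refine relsB_map_eq_zero Bs.D r (Lv.γbar Bs.χB) (Lv.γbar_C Bs.χB) (Bs.rN r) (Bs.D_rr r)
    (Lv.γbar_det_Phi Bs.χB r) (Lv.γbar_det_Sig Bs.χB r) ?_ (Lv.γbar_tame Bs.χB r) t ht
  have h1 : Bs.χB ((Bs.g r : Bs.Λˣ) : Bs.Λ) = ((1 : Bs.𝒪ˣ) : Bs.𝒪) := by
    rw [Bs.χB_g, Units.val_one]
  rw [γbar_trace, χ_inv Bs.χB (Bs.g r) 1 h1, Bs.χB_g, inv_one, Units.val_one, map_one]
  norm_num

/-- The monodromy ideal. -/
theorem e_mono : Bs.J₀ ≤ Ideal.span (Set.range fun ij : Fin 2 × Fin 2 =>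
    Lv.patchLevel.e (X (Sum.inl (Sum.inl (Bs.q₀, true, ij.1, ij.2))) :
      MvPowerSeries (IA.Var Bs.T Bs.h ⊕ Fin Bs.m) Bs.Λ)) := by
  refine Lv.mono.trans (le_of_eq ?_)
  congr 2
  funext ij
  rw [patchLevel_e, AlgHom.comp_apply, ev_X_inl]

end ModLevel

end Fermat.Agent.S59lib.Hub
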