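-- Project H (S43), Layer 3, MAIN: `LevelSystemBlock₂ ⇐ ModLevelBlock`, hence
--   `IharaBlock ⇐ ModLevelBlock + IA.IABlock`.
import Mathlib
import Fermat.Agent.S59lib.Hub.PatchModKill
import Fermat.Agent.S59lib.Hub.PatchIface2
import Fermat.Agent.S43lib.Patch.Mod.Main
import Fermat.Agent.S43lib.PatchIface2
import Fermat.Agent.S43lib.PatchIfaceMod
import Fermat.Agent.S43lib.Patch.Mod.Level
import Fermat.Agent.S43lib.Patch.Mod.Kill
import Fermat.Agent.S43lib.Patch.Assemble2

set_option autoImplicit false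

namespace Fermat.Agent.S59lib.Hub

open Fermat.Agent.S43lib Fermat.Agent.S43lib.Patch Fermat.Agent.S43lib.Patch.Mod

open IsLocalRing MvPowerSeries

variable {Goal : Prop}

/-- The level system attached to a base and levels of all depths. -/
noncomputable def levelSystem₂OfMod (Bs : ModBase Goal) (Lv : ∀ n, ModLevel Bs n) :
    LevelSystem₂ Goal where
  𝒪 := Bs.𝒪
  ϖ := Bs.ϖ
  ϖ_ne_zero := Bs.ϖ_ne_zero
  maximalIdeal_eq := Bs.maximalIdeal_eq
  isUnit_two := Bs.isUnit_two
  Λ := Bs.Λ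
  χA := Bs.χA
  χB := Bs.χB
  ker_sup := Bs.ker_sup
  T := Bs.T
  q₀ := Bs.q₀
  h := Bs.h
  m := Bs.m
  d := Bs.d
  hm := Bs.hm
  hd := Bs.hd
  D := Bs.D
  T0 := Bs.T0
  M0 := Bs.M0
  L := fun n => (Lv n).patchLevel
  s_X := fun n i => by rw [ModLevel.patchLevel_s, rename_X]
  c := fun n i => (Lv n).cc i
  c_mem := fun n i => (Lv n).cc_mem i
  sq_kill := fun n i x => (Lv n).sq_kill i x
  killA := fun n r t ht x => (Lv n).killA r t ht x
  killB := fun n r t ht x => (Lv n).killB r t ht x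
  J₀ := Bs.J₀
  e_mono := fun n => (Lv n).e_mono
  readout := Bs.readout

end Fermat.Agent.S59lib.Hub
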