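-- Project H (S43), wiring, second form: `IharaBlock` from `LevelSystemBlock₂` and helper1's `IABlock`.
import Fermat.Agent.S59lib.Hub.PatchModMain
import Fermat.Agent.S43lib.Patch.Assemble2
import Fermat.Agent.S43lib.PatchIface2
import Fermat.Agent.S43lib.Patch.Trans
import Fermat.Agent.S43lib.Patch.Wire2
import Fermat.Agent.S43lib.Patch.Assemble
import Fermat.Agent.S43lib.IA.Block

set_option autoImplicit false
open WeierstrassCurve WeierstrassCurve.Affine WeierstrassCurve.Affine.Point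

namespace Fermat.Agent.S59lib.Hub

open Fermat.Agent.S43lib Fermat.Agent.S43lib.Patch Fermat.Agent.S43lib.Patch.Mod

open IsLocalRing MvPowerSeries Fermat.Agent.TeamA

/-- **Ihara avoidance, abstract form**: a level system (second form) with READOUT `Goal` gives `Goal`. -/
theorem goal_of_levelSystem₂ (hIA : IA.IABlock.{0}) {Goal : Prop} (LS : LevelSystem₂ Goal) : Goal := by
  -- abbreviations
  let ι : Type := IA.Var LS.T LS.h
  let ι' : Type := IA.Var LS.T LS.h ⊕ Fin LS.m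
  -- patch
  obtain ⟨O, -, hkill, hseq, hsconst, -, hgen⟩ := Patch.patchStatement₂_holds (Λ := LS.Λ) (m := LS.m)
    (d := LS.d) (P := MvPowerSeries (IA.Var LS.T LS.h ⊕ Fin LS.m) LS.Λ) (T0 := LS.T0)
    (M0 := LS.M0) LS.L
  -- the structure map is the inclusion
  have hsX : ∀ i, O.s (X i) = (X (Sum.inr i) : MvPowerSeries ι' LS.Λ) := fun i =>
    hsconst _ _ fun n => LS.s_X n i
  -- the TRACE relation on the patched module
  have hjloc : ∀ x ∈ maximalIdeal (MvPowerSeries ι LS.Λ),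
      (rename Sum.inl : MvPowerSeries ι LS.Λ →ₐ[LS.Λ] MvPowerSeries ι' LS.Λ).toRingHom x ∈
        maximalIdeal (MvPowerSeries ι' LS.Λ) := by
    intro x hx
    rw [mem_maximalIdeal_mvPowerSeries_iff] at hx ⊢
    change constantCoeff (rename Sum.inl x) ∈ _
    rw [constantCoeff_rename]
    exact hx
  have hex : ∀ i : Fin LS.m, ∃ ci : MvPowerSeries ι LS.Λ,
      ci ∈ maximalIdeal (MvPowerSeries ι LS.Λ) ∧ ∀ x : O.M,
        ((X (Sum.inr i) : MvPowerSeries ι' LS.Λ) ^ 2 - rename Sum.inl ci) • x = 0 := by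
    intro i
    obtain ⟨ci, hci, hci'⟩ := hseq (MvPowerSeries ι LS.Λ)
      (rename Sum.inl : MvPowerSeries ι LS.Λ →ₐ[LS.Λ] MvPowerSeries ι' LS.Λ).toRingHom hjloc
      ((X (Sum.inr i) : MvPowerSeries ι' LS.Λ) ^ 2) (-1) (fun n => LS.c n i) (by
        intro n x
        have := LS.sq_kill n i x
        rw [mul_neg_one, ← sub_eq_add_neg]
        exact this)
    refine ⟨ci, ?_, fun x => ?_⟩
    · obtain ⟨n, hn⟩ := hci 1
      rw [pow_one] at hn
      have := Ideal.sub_mem _ (LS.c_mem n i) hn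
      rwa [sub_sub_cancel] at this
    · have := hci' x
      rw [mul_neg_one, ← sub_eq_add_neg] at this
      exact this
  choose c hc hsq using hex
  -- the type relations on the patched module
  have hkill' : ∀ (χ : LS.Λ →ₐ[LS.𝒪] LS.𝒪) (t : MvPowerSeries ι' LS.𝒪),
      (∀ n, ∀ x : (LS.L n).M, Patch.liftPS LS.Λ ι' t • x ∈
        (Patch.kerExt χ ι' • ⊤ : Submodule (MvPowerSeries ι' LS.Λ) (LS.L n).M)) →
      ∀ x : O.M, Patch.liftPS LS.Λ ι' t • x ∈
        (Patch.kerExt χ ι' • ⊤ : Submodule (MvPowerSeries ι' LS.Λ) O.M) := by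
    intro χ t ht x
    refine hkill (Ideal.span {Patch.liftPS LS.Λ ι' t})
      (RingHom.ker (χ : LS.Λ →+* LS.𝒪)) ?_ _ (Ideal.subset_span rfl) x
    intro n r hr y
    obtain ⟨a, rfl⟩ := Ideal.mem_span_singleton'.mp hr
    rw [mul_smul]
    exact Submodule.smul_mem _ a (ht n y)
  -- the two specialisations, restricted to `𝒪⟦ι⟧`
  have hA : ∀ r : LS.T, ∀ t ∈ IA.relsA (h := LS.h) LS.D r,
      ∀ x : Patch.ResSpec LS.χA O, t • x = 0 := fun r t ht x =>
    Patch.SpecM.smul_eq_zero_of_kill LS.χA O (t := rename Sum.inl t)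
      (hkill' LS.χA _ fun n y => LS.killA n r t ht y) x
  have hB : ∀ r : LS.T, ∀ t ∈ IA.relsB (h := LS.h) LS.D r,
      ∀ x : Patch.ResSpec LS.χB O, t • x = 0 := fun r t ht x =>
    Patch.SpecM.smul_eq_zero_of_kill LS.χB O (t := rename Sum.inl t)
      (hkill' LS.χB _ fun n y => LS.killB n r t ht y) x
  have hdpos : 0 < Fintype.card ((Fin LS.m → Bool) × Fin LS.d) :=
    Fintype.card_pos_iff.mpr ⟨(fun _ => false, ⟨0, LS.hd⟩)⟩
  -- the augmentation ideal of `S`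
  have h𝔞 : (RingHom.ker (constantCoeff (σ := Fin LS.m) (R := LS.𝒪))).IsPrime :=
    RingHom.ker_isPrime _
  have hcompAB : ∀ t : MvPowerSeries ι LS.𝒪,
      (∀ x : Patch.ResSpec LS.χB O, ∃ x' : Patch.ResSpec LS.χB O,
        t • x = (C LS.ϖ : MvPowerSeries ι LS.𝒪) • x') →
      ∀ x : Patch.ResSpec LS.χA O, ∃ x' : Patch.ResSpec LS.χA O,
        t • x = (C LS.ϖ : MvPowerSeries ι LS.𝒪) • x' := by
    intro t ht x
    have hC : (rename Sum.inl (C LS.ϖ : MvPowerSeries ι LS.𝒪) : MvPowerSeries ι' LS.𝒪) =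
        C LS.ϖ := rename_C _ _
    have h1 := Patch.SpecM.hcomp O LS.χA LS.χB LS.ϖ LS.ker_sup (rename Sum.inl t) (by
      intro y
      obtain ⟨y', hy'⟩ := ht y
      refine ⟨y', ?_⟩
      rw [← hC]
      exact hy') x
    obtain ⟨x', hx'⟩ := h1
    refine ⟨x', ?_⟩
    rw [← hC] at hx'
    exact hx'
  obtain ⟨𝔮, h𝔮, hcomap, hann, hmono⟩ := hIA LS.𝒪 LS.ϖ LS.ϖ_ne_zero LS.maximalIdeal_eq
    LS.isUnit_two LS.T LS.h LS.m LS.hm LS.D
    (Patch.specSq LS.χA c hc) (Patch.specSq LS.χB c hc)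
    (Patch.ResSpec LS.χA O) (Patch.ResSpec LS.χB O)
    hA hB _ _ hdpos
    (Patch.resSpec_free LS.χA O c hc hsX hsq)
    (Patch.resSpec_free LS.χB O c hc hsX hsq)
    hcompAB
    (RingHom.ker (constantCoeff (σ := Fin LS.m) (R := LS.𝒪)))
  -- lying over
  have hfin : Module.Finite (MvPowerSeries ι LS.𝒪) (Patch.ResSpec LS.χB O) :=
    Patch.resSpec_finite LS.χB O c hc hsX hsq
  obtain ⟨𝔮', h𝔮', hcomap', hann'⟩ := Patch.exists_prime_comap_eq_of_annihilator_le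
    (Patch.inlPS LS.𝒪 ι LS.m).toRingHom (M := Patch.ResSpec LS.χB O) (fun t x => rfl) 𝔮 hann
  have hmem𝔮' : ∀ t : MvPowerSeries ι LS.𝒪, t ∈ 𝔮 →
      (rename Sum.inl t : MvPowerSeries ι' LS.𝒪) ∈ 𝔮' := by
    intro t ht
    rw [← hcomap'] at ht
    exact ht
  have hX𝔮 : ∀ i : Fin LS.m, Patch.specSq LS.χB c hc (X i) ∈ 𝔮 := by
    intro i
    have : (X i : MvPowerSeries (Fin LS.m) LS.𝒪) ∈
        𝔮.comap (Patch.specSq LS.χB c hc).toRingHom := by
      rw [hcomap, RingHom.mem_ker, constantCoeff_X]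
    exact this
  have hX : ∀ i : Fin LS.m, Patch.specS LS.χB O.s (X i) ∈ 𝔮' := by
    intro i
    have h1 : Patch.specS LS.χB O.s (X i) ^ 2 -
        Patch.inlPS LS.𝒪 ι LS.m (Patch.specSq LS.χB c hc (X i)) ∈ 𝔮' := by
      apply hann'
      rw [Module.mem_annihilator]
      intro y
      exact Patch.spec_sq_kill LS.χB O c hc hsX hsq i y
    have h2 : Patch.inlPS LS.𝒪 ι LS.m (Patch.specSq LS.χB c hc (X i)) ∈ 𝔮' :=
      hmem𝔮' _ (hX𝔮 i)
    have h3 := Ideal.add_mem _ h1 h2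
    rw [sub_add_cancel] at h3
    exact h𝔮'.mem_of_pow_mem _ h3
  obtain ⟨𝔭, h𝔭, hle, hiff⟩ := Patch.exists_prime_of_readout LS.χB O 𝔮' hX hann'
  refine LS.readout 𝔭 h𝔭 hle ?_ ?_
  · -- `ϖ ∉ 𝔭`
    intro hϖ
    have h1 : O.e (Patch.liftPS LS.Λ ι' (C LS.ϖ)) ∈ 𝔭 := by
      rw [Patch.liftPS_C, c_eq_algebraMap, AlgHom.commutes]
      exact hϖ
    have h2 : (C LS.ϖ : MvPowerSeries ι' LS.𝒪) ∈ 𝔮' := (hiff _).mp h1
    have h2' : (C LS.ϖ : MvPowerSeries ι LS.𝒪) ∈ 𝔮 := by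
      rw [← hcomap', Ideal.mem_comap]
      change (rename Sum.inl (C LS.ϖ : MvPowerSeries ι LS.𝒪) : MvPowerSeries ι' LS.𝒪) ∈ 𝔮'
      rw [rename_C]
      exact h2
    have h3 : (C LS.ϖ : MvPowerSeries (Fin LS.m) LS.𝒪) ∈
        𝔮.comap (Patch.specSq LS.χB c hc).toRingHom := by
      rw [Ideal.mem_comap]
      have : (Patch.specSq LS.χB c hc).toRingHom (C LS.ϖ) =
          (C LS.ϖ : MvPowerSeries ι LS.𝒪) := by
        change Patch.specSq LS.χB c hc (C LS.ϖ) = _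
        rw [c_eq_algebraMap, c_eq_algebraMap, AlgHom.commutes]
      rw [this]
      exact h2'
    rw [hcomap, RingHom.mem_ker, constantCoeff_C] at h3
    exact LS.ϖ_ne_zero h3
  · -- the monodromy at `q`
    intro t ht
    have h0 := hgen (Fin 2 × Fin 2)
      (fun ij => (X (Sum.inl (Sum.inl (LS.q₀, true, ij.1, ij.2))) : MvPowerSeries ι' LS.Λ)) t
      (fun n => LS.e_mono n ht)
    refine (Ideal.span_le.mpr ?_) h0
    rintro _ ⟨⟨i, j⟩, rfl⟩
    have h1 : (X (Sum.inl (LS.q₀, true, i, j)) : MvPowerSeries ι LS.𝒪) ∈ 𝔮 :=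
      hmono LS.q₀ (monodromy_var_mem LS.𝒪 LS.h LS.q₀ i j)
    have h1' : (X (Sum.inl (Sum.inl (LS.q₀, true, i, j))) : MvPowerSeries ι' LS.𝒪) ∈ 𝔮' := by
      have := hmem𝔮' _ h1
      rwa [rename_X] at this
    have h2 := (hiff _).mpr h1'
    rw [Patch.liftPS_X] at h2
    exact h2

/-- **Ihara avoidance from the modular side in its algebraic form.** -/
theorem goal_of_modLevels (hIA : IA.IABlock.{0}) {Goal : Prop} (Bs : ModBase Goal)
    (hLv : ∀ n : ℕ, Nonempty (ModLevel Bs n)) : Goal :=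
  goal_of_levelSystem₂ hIA (levelSystem₂OfMod Bs fun n => (hLv n).some)

end Fermat.Agent.S59lib.Hub
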