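/-
S59lib / Hub / CompatHub (helper7) — re-issue of `S43lib/B2/Bridge/CompatHub` (helper5) for the general hub:
**COMPAT**: the traces of `ρ_{S'}` pushed to `𝕋_∅` through `β_Q` and `e₀ : 𝕋_Q → 𝕋_∅` are the traces of `ρ_S` pushed
through `β₀` (Chebotarev + the formulas for `β_Q`, `β₀` at the Frobenius elements).  No `Invertible 3`.
-/
import Mathlib
import Fermat.Agent.S59lib.Hub.AsmHub
import Fermat.Agent.S59lib.Hub.TWDataW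
import Fermat.Agent.S43lib.Mod4.Compat
import Fermat.Agent.S43lib.B2.Bridge.CompatHub

set_option autoImplicit false
set_option linter.unusedSectionVars false
set_option linter.unusedVariables false
set_option linter.style.haveILetI false

noncomputable section

namespace Fermat.Agent.S59lib.Hub

open Fermat.Agent.S43lib.Mod4 Fermat.Agent.S43lib.Mod4.Hub Fermat.Agent.S43lib.Mod4.Hub.H5

open IsLocalRing Polynomial CuspForm Fermat.Agent.S43lib.B3 Fermat.Agent.S43lib.Loc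
  Fermat.Agent.S56lib.Main Fermat.Agent.S43lib.Mod4.HO Fermat.Agent.S56lib.TW ExtCitation

local notation "GQ" => (AlgebraicClosure ℚ ≃ₐ[ℚ] AlgebraicClosure ℚ)
local notation "Qb" => AlgebraicClosure ℚ

variable {P : Ctx} {Ts : Finset ℕ} (Sg : SideGal P Ts)

/-- `2` is invertible in the coefficient ring -/
@[reducible] def invertibleTwo : Invertible (2 : Sg.𝒪) := by
  have h : IsUnit ((2 : ℕ) : Sg.𝒪) := isUnit_natCast_of_coprime Sg.hp𝒪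
    ((Nat.coprime_primes Nat.prime_two P.pp).2 (fun h => P.hp2 h.symm))
  rw [Nat.cast_ofNat] at h
  exact h.invertible

/-- `3` is a unit of the coefficient ring if `p ≠ 3` -/
theorem isUnit_three (hp3 : P.p ≠ 3) : IsUnit (3 : Sg.𝒪) := by
  have h : IsUnit ((3 : ℕ) : Sg.𝒪) := isUnit_natCast_of_coprime Sg.hp𝒪
    ((Nat.coprime_primes Nat.prime_three P.pp).2 (fun h => hp3 h.symm))
  rwa [Nat.cast_ofNat] at h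

/-! ### the arithmetic of the hub -/

section Arith

variable {r : ℕ} (n : ℕ) (qv : Fin r → ℕ)

theorem hub_hqv (hqv : ∀ i, (qv i).Prime ∧ qv i ∉ Sg.SA ∧ P.p ^ (n + 1) ∣ qv i - 1) :
    ∀ i, (qv i).Prime ∧ qv i ∉ (P.Smin ∪ Ts : Finset ℕ) :=
  fun i => ⟨(hqv i).1, fun h => (hqv i).2.1 (Finset.mem_union_left _ h)⟩

theorem hub_hM (hH : HubHyp Sg) (hinj : Function.Injective qv)
    (hqv : ∀ i, (qv i).Prime ∧ qv i ∉ Sg.SA ∧ P.p ^ (n + 1) ∣ qv i - 1) :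
    M₀ P Ts * (QL qv).prod = P.R0 * tp P (SQ P Ts qv) :=
  M₀_mul_prod hH.hT hinj (hub_hqv Sg n qv hqv)

theorem hub_hodd (P : Ctx) (Ts : Finset ℕ) (r n : ℕ) : Odd (Fintype.card (G₀ P Ts × DelQ P r n)) := by
  have hp2 : P.p ≠ 2 := P.hp2
  rw [Fintype.card_prod]
  exact (odd_card_deltaGrp P.p hp2 _).mul (odd_card_deltaGrp P.p hp2 _)

theorem hub_hQp (hT : THyp P Ts)
    (hqv : ∀ i, (qv i).Prime ∧ qv i ∉ Sg.SA ∧ P.p ^ (n + 1) ∣ qv i - 1) :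
    ∀ q ∈ QL qv, q.Prime ∧ ¬ q ∣ M₀ P Ts ∧ q ≠ P.p := by
  have hqv' := hub_hqv Sg n qv hqv
  intro q hq
  obtain ⟨i, rfl⟩ := (mem_QL qv).1 hq
  refine ⟨(hqv i).1, fun h => ?_, fun h => ?_⟩
  · exact (hqv i).2.1 (mem_SA_of_prime_dvd_M₀ hT (hqv i).1 h)
  · exact (hqv' i).2 (Finset.mem_union_left _ (h ▸ P.hpSmin))

end Arith


variable {P : Ctx} {Ts : Finset ℕ} (Sg : SideGal P Ts)

/-! ## brick COMPAT -/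

set_option synthInstance.maxHeartbeats 400000 in
set_option maxHeartbeats 4000000 in
theorem compat_of_aux (hH : HubHyp Sg)
    {r : ℕ} (n : ℕ) (qv : Fin r → ℕ) (hinj : Function.Injective qv)
    (hqv : ∀ i, (qv i).Prime ∧ qv i ∉ Sg.SA ∧ P.p ^ (n + 1) ∣ qv i - 1)
    [NeZero (M₀ P Ts * (QL qv).prod)] (hcop : (M₀ P Ts).Coprime (QL qv).prod)
    (hgoodQ : (HQ Sg n qv hcop).Good P.p) (hgood0 : (H0 Sg).Good P.p)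
    (hS' : Sg.good (SQ P Ts qv))
    (hπQ : (Sg.D.H (SQ P Ts qv) hS').π =
      heckeLocal.π (lvlTw P (SQ P Ts qv)) (↑(SQ P Ts qv ∪ P.Aux) : Set ℕ) Sg.𝒪 (Sg.D.θ (SQ P Ts qv) hS'))
    (hπ0 : (Sg.D.H Sg.S (Sg.hgoodS hH.hT)).π =
      heckeLocal.π (lvlTw P Sg.S) (↑(Sg.S ∪ P.Aux) : Set ℕ) Sg.𝒪 (Sg.D.θ Sg.S (Sg.hgoodS hH.hT)))
    (D : TWData P.p (χ₀ P Ts) (QL qv) hcop (kapQ P n qv) (tS Sg) (aS Sg))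
    (β : (Sg.F (SQ P Ts qv) hS').R →ₐ[Sg.𝒪] TQ Sg n qv hcop)
    (hβ : ∀ (ℓ : ℕ) (hℓ : ℓ.Prime) (hℓN : ¬ ℓ ∣ lvlTw P (SQ P Ts qv))
        (hℓS : ℓ ∉ (↑(SQ P Ts qv ∪ P.Aux) : Set ℕ)) (hi : ℓ.Prime ∧ ¬ ℓ ∣ M₀ P Ts ∧ ℓ ≠ P.p)
        (hJ : (Sum.inl ⟨ℓ, hi⟩ : Idx P.p (M₀ P Ts)) ∈ JQ P.p (M₀ P Ts) (QL qv))
        (hℓM : ℓ.Coprime (M₀ P Ts * (QL qv).prod)) (g : G₀ P Ts × DelQ P r n),
        g * g * chiQ (χ₀ P Ts) (kapQ P n qv) (ZMod.unitOfCoprime ℓ hℓM) = 1 →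
        β (heckeLocal.π _ _ _ _ (heckeAlgebra.T hℓ hℓN hℓS)) =
          (HQ Sg n qv hcop).tG (JQ P.p (M₀ P Ts) (QL qv)) g *
            (HQ Sg n qv hcop).tX (JQ P.p (M₀ P Ts) (QL qv)) (Sum.inl ⟨ℓ, hi⟩) hJ)
    (β₀ : (Sg.F Sg.S (Sg.hgoodS hH.hT)).R →ₐ[Sg.𝒪] T0 Sg)
    (hβ₀ : ∀ (ℓ : ℕ) (hℓ : ℓ.Prime) (hℓN : ¬ ℓ ∣ lvlTw P Sg.S)
        (hℓS : ℓ ∉ (↑(Sg.S ∪ P.Aux) : Set ℕ)) (hi : ℓ.Prime ∧ ¬ ℓ ∣ M₀ P Ts ∧ ℓ ≠ P.p)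
        (hℓM : ℓ.Coprime (M₀ P Ts)) (g : G₀ P Ts),
        g * g * χ₀ P Ts (ZMod.unitOfCoprime ℓ hℓM) = 1 →
        β₀ (heckeLocal.π _ _ _ _ (heckeAlgebra.T hℓ hℓN hℓS)) =
          (H0 Sg).tG Set.univ g * (H0 Sg).tX Set.univ (Sum.inl ⟨ℓ, hi⟩) (Set.mem_univ _))
    (h : GQ) :
    D.e₀ (β ((Sg.F (SQ P Ts qv) hS').ρ.trace h)) = β₀ ((Sg.F Sg.S (Sg.hgoodS hH.hT)).ρ.trace h) := by
  classical
  letI : Invertible (2 : Sg.𝒪) := invertibleTwo Sg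
  haveI : IsLocalRing (T0 Sg) := (H0 Sg).isLocalRing_hecke Set.univ hgood0
  haveI : IsAdicComplete (maximalIdeal (T0 Sg)) (T0 Sg) :=
    (H0 Sg).isAdicComplete_hecke Set.univ hgood0
  haveI : Finite (ResidueField (T0 Sg)) := (H0 Sg).finite_residueField_hecke Set.univ hgood0
  have hM := hub_hM Sg n qv hH hinj hqv
  haveI : NeZero (P.R0 * tp P (SQ P Ts qv) * tp P (SQ P Ts qv)) := lvlTw_neZero P _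
  have hodd := hub_hodd P Ts r n
  have hQp := hub_hQp Sg n qv hH.hT hqv
  have hpS : P.p ∈ (↑(SQ P Ts qv ∪ P.Aux) : Set ℕ) :=
    Finset.mem_coe.2 (Finset.mem_union_left _ (goodTw_p_mem hS'))
  refine trace_compat (B := T0 Sg)
    ((D.e₀ : TQ Sg n qv hcop →+* T0 Sg).comp (β : (Sg.F (SQ P Ts qv) hS').R →+* TQ Sg n qv hcop))
    (isLocalHom_of_finite_resField _) (β₀ : (Sg.F Sg.S (Sg.hgoodS hH.hT)).R →+* T0 Sg)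
    (isLocalHom_of_finite_resField _) (Sg.F (SQ P Ts qv) hS').ρ (Sg.F Sg.S (Sg.hgoodS hH.hT)).ρ
    (SQ P Ts qv ∪ P.Aux) ?_ h
  intro ℓ hℓ hℓS A hA φ hφ
  have hsub : Sg.S ∪ P.Aux ⊆ SQ P Ts qv ∪ P.Aux :=
    Finset.union_subset_union_left Finset.subset_union_left
  have hℓS' : ℓ ∉ (↑(SQ P Ts qv ∪ P.Aux) : Set ℕ) := fun h => hℓS (Finset.mem_coe.1 h)
  have hℓS0 : ℓ ∉ (↑(Sg.S ∪ P.Aux) : Set ℕ) := fun h => hℓS (hsub (Finset.mem_coe.1 h))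
  have hℓNQ : ¬ ℓ ∣ lvlTw P (SQ P Ts qv) := fun h => hℓS (goodTw_primes_mem hS' ℓ hℓ h)
  have hℓN0 : ¬ ℓ ∣ lvlTw P Sg.S := fun h =>
    hℓS (hsub (goodTw_primes_mem (Sg.hgoodS hH.hT) ℓ hℓ h))
  have hi : ℓ.Prime ∧ ¬ ℓ ∣ M₀ P Ts ∧ ℓ ≠ P.p := by
    refine ⟨hℓ, fun h => ?_, fun h => hℓS' (h ▸ hpS)⟩
    exact hℓS (hsub (mem_SA_of_prime_dvd_M₀ hH.hT hℓ h))
  have hℓM : ℓ.Coprime (M₀ P Ts * (QL qv).prod) :=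
    (Nat.Prime.coprime_iff_not_dvd hℓ).2 fun h =>
      hℓNQ (h.trans (lvl_dvd_sq_of_eq hM))
  have hℓM₀ : ℓ.Coprime (M₀ P Ts) := (Nat.Prime.coprime_iff_not_dvd hℓ).2 hi.2.1
  set ℓ' : Fermat.Agent.S43lib.B2.Bridge.GoodPrime
    (P.R0 * tp P (SQ P Ts qv) * tp P (SQ P Ts qv)) (↑(SQ P Ts qv ∪ P.Aux) : Set ℕ) :=
    ⟨ℓ, hℓ, hℓNQ, hℓS'⟩ with hℓ'
  have hJ : (Sum.inl ⟨ℓ, hi⟩ : Idx P.p (M₀ P Ts)) ∈ JQ P.p (M₀ P Ts) (QL qv) :=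
    idxT_mem_JQ P.p (QL qv) hM hpS hQp ℓ'
  set v : (ZMod (M₀ P Ts * (QL qv).prod))ˣ := ZMod.unitOfCoprime ℓ hℓM with hv
  have hvℓ : ((v : (ZMod (M₀ P Ts * (QL qv).prod))ˣ) : ZMod (M₀ P Ts * (QL qv).prod)) =
      (ℓ : ZMod (M₀ P Ts * (QL qv).prod)) := ZMod.coe_unitOfCoprime ℓ hℓM
  set k := (Fintype.card (G₀ P Ts × DelQ P r n) - 1) / 2 with hk
  set g : G₀ P Ts × DelQ P r n := chiQ (χ₀ P Ts) (kapQ P n qv) v ^ k with hg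
  have hgg : g * g * chiQ (χ₀ P Ts) (kapQ P n qv) v = 1 :=
    Fermat.Agent.S43lib.B2.Bridge.pow_half_sq_mul hodd _
  have hgg0 : g.1 * g.1 * χ₀ P Ts (ZMod.unitOfCoprime ℓ hℓM₀) = 1 := by
    have h1 := congrArg Prod.fst hgg
    rw [Prod.fst_mul, Prod.fst_mul, chiQ_apply, Prod.fst_one] at h1
    rwa [Fermat.Agent.S43lib.B2.Bridge.unitsMap_eq_unitOfCoprime (dvd_mul_right _ _) ℓ hℓM₀ v
      hvℓ] at h1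
  -- the traces and the determinants at the Frobenius
  have tQ : (Sg.F (SQ P Ts qv) hS').ρ.trace φ =
      heckeLocal.π _ _ _ _ (heckeAlgebra.T hℓ hℓNQ hℓS') := by
    have h1 := heckeDatum_trace_frob (Sg.D.H (SQ P Ts qv) hS') ℓ hℓ hℓNQ hℓS' A hA φ hφ
    rw [hπQ] at h1
    exact h1
  have t0 : (Sg.F Sg.S (Sg.hgoodS hH.hT)).ρ.trace φ =
      heckeLocal.π _ _ _ _ (heckeAlgebra.T hℓ hℓN0 hℓS0) := by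
    have h1 := heckeDatum_trace_frob (Sg.D.H Sg.S (Sg.hgoodS hH.hT)) ℓ hℓ hℓN0 hℓS0 A hA φ hφ
    rw [hπ0] at h1
    exact h1
  have dQ : LinearMap.det ((Sg.F (SQ P Ts qv) hS').ρ.ρ φ) = ((ℓ : ℕ) : (Sg.F (SQ P Ts qv) hS').R) :=
    det_eq_of_charpoly (Sg.D.H (SQ P Ts qv) hS').ρ.finrank_eq _
      ((Sg.D.H (SQ P Ts qv) hS').charpoly_frob ℓ hℓ hℓNQ hℓS' A hA φ hφ)
  have d0 : LinearMap.det ((Sg.F Sg.S (Sg.hgoodS hH.hT)).ρ.ρ φ) = ((ℓ : ℕ) : (Sg.F Sg.S (Sg.hgoodS hH.hT)).R) :=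
    det_eq_of_charpoly (Sg.D.H Sg.S (Sg.hgoodS hH.hT)).ρ.finrank_eq _
      ((Sg.D.H Sg.S (Sg.hgoodS hH.hT)).charpoly_frob ℓ hℓ hℓN0 hℓS0 A hA φ hφ)
  refine ⟨?_, ?_⟩
  · rw [tQ, t0]
    show D.e₀ (β _) = β₀ _
    rw [hβ ℓ hℓ hℓNQ hℓS' hi hJ hℓM g hgg, hβ₀ ℓ hℓ hℓN0 hℓS0 hi hℓM₀ g.1 hgg0, map_mul,
      TWDataW.e₀_tG D, TWDataW.e₀_tX D]
  · rw [dQ, d0, map_natCast, map_natCast]

/-- **COMPAT** (helper7's `SPEC_bricks2.txt`, verbatim) -/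
theorem compat_of (hH : HubHyp Sg)
    {r : ℕ} (n : ℕ) (qv : Fin r → ℕ) (hinj : Function.Injective qv)
    (hqv : ∀ i, (qv i).Prime ∧ qv i ∉ Sg.SA ∧ P.p ^ (n + 1) ∣ qv i - 1)
    [NeZero (M₀ P Ts * (QL qv).prod)] (hcop : (M₀ P Ts).Coprime (QL qv).prod)
    (hgoodQ : (HQ Sg n qv hcop).Good P.p) (hgood0 : (H0 Sg).Good P.p)
    (hS' : Sg.good (SQ P Ts qv))
    (D : TWData P.p (χ₀ P Ts) (QL qv) hcop (kapQ P n qv) (tS Sg) (aS Sg))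
    (β : (Sg.F (SQ P Ts qv) hS').R →ₐ[Sg.𝒪] TQ Sg n qv hcop)
    (hβ : ∀ (ℓ : ℕ) (hℓ : ℓ.Prime) (hℓN : ¬ ℓ ∣ lvlTw P (SQ P Ts qv))
        (hℓS : ℓ ∉ (↑(SQ P Ts qv ∪ P.Aux) : Set ℕ)) (hi : ℓ.Prime ∧ ¬ ℓ ∣ M₀ P Ts ∧ ℓ ≠ P.p)
        (hJ : (Sum.inl ⟨ℓ, hi⟩ : Idx P.p (M₀ P Ts)) ∈ JQ P.p (M₀ P Ts) (QL qv))
        (hℓM : ℓ.Coprime (M₀ P Ts * (QL qv).prod)) (g : G₀ P Ts × DelQ P r n),
        g * g * chiQ (χ₀ P Ts) (kapQ P n qv) (ZMod.unitOfCoprime ℓ hℓM) = 1 →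
        β (heckeLocal.π _ _ _ _ (heckeAlgebra.T hℓ hℓN hℓS)) =
          (HQ Sg n qv hcop).tG (JQ P.p (M₀ P Ts) (QL qv)) g *
            (HQ Sg n qv hcop).tX (JQ P.p (M₀ P Ts) (QL qv)) (Sum.inl ⟨ℓ, hi⟩) hJ)
    (β₀ : (Sg.F Sg.S (Sg.hgoodS hH.hT)).R →ₐ[Sg.𝒪] T0 Sg)
    (hβ₀ : ∀ (ℓ : ℕ) (hℓ : ℓ.Prime) (hℓN : ¬ ℓ ∣ lvlTw P Sg.S)
        (hℓS : ℓ ∉ (↑(Sg.S ∪ P.Aux) : Set ℕ)) (hi : ℓ.Prime ∧ ¬ ℓ ∣ M₀ P Ts ∧ ℓ ≠ P.p)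
        (hℓM : ℓ.Coprime (M₀ P Ts)) (g : G₀ P Ts),
        g * g * χ₀ P Ts (ZMod.unitOfCoprime ℓ hℓM) = 1 →
        β₀ (heckeLocal.π _ _ _ _ (heckeAlgebra.T hℓ hℓN hℓS)) =
          (H0 Sg).tG Set.univ g * (H0 Sg).tX Set.univ (Sum.inl ⟨ℓ, hi⟩) (Set.mem_univ _))
    (h : GQ) :
    D.e₀ (β ((Sg.F (SQ P Ts qv) hS').ρ.trace h)) = β₀ ((Sg.F Sg.S (Sg.hgoodS hH.hT)).ρ.trace h) :=
  compat_of_aux Sg hH n qv hinj hqv hcop hgoodQ hgood0 hS' (Sg.D.H_π (SQ P Ts qv) hS')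
    (Sg.D.H_π Sg.S (Sg.hgoodS hH.hT)) D β hβ β₀ hβ₀ h

end Fermat.Agent.S59lib.Hub
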