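-- Project H (S43), LAYER 4, the hub: the group ring `Λ = 𝒪[G₀]` of the base diamond group with its two
-- augmentations `χA` (all generators to a `p`-th root of unity `ζ`) and `χB` (trivial).
import Mathlib
import Fermat.Agent.S59lib.Hub.HubDefs
import Fermat.Agent.S43lib.Mod4.LamPkg
import Fermat.Agent.S43lib.Mod4.HubDefs
import Fermat.Agent.S43lib.Loc.GroupRing
import Fermat.Agent.S43lib.Patch.Mod.Level

set_option autoImplicit false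
set_option linter.unusedSectionVars false
set_option linter.style.haveILetI false

noncomputable section

namespace Fermat.Agent.S59lib.Hub

open Fermat.Agent.S43lib Fermat.Agent.S43lib.Mod4.Hub Fermat.Agent.S43lib.Mod4 Fermat.Agent.S43lib.B3

open IsLocalRing Fermat.Agent.S43lib.Loc Fermat.Agent.S43lib.B3

section Gen

variable {𝒪 : Type} [CommRing 𝒪] {G : Type} [CommGroup G]

/-- the character of `G` underlying an augmentation of `𝒪[G]` -/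
def charOfAug (χ : MonoidAlgebra 𝒪 G →ₐ[𝒪] 𝒪) : G →* 𝒪ˣ :=
  MonoidHom.toHomUnits ((χ.toRingHom.toMonoidHom).comp (MonoidAlgebra.of 𝒪 G))

theorem charOfAug_apply (χ : MonoidAlgebra 𝒪 G →ₐ[𝒪] 𝒪) (g : G) :
    ((charOfAug χ g : 𝒪ˣ) : 𝒪) = χ (MonoidAlgebra.of 𝒪 G g) := rfl

theorem charAug_charOfAug (χ : MonoidAlgebra 𝒪 G →ₐ[𝒪] 𝒪) : charAug (charOfAug χ) = χ := by
  refine MonoidAlgebra.algHom_ext ?_ (Subsingleton.elim _ _)
  intro g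
  have := charAug_of (charOfAug χ) g
  rw [charOfAug_apply] at this
  exact this

end Gen

variable (P : Ctx) (Ts : Finset ℕ) (𝒪 : Type) [CommRing 𝒪]

/-- the augmentation of `Λ = 𝒪[G₀]` sending every generator to `ζ` -/
def chiOf (ζ : 𝒪) (hζ : ζ ^ P.p = 1) : Lam P Ts 𝒪 →ₐ[𝒪] 𝒪 :=
  Classical.choose (exists_lift_deltaUnit P.p (aT Ts) 𝒪 𝒪 (fun _ => ζ)
    (fun _ => by rw [pow_one]; exact hζ))

theorem chiOf_deltaGen (ζ : 𝒪) (hζ : ζ ^ P.p = 1) (i : Fin (mT Ts)) :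
    chiOf P Ts 𝒪 ζ hζ (MonoidAlgebra.of 𝒪 (G₀ P Ts) (deltaGen P.p (aT Ts) i)) = ζ :=
  Classical.choose_spec (exists_lift_deltaUnit P.p (aT Ts) 𝒪 𝒪 (fun _ => ζ)
    (fun _ => by rw [pow_one]; exact hζ)) i

theorem chiOf_gT (ζ : 𝒪) (hζ : ζ ^ P.p = 1) (v : TT Ts) :
    chiOf P Ts 𝒪 ζ hζ ((gT P Ts 𝒪 v : (Lam P Ts 𝒪)ˣ) : Lam P Ts 𝒪) = ζ :=
  chiOf_deltaGen P Ts 𝒪 ζ hζ (eT Ts v)

theorem chiOf_one_of (g : G₀ P Ts) :
    chiOf P Ts 𝒪 1 (one_pow _) (MonoidAlgebra.of 𝒪 (G₀ P Ts) g) = 1 := by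
  rw [eq_prod_deltaGen_pow P.p (aT Ts) g, map_prod, map_prod]
  refine Finset.prod_eq_one fun i _ => ?_
  rw [map_pow, map_pow, chiOf_deltaGen, one_pow]

variable {𝒪}

theorem chiOf_of_pow (ζ : 𝒪) (hζ : ζ ^ P.p = 1) (g : G₀ P Ts) :
    (chiOf P Ts 𝒪 ζ hζ (MonoidAlgebra.of 𝒪 (G₀ P Ts) g)) ^ P.p ^ 1 = 1 := by
  rw [← map_pow, ← map_pow]
  have : g ^ P.p ^ 1 = 1 := by
    funext i
    show (g i) ^ P.p ^ 1 = 1
    rw [← ofAdd_toAdd (g i), ← ofAdd_nsmul]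
    have : (P.p ^ 1) • Multiplicative.toAdd (g i) = 0 := by
      rw [nsmul_eq_mul]
      have h0 : ((P.p ^ 1 : ℕ) : ZMod (P.p ^ aT Ts i)) = 0 := ZMod.natCast_self _
      rw [h0, zero_mul]
    rw [this]
    rfl
  rw [this, map_one, map_one]

theorem ker_chiOf_sup [IsLocalRing 𝒪] (hp𝒪 : (P.p : 𝒪) ∈ maximalIdeal 𝒪) (ζ : 𝒪) (hζ : ζ ^ P.p = 1)
    (ϖ : 𝒪) (hϖ : maximalIdeal 𝒪 = Ideal.span {ϖ}) :
    RingHom.ker (chiOf P Ts 𝒪 ζ hζ : Lam P Ts 𝒪 →+* 𝒪) ⊔ Ideal.span {algebraMap 𝒪 (Lam P Ts 𝒪) ϖ} =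
      RingHom.ker (chiOf P Ts 𝒪 1 (one_pow _) : Lam P Ts 𝒪 →+* 𝒪) ⊔
        Ideal.span {algebraMap 𝒪 (Lam P Ts 𝒪) ϖ} := by
  have key := ker_charAug_sup_eq (charOfAug (chiOf P Ts 𝒪 ζ hζ))
    (charOfAug (chiOf P Ts 𝒪 1 (one_pow _))) ϖ ?_
  · rw [charAug_charOfAug, charAug_charOfAug] at key
    exact key
  · intro g
    rw [charOfAug_apply, charOfAug_apply, ← hϖ]
    have h1 := Patch.Mod.sub_one_mem_of_pow_p_pow_eq_one (a := 1) P.pp hp𝒪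
      (chiOf_of_pow P Ts ζ hζ g)
    have h2 := Patch.Mod.sub_one_mem_of_pow_p_pow_eq_one (a := 1) P.pp hp𝒪
      (chiOf_of_pow P Ts (1 : 𝒪) (one_pow _) g)
    have := Ideal.sub_mem _ h1 h2
    rwa [sub_sub_sub_cancel_right] at this

end Fermat.Agent.S59lib.Hub
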