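/-
S59lib / Hub / EndPt (helper7) — re-issue of `S43lib/B0/End/Glue.modularRepOfLevel_of_point` and
`End/Seam.modularRepOfLevel_of_prime_T0` (helper6) for the general hub: the END statement is the field `Ctx.endpt`.

* `isMod_of_point` : a point `x : R → D` of the trace ring in a domain `D` finite over `𝒪`, `p ≠ 0` in `D`, carrying a
  character of the classical Hecke algebra of level `N`, trace-unramified at `q` ⇒ `P.IsMod (N / q)`.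
* `isMod_of_prime_T0` : the same for a prime `𝔭` of the base Hecke algebra `T0` over the augmentation ideal.
-/
import Mathlib
import Fermat.Agent.S59lib.Hub.Ctx
import Fermat.Agent.S43lib.B0.End.Seam

set_option autoImplicit false
set_option linter.unusedSectionVars false
set_option linter.unusedVariables false
set_option linter.style.haveILetI false

noncomputable section

namespace Fermat.Agent.S59lib.Hub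

open Polynomial IsLocalRing
open Fermat.Agent.S43lib.B3 Fermat.Agent.S29lib.Dvr Fermat.Agent.S43lib.B0.EndBlock
open Fermat.Agent.S43lib.Mod4 Fermat.Agent.S43lib.Mod4.HO

local notation "Qb" => AlgebraicClosure ℚ
local notation "GQ" => (AlgebraicClosure ℚ ≃ₐ[ℚ] AlgebraicClosure ℚ)

/-- **END-GLUE, the assembly half** for the context `P`. -/
theorem isMod_of_point (P : Ctx) (N q : ℕ) [NeZero N]
    (hsq : Squarefree N) (hpN : P.p ∣ N ↔ P.p ∣ P.R0) (hq : q.Prime) (h5 : 5 ≤ q) (hqN : q ∣ N)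
    (hqp : q ≠ P.p) (hR0N : P.R0 ∣ N) (hqR0 : ¬ q ∣ P.R0)
    (S : Finset ℕ) (hS : ∀ ℓ ∈ S, ℓ.Prime ∧ ℓ ∣ N * P.p) (hpS : P.p ∈ S)
    (hNS : ∀ ℓ : ℕ, ℓ.Prime → ℓ ∣ N → ℓ ∈ S)
    {𝒪 : Type} [CommRing 𝒪] [IsDomain 𝒪] [IsDiscreteValuationRing 𝒪]
    [IsAdicComplete (maximalIdeal 𝒪) 𝒪] [Finite (ResidueField 𝒪)] [CharZero 𝒪]
    (hp𝒪 : (P.p : 𝒪) ∈ maximalIdeal 𝒪)
    {R : Type} [CommRing R] [IsLocalRing R] (ρR : GaloisRepAdic R)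
    (hirrR : ρR.residual.IsAbsolutelyIrreducible) (hurR : ρR.residual.IsUnramifiedAt q)
    (hdetR : ∀ ℓ : ℕ, ℓ.Prime → ℓ ∉ S → ∀ A : ValuationSubring Qb, A.LiesOverPrime ℓ →
      ∀ σ : GQ, A.IsFrobeniusAt σ ℓ → LinearMap.det (ρR.ρ σ) = (ℓ : R))
    (hcongR : ∀ ℓ : ℕ, ℓ.Prime → ℓ ∉ S → ℓ ∉ P.S₀ → ∀ A : ValuationSubring Qb,
      A.LiesOverPrime ℓ → ∀ σ : GQ, A.IsFrobeniusAt σ ℓ →
        ρR.trace σ - ((P.a ℓ : ℤ) : R) ∈ maximalIdeal R)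
    {D : Type} [CommRing D] [IsDomain D] [Algebra 𝒪 D] [Module.Finite 𝒪 D]
    (hpD : (P.p : D) ≠ 0) (x : R →+* D)
    (χ₀ : CuspForm.heckeAlgebra N 2 (↑S : Set ℕ) →+* D)
    (hχ₀ : ∀ (ℓ : ℕ) (hℓ : ℓ.Prime) (hℓN : ¬ ℓ ∣ N) (hℓS : ℓ ∉ (↑S : Set ℕ)),
      ∀ A : ValuationSubring Qb, A.LiesOverPrime ℓ → ∀ σ : GQ, A.IsFrobeniusAt σ ℓ →
        χ₀ (CuspForm.heckeAlgebra.T hℓ hℓN hℓS) = x (ρR.trace σ))
    (htr : ∀ h : GQ, x (ρR.trace (globGenAt ⟨q, hq⟩ P.p * h)) = x (ρR.trace h)) :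
    P.IsMod (N / q) := by
  have hp : P.p.Prime := P.pp
  have hinj : Function.Injective (algebraMap 𝒪 D) :=
    algebraMap_injective_of_natCast_ne_zero hp𝒪 hpD
  -- the complete DVR
  obtain ⟨𝒪', i1, i2, i3, i4, i5, i6, ι, hι, hιm⟩ := exists_dvr_of_finite_domain hinj
  have hp𝒪' : (P.p : 𝒪') ∈ maximalIdeal 𝒪' := by
    have h1 := hιm (P.p : 𝒪) hp𝒪
    rwa [map_natCast, map_natCast] at h1
  -- the point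
  set y : R →+* 𝒪' := ι.comp x with hy
  have hyl : IsLocalHom y := isLocalHom_of_finite_residueField y
  have hym : ∀ r ∈ maximalIdeal R, y r ∈ maximalIdeal 𝒪' := fun r hr =>
    (mem_maximalIdeal _).2 fun hu => (mem_maximalIdeal _).1 hr (hyl.map_nonunit r hu)
  have hnotS : ∀ ℓ : ℕ, ℓ ∉ (↑S : Set ℕ) → ℓ ∉ S := fun ℓ h h' => h (Finset.mem_coe.2 h')
  refine P.endpt N q hsq hpN hq h5 hqN hqp hR0N hqR0 S hS hpS hNS 𝒪' hp𝒪' (ι.comp χ₀) ?_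
    (ρR.baseChangeAlong y hyl) ?_ (span_range_rho_baseChangeAlong y hyl ρR hirrR) ?_
  · -- the congruence
    intro ℓ hℓ hℓN hℓS hgood
    obtain ⟨A, hA⟩ := Fermat.Agent.S13lib.exists_liesOverPrime hℓ
    obtain ⟨φ, hφ⟩ : ∃ φ : GQ, A.IsFrobeniusAt φ ℓ := by
      obtain ⟨B, σ, hB, hσ⟩ := Fermat.Agent.Helper5.exists_isFrobeniusAt ℓ hℓ
      obtain ⟨g, hg⟩ := Fermat.Agent.S56lib.TWSel.exists_smul_eq_of_liesOverPrime hℓ hB hA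
      refine ⟨g * σ * g⁻¹, ?_⟩
      rw [hg]
      exact Fermat.Agent.S56lib.TWSel.isFrobeniusAt_conj hσ
    have h1 := hym _ (hcongR ℓ hℓ (hnotS ℓ hℓS) hgood A hA φ hφ)
    rw [map_sub, map_intCast] at h1
    rw [RingHom.comp_apply, hχ₀ ℓ hℓ hℓN hℓS A hA φ hφ]
    exact h1
  · -- the characteristic polynomials
    intro ℓ hℓ hℓN hℓS A hA σ hσ
    rw [charpoly_baseChangeAlong, charpoly_eq_trace_det, hdetR ℓ hℓ (hnotS ℓ hℓS) A hA σ hσ,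
      RingHom.comp_apply, hχ₀ ℓ hℓ hℓN hℓS A hA σ hσ]
    simp only [Polynomial.map_add, Polynomial.map_sub, Polynomial.map_mul, Polynomial.map_pow,
      Polynomial.map_X, Polynomial.map_C, map_natCast, hy, RingHom.comp_apply,
      Polynomial.map_natCast]
  · -- unramified at `q`
    have hpv : P.p ≠ ((⟨q, hq⟩ : Nat.Primes) : ℕ) := hqp.symm
    have hur' : ρR.residual.IsUnramifiedAt ((⟨q, hq⟩ : Nat.Primes) : ℕ) := hurR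
    have htr' : ∀ h : Qb ≃ₐ[ℚ] Qb, y (ρR.trace (globGenAt ⟨q, hq⟩ P.p * h)) = y (ρR.trace h) :=
      fun h => by rw [hy, RingHom.comp_apply, RingHom.comp_apply, htr h]
    haveI hH : IsHausdorff (maximalIdeal 𝒪') 𝒪' := i4.toIsHausdorff
    exact unram_baseChangeAlong_of_forall_trace P.p hp𝒪' y hyl ρR hirrR ⟨q, hq⟩ hpv hur' htr'


/-- **the `readout` of `SideBase` for the Hecke algebra `T0`** for the context `P`. -/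
theorem isMod_of_prime_T0 (P : Ctx) (N q : ℕ) [NeZero N]
    (hsq : Squarefree N) (hpN : P.p ∣ N ↔ P.p ∣ P.R0) (hq : q.Prime) (h5 : 5 ≤ q) (hqN : q ∣ N)
    (hqp : q ≠ P.p) (hR0N : P.R0 ∣ N) (hqR0 : ¬ q ∣ P.R0)
    (S : Finset ℕ) (hS : ∀ ℓ ∈ S, ℓ.Prime ∧ ℓ ∣ N * P.p) (hpS : P.p ∈ S)
    (hNS : ∀ ℓ : ℕ, ℓ.Prime → ℓ ∣ N → ℓ ∈ S)
    {𝒪 : Type} [CommRing 𝒪] [IsDomain 𝒪] [IsDiscreteValuationRing 𝒪]
    [IsAdicComplete (maximalIdeal 𝒪) 𝒪] [Finite (ResidueField 𝒪)] [CharZero 𝒪]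
    {R : Type} [CommRing R] [IsLocalRing R] (ρR : GaloisRepAdic R)
    (hirrR : ρR.residual.IsAbsolutelyIrreducible) (hurR : ρR.residual.IsUnramifiedAt q)
    (hdetR : ∀ ℓ : ℕ, ℓ.Prime → ℓ ∉ S → ∀ A : ValuationSubring Qb, A.LiesOverPrime ℓ →
      ∀ σ : GQ, A.IsFrobeniusAt σ ℓ → LinearMap.det (ρR.ρ σ) = (ℓ : R))
    (hcongR : ∀ ℓ : ℕ, ℓ.Prime → ℓ ∉ S → ℓ ∉ P.S₀ → ∀ A : ValuationSubring Qb,
      A.LiesOverPrime ℓ → ∀ σ : GQ, A.IsFrobeniusAt σ ℓ →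
        ρR.trace σ - ((P.a ℓ : ℤ) : R) ∈ maximalIdeal R)
    {M₀ : ℕ} [NeZero M₀] (hM : N = M₀)
    {G₀ : Type} [CommGroup G₀] [Fintype G₀] (χ₀ : (ZMod M₀)ˣ →* G₀) (t : ℕ → ResidueField 𝒪)
    (hH : (abs0 (𝒪 := 𝒪) P.p χ₀ t).Good P.p)
    (β₀ : R →+* T0 (𝒪 := 𝒪) P.p χ₀ t) (𝔭 : Ideal (T0 (𝒪 := 𝒪) P.p χ₀ t)) (h𝔭 : 𝔭.IsPrime)
    (hp𝔭 : ((P.p : ℕ) : T0 (𝒪 := 𝒪) P.p χ₀ t) ∉ 𝔭)
    (hG : ∀ g : G₀, (abs0 (𝒪 := 𝒪) P.p χ₀ t).tG Set.univ g - 1 ∈ 𝔭)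
    (hβ₀ : ∀ (ℓ : ℕ) (hℓ : ℓ.Prime) (hℓM : ¬ ℓ ∣ M₀) (hℓp : ℓ ≠ P.p), ℓ ∉ S →
      ∀ A : ValuationSubring Qb, A.LiesOverPrime ℓ → ∀ σ : GQ, A.IsFrobeniusAt σ ℓ →
        β₀ (ρR.trace σ) - (abs0 (𝒪 := 𝒪) P.p χ₀ t).tX Set.univ (Sum.inl ⟨ℓ, hℓ, hℓM, hℓp⟩)
          (Set.mem_univ _) ∈ 𝔭)
    {ℓ₀ : ℕ} (hℓ₀ : ℓ₀.Prime) (hℓ₀S : ℓ₀ ∉ S) (h1 : M₀ ∣ ℓ₀ - 1)
    (hne : t ℓ₀ ≠ ((1 + ℓ₀ : ℕ) : ResidueField 𝒪))
    (v : Nat.Primes) (hv : (v : ℕ) = q)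
    (htr : ∀ h : GQ, β₀ (ρR.trace (globGenAt v P.p * h)) - β₀ (ρR.trace h) ∈ 𝔭) :
    P.IsMod (N / q) := by
  subst hM
  haveI := h𝔭
  have hp𝒪 : (P.p : 𝒪) ∈ maximalIdeal 𝒪 := hH.hp𝒪
  obtain ⟨χ', hχ'⟩ := exists_character_of_prime (𝒪 := 𝒪) P.p χ₀ t hH 𝔭 hp𝔭 hG (↑S : Set ℕ)
    (fun ℓ hℓ hd => Finset.mem_coe.2 (hNS ℓ hℓ hd)) (Finset.mem_coe.2 hpS) hℓ₀
    (fun h => hℓ₀S (Finset.mem_coe.1 h)) h1 hne
  haveI : IsDomain (T0 (𝒪 := 𝒪) P.p χ₀ t ⧸ 𝔭) := Ideal.Quotient.isDomain 𝔭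
  haveI : Module.Finite 𝒪 (T0 (𝒪 := 𝒪) P.p χ₀ t) :=
    (abs0 (𝒪 := 𝒪) P.p χ₀ t).finite_hecke Set.univ hH
  haveI : Module.Finite 𝒪 (T0 (𝒪 := 𝒪) P.p χ₀ t ⧸ 𝔭) :=
    Module.Finite.of_surjective (Ideal.Quotient.mkₐ 𝒪 𝔭).toLinearMap
      (Ideal.Quotient.mkₐ_surjective 𝒪 𝔭)
  have hpD : ((P.p : ℕ) : T0 (𝒪 := 𝒪) P.p χ₀ t ⧸ 𝔭) ≠ 0 := by
    intro h
    apply hp𝔭
    rw [← Ideal.Quotient.eq_zero_iff_mem, map_natCast]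
    exact h
  obtain ⟨v, hvp⟩ := v
  subst hv
  refine isMod_of_point P N v hsq hpN hq h5 hqN hqp hR0N hqR0 S hS hpS hNS hp𝒪 ρR
    hirrR hurR hdetR hcongR hpD ((Ideal.Quotient.mk 𝔭).comp β₀) χ' ?_ ?_
  · intro ℓ hℓ hℓN hℓS A hA σ hσ
    have hℓp : ℓ ≠ P.p := fun h => hℓS (h ▸ Finset.mem_coe.2 hpS)
    rw [hχ' ℓ hℓ hℓN hℓS hℓp, RingHom.comp_apply, eq_comm, Ideal.Quotient.eq]
    exact hβ₀ ℓ hℓ hℓN hℓp (fun h => hℓS (Finset.mem_coe.2 h)) A hA σ hσ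
  · intro h
    rw [RingHom.comp_apply, RingHom.comp_apply, Ideal.Quotient.eq]
    exact htr h

end Fermat.Agent.S59lib.Hub
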