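/-
S59lib / Hub / Readout (helper7) — re-issue of `S43lib/Mod4x/Readout` (helper6) for the general hub: brick READOUT.

`readout_of` : for the concrete hub objects (`Sg : SideGal P Ts`, base Hecke algebra `T0 Sg` at the level
`M₀ P Ts = R0 ∏_{v ∈ T} v`, trace ring `(Sg.F Sg.S _).R`), a prime `𝔭` of `T0 Sg` over the augmentation ideal, not
containing `p`, at which the bridge `β₀` is trace-unramified at `q ∈ T`, gives `P.IsMod (M₀ P Ts / q)`.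
Proof: `Hub/EndPt.isMod_of_prime_T0` (the END statement is the field `Ctx.endpt`).
-/
import Mathlib
import Fermat.Agent.S59lib.Hub.EndPt
import Fermat.Agent.S59lib.Hub.AsmHub
import Fermat.Agent.S43lib.Mod4x.Readout

set_option autoImplicit false
set_option linter.unusedSectionVars false
set_option linter.unusedVariables false
set_option linter.style.haveILetI false

noncomputable section

namespace Fermat.Agent.S59lib.Hub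

open Fermat.Agent.S43lib.Mod4 Fermat.Agent.S43lib.Mod4.Hub

open IsLocalRing Polynomial CuspForm Fermat.Agent.S43lib.B3 Fermat.Agent.S43lib.Loc
  Fermat.Agent.S56lib.Main Fermat.Agent.S43lib.Mod4.HO

local notation "GQ" => (AlgebraicClosure ℚ ≃ₐ[ℚ] AlgebraicClosure ℚ)
local notation "Qb" => AlgebraicClosure ℚ

variable {P : Ctx} {Ts : Finset ℕ} (Sg : SideGal P Ts)

/-- the base level is squarefree -/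
theorem squarefree_M₀ (hT : THyp P Ts) : Squarefree (M₀ P Ts) := by
  have hg : goodTw P Ts (P.Smin ∪ Ts) := by
    refine ⟨le_refl _, fun ℓ hℓ => ?_, Finset.disjoint_union_left.2 ⟨P.Aux_disj, hT.disjAux⟩⟩
    rcases Finset.mem_union.1 hℓ with h | h
    · exact P.Smin_prime ℓ h
    · exact hT.prime ℓ h
  rw [M₀_eq hT, Nat.squarefree_mul_iff]
  exact ⟨coprime_R0_tp P hg, P.R0_sq, squarefree_tpW P _⟩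

/-- `p` divides the base level iff it divides `R0` -/
theorem p_dvd_M₀_iff (hT : THyp P Ts) : P.p ∣ M₀ P Ts ↔ P.p ∣ P.R0 := by
  refine ⟨fun h => ?_, fun h => h.trans (Dvd.intro _ rfl)⟩
  rcases prime_dvd_M₀ hT P.pp h with h1 | h1
  · exact h1
  · exact absurd h1 (Finset.disjoint_left.1 hT.disjSmin P.hpSmin)

/-- the primes of `T` are at least `5` -/
theorem five_le_of_mem_T (hT : THyp P Ts) {q : ℕ} (hq : q.Prime) (hqT : q ∈ Ts) : 5 ≤ q := by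
  have h1 : q ≡ 1 [MOD P.p] := hT.one q hqT
  have h3 : 3 ≤ P.p := by
    have := P.pp.two_le
    have := P.hp2
    omega
  have h4 : P.p ∣ q - 1 := (Nat.modEq_iff_dvd' hq.one_lt.le).1 h1.symm
  have h6 : P.p ≤ q - 1 := Nat.le_of_dvd (by have := hq.two_le; omega) h4
  have h7 : q ≠ 4 := fun h => by rw [h] at hq; exact absurd hq (by decide)
  omega

/-! ## brick READOUT -/
theorem readout_of_aux {q : ℕ} (hH : HubHyp Sg)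
    (hπ : (Sg.D.H Sg.S (Sg.hgoodS hH.hT)).π =
      heckeLocal.π (lvlTw P Sg.S) (↑(Sg.S ∪ P.Aux) : Set ℕ) Sg.𝒪 (Sg.D.θ Sg.S (Sg.hgoodS hH.hT)))
    (hq : q.Prime) (hqT : q ∈ Ts)
    (hgood : (H0 Sg).Good P.p)
    (β₀ : (Sg.F Sg.S (Sg.hgoodS hH.hT)).R →ₐ[Sg.𝒪] T0 Sg)
    (hβ₀ : ∀ (ℓ : ℕ) (hℓ : ℓ.Prime) (hℓN : ¬ ℓ ∣ lvlTw P Sg.S)
        (hℓS : ℓ ∉ (↑(Sg.S ∪ P.Aux) : Set ℕ)) (hi : ℓ.Prime ∧ ¬ ℓ ∣ M₀ P Ts ∧ ℓ ≠ P.p)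
        (hℓM : ℓ.Coprime (M₀ P Ts)) (g : G₀ P Ts),
        g * g * χ₀ P Ts (ZMod.unitOfCoprime ℓ hℓM) = 1 →
        β₀ (heckeLocal.π _ _ _ _ (heckeAlgebra.T hℓ hℓN hℓS)) =
          (H0 Sg).tG Set.univ g * (H0 Sg).tX Set.univ (Sum.inl ⟨ℓ, hi⟩) (Set.mem_univ _))
    (𝔭 : Ideal (T0 Sg)) (h𝔭 : 𝔭.IsPrime)
    (hG : ∀ g : G₀ P Ts, (H0 Sg).tG Set.univ g - 1 ∈ 𝔭) (hp𝔭 : ((P.p : ℕ) : T0 Sg) ∉ 𝔭)
    (htr : ∀ h : GQ,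
      β₀ ((Sg.F Sg.S (Sg.hgoodS hH.hT)).ρ.trace (globGenAt ⟨q, hq⟩ P.p * h)) -
      β₀ ((Sg.F Sg.S (Sg.hgoodS hH.hT)).ρ.trace h) ∈ 𝔭) :
    P.IsMod (M₀ P Ts / q) := by
  classical
  have hT := hH.hT
  have hp : P.p.Prime := P.pp
  have hgS := Sg.hgoodS hH.hT
  have h5 : 5 ≤ q := five_le_of_mem_T hT hq hqT
  have hqp : q ≠ P.p := fun h => Finset.disjoint_left.1 hT.disjSmin P.hpSmin (h ▸ hqT)
  have hqN : q ∣ M₀ P Ts := by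
    rw [M₀_def hT]
    exact (Finset.dvd_prod_of_mem (fun v => v) hqT).mul_left _
  -- the set `S`
  have hS : ∀ ℓ ∈ Sg.S ∪ P.Aux, ℓ.Prime ∧ ℓ ∣ M₀ P Ts * P.p := by
    intro ℓ hℓ
    rcases Finset.mem_union.1 hℓ with h | h
    · rcases Finset.mem_union.1 h with h1 | h1
      · refine ⟨P.Smin_prime ℓ h1, ?_⟩
        by_cases hℓp : ℓ = P.p
        · rw [hℓp]; exact Dvd.intro_left _ rfl
        · exact ((P.Smin_dvd ℓ h1 hℓp).trans (Dvd.intro _ rfl)).mul_right _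
      · refine ⟨hT.prime ℓ h1, ?_⟩
        rw [M₀_def hT]
        exact ((Finset.dvd_prod_of_mem (fun v => v) h1).mul_left _).mul_right _
    · exact ⟨P.Aux_prime ℓ h, ((P.Aux_dvd ℓ h).trans (Dvd.intro _ rfl)).mul_right _⟩
  have hpS : P.p ∈ Sg.S ∪ P.Aux :=
    Finset.mem_union_left _ (Finset.mem_union_left _ P.hpSmin)
  have hNS : ∀ ℓ : ℕ, ℓ.Prime → ℓ ∣ M₀ P Ts → ℓ ∈ Sg.S ∪ P.Aux := fun ℓ hℓ hd =>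
    mem_SA_of_prime_dvd_M₀ hT hℓ hd
  have hlvl : ∀ ℓ : ℕ, ℓ.Prime → ℓ ∉ Sg.S ∪ P.Aux → ¬ ℓ ∣ lvlTw P Sg.S := fun ℓ hℓ hℓS hd =>
    hℓS (Sg.D.primes_mem Sg.S hgS ℓ hℓ hd)
  have hcoe : ∀ ℓ : ℕ, ℓ ∉ Sg.S ∪ P.Aux → ℓ ∉ (↑(Sg.S ∪ P.Aux) : Set ℕ) :=
    fun ℓ h h' => h (Finset.mem_coe.1 h')
  -- the Galois inputs
  have hirrR : (Sg.F Sg.S hgS).ρ.residual.IsAbsolutelyIrreducible :=
    (Sg.D.H Sg.S hgS).residual_absIrr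
  have hqur : Sg.ρbar.IsUnramifiedAt q := by
    by_contra hc
    have h1 : q ∈ Sg.Smin := (Sg.hmin q hq hqp).2 hc
    exact Finset.disjoint_left.1 hT.disjSmin h1 hqT
  have hurR : (Sg.F Sg.S hgS).ρ.residual.IsUnramifiedAt q :=
    Fermat.Agent.S43lib.Mod4.isUnramifiedAt_of_isEquiv_baseChangeAlong _ _ _
      (Sg.F Sg.S hgS).residual_isEquiv hqur
  have hdetR : ∀ ℓ : ℕ, ℓ.Prime → ℓ ∉ Sg.S ∪ P.Aux → ∀ A : ValuationSubring Qb,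
      A.LiesOverPrime ℓ → ∀ σ : GQ, A.IsFrobeniusAt σ ℓ →
        LinearMap.det ((Sg.F Sg.S hgS).ρ.ρ σ) = (ℓ : (Sg.F Sg.S hgS).R) := by
    intro ℓ hℓ hℓS A hA σ hσ
    exact readout_det_eq_of_charpoly (Sg.D.H Sg.S hgS).ρ.finrank_eq _
      ((Sg.D.H Sg.S hgS).charpoly_frob ℓ hℓ (hlvl ℓ hℓ hℓS) (hcoe ℓ hℓS) A hA σ hσ)
  have hcongR : ∀ ℓ : ℕ, ℓ.Prime → ℓ ∉ Sg.S ∪ P.Aux → ℓ ∉ P.S₀ → ∀ A : ValuationSubring Qb,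
      A.LiesOverPrime ℓ → ∀ σ : GQ, A.IsFrobeniusAt σ ℓ →
        (Sg.F Sg.S hgS).ρ.trace σ - ((P.a ℓ : ℤ) : (Sg.F Sg.S hgS).R) ∈
          maximalIdeal (Sg.F Sg.S hgS).R := by
    intro ℓ hℓ hℓS hgoodℓ A hA σ hσ
    have h1 : (Sg.F Sg.S hgS).ρ.trace σ =
        (Sg.D.H Sg.S hgS).π (heckeAlgebra.T hℓ (hlvl ℓ hℓ hℓS) (hcoe ℓ hℓS)) :=
      heckeDatum_trace_frob (Sg.D.H Sg.S hgS) ℓ hℓ (hlvl ℓ hℓ hℓS) (hcoe ℓ hℓS) A hA σ hσ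
    have key : (Sg.D.H Sg.S hgS).π (heckeAlgebra.T hℓ (hlvl ℓ hℓ hℓS) (hcoe ℓ hℓS)) -
        ((P.a ℓ : ℤ) : heckeLocal (lvlTw P Sg.S) (↑(Sg.S ∪ P.Aux) : Set ℕ) Sg.𝒪
          (Sg.D.θ Sg.S hgS)) ∈
        maximalIdeal (heckeLocal (lvlTw P Sg.S) (↑(Sg.S ∪ P.Aux) : Set ℕ) Sg.𝒪
          (Sg.D.θ Sg.S hgS)) := by
      rw [← residue_eq_zero_iff, map_sub, (Sg.D.H Sg.S hgS).residue_π,
        hH.hθ Sg.S hgS ℓ hℓ (hlvl ℓ hℓ hℓS) (hcoe ℓ hℓS), hH.ha ℓ hℓ hgoodℓ, map_intCast,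
        map_intCast, sub_self]
    rw [h1]
    exact key
  -- the bridge at the Frobenius elements
  have hodd : Odd (Fintype.card (G₀ P Ts)) := by
    obtain ⟨k, hk⟩ := IsPGroup.iff_card.1 hgood.hG
    rw [Nat.card_eq_fintype_card] at hk
    rw [hk]
    exact Odd.pow (hp.odd_of_ne_two (Sg.hp2))
  have hβ₀' : ∀ (ℓ : ℕ) (hℓ : ℓ.Prime) (hℓM : ¬ ℓ ∣ M₀ P Ts) (hℓp : ℓ ≠ P.p),
      ℓ ∉ Sg.S ∪ P.Aux →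
      ∀ A : ValuationSubring Qb, A.LiesOverPrime ℓ → ∀ σ : GQ, A.IsFrobeniusAt σ ℓ →
        (β₀ : (Sg.F Sg.S hgS).R →+* T0 Sg) ((Sg.F Sg.S hgS).ρ.trace σ) -
          (H0 Sg).tX Set.univ (Sum.inl ⟨ℓ, hℓ, hℓM, hℓp⟩) (Set.mem_univ _) ∈ 𝔭 := by
    intro ℓ hℓ hℓM hℓp hℓS A hA σ hσ
    have hcopℓ : ℓ.Coprime (M₀ P Ts) := (Nat.Prime.coprime_iff_not_dvd hℓ).2 hℓM
    obtain ⟨g, hg⟩ := readout_exists_sq_eq_of_odd_card hodd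
      ((χ₀ P Ts (ZMod.unitOfCoprime ℓ hcopℓ))⁻¹)
    have hg' : g * g * χ₀ P Ts (ZMod.unitOfCoprime ℓ hcopℓ) = 1 := by
      rw [hg, inv_mul_cancel]
    have h1 : (Sg.F Sg.S hgS).ρ.trace σ =
        (Sg.D.H Sg.S hgS).π (heckeAlgebra.T hℓ (hlvl ℓ hℓ hℓS) (hcoe ℓ hℓS)) :=
      heckeDatum_trace_frob (Sg.D.H Sg.S hgS) ℓ hℓ (hlvl ℓ hℓ hℓS) (hcoe ℓ hℓS) A hA σ hσ
    have h3 := hβ₀ ℓ hℓ (hlvl ℓ hℓ hℓS) (hcoe ℓ hℓS) ⟨hℓ, hℓM, hℓp⟩ hcopℓ g hg'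
    rw [h1, hπ]
    have h4 : (β₀ : (Sg.F Sg.S hgS).R →+* T0 Sg)
        (heckeLocal.π (lvlTw P Sg.S) (↑(Sg.S ∪ P.Aux) : Set ℕ) Sg.𝒪 (Sg.D.θ Sg.S hgS)
          (heckeAlgebra.T hℓ (hlvl ℓ hℓ hℓS) (hcoe ℓ hℓS))) =
        (H0 Sg).tG Set.univ g * (H0 Sg).tX Set.univ (Sum.inl ⟨ℓ, hℓ, hℓM, hℓp⟩)
          (Set.mem_univ _) := h3
    rw [h4]
    have h5 : (H0 Sg).tG Set.univ g * (H0 Sg).tX Set.univ (Sum.inl ⟨ℓ, hℓ, hℓM, hℓp⟩)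
        (Set.mem_univ _) - (H0 Sg).tX Set.univ (Sum.inl ⟨ℓ, hℓ, hℓM, hℓp⟩) (Set.mem_univ _) =
        ((H0 Sg).tG Set.univ g - 1) * (H0 Sg).tX Set.univ (Sum.inl ⟨ℓ, hℓ, hℓM, hℓp⟩)
          (Set.mem_univ _) := by ring
    rw [h5]
    exact Ideal.mul_mem_right _ _ (hG g)
  -- the non-Eisenstein prime
  obtain ⟨ℓ₀, hℓ₀, hℓ₀S, h1ℓ₀, hneℓ₀⟩ := hH.hne (M₀ P Ts)
    (Nat.pos_of_ne_zero (M₀_ne_zero P Ts)) (Sg.S ∪ P.Aux)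
  have hne' : tS Sg ℓ₀ ≠ ((1 + ℓ₀ : ℕ) : ResidueField Sg.𝒪) := by
    rw [Nat.add_comm]
    exact hneℓ₀
  have hR0N : P.R0 ∣ M₀ P Ts := Dvd.intro _ rfl
  have hqR0 : ¬ q ∣ P.R0 := by
    intro h
    rcases Finset.mem_union.1 (P.R0_primes q hq h) with h1 | h1
    · exact Finset.disjoint_left.1 hT.disjSmin h1 hqT
    · exact Finset.disjoint_left.1 hT.disjAux hqT h1
  exact isMod_of_prime_T0 P (M₀ P Ts) q (squarefree_M₀ hT) (p_dvd_M₀_iff hT) hq h5 hqN hqp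
    hR0N hqR0 (Sg.S ∪ P.Aux) hS hpS hNS (Sg.F Sg.S hgS).ρ hirrR hurR hdetR hcongR rfl (χ₀ P Ts)
    (tS Sg) hgood (β₀ : (Sg.F Sg.S hgS).R →+* T0 Sg) 𝔭 h𝔭 hp𝔭 hG hβ₀' hℓ₀ hℓ₀S h1ℓ₀ hne'
    ⟨q, hq⟩ rfl htr

/-- **brick READOUT** -/
theorem readout_of {q : ℕ} (hH : HubHyp Sg) (hq : q.Prime) (hqT : q ∈ Ts)
    (hgood : (H0 Sg).Good P.p)
    (β₀ : (Sg.F Sg.S (Sg.hgoodS hH.hT)).R →ₐ[Sg.𝒪] T0 Sg)
    (hβ₀ : ∀ (ℓ : ℕ) (hℓ : ℓ.Prime) (hℓN : ¬ ℓ ∣ lvlTw P Sg.S)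
        (hℓS : ℓ ∉ (↑(Sg.S ∪ P.Aux) : Set ℕ)) (hi : ℓ.Prime ∧ ¬ ℓ ∣ M₀ P Ts ∧ ℓ ≠ P.p)
        (hℓM : ℓ.Coprime (M₀ P Ts)) (g : G₀ P Ts),
        g * g * χ₀ P Ts (ZMod.unitOfCoprime ℓ hℓM) = 1 →
        β₀ (heckeLocal.π _ _ _ _ (heckeAlgebra.T hℓ hℓN hℓS)) =
          (H0 Sg).tG Set.univ g * (H0 Sg).tX Set.univ (Sum.inl ⟨ℓ, hi⟩) (Set.mem_univ _))
    (𝔭 : Ideal (T0 Sg)) (h𝔭 : 𝔭.IsPrime)
    (hG : ∀ g : G₀ P Ts, (H0 Sg).tG Set.univ g - 1 ∈ 𝔭) (hp𝔭 : ((P.p : ℕ) : T0 Sg) ∉ 𝔭)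
    (htr : ∀ h : GQ,
      β₀ ((Sg.F Sg.S (Sg.hgoodS hH.hT)).ρ.trace (globGenAt ⟨q, hq⟩ P.p * h)) -
      β₀ ((Sg.F Sg.S (Sg.hgoodS hH.hT)).ρ.trace h) ∈ 𝔭) :
    P.IsMod (M₀ P Ts / q) :=
  readout_of_aux Sg hH (Sg.D.H_π Sg.S (Sg.hgoodS hH.hT)) hq hqT hgood β₀ hβ₀ 𝔭 h𝔭 hG hp𝔭 htr

end Fermat.Agent.S59lib.Hub

end
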