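-- Project H (S43), LAYER 4, the assembly:  `ModLevelBlock ⇐ SideBlock`.
--
-- `SideBase Goal` = the level-independent data: coefficients, the residual representation with the
-- hypotheses of `gs_surj`, the family of trace rings `F`, the group ring `Λ` with its characters, the
-- base Hecke module `M0`/`T0`, the base bridge `β₀` and the READOUT (in trace form).
-- `SideLevel Sb r n qv` = what the Hecke side (B1 + BRIDGE + LGC) delivers at a Taylor–Wiles set `qv`: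
-- the group ring `RΔ`, the Hecke algebra `B` acting on `M` (free over `RΔ`), the bridge
-- `β : R_{S ∪ Q} → B`, the TRACE identities at the primes of `T` and of `Q`, and CONTROL.
-- The Galois side (`γ`, `det`, tame relation) comes from `gs_surj` and helper4's `AdicTame`.
import Mathlib
import Fermat.Agent.S59lib.Hub.Assemble2
import Fermat.Agent.S59lib.Hub.Ctx
import Fermat.Agent.S43lib.Mod4.Side
import Fermat.Agent.S43lib.PatchIfaceMod
import Fermat.Agent.S43lib.Mod4.Gal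
import Fermat.Agent.S43lib.B3.AdicTame
import Fermat.Agent.S43lib.Patch.Mod.Level

set_option autoImplicit false
set_option linter.unusedSectionVars false
set_option linter.style.haveILetI false

noncomputable section

namespace Fermat.Agent.S59lib.Hub

open Fermat.Agent.S43lib Fermat.Agent.S43lib.Patch Fermat.Agent.S43lib.Patch.Mod Fermat.Agent.S43lib.Mod4

open IsLocalRing Polynomial Fermat.Agent.TeamA Fermat.Agent.TeamA.Rep Fermat.Agent.S55lib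
  Fermat.Agent.S56lib.Dict Fermat.Agent.S56lib.PT9a Fermat.Agent.S56lib.TWSel
  Fermat.Agent.S56lib.Main Fermat.Agent.S56lib ExtCitation Fermat.Agent.S43lib.B3

/-- `G_ℚ` -/
local notation "GQ" => (AlgebraicClosure ℚ ≃ₐ[ℚ] AlgebraicClosure ℚ)

/-- The level-independent data of the two sides, WITHOUT the prime `q₀` and the READOUT (shared by the minimal
`R = T` theorem, where `T = ∅`, and by Ihara avoidance). -/
structure SideCore : Type 1 where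
  /-- the coefficient ring -/
  𝒪 : Type
  [instCommRing𝒪 : CommRing 𝒪]
  [instIsDomain𝒪 : IsDomain 𝒪]
  [instIsDVR𝒪 : IsDiscreteValuationRing 𝒪]
  [instIsAdicComplete𝒪 : IsAdicComplete (maximalIdeal 𝒪) 𝒪]
  [instFiniteResidueField𝒪 : Finite (ResidueField 𝒪)]
  [instCharZero𝒪 : CharZero 𝒪]
  p : ℕ
  hp : p.Prime
  hp2 : p ≠ 2
  hp𝒪 : (p : 𝒪) ∈ maximalIdeal 𝒪
  /-- the residual representation and the hypotheses of `gs_surj` -/
  ρbar : ResidualGaloisRep (ResidueField 𝒪)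
  habs : ρbar.IsAbsolutelyIrreducible
  hdet : (GaloisRepAdic.ofResidualGaloisRep ρbar).DetIsCyclotomic p
  hsplit : ∀ σ : GQ,
    ∃ α β : ResidueField 𝒪, LinearMap.charpoly (ρbar.ρ σ) = (X - C α) * (X - C β)
  hTW : ∀ (K : Type) [Field K] [Algebra (ResidueField 𝒪) K]
    (G : Subgroup GQ), G.index = 2 →
    ∀ V : Submodule K (ρbar.baseChange K).V,
      (∀ σ ∈ G, ∀ x ∈ V, (ρbar.baseChange K).ρ σ x ∈ V) → V = ⊥ ∨ V = ⊤
  S : Finset ℕ
  Smin : Finset ℕ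
  T : Finset ℕ
  hpSmin : p ∈ Smin
  hSmin : Smin ⊆ S
  hTS : T ⊆ S
  hTdisj : Disjoint Smin T
  hmin : ∀ q : ℕ, q.Prime → q ≠ p → (q ∈ Smin ↔ ¬ ρbar.IsUnramifiedAt q)
  bbar : Module.Basis (Fin 2) (ResidueField 𝒪) ρbar.V
  hscal : ∀ v : Nat.Primes, (v : ℕ) ∈ T → ∀ g : Gloc v, ∃ a : ResidueField 𝒪,
    resHom ρbar bbar (rloc v g) = a • (1 : Matrix (Fin 2) (Fin 2) (ResidueField 𝒪))
  φ₀ : ↥(primesIn T) → 𝒪ˣ
  hφ₀ : ∀ v : ↥(primesIn T), resHom ρbar bbar (globFrobAt (v : Nat.Primes)) =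
    residue 𝒪 (φ₀ v : 𝒪) • (1 : Matrix (Fin 2) (Fin 2) (ResidueField 𝒪))
  hφ₀sq : ∀ v : ↥(primesIn T),
    (((v : Nat.Primes) : ℕ) : 𝒪) - ((φ₀ v : 𝒪ˣ) : 𝒪) ^ 2 ∈ maximalIdeal 𝒪
  hT1 : ∀ v : ↥(primesIn T), ((v : Nat.Primes) : ℕ) ≡ 1 [MOD p]
  /-- the deformation type, the Galois side, and the family of trace rings -/
  𝒟 : DefType
  gs : GSFor p Smin 𝒟
  good : Finset ℕ → Prop
  F : ∀ S' : Finset ℕ, good S' → TrRingG 𝒪 ρbar p (𝒟 𝒪 S')
  hgoodS : good (Smin ∪ T)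
  hgoodQ : ∀ (r : ℕ) (qv : Fin r → ℕ), (∀ i, (qv i).Prime ∧ qv i ∉ S) →
    good (Smin ∪ T ∪ Finset.univ.image qv)
  /-- the group ring `𝒪[G_T]` -/
  Λ : Type
  [instCommRingΛ : CommRing Λ]
  [instIsLocalRingΛ : IsLocalRing Λ]
  [instIsNoetherianRingΛ : IsNoetherianRing Λ]
  [instIsAdicCompleteΛ : IsAdicComplete (maximalIdeal Λ) Λ]
  [instFiniteResidueFieldΛ : Finite (ResidueField Λ)]
  [instAlgebraΛ : Algebra 𝒪 Λ]
  χA : Λ →ₐ[𝒪] 𝒪
  χB : Λ →ₐ[𝒪] 𝒪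
  ker_sup : ∀ ϖ : 𝒪, maximalIdeal 𝒪 = Ideal.span {ϖ} →
    RingHom.ker (χA : Λ →+* 𝒪) ⊔ Ideal.span {algebraMap 𝒪 Λ ϖ} =
      RingHom.ker (χB : Λ →+* 𝒪) ⊔ Ideal.span {algebraMap 𝒪 Λ ϖ}
  ζ : ↥(primesIn T) → 𝒪ˣ
  ζ_pow : ∀ v, ((ζ v : 𝒪ˣ) : 𝒪) ^ p = 1
  ζ_sq : ∀ v, ((ζ v : 𝒪ˣ) : 𝒪) ^ 2 ≠ 1
  g : ↥(primesIn T) → Λˣ
  χA_g : ∀ v, χA (g v) = ((ζ v : 𝒪ˣ) : 𝒪)
  χB_g : ∀ v, χB (g v) = 1
  /-- the base level -/
  d : ℕ
  hd : 0 < d
  T0 : Type
  [instCommRingT0 : CommRing T0]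
  [instAlgebraT0 : Algebra Λ T0]
  [instFiniteT0 : Module.Finite Λ T0]
  M0 : Type
  [instAddCommGroupM0 : AddCommGroup M0]
  [instModuleΛM0 : Module Λ M0]
  [instModuleT0M0 : Module T0 M0]
  [instIsScalarTowerM0 : IsScalarTower Λ T0 M0]
  [instFiniteM0 : Module.Finite Λ M0]
  /-- the base bridge -/
  β₀ : (F (Smin ∪ T) hgoodS).R →+* T0

attribute [instance] SideCore.instCommRing𝒪 SideCore.instIsDomain𝒪 SideCore.instIsDVR𝒪
  SideCore.instIsAdicComplete𝒪 SideCore.instFiniteResidueField𝒪 SideCore.instCharZero𝒪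
  SideCore.instCommRingΛ SideCore.instIsLocalRingΛ SideCore.instIsNoetherianRingΛ
  SideCore.instIsAdicCompleteΛ SideCore.instFiniteResidueFieldΛ SideCore.instAlgebraΛ
  SideCore.instCommRingT0 SideCore.instAlgebraT0 SideCore.instFiniteT0
  SideCore.instAddCommGroupM0 SideCore.instModuleΛM0 SideCore.instModuleT0M0
  SideCore.instIsScalarTowerM0 SideCore.instFiniteM0

/-- The level-independent data of the two sides for Ihara avoidance at the prime `q₀ ∈ T`, with READOUT `Goal`. -/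
structure SideBase (Goal : Prop) extends SideCore where
  /-- the prime `q` -/
  q₀ : ↥(primesIn T)
  /-- READOUT, in trace form -/
  readout : ∀ 𝔭 : Ideal T0, 𝔭.IsPrime →
    (RingHom.ker (χB : Λ →+* 𝒪)).map (algebraMap Λ T0) ≤ 𝔭 → ((p : ℕ) : T0) ∉ 𝔭 →
    (∀ h : GQ, β₀ ((F (Smin ∪ T) hgoodS).ρ.trace (globGenAt (q₀ : Nat.Primes) p * h)) -
      β₀ ((F (Smin ∪ T) hgoodS).ρ.trace h) ∈ 𝔭) →
    Goal

/-- What the Hecke side delivers at a Taylor–Wiles set `qv` of depth `n`. -/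
structure SideLevel (Sb : SideCore) (r n : ℕ) (qv : Fin r → ℕ)
    (hqv : ∀ i, (qv i).Prime) (hS' : Sb.good (Sb.Smin ∪ Sb.T ∪ Finset.univ.image qv)) :
    Type 1 where
  a : Fin r → ℕ
  hna : ∀ i, n ≤ a i + 1
  /-- the group ring `Λ[Δ_Q]` -/
  RΔ : Type
  [instCommRingRΔ : CommRing RΔ]
  [instIsLocalRingRΔ : IsLocalRing RΔ]
  [instIsAdicCompleteRΔ : IsAdicComplete (maximalIdeal RΔ) RΔ]
  [instAlgebraRΔ : Algebra Sb.Λ RΔ]
  RΔ_local : ∀ x ∈ maximalIdeal Sb.Λ, algebraMap Sb.Λ RΔ x ∈ maximalIdeal RΔ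
  δ : Fin r → RΔˣ
  δ_pow : ∀ i, (δ i : RΔ) ^ Sb.p ^ a i = 1
  δ_gen : Algebra.adjoin Sb.Λ (Set.range fun i => (δ i : RΔ)) = ⊤
  lift : ∀ (C : Type) [CommRing C] [Algebra Sb.Λ C] (u : Fin r → C),
    (∀ i, u i ^ Sb.p ^ a i = 1) → ∃ ψ : RΔ →ₐ[Sb.Λ] C, ∀ i, ψ (δ i) = u i
  /-- the Hecke algebra `𝕋_Q` and the Hecke module `M_Q` -/
  B : Type
  [instCommRingB : CommRing B]
  [instIsLocalRingB : IsLocalRing B]
  [instIsAdicCompleteB : IsAdicComplete (maximalIdeal B) B]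
  [instAlgebraB : Algebra Sb.Λ B]
  ι : RΔ →ₐ[Sb.Λ] B
  ι_local : ∀ x ∈ maximalIdeal RΔ, ι x ∈ maximalIdeal B
  M : Type
  [instAddCommGroupM : AddCommGroup M]
  [instModuleM : Module B M]
  b : Fin Sb.d → M
  free : ∀ x : M, ∃! c : Fin Sb.d → RΔ, x = ∑ j, ι (c j) • b j
  /-- the bridge -/
  β : (Sb.F (Sb.Smin ∪ Sb.T ∪ Finset.univ.image qv) hS').R →+* B
  β_C : ∀ c : Sb.𝒪, β (algebraMap Sb.𝒪 _ c) = algebraMap Sb.Λ B (algebraMap Sb.𝒪 Sb.Λ c)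
  β_local : ∀ x ∈ maximalIdeal (Sb.F (Sb.Smin ∪ Sb.T ∪ Finset.univ.image qv) hS').R,
    β x ∈ maximalIdeal B
  /-- the TRACE identities -/
  tr_T : ∀ v : ↥(primesIn Sb.T),
    β ((Sb.F (Sb.Smin ∪ Sb.T ∪ Finset.univ.image qv) hS').ρ.trace
      (globGenAt (v : Nat.Primes) Sb.p)) =
      algebraMap Sb.Λ B (Sb.g v) + algebraMap Sb.Λ B ((Sb.g v)⁻¹ : Sb.Λˣ)
  tr_Q : ∀ i : Fin r,
    β ((Sb.F (Sb.Smin ∪ Sb.T ∪ Finset.univ.image qv) hS').ρ.trace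
      (globGenAt (⟨qv i, hqv i⟩ : Nat.Primes) Sb.p)) = ι (δ i) + ι ((δ i)⁻¹ : RΔˣ)
  /-- CONTROL -/
  e₀ : B →ₐ[Sb.Λ] Sb.T0
  v : M →+ Sb.M0
  v_smul : ∀ (t : B) (x : M), v (t • x) = e₀ t • v x
  v_surjective : Function.Surjective v
  ker_v : ∀ x : M, v x = 0 ↔
    x ∈ (Ideal.span (Set.range fun i => ι (δ i) - 1)) • (⊤ : Submodule B M)
  compat : ∀ h : GQ,
    e₀ (β ((Sb.F (Sb.Smin ∪ Sb.T ∪ Finset.univ.image qv) hS').ρ.trace h)) =
      Sb.β₀ ((Sb.F (Sb.Smin ∪ Sb.T) Sb.hgoodS).ρ.trace h)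

attribute [instance] SideLevel.instCommRingRΔ SideLevel.instIsLocalRingRΔ
  SideLevel.instIsAdicCompleteRΔ SideLevel.instAlgebraRΔ SideLevel.instCommRingB
  SideLevel.instIsLocalRingB SideLevel.instIsAdicCompleteB SideLevel.instAlgebraB
  SideLevel.instAddCommGroupM SideLevel.instModuleM


/-! ### general lemmas -/

/-- unramifiedness passes along base change and equivalence of residual representations -/
theorem isUnramifiedAt_of_isEquiv_baseChangeAlong {k k' : Type} [Field k] [Field k'] (φ : k →+* k')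
    (ρ₁ : ResidualGaloisRep k') (ρb : ResidualGaloisRep k)
    (h : ρ₁.IsEquiv (ρb.baseChangeAlong φ)) {q : ℕ} (hq : ρb.IsUnramifiedAt q) :
    ρ₁.IsUnramifiedAt q := by
  obtain ⟨e⟩ := h
  intro A hA σ hσ
  have h1 : (ρb.baseChangeAlong φ).ρ σ = 1 := by
    letI : Algebra k k' := φ.toAlgebra
    show (ρb.ρ σ).baseChange k' = 1
    rw [hq A hA σ hσ, LinearMap.baseChange_one]
  ext x
  apply e.toLinearEquiv.injective
  rw [e.map_apply, h1]
  rfl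

/-- a surjection of local rings maps non-units to non-units -/
theorem map_mem_maximalIdeal_of_surjective {A B : Type*} [CommRing A] [IsLocalRing A] [CommRing B]
    [IsLocalRing B] (f : A →+* B) (hf : Function.Surjective f) {x : A}
    (hx : x ∈ maximalIdeal A) : f x ∈ maximalIdeal B := by
  haveI := IsLocalHom.of_surjective f hf
  rw [mem_maximalIdeal, mem_nonunits_iff] at hx ⊢
  exact fun h => hx (isUnit_of_map_unit f x h)

/-- a surjection of local rings reflects the maximal ideal -/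
theorem mem_maximalIdeal_of_map_mem {A B : Type*} [CommRing A] [IsLocalRing A] [CommRing B]
    [IsLocalRing B] (f : A →+* B) {x : A} (hx : f x ∈ maximalIdeal B) : x ∈ maximalIdeal A := by
  rw [mem_maximalIdeal, mem_nonunits_iff] at hx ⊢
  exact fun h => hx (h.map f)

theorem isUnit_two_of_odd_prime_mem {A : Type*} [CommRing A] [IsLocalRing A] {p : ℕ}
    (hp : p.Prime) (hp2 : p ≠ 2) (hpA : (p : A) ∈ maximalIdeal A) : IsUnit (2 : A) := by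
  by_contra h2
  have h2m : (2 : A) ∈ maximalIdeal A := by rwa [mem_maximalIdeal, mem_nonunits_iff]
  have hodd : p % 2 = 1 := hp.eq_two_or_odd.resolve_left hp2
  have h1 : (1 : A) = (p : A) - 2 * ((p / 2 : ℕ) : A) := by
    have : (p : A) = ((2 * (p / 2) + 1 : ℕ) : A) := by
      congr 1
      omega
    rw [this]
    push_cast
    ring
  have : (1 : A) ∈ maximalIdeal A := by
    rw [h1]
    exact Ideal.sub_mem _ hpA (Ideal.mul_mem_right _ _ h2m)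
  exact (Ideal.ne_top_iff_one _).1 (maximalIdeal.isMaximal A).ne_top this

/-- entries of `ρ(s) − 1` for `s` in an inertia group at a residually unramified prime -/
theorem entIn_of_residual_unramified {A : Type} [CommRing A] [IsLocalRing A] (ρ : GaloisRepAdic A)
    (b : Module.Basis (Fin 2) A ρ.V) {v : ℕ} (hur : ρ.residual.IsUnramifiedAt v)
    {P : ValuationSubring (AlgebraicClosure ℚ)} (hP : P.LiesOverPrime v) {s : GQ}
    (hs : s ∈ P.inertiaSubgroupIn ℚ) : EntIn (maximalIdeal A) (matOf ρ b s - 1) := by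
  intro i j
  have h1 : matOfRes ρ.residual (residualBasis ρ b) s = 1 := by
    unfold matOfRes
    rw [hur _ hP s hs]
    exact LinearMap.toMatrix_one _
  rw [matOfRes_residual] at h1
  have h2 := congrFun (congrFun h1 i) j
  rw [Matrix.map_apply] at h2
  rw [Matrix.sub_apply, ← residue_eq_zero_iff, map_sub, h2]
  by_cases hij : i = j
  · subst hij; simp
  · simp [hij]


/-! ### from `SideBase` to `ModBase` -/

namespace SideBase

variable {Goal : Prop} (Sb : SideBase Goal)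

/-- a uniformiser -/
def unif : Sb.𝒪 := Classical.choose (IsDiscreteValuationRing.exists_irreducible Sb.𝒪)

theorem unif_irreducible : Irreducible Sb.unif :=
  Classical.choose_spec (IsDiscreteValuationRing.exists_irreducible Sb.𝒪)

theorem maximalIdeal_eq_unif : maximalIdeal Sb.𝒪 = Ideal.span {Sb.unif} :=
  Sb.unif_irreducible.maximalIdeal_eq

theorem p_mem_Λ : (Sb.p : Sb.Λ) ∈ maximalIdeal Sb.Λ := by
  rw [mem_maximalIdeal, mem_nonunits_iff]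
  intro h
  have h1 := h.map (Sb.χA : Sb.Λ →+* Sb.𝒪)
  rw [map_natCast] at h1
  have := Sb.hp𝒪
  rw [mem_maximalIdeal, mem_nonunits_iff] at this
  exact this h1

theorem prime_of_mem (v : ↥(primesIn Sb.T)) : ((v : Nat.Primes) : ℕ).Prime := (v : Nat.Primes).2

theorem natCast_sub_one_mem (v : ↥(primesIn Sb.T)) :
    ((((v : Nat.Primes) : ℕ) : Sb.𝒪)) - 1 ∈ maximalIdeal Sb.𝒪 := by
  have h1 : (Sb.p : ℤ) ∣ (((v : Nat.Primes) : ℕ) : ℤ) - 1 := by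
    have h0 := (Nat.modEq_iff_dvd.1 (Sb.hT1 v).symm)
    rwa [Nat.cast_one] at h0
  obtain ⟨c, hc⟩ := h1
  have h2 : ((((v : Nat.Primes) : ℕ) : Sb.𝒪)) - 1 = (Sb.p : Sb.𝒪) * (c : Sb.𝒪) := by
    have := congrArg (Int.cast : ℤ → Sb.𝒪) hc
    push_cast at this
    exact this
  rw [h2]
  exact Ideal.mul_mem_right _ _ Sb.hp𝒪

/-- the local data at the primes of `T` -/
def localDatum (v : ↥(primesIn Sb.T)) : IA.LocalDatum Sb.𝒪 Sb.unif where
  φ₀ := Sb.φ₀ v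
  d₀ := (((v : Nat.Primes) : ℕ) : Sb.𝒪)
  rr := (((v : Nat.Primes) : ℕ) : Sb.𝒪)
  ζ := Sb.ζ v
  hd := by
    rw [← Sb.maximalIdeal_eq_unif]
    exact Sb.hφ₀sq v
  hr := by
    rw [← Sb.maximalIdeal_eq_unif]
    exact Sb.natCast_sub_one_mem v
  hr1 := by
    intro h
    have h1 : (((v : Nat.Primes) : ℕ) : Sb.𝒪) = ((1 : ℕ) : Sb.𝒪) := by rw [h, Nat.cast_one]
    exact (Sb.prime_of_mem v).one_lt.ne' (Nat.cast_injective h1)
  hζ := by
    rw [← Sb.maximalIdeal_eq_unif]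
    exact Patch.Mod.sub_one_mem_of_pow_p_pow_eq_one (a := 1) Sb.hp Sb.hp𝒪 (by
      rw [pow_one]; exact Sb.ζ_pow v)
  hζ2 := Sb.ζ_sq v

/-- the monodromy ideal at `q₀`, in trace form -/
def J₀ : Ideal Sb.T0 := Ideal.span (Set.range fun h : GQ =>
  Sb.β₀ ((Sb.F (Sb.Smin ∪ Sb.T) Sb.hgoodS).ρ.trace (globGenAt (Sb.q₀ : Nat.Primes) Sb.p * h)) -
    Sb.β₀ ((Sb.F (Sb.Smin ∪ Sb.T) Sb.hgoodS).ρ.trace h))

theorem natCast_p_notMem (𝔭 : Ideal Sb.T0) (h𝔭 : 𝔭.IsPrime)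
    (h : algebraMap Sb.Λ Sb.T0 (algebraMap Sb.𝒪 Sb.Λ Sb.unif) ∉ 𝔭) : ((Sb.p : ℕ) : Sb.T0) ∉ 𝔭 := by
  intro hp
  have hp0 : ((Sb.p : ℕ) : Sb.𝒪) ≠ 0 := Nat.cast_ne_zero.2 Sb.hp.ne_zero
  obtain ⟨n, u, hu⟩ := IsDiscreteValuationRing.eq_unit_mul_pow_irreducible hp0 Sb.unif_irreducible
  have h1 : ((Sb.p : ℕ) : Sb.T0) =
      algebraMap Sb.Λ Sb.T0 (algebraMap Sb.𝒪 Sb.Λ (u : Sb.𝒪)) *
        algebraMap Sb.Λ Sb.T0 (algebraMap Sb.𝒪 Sb.Λ Sb.unif) ^ n := by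
    rw [← map_pow, ← map_pow, ← map_mul, ← map_mul, ← hu, map_natCast, map_natCast]
  rw [h1] at hp
  rcases h𝔭.mem_or_mem hp with h2 | h2
  · exact h𝔭.ne_top (Ideal.eq_top_of_isUnit_mem _ h2
      ((u.isUnit.map (algebraMap Sb.𝒪 Sb.Λ)).map (algebraMap Sb.Λ Sb.T0)))
  · exact h (h𝔭.mem_of_pow_mem n h2)

/-- **the base of the modular side**, for `r` Taylor–Wiles primes -/
@[reducible] def toModBase (r : ℕ) (hr : 3 * (primesIn Sb.T).card ≤ r) : ModBase Goal where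
  𝒪 := Sb.𝒪
  ϖ := Sb.unif
  ϖ_ne_zero := Sb.unif_irreducible.ne_zero
  maximalIdeal_eq := Sb.maximalIdeal_eq_unif
  isUnit_two := isUnit_two_of_odd_prime_mem Sb.hp Sb.hp2 Sb.hp𝒪
  Λ := Sb.Λ
  p := Sb.p
  p_prime := Sb.hp
  p_mem := Sb.p_mem_Λ
  χA := Sb.χA
  χB := Sb.χB
  ker_sup := Sb.ker_sup Sb.unif Sb.maximalIdeal_eq_unif
  T := ↥(primesIn Sb.T)
  q₀ := Sb.q₀
  h := r - 3 * (primesIn Sb.T).card
  m := r
  d := Sb.d
  hm := by
    rw [Fintype.card_coe]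
    omega
  hd := Sb.hd
  D := Sb.localDatum
  rN := fun v => ((v : Nat.Primes) : ℕ)
  rN_pos := fun v => (Sb.prime_of_mem v).one_lt.le
  rN_modEq := Sb.hT1
  D_rr := fun _ => rfl
  ζ_pow := Sb.ζ_pow
  g := Sb.g
  χA_g := Sb.χA_g
  χB_g := Sb.χB_g
  T0 := Sb.T0
  M0 := Sb.M0
  J₀ := Sb.J₀
  readout := fun 𝔭 h𝔭 hχ hϖ hJ => Sb.readout 𝔭 h𝔭 hχ (Sb.natCast_p_notMem 𝔭 h𝔭 hϖ)
    (fun h => hJ (Ideal.subset_span ⟨h, rfl⟩))

end SideBase


/-! ### from `SideLevel` (+ the Galois side) to `ModLevel` -/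

section ToModLevel

variable {Goal : Prop} (Sb : SideBase Goal) (r : ℕ) (n : ℕ) (qv : Fin r → ℕ)
  (hqv : ∀ i, (qv i).Prime) (hS' : Sb.good (Sb.Smin ∪ Sb.T ∪ Finset.univ.image qv))

/-- the trace ring at `S ∪ Q` -/
abbrev SideBase.trQ : TrRingG Sb.𝒪 Sb.ρbar Sb.p (Sb.𝒟 Sb.𝒪 (Sb.Smin ∪ Sb.T ∪ Finset.univ.image qv)) :=
  Sb.F (Sb.Smin ∪ Sb.T ∪ Finset.univ.image qv) hS'

/-- the number of free variables -/
abbrev SideBase.nfree : ℕ := r - 3 * (primesIn Sb.T).card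

theorem SideBase.mem_T (v : ↥(primesIn Sb.T)) : (((v : Nat.Primes) : ℕ)) ∈ Sb.T :=
  Finset.mem_subtype.1 v.2

theorem SideBase.ne_p_of_mem_T (v : ↥(primesIn Sb.T)) : Sb.p ≠ ((v : Nat.Primes) : ℕ) := by
  intro h
  exact (Finset.disjoint_left.1 Sb.hTdisj Sb.hpSmin) (h ▸ Sb.mem_T v)

theorem SideBase.residual_unramified_T (v : ↥(primesIn Sb.T)) :
    (Sb.trQ r qv hS').ρ.residual.IsUnramifiedAt ((v : Nat.Primes) : ℕ) := by
  refine isUnramifiedAt_of_isEquiv_baseChangeAlong _ _ _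
    (Sb.F (Sb.Smin ∪ Sb.T ∪ Finset.univ.image qv) hS').residual_isEquiv ?_
  by_contra hc
  exact (Finset.disjoint_right.1 Sb.hTdisj (Sb.mem_T v))
    ((Sb.hmin _ (Sb.prime_of_mem v) (Sb.ne_p_of_mem_T v).symm).2 hc)

theorem SideBase.residual_unramified_Q {ℓ : ℕ} (hℓ : ℓ.Prime) (hℓS : ℓ ∉ Sb.S) :
    (Sb.trQ r qv hS').ρ.residual.IsUnramifiedAt ℓ := by
  refine isUnramifiedAt_of_isEquiv_baseChangeAlong _ _ _
    (Sb.F (Sb.Smin ∪ Sb.T ∪ Finset.univ.image qv) hS').residual_isEquiv ?_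
  by_contra hc
  have hne : ℓ ≠ Sb.p := fun h => hℓS (Sb.hSmin (h ▸ Sb.hpSmin))
  exact hℓS (Sb.hSmin ((Sb.hmin _ hℓ hne).2 hc))

variable (L : SideLevel Sb.toSideCore r n qv hqv hS') (bR : Module.Basis (Fin 2) (Sb.trQ r qv hS').R (Sb.trQ r qv hS').ρ.V)
  (γ₀ : MvPowerSeries ((↥(primesIn Sb.T) × Bool × Fin 2 × Fin 2) ⊕ Fin (Sb.nfree r)) Sb.𝒪 →ₐ[Sb.𝒪] (Sb.trQ r qv hS').R)

theorem SideLevel.phi_map
    (h1 : ∀ (v : ↥(primesIn Sb.T)) (i j : Fin 2),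
      γ₀ (MvPowerSeries.X (Sum.inl (v, false, i, j))) =
        matOf (Sb.trQ r qv hS').ρ bR (globFrobAt (v : Nat.Primes)) i j -
          (if i = j then algebraMap Sb.𝒪 _ ((Sb.φ₀ v : Sb.𝒪ˣ) : Sb.𝒪) else 0))
    (v : ↥(primesIn Sb.T)) :
    (IA.PhiMat (h := Sb.nfree r) Sb.localDatum v).map (L.β.comp (γ₀ : _ →+* (Sb.trQ r qv hS').R)) =
      (matOf (Sb.trQ r qv hS').ρ bR (globFrobAt (v : Nat.Primes))).map L.β := by
  ext i j
  rw [Matrix.map_apply, Matrix.map_apply]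
  unfold IA.PhiMat
  rw [Matrix.of_apply, map_add, RingHom.comp_apply, RingHom.comp_apply, RingHom.coe_coe, h1]
  by_cases hij : i = j
  · rw [if_pos hij, if_pos hij]
    have : γ₀ (MvPowerSeries.C (((Sb.localDatum v).φ₀ : Sb.𝒪ˣ) : Sb.𝒪)) =
        algebraMap Sb.𝒪 _ ((Sb.φ₀ v : Sb.𝒪ˣ) : Sb.𝒪) := by
      rw [MvPowerSeries.c_eq_algebraMap, γ₀.commutes]
      rfl
    rw [this, ← map_add, add_sub_cancel]
  · rw [if_neg hij, if_neg hij, map_zero, map_zero, zero_add, sub_zero]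

theorem SideLevel.sig_map
    (h2 : ∀ (v : ↥(primesIn Sb.T)) (i j : Fin 2),
      γ₀ (MvPowerSeries.X (Sum.inl (v, true, i, j))) =
        matOf (Sb.trQ r qv hS').ρ bR (globGenAt (v : Nat.Primes) Sb.p) i j -
          (if i = j then 1 else 0))
    (v : ↥(primesIn Sb.T)) :
    (IA.SigMat Sb.𝒪 (Sb.nfree r) v).map (L.β.comp (γ₀ : _ →+* (Sb.trQ r qv hS').R)) =
      (matOf (Sb.trQ r qv hS').ρ bR (globGenAt (v : Nat.Primes) Sb.p)).map L.β := by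
  ext i j
  rw [Matrix.map_apply, Matrix.map_apply]
  unfold IA.SigMat
  rw [Matrix.of_apply, map_add, RingHom.comp_apply, RingHom.comp_apply, RingHom.coe_coe, h2]
  by_cases hij : i = j
  · rw [if_pos hij, if_pos hij, map_one, ← map_add, add_sub_cancel]
  · rw [if_neg hij, if_neg hij, map_zero, map_zero, zero_add, sub_zero]

theorem SideBase.p_mem_RQ : ((Sb.p : ℕ) : (Sb.trQ r qv hS').R) ∈ maximalIdeal (Sb.trQ r qv hS').R :=
  (Sb.trQ r qv hS').detCyc.1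

instance SideBase.isHausdorff_RQ :
    IsHausdorff (maximalIdeal (Sb.trQ r qv hS').R) (Sb.trQ r qv hS').R :=
  (Sb.trQ r qv hS').instIsAdicComplete.toIsHausdorff

theorem SideBase.det_frob (v : ↥(primesIn Sb.T)) :
    (matOf (Sb.trQ r qv hS').ρ bR (globFrobAt (v : Nat.Primes))).det =
      ((((v : Nat.Primes) : ℕ)) : (Sb.trQ r qv hS').R) :=
  haveI : Fact Sb.p.Prime := ⟨Sb.hp⟩
  haveI := Sb.isHausdorff_RQ r qv hS'
  det_matOf_globFrobAt Sb.p _ (Sb.trQ r qv hS').detCyc bR v (Sb.ne_p_of_mem_T v)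

theorem SideBase.det_gen (v : ↥(primesIn Sb.T)) :
    (matOf (Sb.trQ r qv hS').ρ bR (globGenAt (v : Nat.Primes) Sb.p)).det = 1 :=
  haveI : Fact Sb.p.Prime := ⟨Sb.hp⟩
  haveI := Sb.isHausdorff_RQ r qv hS'
  det_matOf_globGenAt Sb.p _ (Sb.trQ r qv hS').detCyc bR v (Sb.ne_p_of_mem_T v)

theorem SideBase.tame_rel (v : ↥(primesIn Sb.T)) :
    matOf (Sb.trQ r qv hS').ρ bR (globFrobAt (v : Nat.Primes)) *
        matOf (Sb.trQ r qv hS').ρ bR (globGenAt (v : Nat.Primes) Sb.p) =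
      matOf (Sb.trQ r qv hS').ρ bR (globGenAt (v : Nat.Primes) Sb.p) ^ (((v : Nat.Primes) : ℕ)) *
        matOf (Sb.trQ r qv hS').ρ bR (globFrobAt (v : Nat.Primes)) :=
  haveI : Fact Sb.p.Prime := ⟨Sb.hp⟩
  haveI := Sb.isHausdorff_RQ r qv hS'
  matOf_tame_relation Sb.p (Sb.p_mem_RQ r qv hS') _ bR v (Sb.ne_p_of_mem_T v)
    (Sb.residual_unramified_T r qv hS' v)

/-- `tr ρ(σ) − 2 ∈ 𝔪` for `σ` in an inertia group at a residually unramified prime -/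
theorem SideBase.trace_sub_two_mem {ℓ : Nat.Primes} (hℓS : (ℓ : ℕ) ∉ Sb.S) :
    (Sb.trQ r qv hS').ρ.trace (globGenAt ℓ Sb.p) - 2 ∈ maximalIdeal (Sb.trQ r qv hS').R := by
  obtain ⟨b⟩ : Nonempty (Module.Basis (Fin 2) (Sb.trQ r qv hS').R (Sb.trQ r qv hS').ρ.V) :=
    ⟨Module.finBasisOfFinrankEq _ _ (Sb.trQ r qv hS').ρ.finrank_eq⟩
  have h := entIn_of_residual_unramified (Sb.trQ r qv hS').ρ b
    (Sb.residual_unramified_Q r qv hS' ℓ.2 hℓS)
    (Fermat.Agent.S56lib.TWSel.primeLocalPlace_liesOverPrime ℓ) (globGenAt_mem_inertia ℓ Sb.p)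
  rw [trace_eq_trace_matOf _ b, Matrix.trace_fin_two]
  have h0 := h 0 0
  have h1 := h 1 1
  rw [Matrix.sub_apply, Matrix.one_apply_eq] at h0 h1
  have : matOf (Sb.trQ r qv hS').ρ b (globGenAt ℓ Sb.p) 0 0 +
      matOf (Sb.trQ r qv hS').ρ b (globGenAt ℓ Sb.p) 1 1 - 2 =
      (matOf (Sb.trQ r qv hS').ρ b (globGenAt ℓ Sb.p) 0 0 - 1) +
      (matOf (Sb.trQ r qv hS').ρ b (globGenAt ℓ Sb.p) 1 1 - 1) := by ring
  rw [this]
  exact Ideal.add_mem _ h0 h1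

/-- `tr(Σ h) − tr(h)` in terms of the entries of `Σ − 1` -/
theorem SideBase.trace_mul_sub (g h : GQ) :
    (Sb.trQ r qv hS').ρ.trace (g * h) - (Sb.trQ r qv hS').ρ.trace h =
      ∑ i : Fin 2, ∑ j : Fin 2, (matOf (Sb.trQ r qv hS').ρ bR g - 1) i j *
        matOf (Sb.trQ r qv hS').ρ bR h j i := by
  rw [trace_eq_trace_matOf _ bR, trace_eq_trace_matOf _ bR, ← matOfHom_apply, map_mul,
    matOfHom_apply, matOfHom_apply, Matrix.trace_fin_two, Matrix.trace_fin_two, Matrix.mul_apply,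
    Matrix.mul_apply]
  simp only [Fin.sum_univ_two, Matrix.sub_apply, Matrix.one_apply_eq, Matrix.one_apply_ne,
    ne_eq, Fin.isValue, one_ne_zero, zero_ne_one, not_false_eq_true, sub_zero]
  ring

/-- **from the Hecke side and the Galois side to `ModLevel`** -/
theorem SideLevel.nonempty_modLevel (L : SideLevel Sb.toSideCore r n qv hqv hS')
    (hr : 3 * (primesIn Sb.T).card ≤ r)
    (hqvS : ∀ i, qv i ∉ Sb.S) (hγ₀ : Function.Surjective γ₀)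
    (h1 : ∀ (v : ↥(primesIn Sb.T)) (i j : Fin 2),
      γ₀ (MvPowerSeries.X (Sum.inl (v, false, i, j))) =
        matOf (Sb.trQ r qv hS').ρ bR (globFrobAt (v : Nat.Primes)) i j -
          (if i = j then algebraMap Sb.𝒪 _ ((Sb.φ₀ v : Sb.𝒪ˣ) : Sb.𝒪) else 0))
    (h2 : ∀ (v : ↥(primesIn Sb.T)) (i j : Fin 2),
      γ₀ (MvPowerSeries.X (Sum.inl (v, true, i, j))) =
        matOf (Sb.trQ r qv hS').ρ bR (globGenAt (v : Nat.Primes) Sb.p) i j -
          (if i = j then 1 else 0)) :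
    Nonempty (ModLevel (Sb.toModBase r hr) n) := by
  have hγC : ∀ c : Sb.𝒪, γ₀ (MvPowerSeries.C c) = algebraMap Sb.𝒪 _ c := fun c => by
    rw [MvPowerSeries.c_eq_algebraMap, γ₀.commutes]
  have hγ₀' : Function.Surjective (γ₀.toRingHom) := hγ₀
  have hX : ∀ w, γ₀ (MvPowerSeries.X w) ∈ maximalIdeal (Sb.trQ r qv hS').R := fun w => by
    refine map_mem_maximalIdeal_of_surjective γ₀.toRingHom hγ₀' ?_
    rw [mem_maximalIdeal, mem_nonunits_iff, MvPowerSeries.isUnit_iff_constantCoeff,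
      MvPowerSeries.constantCoeff_X]
    exact not_isUnit_zero
  refine ⟨{
    a := L.a
    hna := L.hna
    RΔ := L.RΔ
    RΔ_local := L.RΔ_local
    δ := L.δ
    δ_pow := L.δ_pow
    δ_gen := L.δ_gen
    lift := L.lift
    B := L.B
    ι := L.ι
    ι_local := L.ι_local
    M := L.M
    b := L.b
    free := L.free
    γ := L.β.comp (γ₀ : _ →+* (Sb.trQ r qv hS').R)
    γ_C := fun c => by
      rw [RingHom.comp_apply, RingHom.coe_coe, hγC]
      exact L.β_C c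
    γ_mem := fun w => L.β_local _ (hX w)
    det_Phi := fun v => ?_
    det_Sig := fun v => ?_
    tr_Sig := fun v => ?_
    tame := fun v => ?_
    tr_Q := fun i => ?_
    e₀ := L.e₀
    v := L.v
    v_smul := L.v_smul
    v_surjective := L.v_surjective
    ker_v := L.ker_v
    mono := ?_ }⟩
  · -- det_Phi
    show ((IA.PhiMat (h := Sb.nfree r) Sb.localDatum v).map
      (L.β.comp (γ₀ : _ →+* (Sb.trQ r qv hS').R))).det = _
    rw [L.phi_map Sb r n qv hqv hS' bR γ₀ h1 v]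
    have : ((matOf (Sb.trQ r qv hS').ρ bR (globFrobAt (v : Nat.Primes))).map L.β).det =
        L.β (matOf (Sb.trQ r qv hS').ρ bR (globFrobAt (v : Nat.Primes))).det :=
      (RingHom.map_det L.β _).symm
    rw [this, Sb.det_frob r qv hS' bR v, map_natCast, RingHom.comp_apply, RingHom.coe_coe, hγC]
    show _ = L.β (algebraMap Sb.𝒪 _ ((((v : Nat.Primes) : ℕ)) : Sb.𝒪))
    rw [map_natCast, map_natCast]
  · -- det_Sig
    show ((IA.SigMat Sb.𝒪 (Sb.nfree r) v).map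
      (L.β.comp (γ₀ : _ →+* (Sb.trQ r qv hS').R))).det = 1
    rw [L.sig_map Sb r n qv hqv hS' bR γ₀ h2 v]
    have : ((matOf (Sb.trQ r qv hS').ρ bR (globGenAt (v : Nat.Primes) Sb.p)).map L.β).det =
        L.β (matOf (Sb.trQ r qv hS').ρ bR (globGenAt (v : Nat.Primes) Sb.p)).det :=
      (RingHom.map_det L.β _).symm
    rw [this, Sb.det_gen r qv hS' bR v, map_one]
  · -- tr_Sig
    show ((IA.SigMat Sb.𝒪 (Sb.nfree r) v).map
      (L.β.comp (γ₀ : _ →+* (Sb.trQ r qv hS').R))).trace = _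
    rw [L.sig_map Sb r n qv hqv hS' bR γ₀ h2 v, trace_map, ← trace_eq_trace_matOf]
    exact L.tr_T v
  · -- tame
    show (IA.PhiMat (h := Sb.nfree r) Sb.localDatum v).map
        (L.β.comp (γ₀ : _ →+* (Sb.trQ r qv hS').R)) *
        (IA.SigMat Sb.𝒪 (Sb.nfree r) v).map (L.β.comp (γ₀ : _ →+* (Sb.trQ r qv hS').R)) =
      ((IA.SigMat Sb.𝒪 (Sb.nfree r) v).map (L.β.comp (γ₀ : _ →+* (Sb.trQ r qv hS').R))) ^
        (((v : Nat.Primes) : ℕ)) *
        (IA.PhiMat (h := Sb.nfree r) Sb.localDatum v).map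
          (L.β.comp (γ₀ : _ →+* (Sb.trQ r qv hS').R))
    rw [L.phi_map Sb r n qv hqv hS' bR γ₀ h1 v, L.sig_map Sb r n qv hqv hS' bR γ₀ h2 v]
    have := congrArg L.β.mapMatrix (Sb.tame_rel r qv hS' bR v)
    rw [map_mul, map_mul, map_pow] at this
    exact this
  · -- tr_Q
    obtain ⟨f, hf⟩ := hγ₀ ((Sb.trQ r qv hS').ρ.trace (globGenAt ⟨qv i, hqv i⟩ Sb.p) - 2)
    refine ⟨f, mem_maximalIdeal_of_map_mem (γ₀ : _ →+* (Sb.trQ r qv hS').R) ?_, ?_⟩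
    · rw [RingHom.coe_coe, hf]
      exact Sb.trace_sub_two_mem r qv hS' (ℓ := ⟨qv i, hqv i⟩) (hqvS i)
    · rw [RingHom.comp_apply, RingHom.coe_coe, hf, map_sub, L.tr_Q i, map_ofNat]
  · -- mono
    show Sb.J₀ ≤ _
    unfold SideBase.J₀
    rw [Ideal.span_le]
    rintro _ ⟨h, rfl⟩
    show _ ∈ (_ : Ideal Sb.T0)
    beta_reduce
    rw [← L.compat, ← L.compat, ← map_sub, ← map_sub, Sb.trace_mul_sub r qv hS' bR, map_sum,
      map_sum]
    refine Ideal.sum_mem _ fun i _ => ?_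
    rw [map_sum, map_sum]
    refine Ideal.sum_mem _ fun j _ => ?_
    rw [map_mul, map_mul]
    refine Ideal.mul_mem_right _ _ (Ideal.subset_span ⟨(i, j), ?_⟩)
    show L.e₀ (L.β (γ₀ (MvPowerSeries.X (Sum.inl (Sb.q₀, true, i, j))))) = _
    rw [h2, Matrix.sub_apply, Matrix.one_apply]

end ToModLevel


/-! ### the block -/

/-- **The modular side from the Hecke side**: a `SideBase` whose Hecke side delivers a `SideLevel` at EVERY
Taylor–Wiles set (of any size `r ≥ 3|T|` and any depth `n`) gives a modular base with all its levels. -/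
theorem exists_modLevels {Goal : Prop} (Sb : SideBase Goal)
    (hSb : ∀ (r n : ℕ) (qv : Fin r → ℕ), Function.Injective qv →
      ∀ (hqv : ∀ i, (qv i).Prime ∧ qv i ∉ Sb.S ∧ Sb.p ^ (n + 1) ∣ qv i - 1),
      (∀ i, ∀ A : ValuationSubring (AlgebraicClosure ℚ), A.LiesOverPrime (qv i) →
        ∀ φ : GQ, A.IsFrobeniusAt φ (qv i) →
          ∃ α β : ResidueField Sb.𝒪, α ≠ β ∧
            LinearMap.charpoly (Sb.ρbar.ρ φ) = (X - C α) * (X - C β)) →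
      3 * (primesIn Sb.T).card ≤ r →
      Nonempty (SideLevel Sb.toSideCore r n qv (fun i => (hqv i).1)
        (Sb.hgoodQ r qv fun i => ⟨(hqv i).1, (hqv i).2.1⟩))) :
    ∃ Bs : ModBase Goal, ∀ n, Nonempty (ModLevel Bs n) := by
  obtain ⟨r, hr⟩ := Sb.gs Sb.habs Sb.F Sb.hp𝒪 Sb.hdet Sb.hsplit Sb.hTW Sb.S Sb.T
    Sb.hSmin Sb.hTS Sb.hTdisj Sb.hmin Sb.bbar Sb.hscal
    (fun v => ((Sb.φ₀ v : Sb.𝒪ˣ) : Sb.𝒪)) Sb.hφ₀
  obtain ⟨qv0, -, hqv0, -, hDQ0⟩ := hr 0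
  have hr3 : 3 * (primesIn Sb.T).card ≤ r :=
    (hDQ0 (Sb.hgoodQ r qv0 fun i => ⟨(hqv0 i).1, (hqv0 i).2.1⟩)).1
  refine ⟨Sb.toModBase r hr3, fun n => ?_⟩
  obtain ⟨qv, hinj, hqv, hfrob, hDQ⟩ := hr n
  obtain ⟨-, bR, γ₀, hγ₀, hh1, hh2⟩ :=
    hDQ (Sb.hgoodQ r qv fun i => ⟨(hqv i).1, (hqv i).2.1⟩)
  obtain ⟨L⟩ := hSb r n qv hinj hqv hfrob hr3
  exact L.nonempty_modLevel Sb r n qv _ _ bR γ₀ hr3 (fun i => (hqv i).2.1) hγ₀ hh1 hh2

end Fermat.Agent.S59lib.Hub
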