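/-
S59lib / Hub / TWDataW (helper7): **the Taylor–Wiles data for every odd `p`** — re-issue of `Mod4/HeckeObj.tw_apply`,
`Mod4/HeckeInst.nonempty_twData` and of the API of `TWData` WITHOUT the (spurious, or for `p = 3` false) instance
`[Invertible (3 : 𝒪)]`: for `p = 3` the control theorem is helper3's `Wa.twControl_three` under
`NoOrderThree (Gamma0 M₀)`.  The lemmas live in the namespace `TWDataW` and take `D : TWData …` explicitly.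
-/
import Mathlib
import Fermat.Agent.S43lib.Mod4.HeckeInst
import Fermat.Agent.S43lib.B1.Control
import Fermat.Agent.S59lib.Wa.TWThree

set_option autoImplicit false
set_option linter.unusedSectionVars false
set_option linter.style.haveILetI false

noncomputable section

namespace Fermat.Agent.S59lib.Hub

open Fermat.Agent.S43lib.Mod4 Fermat.Agent.S43lib.Mod4.HO Fermat.Agent.S59lib.Wa CongruenceSubgroup

open IsLocalRing MvPolynomial Fermat.Agent.S43lib.B1 Fermat.Agent.S43lib.Loc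

section TW

variable {𝒪 : Type} [CommRing 𝒪] [IsDomain 𝒪] [IsLocalRing 𝒪] [IsNoetherianRing 𝒪]
  [IsAdicComplete (maximalIdeal 𝒪) 𝒪] [Finite (ResidueField 𝒪)]
  [Invertible (2 : 𝒪)]
  (p : ℕ) [hp : Fact p.Prime] {M₀ : ℕ} [NeZero M₀]
  {G₀ Δ : Type} [CommGroup G₀] [CommGroup Δ] [Fintype G₀] [Fintype Δ]
  (χ₀ : (ZMod M₀)ˣ →* G₀) (Q : List ℕ) [NeZero (M₀ * Q.prod)] (hcop : M₀.Coprime Q.prod)
  (κ : (ZMod Q.prod)ˣ →* Δ) (t α : ℕ → ResidueField 𝒪)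

theorem tw_apply_three (h3 : NoOrderThree (Gamma0 M₀)) (hp2 : p ≠ 2) {ϖ : 𝒪}
    (hϖ : maximalIdeal 𝒪 = Ideal.span {ϖ}) (hϖ0 : ϖ ≠ 0) (hp𝒪 : (p : 𝒪) ∈ maximalIdeal 𝒪)
    (hG₀ : IsPGroup p G₀) (hΔ : IsPGroup p Δ) (hQ : Q.Nodup)
    (hQp : ∀ q ∈ Q, q.Prime ∧ ¬ q ∣ M₀ ∧ q ≠ p ∧ ((q : ℕ) : ResidueField 𝒪) = 1)
    (hα1 : ∀ q ∈ Q, α q * t q = α q ^ 2 + 1) (hα2 : ∀ q ∈ Q, α q ^ 2 ≠ 1)
    (hne : ∃ ℓ : {ℓ : ℕ // ℓ.Prime ∧ ¬ ℓ ∣ M₀ ∧ ℓ ≠ p}, ℓ.1 ∉ Q ∧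
      t ℓ.1 ≠ ((ℓ.1 + 1 : ℕ) : ResidueField 𝒪)) :
    ∃ (r : ℕ) (b : Fin r → ModQ p χ₀ Q hcop κ t α) (b₀ : Fin r → Mod0 (𝒪 := 𝒪) p χ₀ t)
      (v : ModQ p χ₀ Q hcop κ t α →+ Mod0 (𝒪 := 𝒪) p χ₀ t),
      (∀ x, ∃! c : Fin r → Reg (G₀ × Δ) 𝒪,
        x = (levelSys (chiQ χ₀ κ) (idxQ p hcop)).combo (RingHom.ker (evOf p M₀ (tQ t α Q))) b c) ∧
      (∀ x, ∃! c : Fin r → Reg G₀ 𝒪,
        x = (levelSys χ₀ (idx₀ p M₀)).combo (RingHom.ker (evOf p M₀ (𝒪 := 𝒪) t)) b₀ c) ∧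
      Function.Surjective v ∧
      (∀ y, v y = 0 ↔ y ∈ AddSubgroup.closure
        {x | ∃ δ : G₀ × Δ, δ.1 = 1 ∧ ∃ y', x = (levelSys (chiQ χ₀ κ) (idxQ p hcop)).Gact
          (RingHom.ker (evOf p M₀ (tQ t α Q))) δ y' - y'}) ∧
      (∀ i : Idx p M₀, (∀ q ∈ Q, i ≠ oIdx p M₀ q) → ∀ y,
        v ((X i : MvPolynomial (Idx p M₀) 𝒪) • y) = (X i : MvPolynomial (Idx p M₀) 𝒪) • v y) ∧
      (∀ (a : 𝒪) y, v (a • y) = a • v y) ∧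
      (∀ (g : G₀ × Δ) y, v ((levelSys (chiQ χ₀ κ) (idxQ p hcop)).Gact
          (RingHom.ker (evOf p M₀ (tQ t α Q))) g y) =
        (levelSys χ₀ (idx₀ p M₀)).Gact (RingHom.ker (evOf p M₀ (𝒪 := 𝒪) t)) g.1 (v y)) := by
  classical
  have hGG : IsPGroup p (G₀ × Δ) := by
    intro g
    obtain ⟨k₁, h₁⟩ := hG₀ g.1
    obtain ⟨k₂, h₂⟩ := hΔ g.2
    refine ⟨k₁ + k₂, Prod.ext ?_ ?_⟩
    · rw [Prod.pow_fst, pow_add, pow_mul, h₁, one_pow]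
      rfl
    · rw [Prod.pow_snd, pow_add, mul_comm, pow_mul, h₂, one_pow]
      rfl
  have hoQ : ∀ q (hq : q ∈ Q),
      oIdx p M₀ q = Sum.inl ⟨q, (hQp q hq).1, (hQp q hq).2.1, (hQp q hq).2.2.1⟩ := by
    intro q hq
    unfold oIdx
    rw [dif_pos ⟨(hQp q hq).1, (hQp q hq).2.1, (hQp q hq).2.2.1⟩]
  have hcopq : ∀ q ∈ Q, q.Coprime M₀ := fun q hq =>
    (Nat.Prime.coprime_iff_not_dvd (hQp q hq).1).2 (hQp q hq).2.1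
  have hzQ : ∀ q (hq : q ∈ Q), zIdx p M₀ q = Sum.inr ⟨q, hcopq q hq⟩ := by
    intro q hq
    unfold zIdx
    rw [dif_pos (hcopq q hq)]
  have hdvdM : ∀ q ∈ Q, q ∣ M₀ * Q.prod := fun q hq =>
    (List.dvd_prod hq).trans (dvd_mul_left _ _)
  refine twControl_three hϖ hϖ0 hp𝒪 h3 Q hQ (dvd_mul_right M₀ Q.prod) rfl
    (fun q hq => ⟨(hQp q hq).1, (hQp q hq).2.1, (hQp q hq).2.2.2⟩) hGG
    (MonoidHom.fst G₀ Δ) (fun g => ⟨(g, 1), rfl⟩) (chiQ χ₀ κ) χ₀ (fun u => rfl)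
    (map_neg_one_of_isPGroup hp.out hp2 hGG _)
    (idxQ p hcop) (idx₀ p M₀) (fun i => (down_idxQ p hcop i).symm) (oIdx p M₀) (zIdx p M₀)
    ?_ ?_ ?_ (evOf p M₀ (tQ t α Q)) (evOf p M₀ t) (evOf_C p M₀ _) (evOf_C p M₀ _) ?_ ?_ ?_ ?_ ?_
    (RingHom.ker (evOf p M₀ (tQ t α Q))) (RingHom.ker (evOf p M₀ t))
    (fun s => RingHom.mem_ker) (fun s => RingHom.mem_ker)
  · -- `o q` is the index of `U_q`
    intro q hq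
    refine ⟨⟨(hQp q hq).1, hdvdM q hq⟩, ?_⟩
    rw [hoQ q hq, idxQ_inl_of_dvd p hcop _ (hdvdM q hq)]
  · -- `U_q` occurs once
    intro q hq i hi
    rw [hoQ q hq, idxQ_inl_of_dvd p hcop _ (hdvdM q hq)] at hi
    rw [hoQ q hq]
    rcases i with ℓ | n
    · by_cases h : ℓ.1 ∣ M₀ * Q.prod
      · rw [idxQ_inl_of_dvd p hcop ℓ h] at hi
        have h1 : ℓ.1 = q := congrArg Subtype.val (Sum.inr.inj (Sum.inl.inj hi))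
        exact congrArg Sum.inl (Subtype.ext h1)
      · rw [idxQ_inl_of_not_dvd p hcop ℓ h] at hi
        exact absurd (Sum.inl.inj hi) (by simp)
    · rw [idxQ_inr] at hi
      exact absurd hi (by simp)
  · -- `z q`
    intro q hq
    refine ⟨_, by rw [hzQ q hq, idxQ_inr], ?_⟩
    rw [unitsMap_crtU_fst]
    rfl
  · -- the two points agree off the `U_q`
    intro i hi
    rcases i with ℓ | n
    · rw [evOf_X_inl, evOf_X_inl]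
      unfold tQ
      by_cases hℓ : ℓ.1 ∈ Q
      · exact absurd (hoQ ℓ.1 hℓ).symm (hi ℓ.1 hℓ)
      · rw [if_neg hℓ]
    · rw [evOf_X_inr, evOf_X_inr]
  · -- the diamonds
    intro q hq
    rw [hzQ q hq, evOf_X_inr]
  · -- `α a = α² + 1`
    intro q hq
    rw [hoQ q hq, evOf_X_inl, evOf_X_inl]
    unfold tQ
    rw [if_pos hq]
    exact hα1 q hq
  · intro q hq
    rw [hoQ q hq, evOf_X_inl]
    unfold tQ
    rw [if_pos hq]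
    exact hα2 q hq
  · -- non-Eisenstein
    obtain ⟨ℓ, hℓQ, hℓ⟩ := hne
    have hℓM : ¬ ℓ.1 ∣ M₀ * Q.prod := by
      intro hd
      rcases (Nat.Prime.dvd_mul ℓ.2.1).1 hd with h | h
      · exact ℓ.2.2.1 h
      · obtain ⟨q, hq, hℓq⟩ := (Prime.dvd_prod_iff (Nat.Prime.prime ℓ.2.1)).1 h
        have : ℓ.1 = q := (Nat.prime_dvd_prime_iff_eq ℓ.2.1 (hQp q hq).1).1 hℓq
        exact hℓQ (this ▸ hq)
    refine ⟨Sum.inl ℓ, fun q hq h => ?_, ?_⟩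
    · rw [hoQ q hq] at h
      have : ℓ.1 = q := congrArg Subtype.val (Sum.inl.inj h)
      exact hℓQ (this ▸ hq)
    · rw [evOf_X_inl]
      unfold tQ
      rw [if_neg hℓQ, idxQ_inl_of_not_dvd p hcop ℓ hℓM]
      have hcard : Fintype.card (lvlIota (M₀ * Q.prod)
          (Sum.inl (Sum.inl ⟨ℓ.1, ℓ.2.1, hℓM⟩))) = ℓ.1 + 1 := by
        haveI : NeZero ℓ.1 := ⟨ℓ.2.1.ne_zero⟩
        rw [Fintype.card_eq_nat_card]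
        show Nat.card (OnePoint (ZMod ℓ.1)) = ℓ.1 + 1
        rw [show OnePoint (ZMod ℓ.1) = Option (ZMod ℓ.1) from rfl, Finite.card_option,
          Nat.card_zmod]
      rw [hcard]
      exact hℓ


/-- **the Taylor–Wiles data, every odd `p`**: `3` invertible, or no element of order `3` in `Γ₀(M₀)` -/
theorem nonempty_twDataW (h3 : IsUnit (3 : 𝒪) ∨ NoOrderThree (Gamma0 M₀)) (hp2 : p ≠ 2) {ϖ : 𝒪}
    (hϖ : maximalIdeal 𝒪 = Ideal.span {ϖ}) (hϖ0 : ϖ ≠ 0) (hp𝒪 : (p : 𝒪) ∈ maximalIdeal 𝒪)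
    (hG₀ : IsPGroup p G₀) (hΔ : IsPGroup p Δ) (hQ : Q.Nodup)
    (hQp : ∀ q ∈ Q, q.Prime ∧ ¬ q ∣ M₀ ∧ q ≠ p ∧ ((q : ℕ) : ResidueField 𝒪) = 1)
    (hα1 : ∀ q ∈ Q, α q * t q = α q ^ 2 + 1) (hα2 : ∀ q ∈ Q, α q ^ 2 ≠ 1)
    (hne : ∃ ℓ : {ℓ : ℕ // ℓ.Prime ∧ ¬ ℓ ∣ M₀ ∧ ℓ ≠ p}, ℓ.1 ∉ Q ∧
      t ℓ.1 ≠ ((ℓ.1 + 1 : ℕ) : ResidueField 𝒪)) :
    Nonempty (TWData p χ₀ Q hcop κ t α) := by
  rcases h3 with h3 | h3
  · letI : Invertible (3 : 𝒪) := h3.invertible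
    exact nonempty_twData p χ₀ Q hcop κ t α twControl hp2 hϖ hϖ0 hp𝒪 hG₀ hΔ hQ hQp hα1 hα2 hne
  · obtain ⟨r, b, b₀, v, h1, h2, h3', h4, h5, h6, h7⟩ :=
      tw_apply_three p χ₀ Q hcop κ t α h3 hp2 hϖ hϖ0 hp𝒪 hG₀ hΔ hQ hQp hα1 hα2 hne
    exact ⟨{
      r := r
      b := b
      b₀ := b₀
      v := v
      hb := h1
      hb₀ := h2
      surj := h3'
      ker := h4
      vX := fun i hi y => h5 i hi y
      v𝒪 := h6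
      vG := h7 }⟩

namespace TWDataW

variable {p χ₀ Q hcop κ t α} (D : TWData p χ₀ Q hcop κ t α)

include D

theorem free (x : ModQ p χ₀ Q hcop κ t α) : ∃! c : Fin D.r → (G₀ × Δ → 𝒪),
    x = ∑ i, ∑ g, c i g • (absQ p χ₀ Q hcop κ t α).act g (D.b i) :=
  existsUnique_fun_of_reg _ _ D.b D.hb x

theorem free₀ (x : Mod0 (𝒪 := 𝒪) p χ₀ t) : ∃! c : Fin D.r → (G₀ → 𝒪),
    x = ∑ i, ∑ g, c i g • (abs0 (𝒪 := 𝒪) p χ₀ t).act g (D.b₀ i) :=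
  existsUnique_fun_of_reg _ _ D.b₀ D.hb₀ x

theorem finite_modQ : Module.Finite 𝒪 (ModQ p χ₀ Q hcop κ t α) :=
  HeckeSys.finite_of_combo _ _ D.b D.hb

theorem finite_mod0 : Module.Finite 𝒪 (Mod0 (𝒪 := 𝒪) p χ₀ t) :=
  HeckeSys.finite_of_combo _ _ D.b₀ D.hb₀

theorem free_modQ : Module.Free 𝒪 (ModQ p χ₀ Q hcop κ t α) :=
  HeckeSys.free_of_combo _ _ D.b D.hb

theorem free_mod0 : Module.Free 𝒪 (Mod0 (𝒪 := 𝒪) p χ₀ t) :=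
  HeckeSys.free_of_combo _ _ D.b₀ D.hb₀

theorem finrank_mod0 :
    Module.finrank 𝒪 (Mod0 (𝒪 := 𝒪) p χ₀ t) = D.r * Fintype.card G₀ :=
  HeckeSys.finrank_of_combo _ _ D.b₀ D.hb₀

/-- the rank is determined by the base level -/
theorem r_eq : D.r = Module.finrank 𝒪 (Mod0 (𝒪 := 𝒪) p χ₀ t) / Fintype.card G₀ := by
  rw [(finrank_mod0 D), Nat.mul_div_cancel _ Fintype.card_pos]

theorem r_pos [Nontrivial (Mod0 (𝒪 := 𝒪) p χ₀ t)] : 0 < D.r := by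
  haveI := (finite_mod0 D)
  haveI := (free_mod0 D)
  have h : 0 < Module.finrank 𝒪 (Mod0 (𝒪 := 𝒪) p χ₀ t) := Module.finrank_pos
  rw [(finrank_mod0 D)] at h
  exact Nat.pos_of_mul_pos_right h

theorem nontrivial_modQ [Nontrivial (Mod0 (𝒪 := 𝒪) p χ₀ t)] :
    Nontrivial (ModQ p χ₀ Q hcop κ t α) :=
  HeckeSys.nontrivial_of_combo _ _ D.b D.hb (r_pos D)

omit D in
theorem isPGroup_prod (hG₀ : IsPGroup p G₀) (hΔ : IsPGroup p Δ) : IsPGroup p (G₀ × Δ) := by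
  intro g
  obtain ⟨k₁, h₁⟩ := hG₀ g.1
  obtain ⟨k₂, h₂⟩ := hΔ g.2
  refine ⟨k₁ + k₂, Prod.ext ?_ ?_⟩
  · rw [Prod.pow_fst, pow_add, pow_mul, h₁, one_pow]
    rfl
  · rw [Prod.pow_snd, pow_add, mul_comm, pow_mul, h₂, one_pow]
    rfl

theorem goodQ [Nontrivial (Mod0 (𝒪 := 𝒪) p χ₀ t)] (hp𝒪 : (p : 𝒪) ∈ maximalIdeal 𝒪)
    (hG₀ : IsPGroup p G₀) (hΔ : IsPGroup p Δ) : (absQ p χ₀ Q hcop κ t α).Good p where
  hp := hp.out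
  hp𝒪 := hp𝒪
  hG := isPGroup_prod hG₀ hΔ
  fin := (finite_modQ D)
  nontriv := (nontrivial_modQ D)

theorem good0 [Nontrivial (Mod0 (𝒪 := 𝒪) p χ₀ t)] (hp𝒪 : (p : 𝒪) ∈ maximalIdeal 𝒪)
    (hG₀ : IsPGroup p G₀) : (abs0 (𝒪 := 𝒪) p χ₀ t).Good p where
  hp := hp.out
  hp𝒪 := hp𝒪
  hG := hG₀
  fin := (finite_mod0 D)
  nontriv := (inferInstance : Nontrivial (Mod0 (𝒪 := 𝒪) p χ₀ t))

end TWDataW

end TW

section Level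

variable {𝒪 : Type} [CommRing 𝒪] [IsDomain 𝒪] [IsLocalRing 𝒪] [IsNoetherianRing 𝒪]
  [IsAdicComplete (maximalIdeal 𝒪) 𝒪] [Finite (ResidueField 𝒪)]
  [Invertible (2 : 𝒪)]
  {p : ℕ} [hp : Fact p.Prime] {M₀ : ℕ} [NeZero M₀]
  {G₀ : Type} [CommGroup G₀] [Fintype G₀] {m : ℕ} {a : Fin m → ℕ}
  {χ₀ : (ZMod M₀)ˣ →* G₀} {Q : List ℕ} [NeZero (M₀ * Q.prod)] {hcop : M₀.Coprime Q.prod}
  {κ : (ZMod Q.prod)ˣ →* DeltaGrp p a} {t α : ℕ → ResidueField 𝒪}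
  (D : TWData p χ₀ Q hcop κ t α)

attribute [local instance] lamAlgebraQ lamAlgebra0

namespace TWDataW

theorem e₀_tX (i : Idx p M₀) (hi : i ∈ JQ p M₀ Q) :
    D.e₀ ((absQ p χ₀ Q hcop κ t α).tX (JQ p M₀ Q) i hi) =
      (abs0 (𝒪 := 𝒪) p χ₀ t).tX Set.univ i (Set.mem_univ i) :=
  Fermat.Agent.S43lib.Mod4.e₀_tX _ _ _ _ _ _ _ _ i hi

theorem e₀_tG (g : G₀ × DeltaGrp p a) :
    D.e₀ ((absQ p χ₀ Q hcop κ t α).tG (JQ p M₀ Q) g) =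
      (abs0 (𝒪 := 𝒪) p χ₀ t).tG Set.univ g.1 :=
  Fermat.Agent.S43lib.Mod4.e₀_tG _ _ _ _ _ _ _ _ g

theorem v_smul (s : BQ p χ₀ Q hcop κ t α) (x : ModQ p χ₀ Q hcop κ t α) :
    D.v (s • x) = D.e₀ s • D.v x :=
  Fermat.Agent.S43lib.Mod4.v_smul (absQ p χ₀ Q hcop κ t α) (abs0 p χ₀ t) (Set.subset_univ (JQ p M₀ Q)) D.v D.v𝒪 D.vX
    D.vG D.surj s x

theorem ker_v (x : ModQ p χ₀ Q hcop κ t α) :
    D.v x = 0 ↔ x ∈ (Ideal.span (Set.range fun i : Fin m =>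
      iotaHom (absQ p χ₀ Q hcop κ t α) (JQ p M₀ Q)
        ((deltaUnit p a (MonoidAlgebra 𝒪 G₀) i :
          (MonoidAlgebra (MonoidAlgebra 𝒪 G₀) (DeltaGrp p a))ˣ) :
            MonoidAlgebra (MonoidAlgebra 𝒪 G₀) (DeltaGrp p a)) - 1)) •
        (⊤ : Submodule (BQ p χ₀ Q hcop κ t α) (ModQ p χ₀ Q hcop κ t α)) :=
  ker_v_iff p a (absQ p χ₀ Q hcop κ t α) (abs0 p χ₀ t) (Set.subset_univ (JQ p M₀ Q)) D.v D.v𝒪 D.vX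
    D.vG D.surj D.ker x

theorem free_iota (x : ModQ p χ₀ Q hcop κ t α) :
    ∃! c : Fin D.r → MonoidAlgebra (MonoidAlgebra 𝒪 G₀) (DeltaGrp p a),
      x = ∑ i, iotaHom (absQ p χ₀ Q hcop κ t α) (JQ p M₀ Q) (c i) • D.b i :=
  free_of_reg (absQ p χ₀ Q hcop κ t α) (JQ p M₀ Q) D.b (free D) x

end TWDataW

end Level

end Fermat.Agent.S59lib.Hub
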