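/-
S59lib / Hub / WFacts (helper7) — Project I: the facts on the mod `p` representation `resRepE W hΔ p` of a semistable
integral Weierstrass model that instantiate the fields of `Hub.Ctx`.

* `wRes_isUnramifiedAt_of_good`  : unramified at the good primes `q ≠ p`;
* `modPUnramifiedAt_iff`, `decompScalarW_iff` : the vocabulary of `S59lib/Iface` (`ModPUnramifiedAt`) and of
  `MazurW/Iface` (`DecompScalarAtW`) in terms of `resRepE`;
* `wRes_hdet₀`, `wRes_h₀`, `wRes_hne`, `wRes_big` : the fields `hdet₀`, `h₀`, `hne`, `big` of `Ctx`.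
-/
import Mathlib
import Fermat.Agent.S59lib.Hub.Ctx
import Fermat.Agent.S59lib.Iface
import Fermat.Agent.S59lib.BigImg.WRes
import Fermat.Agent.S59lib.BigImg.BigFive
import Fermat.Agent.S59lib.S3Proj.Main
import Fermat.Agent.S59lib.Curve.Away
import Fermat.Agent.S59lib.MazurW.Iface

set_option autoImplicit false
set_option linter.unusedSectionVars false
set_option linter.unusedVariables false
set_option linter.style.haveILetI false

noncomputable section

namespace Fermat.Agent.S59lib.Hub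

open scoped WeierstrassCurve.Affine
open IsLocalRing Polynomial Matrix Fermat.Agent.S44lib.Q1 Fermat.Agent.S58lib.Tate Fermat.Agent.S59lib.BigImg
  Fermat.Agent.S56lib.TW

local notation "Qb" => AlgebraicClosure ℚ
local notation "GQ" => (AlgebraicClosure ℚ ≃ₐ[ℚ] AlgebraicClosure ℚ)

variable (W : WeierstrassCurve ℤ) (hΔ : W.Δ ≠ 0) (p : ℕ) [hpf : Fact p.Prime]

/-! ### matrices and points -/

theorem resRepE_eq_one_iff (σ : GQ) : (resRepE W hΔ p).ρ σ = 1 ↔ rhoE W hΔ p σ = 1 := by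
  rw [resRepE_ρ]
  constructor
  · intro h
    have h1 : Matrix.toLin' (rhoE W hΔ p σ) = Matrix.toLin' (1 : Matrix (Fin 2) (Fin 2) (ZMod p)) := by
      rw [h, Matrix.toLin'_one]
      rfl
    exact Matrix.toLin'.injective h1
  · intro h
    rw [h, Matrix.toLin'_one]
    rfl

/-- `σ` fixes `W[p]` pointwise iff `rhoE σ = 1` -/
theorem rhoE_eq_one_iff_fix (σ : GQ) :
    rhoE W hΔ p σ = 1 ↔ ∀ x : Ep (WQ' W) p, σ • x = x := by
  constructor
  · intro h x
    apply (coordE W hΔ p).injective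
    rw [coordE_smul, h, Matrix.one_mulVec]
  · intro h
    ext i j
    have h1 := coordE_smul W hΔ p σ ((coordE W hΔ p).symm (Pi.single j 1))
    rw [h, AddEquiv.apply_symm_apply] at h1
    have h2 := congrFun h1 i
    rw [Matrix.mulVec_single_one] at h2
    have h3 : (rhoE W hΔ p σ) i j = (Pi.single j (1 : ZMod p) : Fin 2 → ZMod p) i := h2.symm
    rw [h3, Matrix.one_apply, Pi.single_apply]

/-- the vocabulary of `S59lib/Iface`: `ModPUnramifiedAt` is `IsUnramifiedAt` of `resRepE` -/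
theorem modPUnramifiedAt_iff (q : ℕ) :
    Fermat.Agent.S59lib.ModPUnramifiedAt W p q ↔ (resRepE W hΔ p).IsUnramifiedAt q := by
  constructor
  · intro h A hA σ hσ
    rw [resRepE_eq_one_iff, rhoE_eq_one_iff_fix]
    intro x
    exact h A hA σ hσ x
  · intro h A hA σ hσ x
    have h1 := h A hA σ hσ
    rw [resRepE_eq_one_iff, rhoE_eq_one_iff_fix] at h1
    exact h1 x

/-- **unramified at the good primes `q ≠ p`** -/
theorem modPUnramifiedAt_of_good {q : ℕ} (hq : q.Prime) (hqp : q ≠ p) (hgood : ¬ (q : ℤ) ∣ W.Δ) :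
    Fermat.Agent.S59lib.ModPUnramifiedAt W p q := by
  intro A hA σ hσ x
  classical
  have hp : p.Prime := hpf.out
  have hn : ¬ q ∣ p := fun h => hqp ((Nat.prime_dvd_prime_iff_eq hq hp).mp h)
  haveI : Fact q.Prime := ⟨hq⟩
  haveI : CharP (IsLocalRing.ResidueField A) q := Fermat.Agent.S58lib.Red.charP_residueField hq hA
  letI : Algebra (ZMod q) (IsLocalRing.ResidueField A) := ZMod.algebra _ q
  have hP0 : p • (x : ((W.map (Int.castRingHom ℚ))⁄Qb).Point) = 0 := by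
    have h := x.2
    rw [Submodule.mem_torsionBy_iff] at h
    exact_mod_cast h
  obtain ⟨Pb, hPb⟩ := Fermat.Agent.S58lib.Red.exists_redPt_int W hq hgood hA hn hP0
  apply Subtype.ext
  exact Fermat.Agent.S58lib.Red.smul_eq_self_of_redPt (Fermat.Agent.S58lib.Red.redCurve_int W A)
    (Fermat.Agent.S05lib.val_natCast_eq_one_of_not_dvd hq hA hn) hPb hP0 hσ

theorem wRes_isUnramifiedAt_of_good {q : ℕ} (hq : q.Prime) (hqp : q ≠ p) (hgood : ¬ (q : ℤ) ∣ W.Δ) :
    (resRepE W hΔ p).IsUnramifiedAt q :=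
  (modPUnramifiedAt_iff W hΔ p q).mp (modPUnramifiedAt_of_good W p hq hqp hgood)

/-! ### scalar decomposition groups -/

/-- `σ` acts on `W[p]` through an integer scalar iff `resRepE σ` is a scalar of `𝔽_p` -/
theorem scalar_iff (σ : GQ) :
    (∃ c : ℤ, ∀ x : Fermat.Agent.S59lib.LevelQ2.WTors W p, σ • x = c • x) ↔
      ∃ c : ZMod p, (resRepE W hΔ p).ρ σ = c • (1 : Module.End (ZMod p) (resRepE W hΔ p).V) := by
  constructor
  · rintro ⟨c, hc⟩
    refine ⟨(c : ZMod p), ?_⟩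
    apply LinearMap.ext
    intro v
    obtain ⟨x, rfl⟩ := (coordE W hΔ p).surjective v
    rw [resRepE_apply, ← coordE_smul, hc x, map_zsmul, LinearMap.smul_apply, Module.End.one_apply,
      Int.cast_smul_eq_zsmul]
    rfl
  · rintro ⟨c, hc⟩
    refine ⟨(c.val : ℤ), fun x => ?_⟩
    apply (coordE W hΔ p).injective
    have h1 : rhoE W hΔ p σ *ᵥ coordE W hΔ p x = c • coordE W hΔ p x := by
      rw [← resRepE_apply, hc, LinearMap.smul_apply, Module.End.one_apply]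
      rfl
    rw [coordE_smul, h1, map_zsmul, ← Int.cast_smul_eq_zsmul (ZMod p)]
    congr 1
    rw [Int.cast_natCast, ZMod.natCast_zmod_val]

/-- the vocabulary of `MazurW/Iface`: `DecompScalarAtW` in terms of `resRepE` -/
theorem decompScalarAtW_iff (q : ℕ) :
    Fermat.Agent.S59lib.MazurW.DecompScalarAtW W p q ↔
      ∀ A : ValuationSubring Qb, A.LiesOverPrime q → ∀ σ ∈ A.decompositionSubgroup ℚ,
        ∃ c : ZMod p, (resRepE W hΔ p).ρ σ = c • (1 : Module.End (ZMod p) (resRepE W hΔ p).V) := by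
  constructor
  · intro h A hA σ hσ
    exact (scalar_iff W hΔ p σ).mp (h A hA σ hσ)
  · intro h A hA σ hσ
    exact (scalar_iff W hΔ p σ).mpr (h A hA σ hσ)

/-! ### the fields `hdet₀`, `h₀`, `hne`, `big` of `Ctx` -/

/-- the finite set of primes off which the Frobenius traces are `a_ℓ(W)`: `{p} ∪ {bad primes}` -/
def wS₀ : Finset ℕ := {p} ∪ W.Δ.natAbs.primeFactors

omit hpf in
theorem not_mem_wS₀_iff {ℓ : ℕ} (hℓ : ℓ.Prime) (hΔ : W.Δ ≠ 0) :
    ℓ ∉ wS₀ W p ↔ ℓ ≠ p ∧ W.IsGoodPrimeFor ℓ := by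
  unfold wS₀ WeierstrassCurve.IsGoodPrimeFor
  rw [Finset.mem_union, Finset.mem_singleton, not_or, Nat.mem_primeFactors]
  constructor
  · rintro ⟨h1, h2⟩
    exact ⟨h1, fun hd => h2 ⟨hℓ, Int.natCast_dvd.mp hd, Int.natAbs_ne_zero.mpr hΔ⟩⟩
  · rintro ⟨h1, h2⟩
    exact ⟨h1, fun hd => h2 (Int.natCast_dvd.mpr hd.2.1)⟩

theorem wRes_hdet₀ (σ : GQ) (a : ℕ) (ha : ∀ μ : Qb, μ ^ p = 1 → σ μ = μ ^ a) :
    LinearMap.det ((resRepE W hΔ p).ρ σ) = (a : ZMod p) := by
  have h0 : LinearMap.det ((resRepE W hΔ p).ρ σ) = (rhoE W hΔ p σ).det :=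
    LinearMap.det_toLin' (rhoE W hΔ p σ)
  rw [h0, Fermat.Agent.S43lib.B3.det_rhoE_eq_of_rootAction W hΔ p σ a ha]

theorem wRes_h₀ (ℓ : ℕ) (hℓ : ℓ.Prime) (hℓS : ℓ ∉ wS₀ W p) (A : ValuationSubring Qb)
    (hA : A.LiesOverPrime ℓ) (φ : GQ) (hφ : A.IsFrobeniusAt φ ℓ) :
    LinearMap.charpoly ((resRepE W hΔ p).ρ φ) =
      X ^ 2 - C ((W.apOfModel ℓ : ℤ) : ZMod p) * X + C ((ℓ : ℕ) : ZMod p) := by
  obtain ⟨hℓp, hgood⟩ := (not_mem_wS₀_iff W p hℓ hΔ).mp hℓS
  obtain ⟨ht, hd⟩ := trace_det_rhoE_frob W hΔ p hℓ hℓp hgood hA hφ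
  rw [resRepE_charpoly, Matrix.charpoly_fin_two, ht, hd]

theorem wRes_isAbsolutelyIrreducible (hp2 : p ≠ 2) (hirr : W.ModRepIsIrreducible p) :
    (resRepE W hΔ p).IsAbsolutelyIrreducible := by
  have hdet := Fermat.Agent.S58lib.Cmp.det_complexConjugation_modp p (resRepE W hΔ p)
    (fun ℓ => W.apOfModel ℓ) _ (wRes_h₀ W hΔ p)
  have h2 : (2 : ZMod p) ≠ 0 := by
    intro h20
    have h3 : ((2 : ℕ) : ZMod p) = 0 := by exact_mod_cast h20
    rw [ZMod.natCast_eq_zero_iff] at h3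
    exact hp2 ((Nat.prime_dvd_prime_iff_eq hpf.out Nat.prime_two).mp h3)
  exact Fermat.Agent.S58lib.Cmp.isAbsolutelyIrreducible_of_charpoly_eq (RingHom.id (ZMod p)) h2
      (resRepE W hΔ p) (wRes_isIrreducible W hΔ p hirr) complexConjugation complexConjugation_mul_self hdet
      (resRepE W hΔ p) (fun σ => (Polynomial.map_id).symm)

theorem wRes_hne (hp2 : p ≠ 2) (hirr : W.ModRepIsIrreducible p) (m : ℕ) (hm : 0 < m) (S₁ : Finset ℕ) :
    ∃ (ℓ : ℕ) (A : ValuationSubring Qb) (φ : GQ), ℓ.Prime ∧ ℓ ∉ S₁ ∧ m ∣ ℓ - 1 ∧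
      A.LiesOverPrime ℓ ∧ A.IsFrobeniusAt φ ℓ ∧
      (LinearMap.charpoly ((resRepE W hΔ p).ρ φ)).eval 1 ≠ 0 := by
  obtain ⟨ℓ, A, φ, hℓ, hℓS, hdvd, hA, hφ, hne, -⟩ :=
    Fermat.Agent.S59lib.BigImg.exists_frobenius_one_mod_of_absIrr (resRepE W hΔ p)
      (wRes_isAbsolutelyIrreducible W hΔ p hp2 hirr) hm S₁
  exact ⟨ℓ, A, φ, hℓ, hℓS, hdvd, hA, hφ, hne⟩

theorem wRes_big (hp : p = 3 ∨ p = 5) (hss : W.IsSemistableModel) (hirr : W.ModRepIsIrreducible p)
    (k : Type) [Field k] [Algebra (ZMod p) k] :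
    ((resRepE W hΔ p).baseChange k).IsAbsolutelyIrreducible ∧
    ∀ (K : Type) [Field K] [Algebra k K] (G : Subgroup GQ), G.index = 2 →
      ∀ V : Submodule K (((resRepE W hΔ p).baseChange k).baseChange K).V,
        (∀ σ ∈ G, ∀ x ∈ V, (((resRepE W hΔ p).baseChange k).baseChange K).ρ σ x ∈ V) → V = ⊥ ∨ V = ⊤ := by
  rcases hp with rfl | rfl
  · exact bigImage_three_resRepE W hΔ hss hirr k
  · exact bigImage_five_resRepE W hΔ hss hirr k

end Fermat.Agent.S59lib.Hub
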