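/-
S59lib / Hub / WChar (helper7) — Project I: **FORM-OF-CHAR**: a character of an anemic Hecke algebra with the values
`a_ℓ(W) mod p` makes `W` residually modular.

* `exists_zmod_char` : a character `𝕋(M)^S → k` (`k ⊇ 𝔽_p`, all primes of `M` in `S`) with values `a ℓ mod p` on
  the `T_ℓ` descends to `𝔽_p`;
* `isResiduallyModularOfLevel_of_char` : `S` a finite set of primes dividing `M p`, containing `p` and the primes of
  `M`; `θ : 𝕋(M)^S → k` with `θ(T_ℓ) = a_ℓ(W)` at the good primes `ℓ ∉ S`  ⟹  `W.IsResiduallyModularOfLevel p M`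
  (Deligne–Serre lifting `S3Proj.exists_eigenform_of_modp_char` at the set `S ∪ {bad primes}`).
-/
import Mathlib
import Fermat.Agent.S59lib.S3Proj.FormLift
import Fermat.Agent.S59lib.Hub.WFacts

set_option autoImplicit false
set_option linter.unusedSectionVars false
set_option linter.unusedVariables false
set_option linter.style.haveILetI false

noncomputable section

namespace Fermat.Agent.S59lib.Hub

open CuspForm

variable {p : ℕ} [hpf : Fact p.Prime] {M : ℕ} [NeZero M]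

/-- descent of a character with values `a ℓ mod p` to the prime field -/
theorem exists_zmod_char (S : Finset ℕ) (hMS : ∀ q : ℕ, q.Prime → q ∣ M → q ∈ S)
    {k : Type} [Field k] [Algebra (ZMod p) k]
    (θ : heckeAlgebra M 2 (↑S : Set ℕ) →+* k) (a : ℕ → ℤ)
    (ha : ∀ (ℓ : ℕ) (hℓ : ℓ.Prime) (hℓM : ¬ ℓ ∣ M) (hℓS : ℓ ∉ (↑S : Set ℕ)),
      θ (heckeAlgebra.T hℓ hℓM hℓS) = ((a ℓ : ℤ) : k)) :
    ∃ θ₀ : heckeAlgebra M 2 (↑S : Set ℕ) →+* ZMod p,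
      ∀ (ℓ : ℕ) (hℓ : ℓ.Prime) (hℓM : ¬ ℓ ∣ M) (hℓS : ℓ ∉ (↑S : Set ℕ)),
        θ₀ (heckeAlgebra.T hℓ hℓM hℓS) = ((a ℓ : ℤ) : ZMod p) := by
  classical
  let ι : ZMod p →+* k := algebraMap (ZMod p) k
  have hιinj : Function.Injective ι := ι.injective
  have hrange : ∀ x : heckeAlgebra M 2 (↑S : Set ℕ), θ x ∈ ι.range := by
    rintro ⟨x, hx⟩
    induction hx using Algebra.adjoin_induction with
    | mem T hT =>
      rcases hT with ⟨ℓ, hℓ, hℓN, hℓS, rfl⟩ | ⟨q, hqN, hq, hqS, rfl⟩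
      · have := ha ℓ hℓ hℓN hℓS
        rw [show (⟨CuspForm.heckeTLin 2 hℓ hℓN, _⟩ : heckeAlgebra M 2 (↑S : Set ℕ)) =
          heckeAlgebra.T hℓ hℓN hℓS from rfl, this]
        exact ⟨((a ℓ : ℤ) : ZMod p), map_intCast _ _⟩
      · exact absurd (Finset.mem_coe.2 (hMS q hq hqN)) hqS
    | algebraMap z =>
      have : (⟨algebraMap ℤ _ z, Subalgebra.algebraMap_mem _ z⟩ :
          heckeAlgebra M 2 (↑S : Set ℕ)) = ((z : ℤ) : heckeAlgebra M 2 (↑S : Set ℕ)) := by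
        apply Subtype.ext
        simp
      rw [this, map_intCast]
      exact ⟨((z : ℤ) : ZMod p), map_intCast _ _⟩
    | add x y hx hy ihx ihy =>
      have : (⟨x + y, add_mem hx hy⟩ : heckeAlgebra M 2 (↑S : Set ℕ)) = ⟨x, hx⟩ + ⟨y, hy⟩ := rfl
      rw [this, map_add]
      exact Subring.add_mem _ ihx ihy
    | mul x y hx hy ihx ihy =>
      have : (⟨x * y, mul_mem hx hy⟩ : heckeAlgebra M 2 (↑S : Set ℕ)) = ⟨x, hx⟩ * ⟨y, hy⟩ := rfl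
      rw [this, map_mul]
      exact Subring.mul_mem _ ihx ihy
  let e : ZMod p ≃+* ι.range :=
    RingEquiv.ofBijective ι.rangeRestrict
      ⟨fun x y h => hιinj (congrArg Subtype.val h), ι.rangeRestrict_surjective⟩
  let θ₁ : heckeAlgebra M 2 (↑S : Set ℕ) →+* ZMod p :=
    (e.symm : ι.range →+* ZMod p).comp (θ.codRestrict ι.range hrange)
  have hθ₁ : ∀ x, ι (θ₁ x) = θ x := by
    intro x
    have h1 : e (θ₁ x) = θ.codRestrict ι.range hrange x := e.apply_symm_apply _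
    exact congrArg Subtype.val h1
  refine ⟨θ₁, fun ℓ hℓ hℓN hℓS => ?_⟩
  apply hιinj
  rw [hθ₁, ha, map_intCast]

/-- **FORM-OF-CHAR** -/
theorem isResiduallyModularOfLevel_of_char (W : WeierstrassCurve ℤ) (hΔ : W.Δ ≠ 0)
    (S : Finset ℕ) (hpS : p ∈ S) (hS : ∀ ℓ ∈ S, ℓ.Prime ∧ ℓ ∣ M * p)
    (hMS : ∀ q : ℕ, q.Prime → q ∣ M → q ∈ S)
    {k : Type} [Field k] [Algebra (ZMod p) k]
    (θ : heckeAlgebra M 2 (↑S : Set ℕ) →+* k)
    (hθ : ∀ (ℓ : ℕ) (hℓ : ℓ.Prime) (hℓM : ¬ ℓ ∣ M) (hℓS : ℓ ∉ (↑S : Set ℕ)), W.IsGoodPrimeFor ℓ →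
      θ (heckeAlgebra.T hℓ hℓM hℓS) = ((W.apOfModel ℓ : ℤ) : k)) :
    W.IsResiduallyModularOfLevel p M := by
  classical
  set S₂ : Finset ℕ := S ∪ W.Δ.natAbs.primeFactors with hS₂
  have hsub : (↑S : Set ℕ) ⊆ (↑S₂ : Set ℕ) := by
    intro x hx
    exact Finset.mem_coe.2 (Finset.mem_union_left _ (Finset.mem_coe.1 hx))
  let incl : heckeAlgebra M 2 (↑S₂ : Set ℕ) →+* heckeAlgebra M 2 (↑S : Set ℕ) :=
    (Subalgebra.inclusion (heckeAlgebra_mono hsub)).toRingHom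
  have hincl : ∀ (ℓ : ℕ) (hℓ : ℓ.Prime) (hℓM : ¬ ℓ ∣ M) (hℓS₂ : ℓ ∉ (↑S₂ : Set ℕ)),
      incl (heckeAlgebra.T hℓ hℓM hℓS₂) = heckeAlgebra.T hℓ hℓM (fun h => hℓS₂ (hsub h)) := by
    intro ℓ hℓ hℓM hℓS₂
    rfl
  have hgood : ∀ ℓ : ℕ, ℓ.Prime → ℓ ∉ (↑S₂ : Set ℕ) → W.IsGoodPrimeFor ℓ := by
    intro ℓ hℓ hℓS₂ hd
    apply hℓS₂
    refine Finset.mem_coe.2 (Finset.mem_union_right _ ?_)
    rw [Nat.mem_primeFactors]
    exact ⟨hℓ, Int.natCast_dvd.mp hd, Int.natAbs_ne_zero.mpr hΔ⟩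
  have hMS₂ : ∀ q : ℕ, q.Prime → q ∣ M → q ∈ S₂ := fun q hq hqM =>
    Finset.mem_union_left _ (hMS q hq hqM)
  obtain ⟨θ₀, hθ₀⟩ := exists_zmod_char (p := p) S₂ hMS₂ (θ.comp incl) (fun ℓ => W.apOfModel ℓ)
    (fun ℓ hℓ hℓM hℓS₂ => by
      rw [RingHom.comp_apply, hincl ℓ hℓ hℓM hℓS₂]
      exact hθ ℓ hℓ hℓM _ (hgood ℓ hℓ hℓS₂))
  obtain ⟨g, 𝔪', hg, h𝔪', hp𝔪', hcong⟩ :=
    Fermat.Agent.S59lib.S3Proj.exists_eigenform_of_modp_char (M := M) (↑S₂ : Set ℕ) θ₀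
  refine ⟨g, 𝔪', hg, h𝔪', hp𝔪', ?_⟩
  intro ℓ hℓ hgoodℓ hℓM hℓp
  have hℓS₂ : ℓ ∉ (↑S₂ : Set ℕ) := by
    intro h
    rcases Finset.mem_union.1 (Finset.mem_coe.1 h) with h1 | h1
    · obtain ⟨-, hdvd⟩ := hS ℓ h1
      rcases (Nat.Prime.dvd_mul hℓ).1 hdvd with h2 | h2
      · exact hℓM h2
      · exact hℓp ((Nat.prime_dvd_prime_iff_eq hℓ hpf.out).1 h2)
    · exact hgoodℓ (Int.natCast_dvd.2 (Nat.dvd_of_mem_primeFactors h1))
  exact hcong ℓ hℓ hℓM hℓS₂ (W.apOfModel ℓ) (hθ₀ ℓ hℓ hℓM hℓS₂)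

end Fermat.Agent.S59lib.Hub
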