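/-
S59lib / Hub / WHecke (helper7) — Project I: the Hecke–Galois data of the hub for `ρ₀ = ρ̄_{W,p}`: everything that the
oracle `Ctx.heckeType` needs, from the hypothesis
  `he : H.ρ.residual.IsEquiv ((ρ̄_{W,p} ⊗ k) ⊗ k_T)`.

* `residual_charpoly_eq`, `theta_eq_ap` : the residual characteristic polynomials; `θ(T_ℓ) = a_ℓ(W)` at the good primes;
* `residual_isUnramifiedAt_of_good`, `isUnramifiedAt_aux` : `H.ρ` is unramified at an auxiliary prime `r ∥ N`;
* `hss_of_inertiaIrreducible` : no inertia coinvariants (flat-ss mode);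
* `hnew_of_noLevel` : the eigensystem is `p`-new when no cube-free level prime to `p` exists (strict mode).
-/
import Mathlib
import Fermat.Agent.S59lib.Hub.WFacts
import Fermat.Agent.S59lib.Hub.WChar
import Fermat.Agent.S59lib.AuxPrime.Hecke
import Fermat.Agent.S59lib.Ord.Hss
import Fermat.Agent.S43lib.B3.TwoDvd
import Fermat.Agent.Helper5.CharpolyEquiv

set_option autoImplicit false
set_option linter.unusedSectionVars false
set_option linter.unusedVariables false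
set_option linter.style.haveILetI false

noncomputable section

namespace Fermat.Agent.S59lib.Hub

open IsLocalRing Polynomial Matrix CuspForm Fermat.Agent.S44lib.Q1 Fermat.Agent.S43lib.B3

local notation "Qb" => AlgebraicClosure ℚ
local notation "GQ" => (AlgebraicClosure ℚ ≃ₐ[ℚ] AlgebraicClosure ℚ)

/-- equivalent residual representations have the same characteristic polynomials -/
theorem res_charpoly_eq_of_isEquiv {k : Type} [Field k] {ρ₁ ρ₂ : ResidualGaloisRep k}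
    (he : ρ₁.IsEquiv ρ₂) (σ : GQ) :
    LinearMap.charpoly (ρ₁.ρ σ) = LinearMap.charpoly (ρ₂.ρ σ) := by
  obtain ⟨e⟩ := he
  have h : ρ₂.ρ σ = e.toLinearEquiv.conj (ρ₁.ρ σ) := by
    apply LinearMap.ext
    intro x
    rw [LinearEquiv.conj_apply_apply, e.map_apply, LinearEquiv.apply_symm_apply]
  rw [h, LinearEquiv.charpoly_conj]

section

variable (W : WeierstrassCurve ℤ) (hΔ : W.Δ ≠ 0) (p : ℕ) [hpf : Fact p.Prime]
variable {𝒪 : Type} [CommRing 𝒪] [IsDomain 𝒪] [IsDiscreteValuationRing 𝒪]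
  [IsAdicComplete (maximalIdeal 𝒪) 𝒪] [Algebra (ZMod p) (ResidueField 𝒪)]
  {N : ℕ} [NeZero N] {S : Finset ℕ}
  {θ : heckeAlgebra N 2 (↑S : Set ℕ) →+* ResidueField 𝒪}
  {T : Type} [CommRing T] [IsLocalRing T] [IsNoetherianRing T]
  [IsAdicComplete (maximalIdeal T) T] [Algebra 𝒪 T] [IsLocalHom (algebraMap 𝒪 T)]
  [Module.Finite 𝒪 T] [Module.Free 𝒪 T]
  (H : HeckeGaloisRepDatum N (↑S : Set ℕ) 𝒪 θ T)
  (he : H.ρ.residual.IsEquiv (((resRepE W hΔ p).baseChange (ResidueField 𝒪)).baseChangeAlong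
    (ResidueField.map (algebraMap 𝒪 T))))

/-- the composite `𝔽_p → k → k_T` -/
abbrev jW (𝒪 T : Type) [CommRing 𝒪] [IsLocalRing 𝒪] [Algebra (ZMod p) (ResidueField 𝒪)]
    [CommRing T] [IsLocalRing T] [Algebra 𝒪 T] [IsLocalHom (algebraMap 𝒪 T)] :
    ZMod p →+* ResidueField T :=
  (ResidueField.map (algebraMap 𝒪 T)).comp (algebraMap (ZMod p) (ResidueField 𝒪))

include he in
/-- the residual characteristic polynomials are those of `ρ̄_{W,p}` -/
theorem residual_charpoly_eq (σ : GQ) :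
    LinearMap.charpoly (H.ρ.residual.ρ σ) = (rhoE W hΔ p σ).charpoly.map (jW p 𝒪 T) := by
  rw [res_charpoly_eq_of_isEquiv he σ]
  letI : Algebra (ResidueField 𝒪) (ResidueField T) := (ResidueField.map (algebraMap 𝒪 T)).toAlgebra
  have h1 : LinearMap.charpoly ((((resRepE W hΔ p).baseChange (ResidueField 𝒪)).baseChangeAlong
      (ResidueField.map (algebraMap 𝒪 T))).ρ σ) =
      (LinearMap.charpoly (((resRepE W hΔ p).baseChange (ResidueField 𝒪)).ρ σ)).map
        (ResidueField.map (algebraMap 𝒪 T)) :=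
    LinearMap.charpoly_baseChange _ (ResidueField T)
  have h2 : LinearMap.charpoly (((resRepE W hΔ p).baseChange (ResidueField 𝒪)).ρ σ) =
      (LinearMap.charpoly ((resRepE W hΔ p).ρ σ)).map (algebraMap (ZMod p) (ResidueField 𝒪)) :=
    LinearMap.charpoly_baseChange _ (ResidueField 𝒪)
  rw [h1, h2, resRepE_charpoly, Polynomial.map_map]

include he in
/-- **`θ(T_ℓ) = a_ℓ(W)` at the good primes** -/
theorem theta_eq_ap (hpS : p ∈ S) (ℓ : ℕ) (hℓ : ℓ.Prime) (hℓN : ¬ ℓ ∣ N) (hℓS : ℓ ∉ (↑S : Set ℕ))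
    (hgood : W.IsGoodPrimeFor ℓ) :
    θ (heckeAlgebra.T hℓ hℓN hℓS) = ((W.apOfModel ℓ : ℤ) : ResidueField 𝒪) := by
  have hℓp : ℓ ≠ p := fun h => hℓS (h ▸ Finset.mem_coe.2 hpS)
  set v : Nat.Primes := ⟨ℓ, hℓ⟩ with hv
  have hP := Fermat.Agent.S56lib.TWSel.primeLocalPlace_liesOverPrime v
  have hφ := globFrobAt_isFrobeniusAt v
  have h1 := residual_charpoly_eq W hΔ p H he (globFrobAt v)
  have h2 : LinearMap.charpoly (H.ρ.residual.ρ (globFrobAt v)) =
      (LinearMap.charpoly (H.ρ.ρ (globFrobAt v))).map (residue T) :=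
    LinearMap.charpoly_baseChange _ (ResidueField T)
  obtain ⟨ht, hd⟩ := trace_det_rhoE_frob W hΔ p hℓ hℓp hgood hP hφ
  rw [h2, H.charpoly_frob ℓ hℓ hℓN hℓS _ hP _ hφ, Matrix.charpoly_fin_two, ht, hd] at h1
  simp only [Polynomial.map_add, Polynomial.map_sub, Polynomial.map_mul, Polynomial.map_pow,
    Polynomial.map_X, Polynomial.map_C] at h1
  have h3 := (quad_coeffs_eq h1).1
  rw [H.residue_π, RingHom.comp_apply, map_intCast] at h3
  apply (ResidueField.map (algebraMap 𝒪 T)).injective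
  rw [h3, map_intCast]

include he in
/-- the residual representation is unramified where `ρ̄_{W,p}` is -/
theorem residual_isUnramifiedAt {q : ℕ} (h : (resRepE W hΔ p).IsUnramifiedAt q) :
    H.ρ.residual.IsUnramifiedAt q := by
  obtain ⟨e⟩ := he
  refine res_isUnramifiedAt_of_isEquiv' ⟨e.symm⟩ ?_
  intro P hP σ hσ
  letI : Algebra (ResidueField 𝒪) (ResidueField T) := (ResidueField.map (algebraMap 𝒪 T)).toAlgebra
  show (((resRepE W hΔ p).ρ σ).baseChange (ResidueField 𝒪)).baseChange (ResidueField T) = 1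
  rw [h P hP σ hσ, LinearMap.baseChange_one, LinearMap.baseChange_one]

include he in
/-- **`H.ρ` is unramified at an auxiliary prime `r ∥ N`**: `r` good for `W`, `r ≢ 1 mod p`,
`p ∤ a_r(W)² − (r + 1)²`. -/
theorem isUnramifiedAt_aux [Finite (ResidueField 𝒪)] [CharZero 𝒪]
    (hp𝒪 : (p : 𝒪) ∈ maximalIdeal 𝒪) (hpS : p ∈ S) (hNS : ∀ q : ℕ, q.Prime → q ∣ N → q ∈ S)
    {r : ℕ} (hr : r.Prime) (hrp : r ≠ p) (hgood : W.IsGoodPrimeFor r) (hrN : r ∣ N) (hr2 : ¬ r ^ 2 ∣ N)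
    (hr1 : ¬ r ≡ 1 [MOD p])
    (hlr : ¬ (p : ℤ) ∣ W.apOfModel r ^ 2 - ((r : ℤ) + 1) ^ 2) :
    H.ρ.IsUnramifiedAt r := by
  set v : Nat.Primes := ⟨r, hr⟩ with hv
  have hP := Fermat.Agent.S56lib.TWSel.primeLocalPlace_liesOverPrime v
  have hφ := globFrobAt_isFrobeniusAt v
  have hur : H.ρ.residual.IsUnramifiedAt r :=
    residual_isUnramifiedAt W hΔ p H he (wRes_isUnramifiedAt_of_good W hΔ p hr hrp hgood)
  obtain ⟨ht, hd⟩ := trace_det_rhoE_frob W hΔ p hr hrp hgood hP hφ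
  have hch : LinearMap.charpoly (H.ρ.residual.ρ (globFrobAt v)) =
      X ^ 2 - C (((W.apOfModel r : ℤ) : ResidueField T)) * X + C ((r : ℕ) : ResidueField T) := by
    rw [residual_charpoly_eq W hΔ p H he, Matrix.charpoly_fin_two, ht, hd]
    rw [Polynomial.map_add, Polynomial.map_sub, Polynomial.map_mul, Polynomial.map_pow,
      Polynomial.map_X, Polynomial.map_C, Polynomial.map_C, map_intCast, map_natCast]
  refine Fermat.Agent.S59lib.AuxPrime.heckeDatum_isUnramifiedAt hpf.out hp𝒪 hpS hNS H r hr hrp hrN hr2 hr1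
    hur _ hP _ hφ _ _ hch ?_
  -- the level-raising condition
  intro hω
  apply hlr
  have hinj : Function.Injective (jW p 𝒪 T) := (jW p 𝒪 T).injective
  have hr0 : ((r : ℕ) : ZMod p) ≠ 0 := by
    rw [Ne, ZMod.natCast_eq_zero_iff]
    intro hd
    exact hrp ((Nat.prime_dvd_prime_iff_eq hpf.out hr).1 hd).symm
  have h1 : jW p 𝒪 T (((r : ℕ) : ZMod p) * ((W.apOfModel r : ℤ) : ZMod p) ^ 2) =
      jW p 𝒪 T ((1 + ((r : ℕ) : ZMod p)) ^ 2 * ((r : ℕ) : ZMod p)) := by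
    simp only [map_mul, map_pow, map_add, map_one, map_natCast, map_intCast]
    exact hω
  have h2 := hinj h1
  have h3 : ((W.apOfModel r : ℤ) : ZMod p) ^ 2 = (1 + ((r : ℕ) : ZMod p)) ^ 2 := by
    have h4 : ((r : ℕ) : ZMod p) * ((W.apOfModel r : ℤ) : ZMod p) ^ 2 =
        ((r : ℕ) : ZMod p) * (1 + ((r : ℕ) : ZMod p)) ^ 2 := by rw [h2]; ring
    exact mul_left_cancel₀ hr0 h4
  rw [← ZMod.intCast_zmod_eq_zero_iff_dvd]
  push_cast
  rw [h3]
  ring

/-- `ρ̄_{W,p}` has no inertia coinvariants at `p` in the supersingular shape -/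
theorem noCoinv_resRepE (h : Fermat.Agent.S59lib.ModPInertiaIrreducible W p) (A : ValuationSubring Qb)
    (hA : A.LiesOverPrime p) :
    Fermat.Agent.S59lib.Ord.NoCoinv (resRepE W hΔ p) (A.inertiaSubgroupIn ℚ) := by
  intro f hf
  have h0 := Fermat.Agent.S59lib.Ord.addHom_eq_zero_of_irred
    (V := Fermat.Agent.S58lib.Tate.Ep (Fermat.Agent.S58lib.Tate.WQ' W) p) (A.inertiaSubgroupIn ℚ) (h A hA)
    (Fermat.Agent.S59lib.Ord.exists_line_Ep (W := W) (p := p) hΔ)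
    (f.toAddMonoidHom.comp (coordE W hΔ p).toAddMonoidHom) (fun σ hσ x => by
      show f (coordE W hΔ p (σ • x)) = f (coordE W hΔ p x)
      rw [coordE_smul]
      exact hf σ hσ _)
  apply LinearMap.ext
  intro v
  obtain ⟨x, rfl⟩ := (coordE W hΔ p).surjective v
  exact DFunLike.congr_fun h0 x

include he in
/-- **the hypothesis `hss` of FLAT-SS** -/
theorem hss_of_inertiaIrreducible (h : Fermat.Agent.S59lib.ModPInertiaIrreducible W p) :
    ∀ P : ValuationSubring Qb, P.LiesOverPrime p →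
      ∀ f : H.ρ.residual.V →ₗ[ResidueField T] ResidueField T,
        (∀ σ ∈ P.inertiaSubgroupIn ℚ, ∀ x : H.ρ.residual.V, f (H.ρ.residual.ρ σ x) = f x) → f = 0 := by
  intro P hP
  refine Fermat.Agent.S59lib.Ord.NoCoinv.of_isEquiv he
    (Fermat.Agent.S59lib.Ord.NoCoinv.baseChangeAlong _ ?_)
  exact fun f hf => Fermat.Agent.S59lib.Ord.tensor_functional_eq_zero (P.inertiaSubgroupIn ℚ)
    (fun σ => (resRepE W hΔ p).ρ σ) (noCoinv_resRepE W hΔ p h P hP) f hf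

include he in
/-- **the hypothesis `hnew` of STRICT-T** when no cube-free level prime to `p` exists -/
theorem hnew_of_noLevel (hno : Fermat.Agent.S59lib.NoLevelPrimeTo W p) (hpS : p ∈ S)
    (hNS : ∀ q : ℕ, q.Prime → q ∣ N → q ∈ S) (hSdvd : ∀ ℓ ∈ S, ℓ.Prime ∧ ℓ ∣ N * p)
    (hcube : ∀ q : ℕ, q.Prime → ¬ q ^ 3 ∣ N) (hN : p ∣ N ∧ ¬ p ^ 2 ∣ N) [NeZero (N / p)] :
    ¬ ∃ θ' : heckeAlgebra (N / p) 2 (↑S : Set ℕ) →+* ResidueField 𝒪,
      ∀ (ℓ : ℕ) (hℓ : ℓ.Prime) (hℓN : ¬ ℓ ∣ N) (hℓN' : ¬ ℓ ∣ N / p) (hℓS : ℓ ∉ (↑S : Set ℕ)),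
        θ' (heckeAlgebra.T hℓ hℓN' hℓS) = θ (heckeAlgebra.T hℓ hℓN hℓS) := by
  rintro ⟨θ', hθ'⟩
  have hp : p.Prime := hpf.out
  have hmul : N / p * p = N := Nat.div_mul_cancel hN.1
  have hdvd : N / p ∣ N := Nat.div_dvd_of_dvd hN.1
  have hpos : 0 < N / p := Nat.pos_of_ne_zero (NeZero.ne _)
  have hpM : ¬ p ∣ N / p := by
    intro h
    apply hN.2
    rw [sq, ← hmul]
    exact Nat.mul_dvd_mul h (dvd_refl p)
  have hcf : Fermat.Agent.S59lib.IsCubeFree (N / p) := fun q hq h3 => hcube q hq (h3.trans hdvd)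
  refine hno (N / p) hpos hpM hcf ?_
  refine isResiduallyModularOfLevel_of_char (p := p) W hΔ S hpS ?_ ?_ θ' ?_
  · intro ℓ hℓS
    obtain ⟨hℓ, hd⟩ := hSdvd ℓ hℓS
    refine ⟨hℓ, ?_⟩
    rw [hmul]
    rcases (Nat.Prime.dvd_mul hℓ).1 hd with h | h
    · exact h
    · rw [(Nat.prime_dvd_prime_iff_eq hℓ hp).1 h]
      exact hN.1
  · intro q hq hqM
    exact hNS q hq (hqM.trans hdvd)
  · intro ℓ hℓ hℓM hℓS hgood
    have hℓN : ¬ ℓ ∣ N := fun h => hℓS (Finset.mem_coe.2 (hNS ℓ hℓ h))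
    rw [hθ' ℓ hℓ hℓN hℓM hℓS]
    exact theta_eq_ap W hΔ p H he hpS ℓ hℓ hℓN hℓS hgood

end

end Fermat.Agent.S59lib.Hub
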