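/-
S59lib / Hub / WUnram (helper7) — Project I: **`ρ̄_{W,p}` is unramified outside `p` and the primes of any of its levels**.

`W[p]` irreducible, `p` odd, `W` residually modular mod `p` of level `M`, `q ∤ M p` a prime  ⟹  `ρ̄_{W,p}` is unramified
at `q` (THETA `S3Proj.exists_thetaW_of_isResiduallyModularOfLevel`, the Hecke–Galois datum
`S43lib.B2.exists_heckeGaloisRepDatum_π`, the frozen `S31` and `heckeDatum_residual_isEquiv`).
-/
import Mathlib
import Fermat.Agent.S59lib.Hub.WFacts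
import Fermat.Agent.S59lib.S3Proj.ThetaW
import Fermat.Agent.S43lib.B2.DatumPi
import Fermat.Agent.S43lib.B3.HeckeTr
import Fermat.Agent.S43lib.B3.TwoDvd
import Fermat.Agent.S43lib.Loc.Coeff
import Fermat.Agent.S31

set_option autoImplicit false
set_option linter.unusedSectionVars false
set_option linter.unusedVariables false
set_option linter.style.haveILetI false

noncomputable section

namespace Fermat.Agent.S59lib.Hub

open IsLocalRing Polynomial Fermat.Agent.S44lib.Q1 Fermat.Agent.S59lib.BigImg CuspForm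
  Fermat.Agent.S43lib.B3

local notation "Qb" => AlgebraicClosure ℚ
local notation "GQ" => (AlgebraicClosure ℚ ≃ₐ[ℚ] AlgebraicClosure ℚ)

variable (W : WeierstrassCurve ℤ) (hΔ : W.Δ ≠ 0) (p : ℕ) [hpf : Fact p.Prime]

/-- **`ρ̄_{W,p}` is unramified outside `p` and the primes of a level.** -/
theorem wRes_isUnramifiedAt_of_resMod (hp2 : p ≠ 2) (hirr : W.ModRepIsIrreducible p) {M : ℕ} (hM : 0 < M)
    (hmod : W.IsResiduallyModularOfLevel p M) {q : ℕ} (hq : q.Prime) (hqp : q ≠ p) (hqM : ¬ q ∣ M) :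
    (resRepE W hΔ p).IsUnramifiedAt q := by
  classical
  obtain ⟨𝒪, i1, i2, i3, i4, i5, i6, i7, hpO, -, -⟩ :=
    Fermat.Agent.S43lib.Loc.exists_coeff_ring_zmod p hp2
  letI : Algebra (ZMod p) (ResidueField 𝒪) := ZMod.algebra _ p
  haveI : NeZero M := ⟨hM.ne'⟩
  set S : Finset ℕ := insert p M.primeFactors with hS
  have hpS : p ∈ S := Finset.mem_insert_self _ _
  have hMS : ∀ ℓ : ℕ, ℓ.Prime → ℓ ∣ M → ℓ ∈ S := fun ℓ hℓ hℓM =>
    Finset.mem_insert_of_mem (Nat.mem_primeFactors.2 ⟨hℓ, hℓM, hM.ne'⟩)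
  obtain ⟨θ, hθ⟩ := Fermat.Agent.S59lib.S3Proj.exists_thetaW_of_isResiduallyModularOfLevel p hpf.out W hΔ
    (dvd_refl M) S hpS hMS hmod (ResidueField 𝒪)
  have hθ' : ∀ (ℓ : ℕ) (hℓ : ℓ.Prime) (hℓM : ¬ ℓ ∣ M) (hℓS : ℓ ∉ (↑S : Set ℕ)), ℓ ∉ wS₀ W p →
      θ (heckeAlgebra.T hℓ hℓM hℓS) = (((fun ℓ => W.apOfModel ℓ) ℓ : ℤ) : ResidueField 𝒪) :=
    fun ℓ hℓ hℓM hℓS h => hθ ℓ hℓ hℓM hℓS ((not_mem_wS₀_iff W p hℓ hΔ).mp h).2
  obtain ⟨H, -⟩ := Fermat.Agent.S43lib.B2.exists_heckeGaloisRepDatum_π hp2 hpO hpS hMS θ (resRepE W hΔ p)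
    (wRes_isIrreducible W hΔ p hirr) (fun ℓ => W.apOfModel ℓ) (wS₀ W p) (wRes_h₀ W hΔ p) hθ'
  have hqS : q ∉ S := by
    rw [hS, Finset.mem_insert, Nat.mem_primeFactors]
    rintro (h | h)
    · exact hqp h
    · exact hqM h.2.1
  have hun : H.ρ.IsUnramifiedAt q := Fermat.Agent.S31.result hpf.out hpO hpS hMS H q hq hqS
  have heq := heckeDatum_residual_isEquiv H (resRepE W hΔ p) (fun ℓ => W.apOfModel ℓ) (wS₀ W p)
    (wRes_h₀ W hΔ p) hθ'
  have h3 : ((resRepE W hΔ p).baseChange (ResidueField 𝒪)).IsUnramifiedAt q :=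
    res_isUnramifiedAt_of_baseChangeAlong _ _
      (res_isUnramifiedAt_of_isEquiv' heq (residual_isUnramifiedAt_of_isUnramifiedAt H.ρ hun))
  -- descend to `𝔽_p`
  haveI : FaithfulSMul (ZMod p) (ResidueField 𝒪) :=
    (faithfulSMul_iff_algebraMap_injective _ _).2 (algebraMap (ZMod p) (ResidueField 𝒪)).injective
  intro A hA σ hσ
  have h1 : ((resRepE W hΔ p).ρ σ).baseChange (ResidueField 𝒪) =
      (LinearMap.id : _ →ₗ[ZMod p] (resRepE W hΔ p).V).baseChange (ResidueField 𝒪) :=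
    (h3 A hA σ hσ).trans LinearMap.baseChange_id.symm
  exact LinearMap.baseChangeHom_injective (ZMod p) _ (ResidueField 𝒪) h1

include hΔ in
/-- the same in the vocabulary of `S59lib/Iface` -/
theorem modPUnramifiedAt_of_resMod (hp2 : p ≠ 2) (hirr : W.ModRepIsIrreducible p) {M : ℕ} (hM : 0 < M)
    (hmod : W.IsResiduallyModularOfLevel p M) {q : ℕ} (hq : q.Prime) (hqp : q ≠ p) (hqM : ¬ q ∣ M) :
    Fermat.Agent.S59lib.ModPUnramifiedAt W p q :=
  (modPUnramifiedAt_iff W hΔ p q).mpr (wRes_isUnramifiedAt_of_resMod W hΔ p hp2 hirr hM hmod hq hqp hqM)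

end Fermat.Agent.S59lib.Hub
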