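/-
S59lib / Hub / InstW (helper7) — Project I: **the hub context `Ctx` of `(W, p)`**.

Input `WIn`: `p ∈ {3, 5}`, `W` semistable, `ρ̄ = ρ̄_{W,p}` irreducible; a squarefree base level `B` whose primes `≠ p` are
exactly the primes `≠ p` at which `ρ̄` is ramified; a finite set `Aux` of auxiliary primes (`r ∤ B p`, good for `W`,
`r ≡ 11 mod 12`, `r ≢ 1 mod p`, no level raising at `r`), non-empty if `p = 3`.
Then `R0 = B ∏ Aux`, `Smin = {p} ∪ {primes of B}`, `IsMod = W.IsResiduallyModularOfLevel p`, THETA = helper3's `ThetaW`,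
END = helper6's `EndW.endW`; the deformation type with its two oracles is a parameter of `mkCtx`:

* `ctxFlat`   (`p ∤ B`, or `p ∣ B` with `W` good at `p` and `ρ̄|I_p` irreducible): `𝒟fl`;
* `ctxStrict` (`p ∣ B`, `W` bad at `p`, no cube-free level prime to `p`): `𝒟so` (STRICT-T + RES-ORD).
-/
import Mathlib
import Fermat.Agent.S59lib.Hub.WHecke
import Fermat.Agent.S59lib.Hub.WUnram
import Fermat.Agent.S59lib.Hub.Final
import Fermat.Agent.S59lib.EndW.Main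
import Fermat.Agent.S59lib.MazurW.Main
import Fermat.Agent.S59lib.StrictFam.GS
import Fermat.Agent.S59lib.StrictT.Main
import Fermat.Agent.S59lib.FlatSS.Main

set_option autoImplicit false
set_option linter.unusedSectionVars false
set_option linter.unusedVariables false
set_option linter.style.haveILetI false

noncomputable section

namespace Fermat.Agent.S59lib.Hub

open IsLocalRing Polynomial CuspForm Fermat.Agent.S44lib.Q1 Fermat.Agent.S43lib.B3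
  Fermat.Agent.S56lib.Main Fermat.Agent.S59lib.BigImg

local notation "Qb" => AlgebraicClosure ℚ
local notation "GQ" => (AlgebraicClosure ℚ ≃ₐ[ℚ] AlgebraicClosure ℚ)

/-- **The input of the `W`-instantiation.** -/
structure WIn : Type where
  W : WeierstrassCurve ℤ
  hΔ : W.Δ ≠ 0
  p : ℕ
  hp35 : p = 3 ∨ p = 5
  hss : W.IsSemistableModel
  hirr : W.ModRepIsIrreducible p
  /-- the base level -/
  B : ℕ
  B_sq : Squarefree B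
  B_ram : ∀ q : ℕ, q.Prime → q ≠ p → (q ∣ B ↔ ¬ Fermat.Agent.S59lib.ModPUnramifiedAt W p q)
  /-- the auxiliary primes -/
  Aux : Finset ℕ
  Aux_spec : ∀ r ∈ Aux, r.Prime ∧ ¬ r ∣ B ∧ r ≠ p ∧ W.IsGoodPrimeFor r ∧ r % 12 = 11 ∧
    ¬ (p : ℤ) ∣ W.apOfModel r ^ 2 - ((r : ℤ) + 1) ^ 2 ∧ ¬ r ≡ 1 [MOD p]
  aux3 : p = 3 → Aux.Nonempty

namespace WIn

variable (I : WIn)

theorem pp : I.p.Prime := by rcases I.hp35 with h | h <;> rw [h] <;> norm_num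

theorem hp2 : I.p ≠ 2 := by rcases I.hp35 with h | h <;> rw [h] <;> norm_num

instance instFact : Fact I.p.Prime := ⟨I.pp⟩

theorem B_ne_zero : I.B ≠ 0 := I.B_sq.ne_zero

/-- the residual representation -/
abbrev ρ₀ : ResidualGaloisRep (ZMod I.p) := resRepE I.W I.hΔ I.p

/-- `Smin = {p} ∪ {primes of B}` -/
def Smin : Finset ℕ := insert I.p I.B.primeFactors

/-- the auxiliary part of the level -/
def auxProd : ℕ := ∏ r ∈ I.Aux, r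

/-- `R0 = B ∏ Aux` -/
def R0 : ℕ := I.B * I.auxProd

theorem hpSmin : I.p ∈ I.Smin := Finset.mem_insert_self _ _

theorem Smin_prime : ∀ q ∈ I.Smin, q.Prime := by
  intro q hq
  rcases Finset.mem_insert.1 hq with h | h
  · rw [h]; exact I.pp
  · exact Nat.prime_of_mem_primeFactors h

theorem mem_Smin_iff {q : ℕ} (hq : q.Prime) (hqp : q ≠ I.p) : q ∈ I.Smin ↔ q ∣ I.B := by
  unfold Smin
  rw [Finset.mem_insert, Nat.mem_primeFactors]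
  constructor
  · rintro (h | h)
    · exact absurd h hqp
    · exact h.2.1
  · intro h
    exact Or.inr ⟨hq, h, I.B_ne_zero⟩

theorem hmin (q : ℕ) (hq : q.Prime) (hqp : q ≠ I.p) : q ∈ I.Smin ↔ ¬ I.ρ₀.IsUnramifiedAt q := by
  rw [I.mem_Smin_iff hq hqp, I.B_ram q hq hqp, modPUnramifiedAt_iff I.W I.hΔ I.p q]

theorem Aux_prime : ∀ r ∈ I.Aux, r.Prime := fun r hr => (I.Aux_spec r hr).1

theorem Aux_dvd_auxProd : ∀ r ∈ I.Aux, r ∣ I.auxProd := fun r hr =>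
  Finset.dvd_prod_of_mem (fun r => r) hr

theorem Aux_dvd : ∀ r ∈ I.Aux, r ∣ I.R0 := fun r hr =>
  Dvd.dvd.mul_left (I.Aux_dvd_auxProd r hr) _

theorem prime_dvd_auxProd {q : ℕ} (hq : q.Prime) (h : q ∣ I.auxProd) : q ∈ I.Aux := by
  unfold auxProd at h
  obtain ⟨r, hr, hdvd⟩ := (Prime.dvd_finsetProd_iff hq.prime _).1 h
  have : q = r := (Nat.prime_dvd_prime_iff_eq hq (I.Aux_prime r hr)).1 hdvd
  rw [this]
  exact hr

theorem squarefree_auxProd : Squarefree I.auxProd := by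
  unfold auxProd
  refine Finset.squarefree_prod_of_pairwise_isCoprime ?_ ?_
  · intro a ha b hb hab
    show IsRelPrime a b
    rw [← Nat.coprime_iff_isRelPrime]
    exact (Nat.coprime_primes (I.Aux_prime a ha) (I.Aux_prime b hb)).2 hab
  · intro a ha
    exact (I.Aux_prime a ha).prime.squarefree

theorem coprime_B_auxProd : Nat.Coprime I.B I.auxProd := by
  unfold auxProd
  refine Nat.Coprime.prod_right fun r hr => ?_
  rw [Nat.coprime_comm, Nat.Prime.coprime_iff_not_dvd (I.Aux_prime r hr)]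
  exact (I.Aux_spec r hr).2.1

theorem R0_sq : Squarefree I.R0 :=
  Nat.squarefree_mul_iff.2 ⟨I.coprime_B_auxProd, I.B_sq, I.squarefree_auxProd⟩

theorem R0_primes (q : ℕ) (hq : q.Prime) (h : q ∣ I.R0) : q ∈ I.Smin ∪ I.Aux := by
  rcases (Nat.Prime.dvd_mul hq).1 h with h1 | h1
  · exact Finset.mem_union_left _
      (Finset.mem_insert_of_mem (Nat.mem_primeFactors.2 ⟨hq, h1, I.B_ne_zero⟩))
  · exact Finset.mem_union_right _ (I.prime_dvd_auxProd hq h1)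

theorem Smin_dvd (q : ℕ) (hq : q ∈ I.Smin) (hqp : q ≠ I.p) : q ∣ I.R0 :=
  Dvd.dvd.mul_right ((I.mem_Smin_iff (I.Smin_prime q hq) hqp).1 hq) _

theorem Aux_disj : Disjoint I.Smin I.Aux := by
  rw [Finset.disjoint_left]
  intro q hqS hqA
  obtain ⟨hq, hqB, hqp, -⟩ := I.Aux_spec q hqA
  exact hqB ((I.mem_Smin_iff hq hqp).1 hqS)

theorem p_dvd_R0_iff : I.p ∣ I.R0 ↔ I.p ∣ I.B := by
  constructor
  · intro h
    rcases (Nat.Prime.dvd_mul I.pp).1 h with h1 | h1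
    · exact h1
    · exact absurd rfl (I.Aux_spec I.p (I.prime_dvd_auxProd I.pp h1)).2.2.1
  · intro h
    exact Dvd.dvd.mul_right h _

theorem aux3' (h3 : I.p = 3) : ∃ r : ℕ, r.Prime ∧ r ∣ I.R0 ∧ r % 3 = 2 := by
  obtain ⟨r, hr⟩ := I.aux3 h3
  obtain ⟨hrp, -, -, -, h12, -⟩ := I.Aux_spec r hr
  exact ⟨r, hrp, I.Aux_dvd r hr, by omega⟩

/-- the modularity predicate -/
abbrev IsMod (N : ℕ) : Prop := I.W.IsResiduallyModularOfLevel I.p N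

theorem theta {N M : ℕ} [NeZero M] (hNM : N ∣ M) (S : Finset ℕ) (hpS : I.p ∈ S)
    (hMS : ∀ q : ℕ, q.Prime → q ∣ M → q ∈ S) (hmod : I.IsMod N)
    (k : Type) [Field k] [Algebra (ZMod I.p) k] :
    ∃ θ : heckeAlgebra M 2 (↑S : Set ℕ) →+* k,
      ∀ (ℓ : ℕ) (hℓ : ℓ.Prime) (hℓM : ¬ ℓ ∣ M) (hℓS : ℓ ∉ (↑S : Set ℕ)), ℓ ∉ wS₀ I.W I.p →
        θ (heckeAlgebra.T hℓ hℓM hℓS) = ((I.W.apOfModel ℓ : ℤ) : k) := by
  obtain ⟨θ, hθ⟩ := Fermat.Agent.S59lib.S3Proj.exists_thetaW_of_isResiduallyModularOfLevel I.p I.pp I.W I.hΔ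
    hNM S hpS hMS hmod k
  exact ⟨θ, fun ℓ hℓ hℓM hℓS h => hθ ℓ hℓ hℓM hℓS ((not_mem_wS₀_iff I.W I.p hℓ I.hΔ).mp h).2⟩

theorem endpt (N q : ℕ) [NeZero N] (hsq : Squarefree N) (hpN : I.p ∣ N ↔ I.p ∣ I.R0) (hq : q.Prime)
    (h5 : 5 ≤ q) (hqN : q ∣ N) (hqp : q ≠ I.p) (hR0N : I.R0 ∣ N) (hqR0 : ¬ q ∣ I.R0)
    (S : Finset ℕ) (hS : ∀ ℓ ∈ S, ℓ.Prime ∧ ℓ ∣ N * I.p) (hpS : I.p ∈ S)
    (hNS : ∀ ℓ : ℕ, ℓ.Prime → ℓ ∣ N → ℓ ∈ S)
    (𝒪' : Type) [CommRing 𝒪'] [IsDomain 𝒪'] [IsDiscreteValuationRing 𝒪']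
    [IsAdicComplete (maximalIdeal 𝒪') 𝒪'] [Finite (ResidueField 𝒪')] [CharZero 𝒪']
    (hp𝒪' : (I.p : 𝒪') ∈ maximalIdeal 𝒪')
    (χ : heckeAlgebra N 2 (↑S : Set ℕ) →+* 𝒪')
    (hχ : ∀ (ℓ : ℕ) (hℓ : ℓ.Prime) (hℓN : ¬ ℓ ∣ N) (hℓS : ℓ ∉ (↑S : Set ℕ)), ℓ ∉ wS₀ I.W I.p →
      χ (heckeAlgebra.T hℓ hℓN hℓS) - ((I.W.apOfModel ℓ : ℤ) : 𝒪') ∈ maximalIdeal 𝒪')
    (ρ : GaloisRepAdic 𝒪')
    (hρ : ∀ (ℓ : ℕ) (hℓ : ℓ.Prime) (hℓN : ¬ ℓ ∣ N) (hℓS : ℓ ∉ (↑S : Set ℕ)),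
      ∀ A : ValuationSubring Qb, A.LiesOverPrime ℓ → ∀ σ : GQ, A.IsFrobeniusAt σ ℓ →
        LinearMap.charpoly (ρ.ρ σ) =
          X ^ 2 - C (χ (heckeAlgebra.T hℓ hℓN hℓS)) * X + C (ℓ : 𝒪'))
    (hspan : Submodule.span 𝒪' (Set.range ρ.ρ) = (⊤ : Submodule 𝒪' (Module.End 𝒪' ρ.V)))
    (hunr : ρ.IsUnramifiedAt q) : I.IsMod (N / q) := by
  have hq2 : ¬ q ^ 2 ∣ N := by
    intro h
    rw [sq] at h
    exact hq.one_lt.ne' (Nat.isUnit_iff.mp (hsq q h))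
  have hEF : 5 ≤ I.p ∨ (ModularCurve.nuTwo (N / q) = 0 ∧ ModularCurve.nuThree (N / q) = 0) := by
    rcases I.hp35 with h3 | h5'
    · right
      obtain ⟨r, hr⟩ := I.aux3 h3
      obtain ⟨hrp, -, -, -, h12, -⟩ := I.Aux_spec r hr
      have hrN : r ∣ N := (I.Aux_dvd r hr).trans hR0N
      have hrq : r ≠ q := fun h => hqR0 (h ▸ I.Aux_dvd r hr)
      have hrNq : r ∣ N / q := by
        have h1 : r ∣ q * (N / q) := by rwa [Nat.mul_div_cancel' hqN]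
        rcases (Nat.Prime.dvd_mul hrp).1 h1 with h2 | h2
        · exact absurd ((Nat.prime_dvd_prime_iff_eq hrp hq).1 h2) hrq
        · exact h2
      exact Fermat.Agent.S59lib.MazurW.nu_eq_zero_of_aux hrp h12 hrNq
    · left
      omega
  refine Fermat.Agent.S59lib.EndW.endW I.W I.hΔ I.pp I.hp2 I.hirr N q hq h5 hqN hq2 hqp hEF S hS hpS hNS 𝒪'
    hp𝒪' χ ?_ ρ hρ hspan hunr
  intro ℓ hℓ hℓN hℓS hgood
  refine hχ ℓ hℓ hℓN hℓS ((not_mem_wS₀_iff I.W I.p hℓ I.hΔ).mpr ⟨?_, hgood⟩)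
  intro h
  exact hℓS (h ▸ Finset.mem_coe.2 hpS)

/-- the type of the oracle `heckeType` for the deformation type `𝒟` -/
abbrev HeckeTypeFor (𝒟 : DefType) : Prop :=
  ∀ {𝒪 : Type} [CommRing 𝒪] [IsDomain 𝒪] [IsDiscreteValuationRing 𝒪]
    [IsAdicComplete (maximalIdeal 𝒪) 𝒪] [Finite (ResidueField 𝒪)] [CharZero 𝒪]
    [Algebra (ZMod I.p) (ResidueField 𝒪)]
    (_ : (I.p : 𝒪) ∈ maximalIdeal 𝒪) {N : ℕ} [NeZero N] (S' : Finset ℕ)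
    {θ : CuspForm.heckeAlgebra N 2 (↑(S' ∪ I.Aux) : Set ℕ) →+* ResidueField 𝒪}
    {T : Type} [CommRing T] [IsLocalRing T] [IsNoetherianRing T]
    [IsAdicComplete (maximalIdeal T) T] [Algebra 𝒪 T] [IsLocalHom (algebraMap 𝒪 T)]
    [Module.Finite 𝒪 T] [Module.Free 𝒪 T]
    (H : CuspForm.HeckeGaloisRepDatum N (↑(S' ∪ I.Aux) : Set ℕ) 𝒪 θ T),
    I.p ∈ S' → (∀ q : ℕ, q.Prime → q ∣ N → q ∈ S' ∪ I.Aux) →
    (∀ q ∈ I.Smin, q.Prime → q ≠ I.p → (q ∣ N ∧ ¬ q ^ 2 ∣ N) ∨ q ∉ S' ∪ I.Aux) →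
    ((I.p ∣ N ↔ I.p ∣ I.R0) ∧ ¬ I.p ^ 2 ∣ N) →
    (∀ r ∈ I.Aux, r ∣ N ∧ ¬ r ^ 2 ∣ N) →
    (∀ ℓ ∈ S' ∪ I.Aux, ℓ.Prime ∧ ℓ ∣ N * I.p) →
    (∀ q : ℕ, q.Prime → ¬ q ^ 3 ∣ N) →
    H.ρ.residual.IsEquiv ((I.ρ₀.baseChange (ResidueField 𝒪)).baseChangeAlong
      (ResidueField.map (algebraMap 𝒪 T))) →
    𝒟 𝒪 S' H.ρ

/-- **The hub context of `(W, p)`** for a deformation type `𝒟` with its two oracles. -/
def mkCtx (𝒟 : DefType) (gs : GSFor I.p I.Smin 𝒟) (hT : I.HeckeTypeFor 𝒟) : Ctx where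
  p := I.p
  hpf := I.instFact
  hp2 := I.hp2
  ρ₀ := I.ρ₀
  hirr := wRes_isIrreducible I.W I.hΔ I.p I.hirr
  big := wRes_big I.W I.hΔ I.p I.hp35 I.hss I.hirr
  hdet₀ := wRes_hdet₀ I.W I.hΔ I.p
  a := fun ℓ => I.W.apOfModel ℓ
  S₀ := wS₀ I.W I.p
  h₀ := wRes_h₀ I.W I.hΔ I.p
  hne := wRes_hne I.W I.hΔ I.p I.hp2 I.hirr
  Smin := I.Smin
  hpSmin := I.hpSmin
  Smin_prime := I.Smin_prime
  hmin := I.hmin
  R0 := I.R0
  R0_sq := I.R0_sq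
  Aux := I.Aux
  R0_primes := I.R0_primes
  Smin_dvd := I.Smin_dvd
  Aux_dvd := I.Aux_dvd
  Aux_prime := I.Aux_prime
  Aux_disj := I.Aux_disj
  aux3 := I.aux3'
  𝒟 := 𝒟
  gs := gs
  heckeType := hT
  IsMod := I.IsMod
  theta := fun hNM S hpS hMS hmod k => I.theta hNM S hpS hMS hmod k
  endpt := fun N q _ hsq hpN hq h5 hqN hqp hR0N hqR0 S hS hpS hNS 𝒪' _ _ _ _ _ _ hp𝒪' χ hχ ρ hρ
      hspan hunr =>
    I.endpt N q hsq hpN hq h5 hqN hqp hR0N hqR0 S hS hpS hNS 𝒪' hp𝒪' χ hχ ρ hρ hspan hunr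

end WIn

end Fermat.Agent.S59lib.Hub
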