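/-
S59lib / Hub / InstWType (helper7) — Project I: the oracle `heckeType` of the hub context of `(W, p)` in the two types.

* `heckeType_flat`   : type `𝒟fl` when `p ∤ B` (frozen S32), or `p ∣ B` and `ρ̄|I_p` irreducible (FLAT-SS);
* `heckeType_strict` : type `𝒟so` when `p ∣ B`, `W` is bad at `p` and no cube-free level prime to `p` exists
  (STRICT-T; `hres` = RES-ORD, `hnew` from `NoLevelPrimeTo`);
* `ctxFlat`, `ctxStrict` : the two contexts.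
-/
import Mathlib
import Fermat.Agent.S59lib.Hub.InstW
import Fermat.Agent.S31
import Fermat.Agent.S32
import Fermat.Agent.S34

set_option autoImplicit false
set_option linter.unusedSectionVars false
set_option linter.unusedVariables false
set_option linter.style.haveILetI false

noncomputable section

namespace Fermat.Agent.S59lib.Hub

open IsLocalRing Polynomial CuspForm Fermat.Agent.S44lib.Q1 Fermat.Agent.S43lib.B3
  Fermat.Agent.S56lib.Main Fermat.Agent.S59lib.BigImg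

local notation "Qb" => AlgebraicClosure ℚ
local notation "GQ" => (AlgebraicClosure ℚ ≃ₐ[ℚ] AlgebraicClosure ℚ)

/-- **RES-ORD** (statement): the residual representation of a semistable `W` with bad reduction at `p` is ordinary at
`p`, in the shape of the hypothesis `hres` of STRICT-T. -/
def ResOrdStmt : Prop :=
  ∀ (p : ℕ) [Fact p.Prime], (p = 3 ∨ p = 5) → ∀ (W : WeierstrassCurve ℤ) (hΔ : W.Δ ≠ 0),
    W.IsSemistableModel → ¬ W.IsGoodPrimeFor p →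
    ∀ {T : Type} [CommRing T] [IsLocalRing T] (ρ : GaloisRepAdic T) {k : Type} [Field k]
      [Algebra (ZMod p) k] (j : k →+* ResidueField T),
      ρ.residual.IsEquiv (((resRepE W hΔ p).baseChange k).baseChangeAlong j) →
      (GaloisRepAdic.ofResidualGaloisRep ρ.residual).IsOrdinaryAt p

namespace WIn

variable (I : WIn)

section common

variable {𝒪 : Type} [CommRing 𝒪] [IsDomain 𝒪] [IsDiscreteValuationRing 𝒪]
  [IsAdicComplete (maximalIdeal 𝒪) 𝒪] [Finite (ResidueField 𝒪)] [CharZero 𝒪]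
  [Algebra (ZMod I.p) (ResidueField 𝒪)]
  {N : ℕ} [NeZero N] {S' : Finset ℕ}
  {θ : CuspForm.heckeAlgebra N 2 (↑(S' ∪ I.Aux) : Set ℕ) →+* ResidueField 𝒪}
  {T : Type} [CommRing T] [IsLocalRing T] [IsNoetherianRing T]
  [IsAdicComplete (maximalIdeal T) T] [Algebra 𝒪 T] [IsLocalHom (algebraMap 𝒪 T)]
  [Module.Finite 𝒪 T] [Module.Free 𝒪 T]
  (H : CuspForm.HeckeGaloisRepDatum N (↑(S' ∪ I.Aux) : Set ℕ) 𝒪 θ T)

/-- unramified outside `S'` (the auxiliary primes included) -/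
theorem hecke_unram (hp𝒪 : (I.p : 𝒪) ∈ maximalIdeal 𝒪) (hpS' : I.p ∈ S')
    (hNS : ∀ q : ℕ, q.Prime → q ∣ N → q ∈ S' ∪ I.Aux)
    (haux : ∀ r ∈ I.Aux, r ∣ N ∧ ¬ r ^ 2 ∣ N)
    (he : H.ρ.residual.IsEquiv ((I.ρ₀.baseChange (ResidueField 𝒪)).baseChangeAlong
      (ResidueField.map (algebraMap 𝒪 T))))
    (q : ℕ) (hq : q.Prime) (hqS' : q ∉ S') : H.ρ.IsUnramifiedAt q := by
  have hpS : I.p ∈ S' ∪ I.Aux := Finset.mem_union_left _ hpS'
  by_cases hqA : q ∈ I.Aux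
  · obtain ⟨hr, -, hrp, hgood, -, hlr, hr1⟩ := I.Aux_spec q hqA
    exact isUnramifiedAt_aux I.W I.hΔ I.p H he hp𝒪 hpS hNS hr hrp hgood (haux q hqA).1 (haux q hqA).2
      hr1 hlr
  · exact Fermat.Agent.S31.result I.pp hp𝒪 hpS hNS H q hq
      (fun h => (Finset.mem_union.1 h).elim hqS' hqA)

/-- unipotent inertia at the primes of `Smin ∖ {p}` -/
theorem hecke_unip (hp𝒪 : (I.p : 𝒪) ∈ maximalIdeal 𝒪) (hpS' : I.p ∈ S')
    (hNS : ∀ q : ℕ, q.Prime → q ∣ N → q ∈ S' ∪ I.Aux)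
    (hSmin : ∀ q ∈ I.Smin, q.Prime → q ≠ I.p → (q ∣ N ∧ ¬ q ^ 2 ∣ N) ∨ q ∉ S' ∪ I.Aux)
    (q : ℕ) (hqS : q ∈ I.Smin) (hq : q.Prime) (hqp : q ≠ I.p) : H.ρ.IsUnipotentOnInertiaAt q := by
  have hpS : I.p ∈ S' ∪ I.Aux := Finset.mem_union_left _ hpS'
  rcases hSmin q hqS hq hqp with ⟨h1, h2⟩ | h
  · exact Fermat.Agent.S34.result I.pp hp𝒪 hpS hNS H q hq hqp h1 h2
  · exact isUnipotentOnInertiaAt_of_isUnramifiedAt _ q
      (Fermat.Agent.S31.result I.pp hp𝒪 hpS hNS H q hq h)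

end common

/-- **`heckeType`, flat type.** -/
theorem heckeType_flat (hfl : I.p ∣ I.B → Fermat.Agent.S59lib.ModPInertiaIrreducible I.W I.p) :
    I.HeckeTypeFor (fun 𝒪 _ S' => 𝒟fl 𝒪 I.p I.Smin S') := by
  intro 𝒪 _ _ _ _ _ _ _ hp𝒪 N _ S' θ T _ _ _ _ _ _ _ _ H hpS' hNS hSmin hpl haux hSdvd hcube he
  have hpS : I.p ∈ S' ∪ I.Aux := Finset.mem_union_left _ hpS'
  refine ⟨⟨heckeDatum_detIsCyclotomic I.pp hp𝒪 hNS H, ?_,
    fun q hq hqS' => I.hecke_unram H hp𝒪 hpS' hNS haux he q hq hqS'⟩,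
    fun q hqS hq hqp => I.hecke_unip H hp𝒪 hpS' hNS hSmin q hqS hq hqp⟩
  by_cases hpB : I.p ∣ I.B
  · have hpN : I.p ∣ N := hpl.1.2 (I.p_dvd_R0_iff.2 hpB)
    exact Fermat.Agent.S59lib.FlatSS.isFlatAt_of_noCoinvariants I.pp I.hp2 hp𝒪 ⟨hpN, hpl.2⟩ hNS H
      (hss_of_inertiaIrreducible I.W I.hΔ I.p H he (hfl hpB))
  · have hpN : ¬ I.p ∣ N := fun h => hpB (I.p_dvd_R0_iff.1 (hpl.1.1 h))
    exact Fermat.Agent.S32.result I.pp I.hp2 hp𝒪 hpN hpS hNS H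

/-- **`heckeType`, strict ordinary type.** -/
theorem heckeType_strict (hRO : ResOrdStmt) (hpB : I.p ∣ I.B) (hbad : ¬ I.W.IsGoodPrimeFor I.p)
    (hno : Fermat.Agent.S59lib.NoLevelPrimeTo I.W I.p) :
    I.HeckeTypeFor (fun 𝒪 _ S' => 𝒟so 𝒪 I.p I.Smin S') := by
  intro 𝒪 _ _ _ _ _ _ _ hp𝒪 N _ S' θ T _ _ _ _ _ _ _ _ H hpS' hNS hSmin hpl haux hSdvd hcube he
  have hpS : I.p ∈ S' ∪ I.Aux := Finset.mem_union_left _ hpS'
  refine ⟨⟨heckeDatum_detIsCyclotomic I.pp hp𝒪 hNS H, ?_,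
    fun q hq hqS' => I.hecke_unram H hp𝒪 hpS' hNS haux he q hq hqS'⟩,
    fun q hqS hq hqp => I.hecke_unip H hp𝒪 hpS' hNS hSmin q hqS hq hqp⟩
  have hpN : I.p ∣ N := hpl.1.2 (I.p_dvd_R0_iff.2 hpB)
  haveI : NeZero (N / I.p) := ⟨by
    intro h0
    have hlt := (Nat.div_eq_zero_iff.1 h0)
    rcases hlt with h | h
    · exact I.pp.ne_zero h
    · exact absurd (Nat.le_of_dvd (Nat.pos_of_ne_zero (NeZero.ne N)) hpN) (not_le.2 h)⟩
  exact Fermat.Agent.S59lib.StrictT.strictT I.pp I.hp2 hp𝒪 ⟨hpN, hpl.2⟩ hNS H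
    (hRO I.p I.hp35 I.W I.hΔ I.hss hbad H.ρ (ResidueField.map (algebraMap 𝒪 T)) he)
    (hnew_of_noLevel I.W I.hΔ I.p H he hno hpS hNS hSdvd hcube ⟨hpN, hpl.2⟩)

/-- **the flat context** -/
def ctxFlat (hfl : I.p ∣ I.B → Fermat.Agent.S59lib.ModPInertiaIrreducible I.W I.p) : Ctx :=
  I.mkCtx (fun 𝒪 _ S' => 𝒟fl 𝒪 I.p I.Smin S')
    (Fermat.Agent.S59lib.StrictFam.gs_surj_flat I.p I.hp2 I.Smin I.hpSmin) (I.heckeType_flat hfl)

/-- **the strict ordinary context** -/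
def ctxStrict (hRO : ResOrdStmt) (hpB : I.p ∣ I.B) (hbad : ¬ I.W.IsGoodPrimeFor I.p)
    (hno : Fermat.Agent.S59lib.NoLevelPrimeTo I.W I.p) : Ctx :=
  I.mkCtx (fun 𝒪 _ S' => 𝒟so 𝒪 I.p I.Smin S')
    (Fermat.Agent.S59lib.StrictFam.gs_surj_strict I.p I.hp2 I.Smin I.hpSmin)
    (I.heckeType_strict hRO hpB hbad hno)

end WIn

end Fermat.Agent.S59lib.Hub
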