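/-
S59lib / Hub / LowerOne (helper7) — Project I: **block LOWERONE** (Ribet's theorem at a squarefree minimal
divisor-level) from
* Mazur's principle for `W` at the primes `q ≥ 5` (helper8's `MazurW.mazurW_of_aux`, helper4's auxiliary primes),
* the same at the primes `q < 5` (`LowerSmallStmt`: `(5,2)`, `(5,3)` helper8; `(3,2)` = R7b, helper3),
* Ihara avoidance at the level `M` for the set `U` of the primes `≡ 1 mod p` with scalar decomposition group
  (`Hub.iharaW` for the context `WIn.mkCtx`; RES-ORD for the strict type).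
-/
import Mathlib
import Fermat.Agent.S59lib.Hub.InstWType
import Fermat.Agent.S59lib.AuxPrime.Remove
import Fermat.Agent.S59lib.BigImg.AuxPrime

set_option autoImplicit false
set_option linter.unusedSectionVars false
set_option linter.unusedVariables false
set_option linter.style.haveILetI false

noncomputable section

namespace Fermat.Agent.S59lib.Hub

open IsLocalRing Polynomial CuspForm Fermat.Agent.S44lib.Q1 Fermat.Agent.S59lib.BigImg

local notation "Qb" => AlgebraicClosure ℚ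
local notation "GQ" => (AlgebraicClosure ℚ ≃ₐ[ℚ] AlgebraicClosure ℚ)

/-- **LOWERONE at the primes `q < 5`** (statement). -/
def LowerSmallStmt : Prop :=
  ∀ (p : ℕ), (p = 3 ∨ p = 5) → ∀ (W : WeierstrassCurve ℤ), W.Δ ≠ 0 → W.IsSemistableModel →
    W.ModRepIsIrreducible p → ∀ M q : ℕ, 0 < M → Squarefree M → q.Prime → q < 5 → q ≠ p → q ∣ M →
    IsMinimalDivLevel W p M → (p ∣ M → W.IsGoodPrimeFor p → ModPInertiaIrreducible W p) →
    (p ∣ M → NoLevelPrimeTo W p) → ModPUnramifiedAt W p q → False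

/-- the auxiliary primes: none for `p = 5`, one for `p = 3` -/
theorem exists_aux (p : ℕ) (hp35 : p = 3 ∨ p = 5) (W : WeierstrassCurve ℤ) (hΔ : W.Δ ≠ 0)
    (hss : W.IsSemistableModel) (hirr : W.ModRepIsIrreducible p) (M : ℕ) (hM : M ≠ 0) :
    ∃ Aux : Finset ℕ, (∀ r ∈ Aux, r.Prime ∧ ¬ r ∣ M ∧ r ≠ p ∧ W.IsGoodPrimeFor r ∧ r % 12 = 11 ∧
      ¬ (p : ℤ) ∣ W.apOfModel r ^ 2 - ((r : ℤ) + 1) ^ 2 ∧ ¬ r ≡ 1 [MOD p]) ∧ (p = 3 → Aux.Nonempty) ∧
      Aux.card ≤ 1 := by
  rcases hp35 with h3 | h5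
  · obtain ⟨r, hr, hrS, h12, hgood, hlr⟩ :=
      auxPrime_finset p (Or.inl h3) W hΔ hss hirr (insert p M.primeFactors)
    refine ⟨{r}, ?_, fun _ => Finset.singleton_nonempty r, by rw [Finset.card_singleton]⟩
    intro r' hr'
    rw [Finset.mem_singleton] at hr'
    subst hr'
    refine ⟨hr, fun hd => hrS (Finset.mem_insert_of_mem (Nat.mem_primeFactors.2 ⟨hr, hd, hM⟩)),
      fun h => hrS (h ▸ Finset.mem_insert_self _ _), hgood, h12, hlr, ?_⟩
    rw [h3]
    unfold Nat.ModEq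
    omega
  · refine ⟨∅, fun r hr => absurd hr (Finset.notMem_empty r), fun h => ?_, by simp⟩
    omega

namespace WIn

variable (I : WIn)

/-- removing the auxiliary primes from a level -/
theorem isMod_of_mul_auxProd {K : ℕ} (hK : K ≠ 0) (hcop : ∀ r ∈ I.Aux, ¬ r ∣ K)
    (h : I.IsMod (K * I.auxProd)) : I.IsMod K := by
  classical
  have key : ∀ s : Finset ℕ, s ⊆ I.Aux → I.IsMod (K * ∏ r ∈ s, r) → I.IsMod K := by
    intro s
    induction s using Finset.induction_on with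
    | empty =>
      intro _ h0
      rwa [Finset.prod_empty, mul_one] at h0
    | insert a s ha ih =>
      intro hsub h0
      have haA : a ∈ I.Aux := hsub (Finset.mem_insert_self a s)
      obtain ⟨hap, -, happ, hgood, -, hlr, -⟩ := I.Aux_spec a haA
      have hs : s ⊆ I.Aux := fun x hx => hsub (Finset.mem_insert_of_mem hx)
      rw [Finset.prod_insert ha, mul_comm a, ← mul_assoc] at h0
      have hne : K * ∏ r ∈ s, r ≠ 0 :=
        mul_ne_zero hK (Finset.prod_ne_zero_iff.2 fun r hr => (I.Aux_prime r (hs hr)).ne_zero)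
      have hnd : ¬ a ∣ K * ∏ r ∈ s, r := by
        intro hd
        rcases (Nat.Prime.dvd_mul hap).1 hd with h1 | h1
        · exact hcop a haA h1
        · obtain ⟨r, hr, hdvd⟩ := (Prime.dvd_finsetProd_iff hap.prime _).1 h1
          have : a = r := (Nat.prime_dvd_prime_iff_eq hap (I.Aux_prime r (hs hr))).1 hdvd
          exact ha (this ▸ hr)
      exact ih hs (Fermat.Agent.S59lib.AuxPrime.removeAux I.p I.pp I.W I.hΔ _ a hne hap hnd happ hgood hlr h0)
  exact key I.Aux (Finset.Subset.refl _) h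

/-- **Ihara avoidance in the vocabulary of `W`.** -/
theorem lower_of_ihara (𝒟 : DefType) (gs : GSFor I.p I.Smin 𝒟) (hT : I.HeckeTypeFor 𝒟)
    (U : Finset ℕ) (hUprime : ∀ v ∈ U, v.Prime) (hUB : ∀ v ∈ U, ¬ v ∣ I.B)
    (hUaux : ∀ v ∈ U, v ∉ I.Aux) (hone : ∀ v ∈ U, v ≡ 1 [MOD I.p])
    (hscal : ∀ v ∈ U, Fermat.Agent.S59lib.MazurW.DecompScalarAtW I.W I.p v)
    {N : ℕ} (hN : N ∣ I.B * ∏ v ∈ U, v) (hmod : I.IsMod N) {q : ℕ} (hq : q.Prime) (hqU : q ∈ U) :
    I.IsMod (I.B * (∏ v ∈ U, v) / q) := by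
  classical
  set P : Ctx := I.mkCtx 𝒟 gs hT with hP
  have hUp : I.p ∉ U := by
    intro h
    have h1 := hone I.p h
    unfold Nat.ModEq at h1
    rw [Nat.mod_self, Nat.mod_eq_of_lt I.pp.one_lt] at h1
    exact absurd h1 (by norm_num)
  have hTh : THyp P U := by
    refine ⟨hUprime, ?_, ?_, hone, ?_⟩
    · rw [Finset.disjoint_left]
      intro v hvS hvU
      have hvp : v ≠ I.p := fun h => hUp (h ▸ hvU)
      exact hUB v hvU ((I.mem_Smin_iff (hUprime v hvU) hvp).1 hvS)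
    · rw [Finset.disjoint_left]
      exact fun v hvU hvA => hUaux v hvU hvA
    · intro v hv
      exact (decompScalarAtW_iff I.W I.hΔ I.p v).mp (hscal v hv)
  have hfilter : U.filter Nat.Prime = U := Finset.filter_true_of_mem hUprime
  have hM₀ : M₀ P U = I.B * I.auxProd * ∏ v ∈ U, v := by
    unfold M₀
    rw [hfilter]
    rfl
  have hN' : N ∣ M₀ P U := by
    rw [hM₀]
    refine hN.trans ?_
    exact ⟨I.auxProd, by ring⟩
  have h1 : P.IsMod (M₀ P U / q) := iharaW P U hTh hN' hmod hq hqU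
  have hqd : q ∣ ∏ v ∈ U, v := Finset.dvd_prod_of_mem (fun v => v) hqU
  obtain ⟨c, hc⟩ := hqd
  have e1 : M₀ P U / q = I.B * c * I.auxProd := by
    rw [hM₀, hc]
    have : I.B * I.auxProd * (q * c) = q * (I.B * c * I.auxProd) := by ring
    rw [this, Nat.mul_div_cancel_left _ hq.pos]
  have e2 : I.B * (∏ v ∈ U, v) / q = I.B * c := by
    rw [hc]
    have : I.B * (q * c) = q * (I.B * c) := by ring
    rw [this, Nat.mul_div_cancel_left _ hq.pos]
  rw [e2]
  have hprod_ne : ∏ v ∈ U, v ≠ 0 := Finset.prod_ne_zero_iff.2 fun v hv => (hUprime v hv).ne_zero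
  have hc0 : c ≠ 0 := by
    rintro rfl
    rw [mul_zero] at hc
    exact hprod_ne hc
  refine I.isMod_of_mul_auxProd (mul_ne_zero I.B_ne_zero hc0) ?_ (e1 ▸ h1)
  intro r hr hd
  obtain ⟨hrp, hrB, -⟩ := I.Aux_spec r hr
  rcases (Nat.Prime.dvd_mul hrp).1 hd with h2 | h2
  · exact hrB h2
  · have h3 : r ∣ ∏ v ∈ U, v := by
      rw [hc]
      exact Dvd.dvd.mul_left h2 q
    obtain ⟨v, hv, hdvd⟩ := (Prime.dvd_finsetProd_iff hrp.prime _).1 h3
    have : r = v := (Nat.prime_dvd_prime_iff_eq hrp (hUprime v hv)).1 hdvd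
    exact hUaux v hv (this ▸ hr)

end WIn

/-- **Block LOWERONE.** -/
theorem lowerOneBlock_of (hRO : ResOrdStmt) (hSmall : LowerSmallStmt) :
    Fermat.Agent.S59lib.LowerOneBlock := by
  classical
  intro p hp W hΔ hss hirr M q hM hsq hq hqp hqM hmin hssp hno hunr
  have hpp : p.Prime := by rcases hp with rfl | rfl <;> norm_num
  have hp2 : p ≠ 2 := by rcases hp with rfl | rfl <;> norm_num
  haveI : Fact p.Prime := ⟨hpp⟩
  have hM0 : M ≠ 0 := hM.ne'
  -- Mazur's principle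
  have hMazur : ∀ q' : ℕ, q'.Prime → q' ≠ p → q' ∣ M → ModPUnramifiedAt W p q' →
      (¬ q' ≡ 1 [MOD p] ∨ ¬ Fermat.Agent.S59lib.MazurW.DecompScalarAtW W p q') → False := by
    intro q' hq' hq'p hq'M hunr' hdisj
    by_cases h5 : 5 ≤ q'
    · have hq'2 : ¬ q' ^ 2 ∣ M := by
        intro h
        rw [sq] at h
        exact hq'.one_lt.ne' (Nat.isUnit_iff.mp (hsq q' h))
      have h1 := Fermat.Agent.S59lib.MazurW.mazurW_of_aux hpp hp2 hq' h5 hq'p W hΔ hirr
        (fun S => auxPrime_finset p hp W hΔ hss hirr S) M hM hq'M hq'2 hmin.1 hunr' hdisj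
      exact hmin.2 (M / q') (Nat.div_dvd_of_dvd hq'M) (Nat.div_lt_self hM hq'.one_lt).ne h1
    · exact hSmall p hp W hΔ hss hirr M q' hM hsq hq' (by omega) hq'p hq'M hmin hssp hno hunr'
  -- the set `U`
  set U : Finset ℕ := M.primeFactors.filter (fun q' => q' ≠ p ∧ ModPUnramifiedAt W p q') with hU
  have hUmem : ∀ v, v ∈ U ↔ (v.Prime ∧ v ∣ M) ∧ v ≠ p ∧ ModPUnramifiedAt W p v := by
    intro v
    rw [hU, Finset.mem_filter, Nat.mem_primeFactors]
    constructor
    · rintro ⟨⟨h1, h2, -⟩, h3⟩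
      exact ⟨⟨h1, h2⟩, h3⟩
    · rintro ⟨⟨h1, h2⟩, h3⟩
      exact ⟨⟨h1, h2, hM0⟩, h3⟩
  have hUall : ∀ v ∈ U, v ≡ 1 [MOD p] ∧ Fermat.Agent.S59lib.MazurW.DecompScalarAtW W p v := by
    intro v hv
    obtain ⟨⟨hvp, hvM⟩, hvne, hvun⟩ := (hUmem v).1 hv
    by_contra hcon
    rw [not_and_or] at hcon
    exact hMazur v hvp hvne hvM hvun hcon
  have hqU : q ∈ U := (hUmem q).2 ⟨⟨hq, hqM⟩, hqp, hunr⟩
  -- the base level
  set Bf : Finset ℕ := M.primeFactors \ U with hBf
  set B : ℕ := ∏ v ∈ Bf, v with hB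
  have hUsub : U ⊆ M.primeFactors := Finset.filter_subset _ _
  have hMB : M = B * ∏ v ∈ U, v := by
    rw [hB, hBf, Finset.prod_sdiff hUsub]
    exact (Nat.prod_primeFactors_of_squarefree hsq).symm
  have hBM : B ∣ M := ⟨_, hMB⟩
  have hBfprime : ∀ v ∈ Bf, v.Prime := fun v hv =>
    Nat.prime_of_mem_primeFactors (Finset.mem_sdiff.1 hv).1
  have hdvdB : ∀ v : ℕ, v.Prime → (v ∣ B ↔ v ∈ Bf) := by
    intro v hv
    constructor
    · intro h
      obtain ⟨w, hw, hdvd⟩ := (Prime.dvd_finsetProd_iff hv.prime _).1 h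
      have : v = w := (Nat.prime_dvd_prime_iff_eq hv (hBfprime w hw)).1 hdvd
      exact this ▸ hw
    · intro h
      exact Finset.dvd_prod_of_mem (fun v => v) h
  obtain ⟨Aux, hAux, hAux3, -⟩ := exists_aux p hp W hΔ hss hirr M hM0
  let I : WIn :=
    { W := W
      hΔ := hΔ
      p := p
      hp35 := hp
      hss := hss
      hirr := hirr
      B := B
      B_sq := hsq.squarefree_of_dvd hBM
      B_ram := by
        intro v hv hvp
        rw [hdvdB v hv, hBf, Finset.mem_sdiff, hUmem v, Nat.mem_primeFactors]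
        constructor
        · rintro ⟨⟨-, hvM, -⟩, hnot⟩ hun
          exact hnot ⟨⟨hv, hvM⟩, hvp, hun⟩
        · intro hram
          have hvM : v ∣ M := by
            by_contra hvM
            exact hram (modPUnramifiedAt_of_resMod W hΔ p hp2 hirr hM hmin.1 hv hvp hvM)
          exact ⟨⟨hv, hvM, hM0⟩, fun h => hram h.2.2⟩
      Aux := Aux
      Aux_spec := by
        intro r hr
        obtain ⟨h1, h2, h3⟩ := hAux r hr
        exact ⟨h1, fun hd => h2 (hd.trans hBM), h3⟩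
      aux3 := hAux3 }
  have hpB : p ∣ I.B → p ∣ M := fun h => h.trans hBM
  -- Ihara avoidance
  have hUprime : ∀ v ∈ U, v.Prime := fun v hv => ((hUmem v).1 hv).1.1
  have hUB : ∀ v ∈ U, ¬ v ∣ I.B := by
    intro v hv hd
    have := (hdvdB v (hUprime v hv)).1 hd
    exact (Finset.mem_sdiff.1 this).2 hv
  have hUaux : ∀ v ∈ U, v ∉ I.Aux := by
    intro v hv hvA
    exact (hAux v hvA).2.1 ((hUmem v).1 hv).1.2
  have hfinal : I.IsMod (I.B * (∏ v ∈ U, v) / q) := by
    by_cases hmode : p ∣ I.B ∧ ¬ W.IsGoodPrimeFor p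
    · exact I.lower_of_ihara _ (Fermat.Agent.S59lib.StrictFam.gs_surj_strict I.p I.hp2 I.Smin I.hpSmin)
        (I.heckeType_strict hRO hmode.1 hmode.2 (hno (hpB hmode.1))) U hUprime hUB
        hUaux (fun v hv => (hUall v hv).1) (fun v hv => (hUall v hv).2) (N := M) (by rw [← hMB]) hmin.1
        hq hqU
    · exact I.lower_of_ihara _ (Fermat.Agent.S59lib.StrictFam.gs_surj_flat I.p I.hp2 I.Smin I.hpSmin)
        (I.heckeType_flat (fun h => hssp (hpB h)
        (by_contra fun hg => hmode ⟨h, hg⟩))) U hUprime hUB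
        hUaux (fun v hv => (hUall v hv).1) (fun v hv => (hUall v hv).2) (N := M) (by rw [← hMB]) hmin.1
        hq hqU
  have h2 : I.B * (∏ v ∈ U, v) / q = M / q := by rw [← hMB]
  rw [h2] at hfinal
  exact hmin.2 (M / q) (Nat.div_dvd_of_dvd hqM) (Nat.div_lt_self hM hq.one_lt).ne hfinal

end Fermat.Agent.S59lib.Hub
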