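/-
S59lib / Hub / LowerSmall (helper7) — Project I: **`LowerSmallStmt` from its two halves**:
* `p = 3` (`q = 2`): `R7b.ALD.Lower32CoreStmt` (the core of R7b; helper1's END adapter `lowerSmall_three_of_core`);
* `p = 5` (`q ∈ {2, 3}`): `Mazur5SmallStmt` = the instance of helper8's `MazurW.mazurW` at `p = 5`, `q < 5`
  (Mazur's principle; `q ≢ 1 mod 5`).
-/
import Mathlib
import Fermat.Agent.S59lib.Hub.LowerOne
import Fermat.Agent.S59lib.R7b.ALD.End32

set_option autoImplicit false
set_option linter.unusedSectionVars false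
set_option linter.unusedVariables false
set_option linter.style.haveILetI false

noncomputable section

namespace Fermat.Agent.S59lib.Hub

/-- **Mazur's principle at `p = 5`, `q ∈ {2, 3}`** (statement): the instance of `MazurW.mazurW` used by LOWERONE. -/
def Mazur5SmallStmt : Prop :=
  ∀ (q : ℕ), q.Prime → q < 5 → ∀ (W : WeierstrassCurve ℤ), W.Δ ≠ 0 → W.IsSemistableModel →
    W.ModRepIsIrreducible 5 → ∀ N : ℕ, 0 < N → q ∣ N → ¬ q ^ 2 ∣ N → W.IsResiduallyModularOfLevel 5 N →
    ModPUnramifiedAt W 5 q → W.IsResiduallyModularOfLevel 5 (N / q)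

/-- **`LowerSmallStmt`** from the core of R7b (`p = 3`) and Mazur's principle at the small primes (`p = 5`). -/
theorem lowerSmallStmt_of (hcore : R7b.ALD.Lower32CoreStmt) (h5 : Mazur5SmallStmt) : LowerSmallStmt := by
  intro p hp W hΔ hss hirr M q hM hsq hq hq5 hqp hqM hmin hssp hno hunr
  rcases hp with rfl | rfl
  · exact R7b.ALD.lowerSmall_three_of_core hcore W hΔ hss hirr M q hM hsq hq hq5 hqp hqM hmin hssp hno hunr
  · have hq2 : ¬ q ^ 2 ∣ M := by
      intro h
      rw [sq] at h
      exact hq.one_lt.ne' (Nat.isUnit_iff.mp (hsq q h))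
    have h1 := h5 q hq hq5 W hΔ hss hirr M hM hqM hq2 hmin.1 hunr
    exact hmin.2 (M / q) (Nat.div_dvd_of_dvd hqM) (Nat.div_lt_self hM hq.one_lt).ne h1

end Fermat.Agent.S59lib.Hub
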