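/-
S59lib / Hub / Mazur5 (helper7) — Project I: **`Mazur5SmallStmt` is a theorem** (helper8's `MazurW.mazurW` at `p = 5`,
`q ∈ {2, 3}`; `q ≢ 1 mod 5`).
-/
import Mathlib
import Fermat.Agent.S59lib.Hub.LowerSmall
import Fermat.Agent.S59lib.MazurW.Final

set_option autoImplicit false
set_option linter.unusedSectionVars false
set_option linter.unusedVariables false
set_option linter.style.haveILetI false

noncomputable section

namespace Fermat.Agent.S59lib.Hub

/-- **Mazur's principle at `p = 5`, `q ∈ {2, 3}`**. -/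
theorem mazur5SmallStmt : Mazur5SmallStmt := by
  intro q hq hq5 W hΔ hss hirr N hN hqN hq2 hres hunr
  have hq5' : q ≠ 5 := hq5.ne
  have hmod : ¬ q ≡ 1 [MOD 5] := by
    have h2 := hq.two_le
    intro h
    unfold Nat.ModEq at h
    interval_cases q <;> simp_all
  exact Fermat.Agent.S59lib.MazurW.mazurW 5 (Or.inr rfl) hq hq5' (fun h => by omega) W hΔ hss hirr N hN
    hqN hq2 hres hunr (Or.inl hmod)

end Fermat.Agent.S59lib.Hub
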