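/-
S59lib / Hub / BasePt (helper7) — PROJECT I, block RT: **the base point**.

* `sideLevels_of`, `sideLevels_empty_of` : the Hecke side of the hub (`exists_sideLevels`, `exists_sideLevels_empty`) for a
  GIVEN `Sg : SideGal P Ts` (any coefficient ring);
* `sideGalOfRing` : the Galois-side data at `T = ∅` over a PRESCRIBED coefficient ring `𝒪` (complete DVR of characteristic
  zero, finite residue field `k ⊇ 𝔽_p`, `ζ_p ∈ 𝒪`, `𝔽_p ⊆ k²`);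
* **`exists_basePoint`** : there are a `Sg : SideGal P ∅` and an AUGMENTATION `π₀ : 𝕋_∅ →ₐ[𝒪] 𝒪` of the minimal Hecke
  ring `𝕋_∅ = (Sg.F Smin).R` (the eigenform `f₀` of the base point of the numerical criterion): take any
  `Sg₁`, a character `ψ : 𝕋_∅(𝒪₁) → O₁` into a finite extension `O₁ ⊇ 𝒪₁` (`S32lib.exists_characters_dvr`), and
  re-run the hub over `O₁`.
-/
import Mathlib
import Fermat.Agent.S59lib.Hub.EmptyT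
import Fermat.Agent.S32lib.Chars.Main
import Fermat.Agent.S31lib.PET.Main
import Fermat.Agent.S22

set_option autoImplicit false
set_option linter.unusedSectionVars false
set_option linter.unusedVariables false
set_option linter.style.haveILetI false

noncomputable section

namespace Fermat.Agent.S59lib.Hub

open Fermat.Agent.S43lib.Mod4 Fermat.Agent.S43lib.Mod4.Hub

open IsLocalRing Polynomial CuspForm Fermat.Agent.S43lib.B3 Fermat.Agent.S43lib.Loc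
  Fermat.Agent.S56lib.Main Fermat.Agent.S43lib.Mod4.HO Fermat.Agent.S56lib.TW ExtCitation
  Fermat.Agent.S56lib.TWSel

local notation "GQ" => (AlgebraicClosure ℚ ≃ₐ[ℚ] AlgebraicClosure ℚ)
local notation "Qb" => AlgebraicClosure ℚ

attribute [local instance] hubInvTwo

/-! ### the Hecke side for a given `SideGal` -/

/-- **`exists_sideLevels` for a given `Sg`.** -/
theorem sideLevels_of {P : Ctx} {Ts : Finset ℕ} (Sg : SideGal P Ts) (hT : THyp P Ts) {N : ℕ}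
    (hN : N ∣ M₀ P Ts) (hmod : P.IsMod N) :
    ∃ (hH : HubHyp Sg) (d : ℕ) (hd : 0 < d) (hgood0 : (H0 Sg).Good P.p)
      (β₀ : (Sg.F Sg.S (Sg.hgoodS hH.hT)).R →ₐ[Sg.𝒪] T0 Sg),
      (∀ (ℓ : ℕ) (hℓ : ℓ.Prime) (hℓN : ¬ ℓ ∣ lvlTw P Sg.S)
        (hℓS : ℓ ∉ (↑(Sg.S ∪ P.Aux) : Set ℕ)) (hi : ℓ.Prime ∧ ¬ ℓ ∣ M₀ P Ts ∧ ℓ ≠ P.p)
        (hℓM : ℓ.Coprime (M₀ P Ts)) (g : G₀ P Ts),
        g * g * χ₀ P Ts (ZMod.unitOfCoprime ℓ hℓM) = 1 →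
        β₀ (heckeLocal.π _ _ _ _ (heckeAlgebra.T hℓ hℓN hℓS)) =
          (H0 Sg).tG Set.univ g * (H0 Sg).tX Set.univ (Sum.inl ⟨ℓ, hi⟩) (Set.mem_univ _)) ∧
      ∀ (r n : ℕ) (qv : Fin r → ℕ), Function.Injective qv →
        ∀ (hqv : ∀ i, (qv i).Prime ∧ qv i ∉ Sg.SA ∧ P.p ^ (n + 1) ∣ qv i - 1),
        (∀ i, ∀ A : ValuationSubring Qb, A.LiesOverPrime (qv i) →
          ∀ φ : GQ, A.IsFrobeniusAt φ (qv i) →
            ∃ α β : ResidueField Sg.𝒪, α ≠ β ∧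
              LinearMap.charpoly (Sg.ρbar.ρ φ) = (X - C α) * (X - C β)) →
        Nonempty (SideLevel (sideCore Sg hH d hd hgood0 β₀) r n qv (fun i => (hqv i).1)
          (Sg.hgoodQ hH.hT r qv fun i => ⟨(hqv i).1, (hqv i).2.1⟩)) := by
  have hH : HubHyp Sg := hubHyp_mk Sg hT hN hmod
  haveI := hH.nontriv
  obtain ⟨i0, hcop0, ⟨D0⟩⟩ := exists_twData0 Sg hH
  have hgood0 : (H0 Sg).Good P.p := TWDataW.good0 D0 Sg.hp𝒪 (isPGroup_deltaGrp P.p (aT Ts))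
  obtain ⟨β₀, hβ₀⟩ := exists_beta0 Sg hH hgood0
  exact ⟨hH, D0.r, TWDataW.r_pos D0, hgood0, β₀, hβ₀, fun r n qv hinj hqv hfrob =>
    nonempty_sideLevel Sg hH D0.r (TWDataW.r_pos D0) hgood0 (TWDataW.r_eq D0) β₀ hβ₀ r n qv hinj
      hqv hfrob⟩

/-- **`exists_sideLevels_empty` for a given `Sg`.** -/
theorem sideLevels_empty_of {P : Ctx} (Sg : SideGal P ∅) {N : ℕ} (hN : N ∣ M₀ P ∅)
    (hmod : P.IsMod N) :
    ∃ (hH : HubHyp Sg) (d : ℕ) (hd : 0 < d) (hgood0 : (H0 Sg).Good P.p)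
      (β₀ : (Sg.F Sg.S (Sg.hgoodS hH.hT)).R →ₐ[Sg.𝒪] T0 Sg),
      Function.Surjective β₀ ∧ Function.Bijective (algebraMap Sg.𝒪 (Lam P ∅ Sg.𝒪)) ∧
      (∀ (ℓ : ℕ) (hℓ : ℓ.Prime) (hℓN : ¬ ℓ ∣ lvlTw P Sg.S)
        (hℓS : ℓ ∉ (↑(Sg.S ∪ P.Aux) : Set ℕ)) (hi : ℓ.Prime ∧ ¬ ℓ ∣ M₀ P ∅ ∧ ℓ ≠ P.p),
        β₀ (heckeLocal.π _ _ _ _ (heckeAlgebra.T hℓ hℓN hℓS)) =
          (H0 Sg).tX Set.univ (Sum.inl ⟨ℓ, hi⟩) (Set.mem_univ _)) ∧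
      ∀ (r n : ℕ) (qv : Fin r → ℕ), Function.Injective qv →
        ∀ (hqv : ∀ i, (qv i).Prime ∧ qv i ∉ Sg.SA ∧ P.p ^ (n + 1) ∣ qv i - 1),
        (∀ i, ∀ A : ValuationSubring Qb, A.LiesOverPrime (qv i) →
          ∀ φ : GQ, A.IsFrobeniusAt φ (qv i) →
            ∃ α β : ResidueField Sg.𝒪, α ≠ β ∧
              LinearMap.charpoly (Sg.ρbar.ρ φ) = (X - C α) * (X - C β)) →
        Nonempty (SideLevel (sideCore Sg hH d hd hgood0 β₀) r n qv (fun i => (hqv i).1)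
          (Sg.hgoodQ hH.hT r qv fun i => ⟨(hqv i).1, (hqv i).2.1⟩)) := by
  obtain ⟨hH, d, hd, hgood0, β₀, hβ₀, hlev⟩ := sideLevels_of Sg (thyp_empty P) hN hmod
  refine ⟨hH, d, hd, hgood0, β₀, beta0_surjective Sg hH β₀ hβ₀,
    algebraMap_Lam_bijective Sg.𝒪, ?_, hlev⟩
  intro ℓ hℓ hℓN hℓS hi
  have hℓM : ℓ.Coprime (M₀ P ∅) := (Nat.Prime.coprime_iff_not_dvd hℓ).2 hi.2.1
  have h1 := hβ₀ ℓ hℓ hℓN hℓS hi hℓM 1 (Subsingleton.elim _ _)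
  rwa [map_one, one_mul] at h1

/-! ### the Galois-side data over a prescribed coefficient ring -/

/-- **The Galois-side data at `T = ∅` over a prescribed coefficient ring.** -/
def sideGalOfRing (P : Ctx) {N : ℕ} (hN : N ∣ M₀ P ∅) (hmod : P.IsMod N)
    (𝒪 : Type) [CommRing 𝒪] [IsDomain 𝒪] [IsDiscreteValuationRing 𝒪]
    [IsAdicComplete (maximalIdeal 𝒪) 𝒪] [Finite (ResidueField 𝒪)] [CharZero 𝒪]
    [Algebra (ZMod P.p) (ResidueField 𝒪)] (hpO : (P.p : 𝒪) ∈ maximalIdeal 𝒪)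
    (ζ : 𝒪ˣ) (hζp : ((ζ : 𝒪ˣ) : 𝒪) ^ P.p = 1) (hζ2 : ((ζ : 𝒪ˣ) : 𝒪) ^ 2 ≠ 1)
    (hk : ∀ a : ZMod P.p, ∃ x : ResidueField 𝒪,
      x ^ 2 = algebraMap (ZMod P.p) (ResidueField 𝒪) a) : SideGal P ∅ where
  𝒪 := 𝒪
  hp𝒪 := hpO
  ζ₀ := ζ
  ζ₀_pow := hζp
  ζ₀_sq := hζ2
  hk := hk
  bbar := Module.finBasisOfFinrankEq _ _ (P.res (ResidueField 𝒪)).finrank_eq
  φ₀ := fun _ => 1
  hφ₀ := fun v => absurd (mem_primesIn.1 v.2) (Finset.notMem_empty _)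
  hφ₀sq := fun v => absurd (mem_primesIn.1 v.2) (Finset.notMem_empty _)
  D := Classical.choice (nonempty_heckeFam_tw P ∅ hpO hmod
    (fun S' hS' => hN.trans (M₀_dvd_lvlTw (thyp_empty P) S' hS')))

/-! ### auxiliary lemmas -/

/-- ring homomorphisms out of the anemic Hecke algebra are determined by the `T_ℓ` -/
theorem heckeAlgebra_ringHom_ext {N : ℕ} [NeZero N] {S : Set ℕ}
    (hS : ∀ q : ℕ, q.Prime → q ∣ N → q ∈ S) {R : Type*} [Ring R]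
    (f g : ↥(heckeAlgebra N 2 S) →+* R)
    (h : ∀ (ℓ : ℕ) (hℓ : ℓ.Prime) (hℓN : ¬ ℓ ∣ N) (hℓS : ℓ ∉ S),
      f (heckeAlgebra.T hℓ hℓN hℓS) = g (heckeAlgebra.T hℓ hℓN hℓS)) : f = g := by
  have hsurj := Fermat.Agent.S43lib.B2.Bridge.evalForms_surjective N S hS
  refine RingHom.ext fun x => ?_
  obtain ⟨Q, rfl⟩ := hsurj x
  let a₁ : FreeAlgebra ℤ (Fermat.Agent.S43lib.B2.Bridge.GoodPrime N S) →ₐ[ℤ] R :=
    (f.toIntAlgHom).comp (Fermat.Agent.S43lib.B2.Bridge.evalForms (M := N) (S := S))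
  let a₂ : FreeAlgebra ℤ (Fermat.Agent.S43lib.B2.Bridge.GoodPrime N S) →ₐ[ℤ] R :=
    (g.toIntAlgHom).comp (Fermat.Agent.S43lib.B2.Bridge.evalForms (M := N) (S := S))
  have h12 : a₁ = a₂ := by
    refine FreeAlgebra.hom_ext (funext fun ℓ => ?_)
    show f (Fermat.Agent.S43lib.B2.Bridge.evalForms (FreeAlgebra.ι ℤ ℓ)) =
      g (Fermat.Agent.S43lib.B2.Bridge.evalForms (FreeAlgebra.ι ℤ ℓ))
    rw [Fermat.Agent.S43lib.B2.Bridge.evalForms_ι]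
    exact h ℓ.1 ℓ.2.1 ℓ.2.2.1 ℓ.2.2.2
  exact congrArg (fun a : FreeAlgebra ℤ (Fermat.Agent.S43lib.B2.Bridge.GoodPrime N S) →ₐ[ℤ] R => a Q) h12

/-- the Frobenius traces of `ρ̄ ⊗ k` come from `𝔽_p` -/
theorem tS_eq_algebraMap {P : Ctx} {Ts : Finset ℕ} (Sg : SideGal P Ts) {ℓ : ℕ} (hℓ : ℓ.Prime) :
    tS Sg ℓ = algebraMap (ZMod P.p) (ResidueField Sg.𝒪) (tFrob P.ρ₀ ℓ) := by
  have h2 : LinearMap.charpoly (Sg.ρbar.ρ (globFrobAt ⟨ℓ, hℓ⟩)) =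
      (LinearMap.charpoly ((P.ρ₀).ρ (globFrobAt ⟨ℓ, hℓ⟩))).map
        (algebraMap (ZMod P.p) (ResidueField Sg.𝒪)) :=
    charpoly_res_baseChange (k' := ResidueField Sg.𝒪) (P.ρ₀) (globFrobAt ⟨ℓ, hℓ⟩)
  show tFrob Sg.ρbar ℓ = _
  rw [tFrob_of_prime _ hℓ, tFrob_of_prime _ hℓ, trace_eq_neg_coeff_one, h2, coeff_map,
    trace_eq_neg_coeff_one, map_neg]

/-! ### the base point -/

/-- a characteristic-zero system of eigenvalues over the coefficient ring of `Sg`, congruent to `ρ̄`, is an augmentation of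
the minimal Hecke ring -/
theorem basePoint_of_char {P : Ctx} (Sg : SideGal P ∅)
    (χ : ↥(heckeAlgebra (lvlTw P Sg.S) 2 (↑(Sg.S ∪ P.Aux) : Set ℕ)) →+* Sg.𝒪)
    (hχ : ∀ (ℓ : ℕ) (hℓ : ℓ.Prime) (hℓN : ¬ ℓ ∣ lvlTw P Sg.S)
      (hℓS : ℓ ∉ (↑(Sg.S ∪ P.Aux) : Set ℕ)),
      residue Sg.𝒪 (χ (heckeAlgebra.T hℓ hℓN hℓS)) = tS Sg ℓ) :
    ∃ π₀ : (Sg.F Sg.S (Sg.hgoodS (thyp_empty P))).R →ₐ[Sg.𝒪] Sg.𝒪,
      ∀ t, π₀ (heckeLocal.π _ _ _ _ t) = χ t := by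
  have hg : Sg.good Sg.S := Sg.hgoodS (thyp_empty P)
  have hNS : ∀ q : ℕ, q.Prime → q ∣ lvlTw P Sg.S → q ∈ (↑(Sg.S ∪ P.Aux) : Set ℕ) :=
    fun q hq hd => Finset.mem_coe.2 (goodTw_primes_mem hg q hq hd)
  have h0 : (residue Sg.𝒪).comp χ = Sg.D.θ Sg.S hg := by
    refine heckeAlgebra_ringHom_ext hNS _ _ ?_
    intro ℓ hℓ hℓN hℓS
    rw [hubHyp_hθ Sg Sg.S hg ℓ hℓ hℓN hℓS]
    exact hχ ℓ hℓ hℓN hℓS
  obtain ⟨π₀, hπ₀⟩ := (Sg.D.H Sg.S hg).exists_point χ (fun t => RingHom.congr_fun h0 t)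
  refine ⟨π₀, fun t => ?_⟩
  rw [← hπ₀ t, Sg.D.H_π Sg.S hg]
  rfl

/-- the base point over a prescribed coefficient ring carrying a characteristic-zero system of eigenvalues -/
theorem exists_basePoint_ring (P : Ctx) {N : ℕ} (hN : N ∣ M₀ P ∅) (hmod : P.IsMod N)
    (𝒪 : Type) [CommRing 𝒪] [IsDomain 𝒪] [IsDiscreteValuationRing 𝒪]
    [IsAdicComplete (maximalIdeal 𝒪) 𝒪] [Finite (ResidueField 𝒪)] [CharZero 𝒪]
    [Algebra (ZMod P.p) (ResidueField 𝒪)] (hpO : (P.p : 𝒪) ∈ maximalIdeal 𝒪)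
    (ζ : 𝒪ˣ) (hζp : ((ζ : 𝒪ˣ) : 𝒪) ^ P.p = 1) (hζ2 : ((ζ : 𝒪ˣ) : 𝒪) ^ 2 ≠ 1)
    (hk : ∀ a : ZMod P.p, ∃ x : ResidueField 𝒪,
      x ^ 2 = algebraMap (ZMod P.p) (ResidueField 𝒪) a)
    (χ : ↥(heckeAlgebra (lvlTw P (P.Smin ∪ ∅)) 2 (↑((P.Smin ∪ ∅) ∪ P.Aux) : Set ℕ)) →+* 𝒪)
    (hχ : ∀ (ℓ : ℕ) (hℓ : ℓ.Prime) (hℓN : ¬ ℓ ∣ lvlTw P (P.Smin ∪ ∅))
      (hℓS : ℓ ∉ (↑((P.Smin ∪ ∅) ∪ P.Aux) : Set ℕ)),
      residue 𝒪 (χ (heckeAlgebra.T hℓ hℓN hℓS)) =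
        algebraMap (ZMod P.p) (ResidueField 𝒪) (tFrob P.ρ₀ ℓ)) :
    ∃ (Sg : SideGal P ∅)
      (_π₀ : (Sg.F Sg.S (Sg.hgoodS (thyp_empty P))).R →ₐ[Sg.𝒪] Sg.𝒪), True := by
  obtain ⟨π₀, -⟩ := basePoint_of_char (sideGalOfRing P hN hmod 𝒪 hpO ζ hζp hζ2 hk) χ
    (fun ℓ hℓ hℓN hℓS => by
      rw [tS_eq_algebraMap _ hℓ]
      exact hχ ℓ hℓ hℓN hℓS)
  exact ⟨_, π₀, trivial⟩

set_option maxHeartbeats 1000000 in
set_option synthInstance.maxHeartbeats 400000 in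
/-- **The base point**: a `SideGal` at `T = ∅` whose minimal Hecke ring `𝕋_∅` has an augmentation. -/
theorem exists_basePoint (P : Ctx) {N : ℕ} (hN : N ∣ M₀ P ∅) (hmod : P.IsMod N) :
    ∃ (Sg : SideGal P ∅)
      (_π₀ : (Sg.F Sg.S (Sg.hgoodS (thyp_empty P))).R →ₐ[Sg.𝒪] Sg.𝒪), True := by
  classical
  obtain ⟨Sg₁⟩ := nonempty_sideGal P ∅ (thyp_empty P) hN hmod
  have hT := thyp_empty P
  have hg₁ : Sg₁.good Sg₁.S := Sg₁.hgoodS hT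
  have hNS : ∀ q : ℕ, q.Prime → q ∣ lvlTw P Sg₁.S → q ∈ (↑(Sg₁.S ∪ P.Aux) : Set ℕ) :=
    fun q hq hd => Finset.mem_coe.2 (goodTw_primes_mem hg₁ q hq hd)
  haveI : IsReduced ↥(heckeAlgebra (lvlTw P Sg₁.S) 2 (↑(Sg₁.S ∪ P.Aux) : Set ℕ)) :=
    Fermat.Agent.S31lib.PET.isReduced_heckeAlgebra' hNS
  haveI : Module.Finite ℤ ↥(heckeAlgebra (lvlTw P Sg₁.S) 2 (↑(Sg₁.S ∪ P.Aux) : Set ℕ)) :=
    Fermat.Agent.S22.result _ 2 _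
  obtain ⟨κ, hκ, O₁, i1, i2, i3, i4, i5, i6, i7, i8, i9, hinj, ψ, hψ⟩ :=
    Fermat.Agent.S32lib.exists_characters_dvr (Sg₁.D.H Sg₁.S hg₁).π
      (Sg₁.D.H Sg₁.S hg₁).adjoin_range_π
  -- `κ` is nonempty
  have hne : Nonempty κ := by
    by_contra hemp
    rw [not_nonempty_iff] at hemp
    have h1 : (1 : heckeLocal (lvlTw P Sg₁.S) (↑(Sg₁.S ∪ P.Aux) : Set ℕ) Sg₁.𝒪
        (Sg₁.D.θ Sg₁.S hg₁)) = 0 := hψ 1 (fun k => isEmptyElim k)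
    exact one_ne_zero h1
  obtain ⟨k₀⟩ := hne
  -- the data of the coefficient ring `O₁`
  have hpO₁ : (P.p : O₁) ∈ maximalIdeal O₁ := by
    have h := map_nonunit (algebraMap Sg₁.𝒪 O₁) (P.p : Sg₁.𝒪) Sg₁.hp𝒪
    rwa [map_natCast] at h
  have hp0 : ((P.p : ℕ) : ResidueField O₁) = 0 := by
    rw [← map_natCast (residue O₁)]
    exact (residue_eq_zero_iff _).mpr hpO₁
  haveI hchar : CharP (ResidueField O₁) P.p := (CharP.charP_iff_prime_eq_zero P.pp).mpr hp0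
  letI : Algebra (ZMod P.p) (ResidueField O₁) := ZMod.algebra _ P.p
  let ζ' : O₁ˣ := Units.map (algebraMap Sg₁.𝒪 O₁ : Sg₁.𝒪 →* O₁) Sg₁.ζ₀
  have hζ'v : ((ζ' : O₁ˣ) : O₁) = algebraMap Sg₁.𝒪 O₁ ((Sg₁.ζ₀ : Sg₁.𝒪ˣ) : Sg₁.𝒪) := rfl
  have hζp : ((ζ' : O₁ˣ) : O₁) ^ P.p = 1 := by
    rw [hζ'v, ← map_pow, Sg₁.ζ₀_pow, map_one]
  have hζ2 : ((ζ' : O₁ˣ) : O₁) ^ 2 ≠ 1 := by
    intro h
    apply Sg₁.ζ₀_sq
    apply hinj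
    rw [map_pow, map_one]
    exact h
  have hk' : ∀ a : ZMod P.p, ∃ x : ResidueField O₁,
      x ^ 2 = algebraMap (ZMod P.p) (ResidueField O₁) a := by
    intro a
    obtain ⟨x, hx⟩ := Sg₁.hk a
    refine ⟨ResidueField.map (algebraMap Sg₁.𝒪 O₁) x, ?_⟩
    rw [← map_pow, hx]
    exact RingHom.congr_fun (Subsingleton.elim
      ((ResidueField.map (algebraMap Sg₁.𝒪 O₁)).comp
        (algebraMap (ZMod P.p) (ResidueField Sg₁.𝒪)))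
      (algebraMap (ZMod P.p) (ResidueField O₁))) a
  -- the character
  let f₀ : heckeLocal (lvlTw P Sg₁.S) (↑(Sg₁.S ∪ P.Aux) : Set ℕ) Sg₁.𝒪 (Sg₁.D.θ Sg₁.S hg₁) →+* O₁ :=
    (ψ k₀ : _ →ₐ[Sg₁.𝒪] O₁)
  haveI hloc : IsLocalHom f₀ :=
    Fermat.Agent.S43lib.B0.EndBlock.isLocalHom_of_finite_residueField _
  refine exists_basePoint_ring P hN hmod O₁ hpO₁ ζ' hζp hζ2 hk'
    (f₀.comp (Sg₁.D.H Sg₁.S hg₁).π) ?_
  intro ℓ hℓ hℓN hℓS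
  show residue O₁ (f₀ ((Sg₁.D.H Sg₁.S hg₁).π (heckeAlgebra.T hℓ hℓN hℓS))) = _
  rw [← ResidueField.map_residue f₀, (Sg₁.D.H Sg₁.S hg₁).residue_π,
    hubHyp_hθ Sg₁ Sg₁.S hg₁ ℓ hℓ hℓN hℓS, tS_eq_algebraMap Sg₁ hℓ]
  exact RingHom.congr_fun (Subsingleton.elim
    (((ResidueField.map f₀).comp
      (ResidueField.map (algebraMap Sg₁.𝒪 (heckeLocal (lvlTw P Sg₁.S)
        (↑(Sg₁.S ∪ P.Aux) : Set ℕ) Sg₁.𝒪 (Sg₁.D.θ Sg₁.S hg₁))))).comp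
      (algebraMap (ZMod P.p) (ResidueField Sg₁.𝒪)))
    (algebraMap (ZMod P.p) (ResidueField O₁))) _

end Fermat.Agent.S59lib.Hub
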