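/-
S59lib / Hub / MinInst (helper7) — PROJECT I, block RT: **(MIN-out) for the hub**.

`minOut_hub` : for a hub context `P`, a `Sg : SideGal P ∅` (any coefficient ring) and an augmentation `π₀` of the minimal
Hecke ring `𝕋_∅ = (Sg.F Smin).R`, helper5's `Min.min_out` (the minimal `R = 𝕋` theorem by Taylor–Wiles patching against
the hub's `SideLevel`s) gives helper9's `RT.MinOut` with `c₀ = length 𝒪 ⧸ η_{π₀}`, under the three structural
hypotheses on the type `P.𝒟` (joins, monotonicity, unramifiedness outside the ramification set) — all theorems for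
`𝒟fl`, `𝒟so` (`RT/Joins`).
-/
import Mathlib
import Fermat.Agent.S59lib.Hub.BasePt
import Fermat.Agent.S59lib.Min.Out
import Fermat.Agent.S59lib.RT.Aug
import Fermat.Agent.S59lib.F1.Main

set_option autoImplicit false
set_option linter.unusedSectionVars false
set_option linter.unusedVariables false
set_option linter.style.haveILetI false

noncomputable section

namespace Fermat.Agent.S59lib.Hub

open Fermat.Agent.S43lib.Mod4 Fermat.Agent.S43lib.Mod4.Hub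

open IsLocalRing Polynomial CuspForm Fermat.Agent.S43lib.B3 Fermat.Agent.S43lib.Loc
  Fermat.Agent.S56lib.Main Fermat.Agent.S43lib.Mod4.HO Fermat.Agent.S56lib.TW ExtCitation
  Fermat.Agent.S56lib.TWSel

local notation "GQ" => (AlgebraicClosure ℚ ≃ₐ[ℚ] AlgebraicClosure ℚ)
local notation "Qb" => AlgebraicClosure ℚ

attribute [local instance] hubInvTwo lamAlgebra0

theorem primesIn_empty : primesIn (∅ : Finset ℕ) = ∅ := by
  ext q
  simp [mem_primesIn]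

variable {P : Ctx}

/-- the Hecke rings of the hub are finite over `𝒪` -/
instance finite_F (Sg : SideGal P ∅) (S' : Finset ℕ) (h : Sg.good S') :
    Module.Finite Sg.𝒪 (Sg.F S' h).R :=
  inferInstanceAs (Module.Finite Sg.𝒪 (CuspForm.heckeLocal (lvlTw P S')
    (↑(S' ∪ P.Aux) : Set ℕ) Sg.𝒪 (Sg.D.θ S' h)))

/-- the Hecke rings of the hub are torsion free over `𝒪` -/
instance isTorsionFree_F (Sg : SideGal P ∅) (S' : Finset ℕ) (h : Sg.good S') :
    Module.IsTorsionFree Sg.𝒪 (Sg.F S' h).R :=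
  inferInstanceAs (Module.IsTorsionFree Sg.𝒪 (CuspForm.heckeLocal (lvlTw P S')
    (↑(S' ∪ P.Aux) : Set ℕ) Sg.𝒪 (Sg.D.θ S' h)))

/-- **F1 for the hub**: the cotangent space of a Hecke ring of the hub at an augmentation has finite length -/
theorem length_cotangent_F_ne_top (Sg : SideGal P ∅) (S' : Finset ℕ) (h : Sg.good S')
    (π : (Sg.F S' h).R →ₐ[Sg.𝒪] Sg.𝒪) :
    Module.length Sg.𝒪 (RingHom.ker (π : (Sg.F S' h).R →+* Sg.𝒪)).Cotangent ≠ ⊤ :=
  F1.length_cotangent_ne_top (S := S' ∪ P.Aux) (fun q hq hd => goodTw_primes_mem h q hq hd)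
    (Sg.D.H S' h) π

/-- **F1 for the hub**: `η ≠ 0` -/
theorem length_congIdeal_F_ne_top (Sg : SideGal P ∅) (S' : Finset ℕ) (h : Sg.good S')
    (π : (Sg.F S' h).R →ₐ[Sg.𝒪] Sg.𝒪) :
    Module.length Sg.𝒪 (Sg.𝒪 ⧸ NumCrit.congIdeal π) ≠ ⊤ :=
  F1.length_quotient_congIdeal_ne_top (S := S' ∪ P.Aux)
    (fun q hq hd => goodTw_primes_mem h q hq hd) (Sg.D.H S' h) π

set_option maxHeartbeats 1000000 in
set_option synthInstance.maxHeartbeats 400000 in
/-- **(MIN-out) for the hub.** -/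
theorem minOut_hub (Sg : SideGal P ∅) {N : ℕ} (hN : N ∣ M₀ P ∅) (hmod : P.IsMod N)
    (hjoin : ∀ S' : Finset ℕ, Sg.good S' → RT.HasJoins Sg.ρbar P.p (P.𝒟 Sg.𝒪 S'))
    (hmono : ∀ (S' : Finset ℕ), Sg.good S' → ∀ {A : Type} [CommRing A] [IsLocalRing A]
      [Algebra Sg.𝒪 A] (ρ : GaloisRepAdic A), P.𝒟 Sg.𝒪 Sg.S ρ → P.𝒟 Sg.𝒪 S' ρ)
    (hunr : ∀ {A : Type} [CommRing A] [IsLocalRing A] [Algebra Sg.𝒪 A] (ρ : GaloisRepAdic A),
      P.𝒟 Sg.𝒪 Sg.S ρ → ∀ q : ℕ, q.Prime → q ∉ Sg.S → ρ.IsUnramifiedAt q)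
    (π₀ : (Sg.F Sg.S (Sg.hgoodS (thyp_empty P))).R →ₐ[Sg.𝒪] Sg.𝒪) :
    RT.MinOut Sg.ρbar P.p (fun S' => P.𝒟 Sg.𝒪 S') Sg.S
      (Sg.F Sg.S (Sg.hgoodS (thyp_empty P))).ρ π₀
      (Module.length Sg.𝒪 (Sg.𝒪 ⧸ NumCrit.congIdeal π₀)) := by
  intro R₀ _ μ hμ hE
  obtain ⟨hH, d, hd, hgood0, β₀, hβ₀s, hΛ, hβ₀T, hlev⟩ := sideLevels_empty_of Sg hN hmod
  haveI := hH.nontriv
  obtain ⟨ϖ, hϖ⟩ := IsDiscreteValuationRing.exists_irreducible Sg.𝒪
  haveI : Nontrivial (sideCore Sg hH d hd hgood0 β₀).M0 := hH.nontriv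
  refine Min.min_out (sideCore Sg hH d hd hgood0 β₀) primesIn_empty hΛ.2 ?_ hβ₀s hlev
    (fun S' h => finite_F Sg S' h) (fun S' h A B _ _ => hjoin S' h A B) hmono
    (fun ρ hρ q hq hqS => hunr ρ hρ q hq
      (fun h => hqS (Finset.mem_union_left _ h))) π₀ hϖ
    (length_cotangent_F_ne_top Sg _ _ π₀) R₀ μ hμ hE
  intro c
  haveI := isScalarTower_0 (H0 Sg) (J₀' := Set.univ)
  show β₀ (algebraMap Sg.𝒪 _ c) = _
  rw [AlgHom.commutes]
  exact IsScalarTower.algebraMap_apply Sg.𝒪 (Lam P ∅ Sg.𝒪) (T0 Sg) c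

end Fermat.Agent.S59lib.Hub
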