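/-
S59lib / Hub / RTAsm (helper7) — PROJECT I, block RT: **the Σ-chain on the hub's Hecke rings**.

For a hub context `P`, `Sg : SideGal P ∅` with a base point `π₀ : 𝕋_∅ → 𝒪` and a finite set `Σ` of primes outside
`Smin ∪ Aux`:
* `B₀ = 𝕋_∅ = Sg.F Smin` (level `R0`), `𝕋_Σ = Sg.F (Smin ∪ Σ)` (level `R0 ∏_{q ∈ Σ} q²`);
* (MIN-out) = `minOut_hub`; joins, quotient closure, monotonicity of the type = `TypeOK`;
* `NuStmt` (brick ν, helper6) : the old-subspace map `𝕋_{S'} → 𝕋_∅` matching traces;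
* `HSSigmaAt` (brick HS, helper2) : `length 𝒪/η_∅ + ∑_{q ∈ Σ} length 𝒪/(c_q) ≤ length 𝒪/η_Σ`;
* **`exists_point_hub`** : every `ρ : GaloisRepAdic 𝒪` of type `P.𝒟 𝒪 (Smin ∪ Σ)`, cyclotomic determinant, residual
  representation `ρ̄`, is a point of `𝕋_Σ` (helper9's `RT.exists_char_of_sigma`);
* **`exists_heckeChar_hub`** : hence a character `χ` of the anemic Hecke algebra of level `R0 ∏ q²` with
  `χ(T_ℓ) = tr ρ(Frob_ℓ)`.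
-/
import Mathlib
import Fermat.Agent.S59lib.Hub.MinInst
import Fermat.Agent.S59lib.RT.Joins
import Fermat.Agent.S59lib.RT.Iface
import Fermat.Agent.S59lib.RT.QuotClosed

set_option autoImplicit false
set_option linter.unusedSectionVars false
set_option linter.unusedVariables false
set_option linter.style.haveILetI false

noncomputable section

namespace Fermat.Agent.S59lib.Hub

open Fermat.Agent.S43lib.Mod4 Fermat.Agent.S43lib.Mod4.Hub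

open IsLocalRing Polynomial CuspForm Fermat.Agent.S43lib.B3 Fermat.Agent.S43lib.Loc
  Fermat.Agent.S56lib.Main Fermat.Agent.S43lib.Mod4.HO Fermat.Agent.S56lib.TW ExtCitation
  Fermat.Agent.S56lib.TWSel

local notation "GQ" => (AlgebraicClosure ℚ ≃ₐ[ℚ] AlgebraicClosure ℚ)
local notation "Qb" => AlgebraicClosure ℚ

variable {P : Ctx}

/-- **the structural properties of the type `P.𝒟`** over the coefficient ring of `Sg` -/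
structure TypeOK (P : Ctx) (Sg : SideGal P ∅) : Prop where
  quot : RT.QuotClosed (𝒪 := Sg.𝒪) (fun S' => P.𝒟 Sg.𝒪 S')
  joins : ∀ S' : Finset ℕ, RT.HasJoins Sg.ρbar P.p (P.𝒟 Sg.𝒪 S')
  mono : ∀ {S S' : Finset ℕ}, S ⊆ S' → ∀ {A : Type} [CommRing A] [IsLocalRing A] [Algebra Sg.𝒪 A]
    (ρ : GaloisRepAdic A), P.𝒟 Sg.𝒪 S ρ → P.𝒟 Sg.𝒪 S' ρ
  unr : ∀ {S : Finset ℕ} {A : Type} [CommRing A] [IsLocalRing A] [Algebra Sg.𝒪 A]
    (ρ : GaloisRepAdic A), P.𝒟 Sg.𝒪 S ρ → ∀ q : ℕ, q.Prime → q ∉ S → ρ.IsUnramifiedAt q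

/-- the minimal Hecke ring `𝕋_∅` of the hub -/
abbrev Tmin (Sg : SideGal P ∅) : TrRingG Sg.𝒪 Sg.ρbar P.p (P.𝒟 Sg.𝒪 Sg.S) :=
  Sg.F Sg.S (Sg.hgoodS (thyp_empty P))

/-- **the eigenvalues of the base point** `a_q = π₀(tr ρ_∅(Frob_q))` (helper9's `RT.baseTr`) -/
abbrev aBase (Sg : SideGal P ∅) (π₀ : (Tmin Sg).R →ₐ[Sg.𝒪] Sg.𝒪) (q : ℕ) : Sg.𝒪 :=
  RT.baseTr (Tmin Sg) π₀ q

theorem aBase_of_prime (Sg : SideGal P ∅) (π₀ : (Tmin Sg).R →ₐ[Sg.𝒪] Sg.𝒪) {q : ℕ}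
    (hq : q.Prime) : aBase Sg π₀ q = π₀ ((Tmin Sg).ρ.trace (globFrobAt ⟨q, hq⟩)) := by
  unfold aBase RT.baseTr
  rw [dif_pos hq]

/-- **Brick ν** (statement): the old-subspace maps of the hub's Hecke rings to the minimal one. -/
def NuStmt : Prop :=
  ∀ (P : Ctx) (Sg : SideGal P ∅) (S' : Finset ℕ) (hS' : Sg.good S'),
    ∃ ν : (Sg.F S' hS').R →ₐ[Sg.𝒪] (Tmin Sg).R,
      ∀ σ : GQ, ν ((Sg.F S' hS').ρ.trace σ) = (Tmin Sg).ρ.trace σ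

/-- **the base point is old at the auxiliary primes**: its system of eigenvalues comes from the `Aux`-free level `B`,
`R0 = B ∏ Aux` (helper6). -/
def OldAtAux (P : Ctx) (Sg : SideGal P ∅) (π₀ : (Tmin Sg).R →ₐ[Sg.𝒪] Sg.𝒪) : Prop :=
  ∃ (B : ℕ) (_ : NeZero B) (_ : P.R0 = B * ∏ r ∈ P.Aux, r)
    (χ' : heckeAlgebra B 2 (↑(Sg.S ∪ P.Aux) : Set ℕ) →+* Sg.𝒪),
    ∀ (ℓ : ℕ) (hℓ : ℓ.Prime) (hℓB : ¬ ℓ ∣ B) (hℓR : ¬ ℓ ∣ lvlTw P Sg.S)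
      (hℓS : ℓ ∉ (↑(Sg.S ∪ P.Aux) : Set ℕ)),
      χ' (heckeAlgebra.T hℓ hℓB hℓS) =
        π₀ (heckeLocal.π _ _ _ _ (heckeAlgebra.T hℓ hℓR hℓS))

/-- **Brick (HS-Σ) at `(P, Sg)`**: the growth of the congruence ideals along `Σ`, for a base point old at `Aux`. -/
def HSSigmaAt (P : Ctx) (Sg : SideGal P ∅) : Prop :=
  ∀ (π₀ : (Tmin Sg).R →ₐ[Sg.𝒪] Sg.𝒪), OldAtAux P Sg π₀ →
    ∀ (Sig : Finset ℕ) (hSig : Sg.good (Sg.S ∪ Sig)),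
    Disjoint Sg.S Sig →
    ∀ πS : (Sg.F (Sg.S ∪ Sig) hSig).R →ₐ[Sg.𝒪] Sg.𝒪,
      (∀ σ : GQ, πS ((Sg.F (Sg.S ∪ Sig) hSig).ρ.trace σ) = π₀ ((Tmin Sg).ρ.trace σ)) →
      Module.length Sg.𝒪 (Sg.𝒪 ⧸ NumCrit.congIdeal π₀) +
          ∑ q ∈ Sig, Module.length Sg.𝒪 (Sg.𝒪 ⧸ Ideal.span {RT.cTame (aBase Sg π₀) q}) ≤
        Module.length Sg.𝒪 (Sg.𝒪 ⧸ NumCrit.congIdeal πS)

/-- the good set `Smin ∪ Σ` -/
theorem good_union (Sg : SideGal P ∅) {Sig : Finset ℕ} (hp : ∀ q ∈ Sig, q.Prime)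
    (hA : Disjoint Sig P.Aux) : Sg.good (Sg.S ∪ Sig) := by
  have h0 := Sg.hgoodS (thyp_empty P)
  refine ⟨Finset.subset_union_left, fun ℓ hℓ => ?_, ?_⟩
  · rcases Finset.mem_union.1 hℓ with h | h
    · exact h0.2.1 ℓ h
    · exact hp ℓ h
  · exact Finset.disjoint_union_left.2 ⟨h0.2.2, hA⟩

/-- the primes of `Σ` are primes of good behaviour for the base ring -/
theorem sigmaPrimes_hub (Sg : SideGal P ∅) (hty : TypeOK P Sg) (Sig : Finset ℕ)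
    (hSigp : ∀ q ∈ Sig, q.Prime) (hSigS : Disjoint Sg.S Sig) : RT.SigmaPrimes (Tmin Sg) Sig := by
  intro q hq
  have hqS : q ∉ Sg.S := fun h => Finset.disjoint_left.1 hSigS h hq
  have hqp : q ≠ P.p := fun h => hqS (h ▸ Finset.mem_union_left _ P.hpSmin)
  have hqSmin : q ∉ P.Smin := fun h => hqS (Finset.mem_union_left _ h)
  refine ⟨hSigp q hq, fun h => hqp h.symm, ?_, hty.unr _ (Tmin Sg).isType q (hSigp q hq) hqS⟩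
  by_contra hram
  exact hqSmin ((Sg.hmin q (hSigp q hq) hqp).2 hram)

set_option maxHeartbeats 1000000 in
set_option synthInstance.maxHeartbeats 400000 in
/-- **R = 𝕋 at `Σ` on the hub: every representation of type `P.𝒟 𝒪 (Smin ∪ Σ)` over `𝒪` lifting `ρ̄` is a point of
`𝕋_Σ`.** -/
theorem exists_point_hub (hNu : NuStmt) {N : ℕ} (hN : N ∣ M₀ P ∅)
    (hmod : P.IsMod N) (Sg : SideGal P ∅) (hHS : HSSigmaAt P Sg) (hty : TypeOK P Sg)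
    (π₀ : (Tmin Sg).R →ₐ[Sg.𝒪] Sg.𝒪) (hold : OldAtAux P Sg π₀)
    (Sig : Finset ℕ) (hSigp : ∀ q ∈ Sig, q.Prime) (hSigS : Disjoint Sg.S Sig)
    (hSigA : Disjoint Sig P.Aux)
    (ρ : GaloisRepAdic Sg.𝒪) (hρ : P.𝒟 Sg.𝒪 (Sg.S ∪ Sig) ρ) (hdet : ρ.DetIsCyclotomic P.p)
    (hres : ρ.residual.IsEquiv
      (Sg.ρbar.baseChangeAlong (ResidueField.map (algebraMap Sg.𝒪 Sg.𝒪)))) :
    ∃ χ : (Sg.F (Sg.S ∪ Sig) (good_union Sg hSigp hSigA)).R →ₐ[Sg.𝒪] Sg.𝒪,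
      ∀ σ : GQ, χ ((Sg.F (Sg.S ∪ Sig) (good_union Sg hSigp hSigA)).ρ.trace σ) = ρ.trace σ := by
  classical
  have hgS := good_union Sg hSigp hSigA
  -- ν and the augmentation of `𝕋_Σ`
  obtain ⟨ν, hν⟩ := hNu P Sg (Sg.S ∪ Sig) hgS
  set πS : (Sg.F (Sg.S ∪ Sig) hgS).R →ₐ[Sg.𝒪] Sg.𝒪 := π₀.comp ν with hπS
  have hπStr : ∀ σ : GQ, πS ((Sg.F (Sg.S ∪ Sig) hgS).ρ.trace σ) = π₀ ((Tmin Sg).ρ.trace σ) :=
    fun σ => by rw [hπS, AlgHom.comp_apply, hν σ]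
  -- (HS-Σ)
  have hHSle := hHS π₀ hold Sig hgS hSigS πS hπStr
  -- (MIN-out)
  have hmin := minOut_hub Sg hN hmod (fun S' _ => hty.joins S')
    (fun S' h _ _ _ _ ρ' hρ' => hty.mono h.1 ρ' hρ')
    (fun ρ' hρ' q hq hqS => hty.unr ρ' hρ' q hq hqS) π₀
  -- the hypotheses at the primes of `Σ`
  have hSigOK : RT.SigmaPrimes (Tmin Sg) Sig := sigmaPrimes_hub Sg hty Sig hSigp hSigS
  haveI : Module.Finite Sg.𝒪 Sg.𝒪 := Module.Finite.self _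
  obtain ⟨χ, hχ⟩ := RT.exists_char_of_sigma (p := P.p) Sg.hp𝒪 (fun S' => P.𝒟 Sg.𝒪 S') hty.quot
    Sg.S Sig (Tmin Sg) (hty.mono Finset.subset_union_left _ (Tmin Sg).isType) π₀
    (length_congIdeal_F_ne_top Sg _ _ π₀) hmin hSigOK (hty.joins _)
    (Sg.F (Sg.S ∪ Sig) hgS) πS hπStr (length_congIdeal_F_ne_top Sg _ _ πS) hHSle ρ hρ hdet hres
  exact ⟨χ, fun σ => hχ σ⟩

end Fermat.Agent.S59lib.Hub
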