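/-
S59lib / Hub / BasePtOld (helper7) — PROJECT I, block RT: **a base point which is old at the auxiliary primes**.

`exists_basePoint_old` : if `ρ̄` is modular of a level `N ∣ B`, `R0 = B ∏ Aux`, there are a `Sg : SideGal P ∅` and an
augmentation `π₀ : 𝕋_∅ →ₐ[𝒪] 𝒪` of the minimal Hecke ring (level `R0`) whose system of eigenvalues comes from a character
`χ'` of the anemic Hecke algebra of the `Aux`-free level `B` (`OldAtAux`, helper6): run `exists_characters_dvr` on the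
Hecke ring of level `B` and compose with the restriction `Nu.restrictHecke` to the old subspace.
-/
import Mathlib
import Fermat.Agent.S59lib.Hub.RTAsm
import Fermat.Agent.S59lib.Hub.BasePt
import Fermat.Agent.S59lib.Nu.Restrict

set_option autoImplicit false
set_option linter.unusedSectionVars false
set_option linter.unusedVariables false
set_option linter.style.haveILetI false

noncomputable section

namespace Fermat.Agent.S59lib.Hub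

open Fermat.Agent.S43lib.Mod4 Fermat.Agent.S43lib.Mod4.Hub

open IsLocalRing Polynomial CuspForm Fermat.Agent.S43lib.B3 Fermat.Agent.S43lib.Loc
  Fermat.Agent.S56lib.Main Fermat.Agent.S43lib.Mod4.HO Fermat.Agent.S56lib.TW ExtCitation
  Fermat.Agent.S56lib.TWSel

local notation "GQ" => (AlgebraicClosure ℚ ≃ₐ[ℚ] AlgebraicClosure ℚ)
local notation "Qb" => AlgebraicClosure ℚ

attribute [local instance] hubInvTwo

set_option maxHeartbeats 1600000 in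
set_option synthInstance.maxHeartbeats 400000 in
/-- **The base point, old at the auxiliary primes.** -/
theorem exists_basePoint_old (P : Ctx) {N B : ℕ} [NeZero B] (hNB : N ∣ B)
    (hB : P.R0 = B * ∏ r ∈ P.Aux, r) (hmod : P.IsMod N) :
    ∃ (Sg : SideGal P ∅) (π₀ : (Tmin Sg).R →ₐ[Sg.𝒪] Sg.𝒪), OldAtAux P Sg π₀ := by
  classical
  have hBR : B ∣ P.R0 := ⟨_, hB⟩
  have hN : N ∣ M₀ P ∅ := by
    rw [M₀_empty]
    exact hNB.trans hBR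
  obtain ⟨Sg₁⟩ := nonempty_sideGal P ∅ (thyp_empty P) hN hmod
  have hT := thyp_empty P
  have hg₁ : Sg₁.good Sg₁.S := Sg₁.hgoodS hT
  have hpS : P.p ∈ Sg₁.S ∪ P.Aux := Finset.mem_union_left _ (goodTw_p_mem hg₁)
  have hBl : B ∣ lvlTw P Sg₁.S := hBR.trans (R0_dvd_lvlTw P Sg₁.S)
  have hNS : ∀ q : ℕ, q.Prime → q ∣ lvlTw P Sg₁.S → q ∈ Sg₁.S ∪ P.Aux :=
    fun q hq hd => goodTw_primes_mem hg₁ q hq hd
  have hNS' : ∀ q : ℕ, q.Prime → q ∣ lvlTw P Sg₁.S → q ∈ (↑(Sg₁.S ∪ P.Aux) : Set ℕ) :=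
    fun q hq hd => Finset.mem_coe.2 (hNS q hq hd)
  have hBS : ∀ q : ℕ, q.Prime → q ∣ B → q ∈ Sg₁.S ∪ P.Aux :=
    fun q hq hd => hNS q hq (hd.trans hBl)
  have hBS' : ∀ q : ℕ, q.Prime → q ∣ B → q ∈ (↑(Sg₁.S ∪ P.Aux) : Set ℕ) :=
    fun q hq hd => Finset.mem_coe.2 (hBS q hq hd)
  -- the Hecke ring of level `B`
  obtain ⟨θB, hθB⟩ := P.theta hNB (Sg₁.S ∪ P.Aux) hpS hBS hmod (ResidueField Sg₁.𝒪)
  obtain ⟨HB, hHB⟩ := Fermat.Agent.S43lib.B2.exists_heckeGaloisRepDatum_π P.hp2 Sg₁.hp𝒪 hpS hBS θB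
    P.ρ₀ P.hirr P.a P.S₀ P.h₀ hθB
  haveI : IsReduced ↥(heckeAlgebra B 2 (↑(Sg₁.S ∪ P.Aux) : Set ℕ)) :=
    Fermat.Agent.S31lib.PET.isReduced_heckeAlgebra' hBS'
  haveI : Module.Finite ℤ ↥(heckeAlgebra B 2 (↑(Sg₁.S ∪ P.Aux) : Set ℕ)) :=
    Fermat.Agent.S22.result _ 2 _
  obtain ⟨κ, hκ, O₁, i1, i2, i3, i4, i5, i6, i7, i8, i9, hinj, ψ, hψ⟩ :=
    Fermat.Agent.S32lib.exists_characters_dvr HB.π HB.adjoin_range_π
  -- `κ` is nonempty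
  have hne : Nonempty κ := by
    by_contra hemp
    rw [not_nonempty_iff] at hemp
    have h1 : (1 : heckeLocal B (↑(Sg₁.S ∪ P.Aux) : Set ℕ) Sg₁.𝒪 θB) = 0 :=
      hψ 1 (fun k => isEmptyElim k)
    exact one_ne_zero h1
  obtain ⟨k₀⟩ := hne
  -- the data of the coefficient ring `O₁`
  have hpO₁ : (P.p : O₁) ∈ maximalIdeal O₁ := by
    have h := map_nonunit (algebraMap Sg₁.𝒪 O₁) (P.p : Sg₁.𝒪) Sg₁.hp𝒪
    rwa [map_natCast] at h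
  have hp0 : ((P.p : ℕ) : ResidueField O₁) = 0 := by
    rw [← map_natCast (residue O₁)]
    exact (residue_eq_zero_iff _).mpr hpO₁
  haveI hchar : CharP (ResidueField O₁) P.p := (CharP.charP_iff_prime_eq_zero P.pp).mpr hp0
  letI : Algebra (ZMod P.p) (ResidueField O₁) := ZMod.algebra _ P.p
  let ζ' : O₁ˣ := Units.map (algebraMap Sg₁.𝒪 O₁ : Sg₁.𝒪 →* O₁) Sg₁.ζ₀
  have hζ'v : ((ζ' : O₁ˣ) : O₁) = algebraMap Sg₁.𝒪 O₁ ((Sg₁.ζ₀ : Sg₁.𝒪ˣ) : Sg₁.𝒪) := rfl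
  have hζp : ((ζ' : O₁ˣ) : O₁) ^ P.p = 1 := by
    rw [hζ'v, ← map_pow, Sg₁.ζ₀_pow, map_one]
  have hζ2 : ((ζ' : O₁ˣ) : O₁) ^ 2 ≠ 1 := by
    intro h
    apply Sg₁.ζ₀_sq
    apply hinj
    rw [map_pow, map_one]
    exact h
  have hk' : ∀ a : ZMod P.p, ∃ x : ResidueField O₁,
      x ^ 2 = algebraMap (ZMod P.p) (ResidueField O₁) a := by
    intro a
    obtain ⟨x, hx⟩ := Sg₁.hk a
    refine ⟨ResidueField.map (algebraMap Sg₁.𝒪 O₁) x, ?_⟩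
    rw [← map_pow, hx]
    exact RingHom.congr_fun (Subsingleton.elim
      ((ResidueField.map (algebraMap Sg₁.𝒪 O₁)).comp
        (algebraMap (ZMod P.p) (ResidueField Sg₁.𝒪)))
      (algebraMap (ZMod P.p) (ResidueField O₁))) a
  -- the characters
  let f₀ : heckeLocal B (↑(Sg₁.S ∪ P.Aux) : Set ℕ) Sg₁.𝒪 θB →+* O₁ :=
    (ψ k₀ : _ →ₐ[Sg₁.𝒪] O₁)
  haveI hloc : IsLocalHom f₀ :=
    Fermat.Agent.S43lib.B0.EndBlock.isLocalHom_of_finite_residueField _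
  let χ' : ↥(heckeAlgebra B 2 (↑(Sg₁.S ∪ P.Aux) : Set ℕ)) →+* O₁ := f₀.comp HB.π
  let χ : ↥(heckeAlgebra (lvlTw P Sg₁.S) 2 (↑(Sg₁.S ∪ P.Aux) : Set ℕ)) →+* O₁ :=
    χ'.comp (Fermat.Agent.S59lib.Nu.restrictHecke hBl 2 (↑(Sg₁.S ∪ P.Aux) : Set ℕ) hNS')
  have hχT : ∀ (ℓ : ℕ) (hℓ : ℓ.Prime) (hℓN : ¬ ℓ ∣ lvlTw P Sg₁.S)
      (hℓS : ℓ ∉ (↑(Sg₁.S ∪ P.Aux) : Set ℕ)) (hℓB : ¬ ℓ ∣ B),
      χ (heckeAlgebra.T hℓ hℓN hℓS) = χ' (heckeAlgebra.T hℓ hℓB hℓS) := by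
    intro ℓ hℓ hℓN hℓS hℓB
    show χ' (Fermat.Agent.S59lib.Nu.restrictHecke hBl 2 _ hNS' (heckeAlgebra.T hℓ hℓN hℓS)) = _
    rw [Fermat.Agent.S59lib.Nu.restrictHecke_T hBl 2 _ hNS' hℓ hℓN hℓS hℓB]
  obtain ⟨π₀, hπ₀⟩ := basePoint_of_char (sideGalOfRing P hN hmod O₁ hpO₁ ζ' hζp hζ2 hk') χ
    (fun ℓ hℓ hℓN hℓS => by
      have hℓB : ¬ ℓ ∣ B := fun h => hℓN (h.trans hBl)
      rw [tS_eq_algebraMap _ hℓ]
      show residue O₁ (χ (heckeAlgebra.T hℓ hℓN hℓS)) = _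
      rw [hχT ℓ hℓ hℓN hℓS hℓB]
      show residue O₁ (f₀ (HB.π (heckeAlgebra.T hℓ hℓB hℓS))) = _
      rw [← ResidueField.map_residue f₀, HB.residue_π,
        Fermat.Agent.S43lib.Mod4.Hub.theta_eq_tFrob HB P.ρ₀ P.a P.S₀ P.h₀ hθB ℓ hℓ hℓB hℓS]
      have h2 : tFrob (P.ρ₀.baseChange (ResidueField Sg₁.𝒪)) ℓ =
          algebraMap (ZMod P.p) (ResidueField Sg₁.𝒪) (tFrob P.ρ₀ ℓ) := tS_eq_algebraMap Sg₁ hℓ
      rw [h2]
      exact RingHom.congr_fun (Subsingleton.elim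
        (((ResidueField.map f₀).comp
          (ResidueField.map (algebraMap Sg₁.𝒪 (heckeLocal B
            (↑(Sg₁.S ∪ P.Aux) : Set ℕ) Sg₁.𝒪 θB)))).comp
          (algebraMap (ZMod P.p) (ResidueField Sg₁.𝒪)))
        (algebraMap (ZMod P.p) (ResidueField O₁))) _)
  refine ⟨sideGalOfRing P hN hmod O₁ hpO₁ ζ' hζp hζ2 hk', π₀, B, inferInstance, hB, χ', ?_⟩
  intro ℓ hℓ hℓB hℓR hℓS
  rw [hπ₀]
  exact (hχT ℓ hℓ hℓR hℓS hℓB).symm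

end Fermat.Agent.S59lib.Hub
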