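/-
S59lib / Hub / RTW (helper7) — PROJECT I, block RT: the pieces of the final assembly that live on a hub context.

* `absIrr_baseChangeAlong` : absolute irreducibility of residual representations is stable under `baseChangeAlong`;
* `residual_isEquiv_of_frob` : a representation over the coefficient ring of `Sg` with the Frobenius polynomials
  `X² − a_ℓ X + ℓ` off a finite set lifts `ρ̄` (Chebotarev + Brauer–Nesbitt);
* `exists_hs₀` : an element with distinct eigenvalues (complex conjugation);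
* `typeOK_ctxFlat`, `typeOK_ctxStrict` : `TypeOK` for the two contexts of `(W, p)` (helper9's `RT/Joins`, `RT/QuotClosed`);
* `exists_heckeChar_hub` : the point of `𝕋_Σ` as a character of the anemic Hecke algebra of level `R0 ∏_{q ∈ Σ} q²`.
-/
import Mathlib
import Fermat.Agent.S59lib.Hub.RTAsm
import Fermat.Agent.S59lib.Hub.InstWType

set_option autoImplicit false
set_option linter.unusedSectionVars false
set_option linter.unusedVariables false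
set_option linter.style.haveILetI false

noncomputable section

namespace Fermat.Agent.S59lib.Hub

open Fermat.Agent.S43lib.Mod4 Fermat.Agent.S43lib.Mod4.Hub

open IsLocalRing Polynomial CuspForm Fermat.Agent.S43lib.B3 Fermat.Agent.S43lib.Loc
  Fermat.Agent.S56lib.Main Fermat.Agent.S43lib.Mod4.HO Fermat.Agent.S56lib.TW ExtCitation
  Fermat.Agent.S56lib.TWSel Fermat.Agent.TeamA.Rep Fermat.Agent.S58lib.Cmp

local notation "GQ" => (AlgebraicClosure ℚ ≃ₐ[ℚ] AlgebraicClosure ℚ)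
local notation "Qb" => AlgebraicClosure ℚ

/-- absolute irreducibility is stable under `baseChangeAlong` -/
theorem absIrr_baseChangeAlong {k k' : Type} [Field k] [Field k'] (ι : k →+* k')
    (ρbar : ResidualGaloisRep k) (habs : ρbar.IsAbsolutelyIrreducible) :
    (ρbar.baseChangeAlong ι).IsAbsolutelyIrreducible := by
  let bbar : Module.Basis (Fin 2) k ρbar.V := Module.finBasisOfFinrankEq _ ρbar.V ρbar.finrank_eq
  refine res_absIrr_of_span _ (resBcBasis ι ρbar bbar) ?_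
  have h3 := span_range_map_eq_top ι _ (span_range_matOfRes_eq_top ρbar habs bbar)
  have h5 : matOfRes (ρbar.baseChangeAlong ι) (resBcBasis ι ρbar bbar) = fun g =>
      (matOfRes ρbar bbar g).map ι := funext fun g => matOfRes_baseChangeAlong ι ρbar bbar g
  rw [h5]
  exact h3

variable {P : Ctx}

/-- **a representation with the Frobenius polynomials of `ρ̄` lifts `ρ̄`** -/
theorem residual_isEquiv_of_frob (Sg : SideGal P ∅) (ρ : GaloisRepAdic Sg.𝒪) (S₁ : Finset ℕ)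
    (hfrob : ∀ ℓ : ℕ, ℓ.Prime → ℓ ∉ S₁ → ∀ A : ValuationSubring Qb, A.LiesOverPrime ℓ →
      ∀ σ : GQ, A.IsFrobeniusAt σ ℓ →
        LinearMap.charpoly (ρ.ρ σ) =
          X ^ 2 - C (((P.a ℓ : ℤ) : Sg.𝒪)) * X + C ((ℓ : ℕ) : Sg.𝒪)) :
    ρ.residual.IsEquiv
      (Sg.ρbar.baseChangeAlong (ResidueField.map (algebraMap Sg.𝒪 Sg.𝒪))) := by
  classical
  set ι := ResidueField.map (algebraMap Sg.𝒪 Sg.𝒪) with hι
  have habs₁ : (Sg.ρbar.baseChangeAlong ι).IsAbsolutelyIrreducible :=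
    absIrr_baseChangeAlong ι Sg.ρbar Sg.habs
  haveI := isHausdorff_maximalIdeal_field (ResidueField Sg.𝒪)
  have hcp : ∀ σ, LinearMap.charpoly ((Sg.ρbar.baseChangeAlong ι).ρ σ) =
      LinearMap.charpoly (ρ.residual.ρ σ) := by
    intro σ
    refine charpoly_eq_of_frobenius (GaloisRepAdic.ofResidualGaloisRep ρ.residual)
      (GaloisRepAdic.ofResidualGaloisRep (Sg.ρbar.baseChangeAlong ι)) (S₁ ∪ P.S₀) ?_ σ
    intro ℓ hℓ hℓS B hB φ hφ
    have h1 : ℓ ∉ S₁ := fun h => hℓS (Finset.mem_union_left _ h)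
    have h0 : ℓ ∉ P.S₀ := fun h => hℓS (Finset.mem_union_right _ h)
    show LinearMap.charpoly ((Sg.ρbar.baseChangeAlong ι).ρ φ) =
      LinearMap.charpoly (ρ.residual.ρ φ)
    rw [charpoly_res_baseChangeAlong]
    have e1 : LinearMap.charpoly (Sg.ρbar.ρ φ) =
        (LinearMap.charpoly (P.ρ₀.ρ φ)).map (algebraMap (ZMod P.p) (ResidueField Sg.𝒪)) :=
      charpoly_res_baseChange (k' := ResidueField Sg.𝒪) P.ρ₀ φ
    rw [e1, P.h₀ ℓ hℓ h0 B hB φ hφ, map_quad_int, map_quad_int]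
    show _ = LinearMap.charpoly ((ρ.ρ φ).baseChange (ResidueField Sg.𝒪))
    rw [LinearMap.charpoly_baseChange, hfrob ℓ hℓ h1 B hB φ hφ, map_quad_int]
  obtain ⟨e⟩ := res_isEquiv_of_charpoly_eq _ _ habs₁ hcp
  exact ⟨e.symm⟩

/-- an element of `G_ℚ` with distinct eigenvalues in `ρ̄` (complex conjugation) -/
theorem exists_hs₀ (Sg : SideGal P ∅) :
    ∃ (s₀ : GQ) (α β : ResidueField Sg.𝒪), α ≠ β ∧
      LinearMap.charpoly (Sg.ρbar.ρ s₀) = (X - C α) * (X - C β) := by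
  have h2u : IsUnit (2 : Sg.𝒪) := isUnit_two_of_odd_prime_mem P.pp P.hp2 Sg.hp𝒪
  have h2 : (2 : ResidueField Sg.𝒪) ≠ 0 := by
    have h := h2u.map (residue Sg.𝒪)
    rw [map_ofNat] at h
    exact h.ne_zero
  refine Fermat.Agent.S59lib.Join.exists_distinct_of_involution Sg.ρbar h2 complexConjugation
    complexConjugation_mul_self ?_
  have hd := det_complexConjugation_modp P.p P.ρ₀ P.a P.S₀ P.h₀
  show LinearMap.det ((P.ρ₀.ρ complexConjugation).baseChange (ResidueField Sg.𝒪)) = -1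
  rw [LinearMap.det_baseChange, hd, map_neg, map_one]

namespace WIn

variable (I : WIn)

/-- `TypeOK` for the flat context -/
theorem typeOK_ctxFlat (hfl : I.p ∣ I.B → Fermat.Agent.S59lib.ModPInertiaIrreducible I.W I.p)
    (Sg : SideGal (I.ctxFlat hfl) ∅) : TypeOK (I.ctxFlat hfl) Sg where
  quot := Fermat.Agent.S59lib.RT.quotClosed_𝒟fl I.p I.Smin
  joins := fun S' => Fermat.Agent.S59lib.RT.hasJoins_𝒟fl (p := I.p) Sg.hp𝒪 Sg.habs
    (isUnit_two_of_odd_prime_mem I.pp I.hp2 Sg.hp𝒪) (exists_hs₀ Sg) I.Smin S'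
  mono := fun hS _ _ _ _ ρ hρ => Fermat.Agent.S59lib.RT.𝒟fl_mono hS hρ
  unr := fun ρ hρ q hq hqS => Fermat.Agent.S59lib.RT.isUnramifiedAt_of_𝒟fl hρ hq hqS

/-- `TypeOK` for the strict ordinary context -/
theorem typeOK_ctxStrict (hRO : ResOrdStmt) (hpB : I.p ∣ I.B) (hbad : ¬ I.W.IsGoodPrimeFor I.p)
    (hno : Fermat.Agent.S59lib.NoLevelPrimeTo I.W I.p)
    (Sg : SideGal (I.ctxStrict hRO hpB hbad hno) ∅) :
    TypeOK (I.ctxStrict hRO hpB hbad hno) Sg where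
  quot := Fermat.Agent.S59lib.RT.quotClosed_𝒟so I.p I.Smin
  joins := fun S' => Fermat.Agent.S59lib.RT.hasJoins_𝒟so (p := I.p) I.hp2 Sg.habs
    (isUnit_two_of_odd_prime_mem I.pp I.hp2 Sg.hp𝒪) (exists_hs₀ Sg) I.Smin S'
  mono := fun hS _ _ _ _ ρ hρ => Fermat.Agent.S59lib.RT.𝒟so_mono hS hρ
  unr := fun ρ hρ q hq hqS => Fermat.Agent.S59lib.RT.isUnramifiedAt_of_𝒟so hρ hq hqS

end WIn

/-- **the point of `𝕋_Σ` as a character of the anemic Hecke algebra** -/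
theorem exists_heckeChar_hub (hNu : NuStmt) {N : ℕ} (hN : N ∣ M₀ P ∅)
    (hmod : P.IsMod N) (Sg : SideGal P ∅) (hHS : HSSigmaAt P Sg) (hty : TypeOK P Sg)
    (π₀ : (Tmin Sg).R →ₐ[Sg.𝒪] Sg.𝒪) (hold : OldAtAux P Sg π₀)
    (Sig : Finset ℕ) (hSigp : ∀ q ∈ Sig, q.Prime) (hSigS : Disjoint Sg.S Sig)
    (hSigA : Disjoint Sig P.Aux)
    (ρ : GaloisRepAdic Sg.𝒪) (hρ : P.𝒟 Sg.𝒪 (Sg.S ∪ Sig) ρ) (hdet : ρ.DetIsCyclotomic P.p)
    (hres : ρ.residual.IsEquiv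
      (Sg.ρbar.baseChangeAlong (ResidueField.map (algebraMap Sg.𝒪 Sg.𝒪)))) :
    ∃ χ : ↥(heckeAlgebra (lvlTw P (Sg.S ∪ Sig)) 2 (↑((Sg.S ∪ Sig) ∪ P.Aux) : Set ℕ)) →+* Sg.𝒪,
      ∀ (ℓ : ℕ) (hℓ : ℓ.Prime) (hℓN : ¬ ℓ ∣ lvlTw P (Sg.S ∪ Sig))
        (hℓS : ℓ ∉ (↑((Sg.S ∪ Sig) ∪ P.Aux) : Set ℕ)) (A : ValuationSubring Qb),
        A.LiesOverPrime ℓ → ∀ σ : GQ, A.IsFrobeniusAt σ ℓ →
          χ (heckeAlgebra.T hℓ hℓN hℓS) = ρ.trace σ := by
  obtain ⟨χ, hχ⟩ := exists_point_hub hNu hN hmod Sg hHS hty π₀ hold Sig hSigp hSigS hSigA ρ hρ hdet hres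
  let χ' : (Sg.F (Sg.S ∪ Sig) (good_union Sg hSigp hSigA)).R →+* Sg.𝒪 := χ
  refine ⟨RingHom.comp (β := heckeLocal (lvlTw P (Sg.S ∪ Sig))
    (↑((Sg.S ∪ Sig) ∪ P.Aux) : Set ℕ) Sg.𝒪 (Sg.D.θ (Sg.S ∪ Sig) (good_union Sg hSigp hSigA))) χ'
    (heckeLocal.π (lvlTw P (Sg.S ∪ Sig))
    (↑((Sg.S ∪ Sig) ∪ P.Aux) : Set ℕ) Sg.𝒪 (Sg.D.θ (Sg.S ∪ Sig) (good_union Sg hSigp hSigA))), ?_⟩
  intro ℓ hℓ hℓN hℓS A hA σ hσ
  rw [← hχ σ, heckeTr_trace_frob Sg.D (Sg.S ∪ Sig) (good_union Sg hSigp hSigA) ℓ hℓ hℓN hℓS A hA σ hσ]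
  rfl

end Fermat.Agent.S59lib.Hub
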