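/-
S59lib / Hub / RTBlock (helper7) — PROJECT I: **block RT for `(W, p)`**.

An optimal level `N` of `ρ̄_{W,p}` gives the hub input `WIn` (`B := N`, auxiliary primes from `exists_aux`), its flat or
strict ordinary context, the base point `(Sg, π₀)` (`exists_basePoint`) and, for every Tate-like representation `ρ` over
the coefficient ring of `Sg`, the point of `𝕋_Σ` (`exists_heckeChar_hub`), `Σ` = the primes of bad reduction of `W` at
which `ρ̄` is unramified.  Hence `HasCharZeroSystem W p` at the level `R0 ∏_{q ∈ Σ} q²`.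

Modes at `p`:
  * `W` good at `p` (flat; `p ∣ N` allowed: then `ρ̄|I_p` is irreducible);
  * `W` bad at `p`, `p ∣ N` (strict ordinary);
  * `W` bad at `p`, `p ∤ N` : block PSTEP (`PStepStmt`, a named hypothesis here).
-/
import Mathlib
import Fermat.Agent.S59lib.Hub.RTW
import Fermat.Agent.S59lib.Hub.BasePtOld
import Fermat.Agent.S59lib.Hub.LowerOne
import Fermat.Agent.S59lib.LiftIface

set_option autoImplicit false
set_option linter.unusedSectionVars false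
set_option linter.unusedVariables false
set_option linter.style.haveILetI false

noncomputable section

namespace Fermat.Agent.S59lib.Hub

open Fermat.Agent.S43lib.Mod4 Fermat.Agent.S43lib.Mod4.Hub

open IsLocalRing Polynomial CuspForm Fermat.Agent.S43lib.B3 Fermat.Agent.S43lib.Loc
  Fermat.Agent.S56lib.Main Fermat.Agent.S43lib.Mod4.HO Fermat.Agent.S56lib.TW ExtCitation
  Fermat.Agent.S56lib.TWSel Fermat.Agent.TeamA.Rep Fermat.Agent.S58lib.Cmp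

local notation "GQ" => (AlgebraicClosure ℚ ≃ₐ[ℚ] AlgebraicClosure ℚ)
local notation "Qb" => AlgebraicClosure ℚ

/-- the trace from a quadratic characteristic polynomial -/
theorem trace_eq_of_charpoly_quad {R : Type} [CommRing R] [IsLocalRing R] (ρ : GaloisRepAdic R)
    (σ : GQ) (a d : R) (h : LinearMap.charpoly (ρ.ρ σ) = X ^ 2 - C a * X + C d) :
    ρ.trace σ = a := by
  have h1 := Fermat.Agent.S43lib.B0.EndBlock.charpoly_eq_trace_det ρ σ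
  rw [h] at h1
  have h2 := congrArg (fun f : R[X] => f.coeff 1) h1
  simp only [coeff_add, coeff_sub, coeff_X_pow, coeff_C_mul, coeff_X_one, coeff_C] at h2
  norm_num at h2
  exact h2.symm

namespace WIn

variable (I : WIn)

/-- **`Σ`** : the primes of bad reduction of `W` outside `Smin` -/
def Sig : Finset ℕ := I.W.Δ.natAbs.primeFactors \ I.Smin

theorem Sig_prime : ∀ q ∈ I.Sig, q.Prime := fun q hq =>
  Nat.prime_of_mem_primeFactors (Finset.mem_sdiff.1 hq).1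

theorem Sig_disj_Smin : Disjoint (I.Smin ∪ ∅) I.Sig := by
  rw [Finset.union_empty, Finset.disjoint_left]
  intro q hq hqS
  exact (Finset.mem_sdiff.1 hqS).2 hq

theorem Sig_disj_Aux : Disjoint I.Sig I.Aux := by
  rw [Finset.disjoint_left]
  intro q hq hqA
  obtain ⟨hqp, -, -, hgood, -⟩ := I.Aux_spec q hqA
  have h1 := Nat.dvd_of_mem_primeFactors (Finset.mem_sdiff.1 hq).1
  exact hgood (Int.natCast_dvd.mpr h1)

/-- a prime outside `Smin ∪ Σ` is different from `p` and of good reduction -/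
theorem good_of_not_mem {q : ℕ} (hq : q.Prime) (h : q ∉ I.Smin ∪ ∅ ∪ I.Sig) :
    q ≠ I.p ∧ I.W.IsGoodPrimeFor q := by
  rw [Finset.union_empty, Finset.mem_union, not_or] at h
  refine ⟨fun hqp => h.1 (hqp ▸ I.hpSmin), fun hd => ?_⟩
  have h1 : q ∈ I.W.Δ.natAbs.primeFactors :=
    Nat.mem_primeFactors.2 ⟨hq, Int.natCast_dvd.mp hd, Int.natAbs_ne_zero.mpr I.hΔ⟩
  exact h.2 (Finset.mem_sdiff.2 ⟨h1, h.1⟩)

/-- Tate-like representations have the type `𝒟` at `Smin ∪ Σ` -/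
abbrev TateTypeFor (𝒟 : DefType) : Prop :=
  ∀ {𝒪 : Type} [CommRing 𝒪] [IsDomain 𝒪] [IsDiscreteValuationRing 𝒪]
    (ρ : GaloisRepAdic 𝒪), Fermat.Agent.S59lib.IsTateLike I.W I.p ρ →
    𝒟 𝒪 (I.Smin ∪ ∅ ∪ I.Sig) ρ

/-- the flat type of a Tate-like representation, `W` good at `p` -/
theorem tateType_flat (hgood : I.W.IsGoodPrimeFor I.p) :
    I.TateTypeFor (fun 𝒪 _ S' => 𝒟fl 𝒪 I.p I.Smin S') := by
  intro 𝒪 _ _ _ ρ hρ
  refine ⟨⟨hρ.det, hρ.flat hgood, fun q hq hqS => ?_⟩, fun q _ hq hqp => hρ.unip q hq hqp⟩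
  obtain ⟨h1, h2⟩ := I.good_of_not_mem hq hqS
  exact hρ.unram q hq h1 h2

/-- the strict ordinary type of a Tate-like representation, `W` bad at `p` -/
theorem tateType_strict (hbad : ¬ I.W.IsGoodPrimeFor I.p) :
    I.TateTypeFor (fun 𝒪 _ S' => 𝒟so 𝒪 I.p I.Smin S') := by
  intro 𝒪 _ _ _ ρ hρ
  refine ⟨⟨hρ.det, hρ.strict hbad, fun q hq hqS => ?_⟩, fun q _ hq hqp => hρ.unip q hq hqp⟩
  obtain ⟨h1, h2⟩ := I.good_of_not_mem hq hqS
  exact hρ.unram q hq h1 h2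

end WIn

/-- **Brick (HS-Σ)** (statement): `HSSigmaAt` for the hub contexts of `(W, p)`. -/
def HSSigmaStmt : Prop :=
  ∀ (I : WIn) (𝒟 : DefType) (gs : GSFor I.p I.Smin 𝒟) (hT : I.HeckeTypeFor 𝒟),
    (I.p ∣ I.B → Fermat.Agent.S59lib.NoLevelPrimeTo I.W I.p) → I.Aux.card ≤ 1 →
    ∀ (Sg : SideGal (I.mkCtx 𝒟 gs hT) ∅) {N : ℕ}, N ∣ I.B → I.IsMod N →
    TypeOK (I.mkCtx 𝒟 gs hT) Sg → HSSigmaAt (I.mkCtx 𝒟 gs hT) Sg

namespace WIn

variable (I : WIn)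

set_option maxHeartbeats 1000000 in
set_option synthInstance.maxHeartbeats 400000 in
/-- **the characteristic-zero system of `W` from a hub context** -/
theorem hasCharZeroSystem_of_ctx (hNu : NuStmt) (hHS : HSSigmaStmt)
    (𝒟 : DefType) (gs : GSFor I.p I.Smin 𝒟) (hT : I.HeckeTypeFor 𝒟)
    (hno : I.p ∣ I.B → Fermat.Agent.S59lib.NoLevelPrimeTo I.W I.p) (hcard : I.Aux.card ≤ 1)
    (hty : ∀ Sg : SideGal (I.mkCtx 𝒟 gs hT) ∅, TypeOK (I.mkCtx 𝒟 gs hT) Sg)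
    (htate : I.TateTypeFor 𝒟) {N : ℕ} (hN : N ∣ I.B) (hmod : I.IsMod N) :
    ∃ (𝒪 : Type) (_ : CommRing 𝒪) (_ : IsDomain 𝒪) (_ : IsDiscreteValuationRing 𝒪)
      (_ : IsAdicComplete (IsLocalRing.maximalIdeal 𝒪) 𝒪) (_ : Finite (IsLocalRing.ResidueField 𝒪))
      (_ : CharZero 𝒪), (I.p : 𝒪) ∈ IsLocalRing.maximalIdeal 𝒪 ∧
      ∀ ρ : GaloisRepAdic 𝒪, Fermat.Agent.S59lib.IsTateLike I.W I.p ρ →
        Fermat.Agent.S59lib.HasCharZeroSystem I.W I.p := by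
  classical
  set P : Ctx := I.mkCtx 𝒟 gs hT with hP
  have hN' : N ∣ M₀ P ∅ := by
    rw [M₀_empty]
    exact hN.trans ⟨I.auxProd, rfl⟩
  have hmod' : P.IsMod N := hmod
  haveI : NeZero I.B := ⟨I.B_ne_zero⟩
  obtain ⟨Sg, π₀, hold⟩ := exists_basePoint_old P (B := I.B) hN (rfl : P.R0 = I.B * ∏ r ∈ P.Aux, r)
    hmod'
  refine ⟨Sg.𝒪, inferInstance, inferInstance, inferInstance, inferInstance, inferInstance,
    inferInstance, Sg.hp𝒪, ?_⟩
  intro ρ hρ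
  have hfrob : ∀ ℓ : ℕ, ℓ.Prime → ℓ ∉ wS₀ I.W I.p → ∀ A : ValuationSubring Qb,
      A.LiesOverPrime ℓ → ∀ σ : GQ, A.IsFrobeniusAt σ ℓ →
        LinearMap.charpoly (ρ.ρ σ) =
          X ^ 2 - C (((P.a ℓ : ℤ) : Sg.𝒪)) * X + C ((ℓ : ℕ) : Sg.𝒪) := by
    intro ℓ hℓ hℓS A hA σ hσ
    obtain ⟨h1, h2⟩ := (not_mem_wS₀_iff I.W I.p hℓ I.hΔ).1 hℓS
    exact hρ.frob ℓ hℓ h1 h2 A hA σ hσ
  have hres := residual_isEquiv_of_frob Sg ρ (wS₀ I.W I.p) hfrob
  have hSigS : Disjoint Sg.S I.Sig := I.Sig_disj_Smin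
  have hSigA : Disjoint I.Sig P.Aux := I.Sig_disj_Aux
  obtain ⟨χ, hχ⟩ := exists_heckeChar_hub hNu hN' hmod' Sg
    (hHS I 𝒟 gs hT hno hcard Sg hN hmod (hty Sg)) (hty Sg) π₀ hold I.Sig I.Sig_prime
    hSigS hSigA ρ (htate ρ hρ) hρ.det hres
  have hgood := good_union Sg I.Sig_prime hSigA
  refine ⟨lvlTw P (Sg.S ∪ I.Sig), inferInstance, (goodTw_hpl (P := P) (Sg.S ∪ I.Sig)).2,
    fun q hq => goodTw_hcube hgood q hq, (Sg.S ∪ I.Sig) ∪ P.Aux, Sg.𝒪, inferInstance,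
    inferInstance, inferInstance, χ, ?_⟩
  intro ℓ hℓ hℓN hℓS
  have hℓS' : ℓ ∉ I.Smin ∪ ∅ ∪ I.Sig := fun h =>
    hℓS (Finset.mem_coe.2 (Finset.mem_union_left _ h))
  obtain ⟨h1, h2⟩ := I.good_of_not_mem hℓ hℓS'
  rw [hχ ℓ hℓ hℓN hℓS (primeLocalPlace ⟨ℓ, hℓ⟩) (primeLocalPlace_liesOverPrime ⟨ℓ, hℓ⟩)
    (globFrobAt ⟨ℓ, hℓ⟩) (globFrobAt_isFrobeniusAt ⟨ℓ, hℓ⟩)]
  exact trace_eq_of_charpoly_quad ρ _ _ _ (hρ.frob ℓ hℓ h1 h2 _
    (primeLocalPlace_liesOverPrime ⟨ℓ, hℓ⟩) _ (globFrobAt_isFrobeniusAt ⟨ℓ, hℓ⟩))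

end WIn

/-- **Block PSTEP** (statement): `W` multiplicative at `p`, `p` prime to the optimal level. -/
def PStepStmt : Prop :=
  ∀ (p : ℕ), (p = 3 ∨ p = 5) → ∀ (W : WeierstrassCurve ℤ), W.Δ ≠ 0 → W.IsSemistableModel →
    W.ModRepIsIrreducible p → ∀ N : ℕ, Fermat.Agent.S59lib.IsOptimalLevel W p N →
    ¬ W.IsGoodPrimeFor p → ¬ p ∣ N →
    ∃ (𝒪 : Type) (_ : CommRing 𝒪) (_ : IsDomain 𝒪) (_ : IsDiscreteValuationRing 𝒪)
      (_ : IsAdicComplete (IsLocalRing.maximalIdeal 𝒪) 𝒪) (_ : Finite (IsLocalRing.ResidueField 𝒪))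
      (_ : CharZero 𝒪), (p : 𝒪) ∈ IsLocalRing.maximalIdeal 𝒪 ∧
      ∀ ρ : GaloisRepAdic 𝒪, Fermat.Agent.S59lib.IsTateLike W p ρ →
        Fermat.Agent.S59lib.HasCharZeroSystem W p

/-- the hub input of an optimal level -/
def wInOfOptimal (p : ℕ) (hp : p = 3 ∨ p = 5) (W : WeierstrassCurve ℤ) (hΔ : W.Δ ≠ 0)
    (hss : W.IsSemistableModel) (hirr : W.ModRepIsIrreducible p) (N : ℕ)
    (hN : Fermat.Agent.S59lib.IsOptimalLevel W p N) (Aux : Finset ℕ)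
    (hAux : ∀ r ∈ Aux, r.Prime ∧ ¬ r ∣ N ∧ r ≠ p ∧ W.IsGoodPrimeFor r ∧ r % 12 = 11 ∧
      ¬ (p : ℤ) ∣ W.apOfModel r ^ 2 - ((r : ℤ) + 1) ^ 2 ∧ ¬ r ≡ 1 [MOD p])
    (hAux3 : p = 3 → Aux.Nonempty) : WIn where
  W := W
  hΔ := hΔ
  p := p
  hp35 := hp
  hss := hss
  hirr := hirr
  B := N
  B_sq := hN.squarefree
  B_ram := by
    intro v hv hvp
    have hp2 : p ≠ 2 := by rcases hp with rfl | rfl <;> norm_num
    have hpp : p.Prime := by rcases hp with rfl | rfl <;> norm_num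
    haveI : Fact p.Prime := ⟨hpp⟩
    constructor
    · exact fun hvN => hN.ramified v hv hvp hvN
    · intro hram
      by_contra hvN
      exact hram (modPUnramifiedAt_of_resMod W hΔ p hp2 hirr hN.pos hN.resMod hv hvp hvN)
  Aux := Aux
  Aux_spec := hAux
  aux3 := hAux3

/-- **Block RT.** -/
theorem rtBlock_of (hNu : NuStmt) (hHS : HSSigmaStmt) (hRO : ResOrdStmt) (hPS : PStepStmt) :
    Fermat.Agent.S59lib.RTBlock := by
  classical
  intro p hp W hΔ hss hirr N hN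
  obtain ⟨Aux, hAux, hAux3, hcard⟩ := exists_aux p hp W hΔ hss hirr N hN.pos.ne'
  set I : WIn := wInOfOptimal p hp W hΔ hss hirr N hN Aux hAux hAux3 with hI
  have hNR0 : N ∣ I.B := dvd_rfl
  have hcard' : I.Aux.card ≤ 1 := hcard
  have hmod : I.IsMod N := hN.resMod
  by_cases hgood : W.IsGoodPrimeFor p
  · -- flat
    have hfl : I.p ∣ I.B → Fermat.Agent.S59lib.ModPInertiaIrreducible I.W I.p :=
      fun h => hN.ss_of_dvd h hgood
    exact I.hasCharZeroSystem_of_ctx hNu hHS _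
      (Fermat.Agent.S59lib.StrictFam.gs_surj_flat I.p I.hp2 I.Smin I.hpSmin) (I.heckeType_flat hfl)
      (fun h => hN.noLevel_of_dvd h) hcard' (fun Sg => I.typeOK_ctxFlat hfl Sg) (I.tateType_flat hgood) hNR0 hmod
  · by_cases hpN : p ∣ N
    · -- strict ordinary
      have hno := hN.noLevel_of_dvd hpN
      exact I.hasCharZeroSystem_of_ctx hNu hHS _
        (Fermat.Agent.S59lib.StrictFam.gs_surj_strict I.p I.hp2 I.Smin I.hpSmin)
        (I.heckeType_strict hRO hpN hgood hno) (fun _ => hno) hcard'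
        (fun Sg => I.typeOK_ctxStrict hRO hpN hgood hno Sg) (I.tateType_strict hgood) hNR0 hmod
    · exact hPS p hp W hΔ hss hirr N hN hgood hpN

end Fermat.Agent.S59lib.Hub
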