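/-
S59lib / Hub / OrdT (helper7) — PROJECT I, block PSTEP: **the ordinary Hecke ring `𝕋'` of the hub** at the level
`lvlTw P S' * p` (`p ∤ R0`, `W` multiplicative at `p`).

* `OrdDatum Sg S'`   : a character `θ'` of the anemic Hecke algebra of level `lvlTw P S' * p` with the values `a_ℓ`, and
                       a Hecke–Galois datum on its localisation (`nonempty_ordDatum`);
* `WIn.heckeType_ord` : the Galois representation of a Hecke datum of a level `p ∥ N` is of the ordinary type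
                       `RT.𝒟ord` (frozen S33 + RES-ORD + S31 + S34);
* `trOrdOf`           : `𝕋'` as a trace ring, with `trOrdOf_trace_frob`, finiteness, torsion-freeness, F1;
* `WIn.ordDatum_isType` : its type is `𝒟ord` in the flat context of `(W, p)`, `W` multiplicative at `p`, `p ∤ B`.
-/
import Mathlib
import Fermat.Agent.S59lib.Hub.RTBlock
import Fermat.Agent.S59lib.RT.OrdType
import Fermat.Agent.S33

set_option autoImplicit false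
set_option linter.unusedSectionVars false
set_option linter.unusedVariables false
set_option linter.style.haveILetI false

noncomputable section

namespace Fermat.Agent.S59lib.Hub

open Fermat.Agent.S43lib.Mod4 Fermat.Agent.S43lib.Mod4.Hub

open IsLocalRing Polynomial CuspForm Fermat.Agent.S43lib.B3 Fermat.Agent.S43lib.Loc
  Fermat.Agent.S56lib.Main Fermat.Agent.S43lib.Mod4.HO Fermat.Agent.S56lib.TW ExtCitation
  Fermat.Agent.S56lib.TWSel Fermat.Agent.TeamA.Rep Fermat.Agent.S58lib.Cmp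

local notation "GQ" => (AlgebraicClosure ℚ ≃ₐ[ℚ] AlgebraicClosure ℚ)
local notation "Qb" => AlgebraicClosure ℚ

/-! ### the level `lvlTw P S' * p` -/

section Level

variable (P : Ctx)

/-- the ordinary level -/
def lvlOrd (S' : Finset ℕ) : ℕ := lvlTw P S' * P.p

instance lvlOrd_neZero (S' : Finset ℕ) : NeZero (lvlOrd P S') :=
  ⟨mul_ne_zero (NeZero.ne _) P.pp.ne_zero⟩

variable {P}

theorem lvlTw_dvd_lvlOrd (S' : Finset ℕ) : lvlTw P S' ∣ lvlOrd P S' := ⟨P.p, rfl⟩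

theorem p_dvd_lvlOrd (S' : Finset ℕ) : P.p ∣ lvlOrd P S' := ⟨lvlTw P S', mul_comm _ _⟩

theorem not_p_dvd_lvlTw (hpR0 : ¬ P.p ∣ P.R0) (S' : Finset ℕ) : ¬ P.p ∣ lvlTw P S' :=
  fun h => hpR0 ((goodTw_hpl (P := P) S').1.1 h)

theorem not_p_sq_dvd_lvlOrd (hpR0 : ¬ P.p ∣ P.R0) (S' : Finset ℕ) : ¬ P.p ^ 2 ∣ lvlOrd P S' := by
  intro h
  unfold lvlOrd at h
  rw [pow_two] at h
  exact not_p_dvd_lvlTw hpR0 S' ((Nat.mul_dvd_mul_iff_right P.pp.pos).1 h)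

theorem prime_dvd_lvlOrd {q : ℕ} (hq : q.Prime) {S' : Finset ℕ} (h : q ∣ lvlOrd P S') :
    q ∣ lvlTw P S' ∨ q = P.p := by
  unfold lvlOrd at h
  rcases (Nat.Prime.dvd_mul hq).1 h with h1 | h1
  · exact Or.inl h1
  · exact Or.inr ((Nat.prime_dvd_prime_iff_eq hq P.pp).1 h1)

theorem lvlOrd_primes_mem {T S' : Finset ℕ} (hS' : goodTw P T S') (q : ℕ) (hq : q.Prime)
    (h : q ∣ lvlOrd P S') : q ∈ S' ∪ P.Aux := by
  rcases prime_dvd_lvlOrd hq h with h1 | h1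
  · exact goodTw_primes_mem hS' q hq h1
  · exact h1 ▸ Finset.mem_union_left _ (goodTw_p_mem hS')

/-- a prime `q ≠ p` divides `lvlOrd` to the same power as `lvlTw` -/
theorem pow_dvd_lvlOrd_iff {q : ℕ} (hq : q.Prime) (hqp : q ≠ P.p) (S' : Finset ℕ) (k : ℕ) :
    q ^ k ∣ lvlOrd P S' ↔ q ^ k ∣ lvlTw P S' := by
  constructor
  · intro h
    unfold lvlOrd at h
    have hcop : Nat.Coprime (q ^ k) P.p :=
      Nat.Coprime.pow_left k ((Nat.coprime_primes hq P.pp).2 hqp)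
    exact hcop.dvd_of_dvd_mul_right h
  · intro h
    exact h.trans (lvlTw_dvd_lvlOrd S')

theorem lvlOrd_hcube (hpR0 : ¬ P.p ∣ P.R0) {T S' : Finset ℕ} (hS' : goodTw P T S') (q : ℕ)
    (hq : q.Prime) : ¬ q ^ 3 ∣ lvlOrd P S' := by
  by_cases hqp : q = P.p
  · subst hqp
    intro h
    exact not_p_sq_dvd_lvlOrd hpR0 S' (dvd_trans (pow_dvd_pow _ (by norm_num)) h)
  · rw [pow_dvd_lvlOrd_iff hq hqp]
    exact goodTw_hcube hS' q hq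

end Level

/-! ### the ordinary Hecke datum -/

section Datum

variable {P : Ctx}

/-- **the Hecke datum at the ordinary level** -/
structure OrdDatum (Sg : SideGal P ∅) (S' : Finset ℕ) : Type 1 where
  θ : heckeAlgebra (lvlOrd P S') 2 (↑(S' ∪ P.Aux) : Set ℕ) →+* ResidueField Sg.𝒪
  hθ : ∀ (ℓ : ℕ) (hℓ : ℓ.Prime) (hℓN : ¬ ℓ ∣ lvlOrd P S') (hℓS : ℓ ∉ (↑(S' ∪ P.Aux) : Set ℕ)),
    ℓ ∉ P.S₀ → θ (heckeAlgebra.T hℓ hℓN hℓS) = ((P.a ℓ : ℤ) : ResidueField Sg.𝒪)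
  H : HeckeGaloisRepDatum (lvlOrd P S') (↑(S' ∪ P.Aux) : Set ℕ) Sg.𝒪 θ
    (heckeLocal (lvlOrd P S') (↑(S' ∪ P.Aux) : Set ℕ) Sg.𝒪 θ)
  hπ : H.π = heckeLocal.π (lvlOrd P S') (↑(S' ∪ P.Aux) : Set ℕ) Sg.𝒪 θ

theorem nonempty_ordDatum (Sg : SideGal P ∅) {N : ℕ} (hN : N ∣ M₀ P ∅) (hmod : P.IsMod N)
    (S' : Finset ℕ) (hS' : Sg.good S') : Nonempty (OrdDatum Sg S') := by
  have hpS : P.p ∈ S' ∪ P.Aux := Finset.mem_union_left _ (goodTw_p_mem hS')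
  have hNS : ∀ q : ℕ, q.Prime → q ∣ lvlOrd P S' → q ∈ S' ∪ P.Aux :=
    fun q hq h => lvlOrd_primes_mem hS' q hq h
  have hNd : N ∣ lvlOrd P S' := by
    rw [M₀_empty] at hN
    exact hN.trans ((R0_dvd_lvlTw P S').trans (lvlTw_dvd_lvlOrd S'))
  obtain ⟨θ, hθ⟩ := P.theta hNd (S' ∪ P.Aux) hpS hNS hmod (ResidueField Sg.𝒪)
  obtain ⟨H, hH⟩ := Fermat.Agent.S43lib.B2.exists_heckeGaloisRepDatum_π P.hp2 Sg.hp𝒪 hpS hNS θ
    P.ρ₀ P.hirr P.a P.S₀ P.h₀ hθ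
  exact ⟨⟨θ, hθ, H, hH⟩⟩

end Datum

/-! ### the trace ring of an ordinary datum -/

section TrOf

variable {P : Ctx} (Sg : SideGal P ∅) (S' : Finset ℕ) (hS' : Sg.good S') (Dt : OrdDatum Sg S')
  {𝒟o : ∀ ⦃A : Type⦄ [CommRing A] [IsLocalRing A] [Algebra Sg.𝒪 A], GaloisRepAdic A → Prop}

/-- **the ordinary Hecke ring `𝕋'`** of level `lvlTw P S' * p` as a trace ring of a type `𝒟o` -/
def trOrdOf (hty : 𝒟o Dt.H.ρ) : TrRingG Sg.𝒪 Sg.ρbar P.p 𝒟o where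
  R := heckeLocal (lvlOrd P S') (↑(S' ∪ P.Aux) : Set ℕ) Sg.𝒪 Dt.θ
  residue_surjective := Dt.H.residue_surjective
  ρ := Dt.H.ρ
  isType := hty
  detCyc := heckeDatum_detIsCyclotomic P.pp Sg.hp𝒪 (fun q hq h => lvlOrd_primes_mem hS' q hq h) Dt.H
  residual_isEquiv := heckeDatum_residual_isEquiv Dt.H P.ρ₀ P.a P.S₀ P.h₀ Dt.hθ
  trace_gen := heckeDatum_trace_gen Dt.H (fun q hq h => lvlOrd_primes_mem hS' q hq h)

variable (hty : 𝒟o Dt.H.ρ)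

instance finite_trOrdOf : Module.Finite Sg.𝒪 (trOrdOf Sg S' hS' Dt hty).R :=
  inferInstanceAs (Module.Finite Sg.𝒪 (CuspForm.heckeLocal (lvlOrd P S')
    (↑(S' ∪ P.Aux) : Set ℕ) Sg.𝒪 Dt.θ))

instance isTorsionFree_trOrdOf : Module.IsTorsionFree Sg.𝒪 (trOrdOf Sg S' hS' Dt hty).R :=
  inferInstanceAs (Module.IsTorsionFree Sg.𝒪 (CuspForm.heckeLocal (lvlOrd P S')
    (↑(S' ∪ P.Aux) : Set ℕ) Sg.𝒪 Dt.θ))

/-- F1 for `𝕋'` -/
theorem length_congIdeal_trOrdOf_ne_top (π : (trOrdOf Sg S' hS' Dt hty).R →ₐ[Sg.𝒪] Sg.𝒪) :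
    Module.length Sg.𝒪 (Sg.𝒪 ⧸ NumCrit.congIdeal π) ≠ ⊤ :=
  F1.length_quotient_congIdeal_ne_top (S := S' ∪ P.Aux)
    (fun q hq hd => lvlOrd_primes_mem hS' q hq hd) Dt.H π

/-- the Frobenius traces of `ρ'` are the images of the `T_ℓ` -/
theorem trOrdOf_trace_frob (ℓ : ℕ) (hℓ : ℓ.Prime) (hℓN : ¬ ℓ ∣ lvlOrd P S')
    (hℓS : ℓ ∉ (↑(S' ∪ P.Aux) : Set ℕ))
    (A : ValuationSubring Qb) (hA : A.LiesOverPrime ℓ) (σ : GQ) (hσ : A.IsFrobeniusAt σ ℓ) :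
    (trOrdOf Sg S' hS' Dt hty).ρ.trace σ =
      heckeLocal.π (lvlOrd P S') (↑(S' ∪ P.Aux) : Set ℕ) Sg.𝒪 Dt.θ
        (heckeAlgebra.T hℓ hℓN hℓS) := by
  have h1 := heckeDatum_trace_frob Dt.H ℓ hℓ hℓN hℓS A hA σ hσ
  rw [Dt.hπ] at h1
  exact h1

end TrOf

/-! ### the ordinary type -/

namespace WIn

variable (I : WIn)

section common

variable {𝒪 : Type} [CommRing 𝒪] [IsDomain 𝒪] [IsDiscreteValuationRing 𝒪]
  [IsAdicComplete (maximalIdeal 𝒪) 𝒪] [Finite (ResidueField 𝒪)] [CharZero 𝒪]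
  [Algebra (ZMod I.p) (ResidueField 𝒪)]
  {N : ℕ} [NeZero N] {S' : Finset ℕ}
  {θ : CuspForm.heckeAlgebra N 2 (↑(S' ∪ I.Aux) : Set ℕ) →+* ResidueField 𝒪}
  {T : Type} [CommRing T] [IsLocalRing T] [IsNoetherianRing T]
  [IsAdicComplete (maximalIdeal T) T] [Algebra 𝒪 T] [IsLocalHom (algebraMap 𝒪 T)]
  [Module.Finite 𝒪 T] [Module.Free 𝒪 T]
  (H : CuspForm.HeckeGaloisRepDatum N (↑(S' ∪ I.Aux) : Set ℕ) 𝒪 θ T)

/-- **`heckeType`, ordinary type**: `p ∥ N`, `W` multiplicative at `p` -/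
theorem heckeType_ord (hRO : ResOrdStmt) (hbad : ¬ I.W.IsGoodPrimeFor I.p)
    (hp𝒪 : (I.p : 𝒪) ∈ maximalIdeal 𝒪) (hpS' : I.p ∈ S')
    (hNS : ∀ q : ℕ, q.Prime → q ∣ N → q ∈ S' ∪ I.Aux)
    (hSmin : ∀ q ∈ I.Smin, q.Prime → q ≠ I.p → (q ∣ N ∧ ¬ q ^ 2 ∣ N) ∨ q ∉ S' ∪ I.Aux)
    (hpN : I.p ∣ N ∧ ¬ I.p ^ 2 ∣ N)
    (haux : ∀ r ∈ I.Aux, r ∣ N ∧ ¬ r ^ 2 ∣ N)
    (he : H.ρ.residual.IsEquiv ((I.ρ₀.baseChange (ResidueField 𝒪)).baseChangeAlong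
      (ResidueField.map (algebraMap 𝒪 T)))) :
    Fermat.Agent.S59lib.RT.𝒟ord 𝒪 I.p I.Smin S' H.ρ := by
  refine ⟨⟨heckeDatum_detIsCyclotomic I.pp hp𝒪 hNS H, ?_,
    fun q hq hqS' => I.hecke_unram H hp𝒪 hpS' hNS haux he q hq hqS'⟩,
    fun q hqS hq hqp => I.hecke_unip H hp𝒪 hpS' hNS hSmin q hqS hq hqp⟩
  exact Fermat.Agent.S33.result I.pp I.hp2 hp𝒪 hpN hNS H
    (hRO I.p I.hp35 I.W I.hΔ I.hss hbad H.ρ (ResidueField.map (algebraMap 𝒪 T)) he)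

end common

/-! ### the trace ring `𝕋'` -/

section Tr

variable (hfl : I.p ∣ I.B → Fermat.Agent.S59lib.ModPInertiaIrreducible I.W I.p)

/-- the Galois representation of an ordinary datum of the flat context of `(W, p)`, `W` multiplicative at `p`,
`p ∤ B`, is of the ordinary type -/
theorem ordDatum_isType (hRO : ResOrdStmt) (hbad : ¬ I.W.IsGoodPrimeFor I.p) (hpB : ¬ I.p ∣ I.B)
    (Sg : SideGal (I.ctxFlat hfl) ∅) (S' : Finset ℕ) (hS' : Sg.good S')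
    (Dt : OrdDatum Sg S') :
    Fermat.Agent.S59lib.RT.𝒟ord Sg.𝒪 I.p I.Smin S' Dt.H.ρ := by
  letI : Algebra (ZMod I.p) (ResidueField Sg.𝒪) := Sg.instAlgebraZMod
  have hpR0 : ¬ (I.ctxFlat hfl).p ∣ (I.ctxFlat hfl).R0 := fun h => hpB (I.p_dvd_R0_iff.1 h)
  refine I.heckeType_ord Dt.H hRO hbad Sg.hp𝒪 (goodTw_p_mem hS')
    (fun q hq h => lvlOrd_primes_mem hS' q hq h) ?_
    ⟨p_dvd_lvlOrd S', not_p_sq_dvd_lvlOrd hpR0 S'⟩ ?_
    (heckeDatum_residual_isEquiv Dt.H I.ρ₀ (I.ctxFlat hfl).a (I.ctxFlat hfl).S₀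
      (I.ctxFlat hfl).h₀ Dt.hθ)
  · intro q hqS hq hqp
    rcases goodTw_hSmin (P := I.ctxFlat hfl) S' q hqS hq hqp with ⟨h1, h2⟩ | h
    · refine Or.inl ⟨h1.trans (lvlTw_dvd_lvlOrd S'), fun h => h2 ?_⟩
      exact (pow_dvd_lvlOrd_iff (P := I.ctxFlat hfl) hq hqp S' 2).1 h
    · exact Or.inr h
  · intro r hr
    obtain ⟨h1, h2⟩ := goodTw_haux (P := I.ctxFlat hfl) hS' r hr
    have hrp : r ≠ I.p := (I.Aux_spec r hr).2.2.1
    refine ⟨h1.trans (lvlTw_dvd_lvlOrd S'), fun h => h2 ?_⟩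
    exact (pow_dvd_lvlOrd_iff (P := I.ctxFlat hfl) (I.Aux_prime r hr) hrp S' 2).1 h

end Tr

end WIn

end Fermat.Agent.S59lib.Hub
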