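/-
S59lib / Hub / PStepAsm (helper7) — PROJECT I: **block PSTEP on the hub** (`W` multiplicative at `p`, `p` prime to the
optimal level `N`).

Flat context of `(W, p)` at the level `N` (`p ∤ B = N`), base point `(Sg, π₀)`, `Σ` = the primes of bad reduction of `W`
outside `Smin`; `𝕋'` = the Hecke ring of level `R0 ∏_{q ∈ Σ} q² · p` (`Hub/OrdT`), of the ordinary type `RT.𝒟ord`.
Modulo
* `NuOrdStmt`     (brick ν at the ordinary level, helper6) : `ν' : 𝕋' → 𝕋_∅` matching traces;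
* `PStepCoreStmt` (bricks (S-root) helper9 + (HS-p) helper2) : a unit `α` with `UnitRootAt` and
  `length 𝒪/(α² − 1) + (length 𝒪/η_∅ + ∑_{q ∈ Σ} length 𝒪/(c_q)) ≤ length 𝒪/η_{π'}`;
* `ResOrdStmt`    (RES-ORD, helper8),
every Tate-like `ρ` is a point of `𝕋'` (helper9's `RT.exists_char_of_pStep`), whence `PStepStmt`.
-/
import Mathlib
import Fermat.Agent.S59lib.Hub.OrdT

set_option autoImplicit false
set_option linter.unusedSectionVars false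
set_option linter.unusedVariables false
set_option linter.style.haveILetI false

noncomputable section

namespace Fermat.Agent.S59lib.Hub

open Fermat.Agent.S43lib.Mod4 Fermat.Agent.S43lib.Mod4.Hub

open IsLocalRing Polynomial CuspForm Fermat.Agent.S43lib.B3 Fermat.Agent.S43lib.Loc
  Fermat.Agent.S56lib.Main Fermat.Agent.S43lib.Mod4.HO Fermat.Agent.S56lib.TW ExtCitation
  Fermat.Agent.S56lib.TWSel Fermat.Agent.TeamA.Rep Fermat.Agent.S58lib.Cmp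

local notation "GQ" => (AlgebraicClosure ℚ ≃ₐ[ℚ] AlgebraicClosure ℚ)
local notation "Qb" => AlgebraicClosure ℚ

/-- **Brick ν at the ordinary level** (statement). -/
def NuOrdStmt : Prop :=
  ∀ (P : Ctx), ¬ P.p ∣ P.R0 → ∀ (Sg : SideGal P ∅) (S' : Finset ℕ) (hS' : Sg.good S')
    (Dt : OrdDatum Sg S'),
    ∃ ν : heckeLocal (lvlOrd P S') (↑(S' ∪ P.Aux) : Set ℕ) Sg.𝒪 Dt.θ →ₐ[Sg.𝒪] (Tmin Sg).R,
      ∀ σ : GQ, ν (Dt.H.ρ.trace σ) = (Tmin Sg).ρ.trace σ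

/-- **Bricks (S-root) + (HS-p)** (statement): the unit root `α` of the base point and the growth of the congruence
ideal at `p`. -/
def PStepCoreStmt : Prop :=
  ∀ (I : WIn) (hfl : I.p ∣ I.B → Fermat.Agent.S59lib.ModPInertiaIrreducible I.W I.p),
    ResOrdStmt → ¬ I.W.IsGoodPrimeFor I.p → ¬ I.p ∣ I.B → I.Aux.card ≤ 1 →
    ∀ (Sg : SideGal (I.ctxFlat hfl) ∅) {N : ℕ}, N ∣ I.B → I.IsMod N →
    ∀ (π₀ : (Tmin Sg).R →ₐ[Sg.𝒪] Sg.𝒪), OldAtAux (I.ctxFlat hfl) Sg π₀ →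
    ∀ (Sig : Finset ℕ) (hSig : Sg.good (Sg.S ∪ Sig)),
      Disjoint Sg.S Sig →
    ∀ (Dt : OrdDatum Sg (Sg.S ∪ Sig))
      (π' : heckeLocal (lvlOrd (I.ctxFlat hfl) (Sg.S ∪ Sig))
        (↑((Sg.S ∪ Sig) ∪ (I.ctxFlat hfl).Aux) : Set ℕ) Sg.𝒪 Dt.θ →ₐ[Sg.𝒪] Sg.𝒪),
      (∀ σ : GQ, π' (Dt.H.ρ.trace σ) = π₀ ((Tmin Sg).ρ.trace σ)) →
      ∃ α : Sg.𝒪,
        RT.UnitRootAt Sg.ρbar I.p (RT.𝒟ord Sg.𝒪 I.p I.Smin (Sg.S ∪ Sig))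
          (fun σ => π₀ ((Tmin Sg).ρ.trace σ)) α ∧
        Module.length Sg.𝒪 (Sg.𝒪 ⧸ Ideal.span {α ^ 2 - 1}) +
            (Module.length Sg.𝒪 (Sg.𝒪 ⧸ NumCrit.congIdeal π₀) +
              ∑ q ∈ Sig, Module.length Sg.𝒪 (Sg.𝒪 ⧸ Ideal.span {RT.cTame (aBase Sg π₀) q})) ≤
          Module.length Sg.𝒪 (Sg.𝒪 ⧸ NumCrit.congIdeal π')

namespace WIn

variable (I : WIn)

set_option maxHeartbeats 1000000 in
set_option synthInstance.maxHeartbeats 400000 in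
/-- **the characteristic-zero system of `W` at the ordinary level** -/
theorem hasCharZeroSystem_of_pStep (hNuO : NuOrdStmt) (hCore : PStepCoreStmt) (hRO : ResOrdStmt)
    (hbad : ¬ I.W.IsGoodPrimeFor I.p) (hpB : ¬ I.p ∣ I.B) (hcard : I.Aux.card ≤ 1)
    {N : ℕ} (hN : N ∣ I.B) (hmod : I.IsMod N) :
    ∃ (𝒪 : Type) (_ : CommRing 𝒪) (_ : IsDomain 𝒪) (_ : IsDiscreteValuationRing 𝒪)
      (_ : IsAdicComplete (IsLocalRing.maximalIdeal 𝒪) 𝒪) (_ : Finite (IsLocalRing.ResidueField 𝒪))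
      (_ : CharZero 𝒪), (I.p : 𝒪) ∈ IsLocalRing.maximalIdeal 𝒪 ∧
      ∀ ρ : GaloisRepAdic 𝒪, Fermat.Agent.S59lib.IsTateLike I.W I.p ρ →
        Fermat.Agent.S59lib.HasCharZeroSystem I.W I.p := by
  classical
  have hfl : I.p ∣ I.B → Fermat.Agent.S59lib.ModPInertiaIrreducible I.W I.p :=
    fun h => absurd h hpB
  set P : Ctx := I.ctxFlat hfl with hP
  have hpR0 : ¬ P.p ∣ P.R0 := fun h => hpB (I.p_dvd_R0_iff.1 h)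
  have hN' : N ∣ M₀ P ∅ := by
    rw [M₀_empty]
    exact hN.trans ⟨I.auxProd, rfl⟩
  have hmod' : P.IsMod N := hmod
  haveI : NeZero I.B := ⟨I.B_ne_zero⟩
  obtain ⟨Sg, π₀, hold⟩ := exists_basePoint_old P (B := I.B) hN (rfl : P.R0 = I.B * ∏ r ∈ P.Aux, r)
    hmod'
  refine ⟨Sg.𝒪, inferInstance, inferInstance, inferInstance, inferInstance, inferInstance,
    inferInstance, Sg.hp𝒪, ?_⟩
  intro ρ hρ
  have hty : TypeOK P Sg := I.typeOK_ctxFlat hfl Sg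
  have hfrob : ∀ ℓ : ℕ, ℓ.Prime → ℓ ∉ wS₀ I.W I.p → ∀ A : ValuationSubring Qb,
      A.LiesOverPrime ℓ → ∀ σ : GQ, A.IsFrobeniusAt σ ℓ →
        LinearMap.charpoly (ρ.ρ σ) =
          X ^ 2 - C (((P.a ℓ : ℤ) : Sg.𝒪)) * X + C ((ℓ : ℕ) : Sg.𝒪) := by
    intro ℓ hℓ hℓS A hA σ hσ
    obtain ⟨h1, h2⟩ := (not_mem_wS₀_iff I.W I.p hℓ I.hΔ).1 hℓS
    exact hρ.frob ℓ hℓ h1 h2 A hA σ hσ
  have hres := residual_isEquiv_of_frob Sg ρ (wS₀ I.W I.p) hfrob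
  have hSigS : Disjoint Sg.S I.Sig := I.Sig_disj_Smin
  have hSigA : Disjoint I.Sig P.Aux := I.Sig_disj_Aux
  have hgS := good_union Sg I.Sig_prime hSigA
  -- the ordinary Hecke ring
  obtain ⟨Dt⟩ := nonempty_ordDatum Sg hN' hmod' (Sg.S ∪ I.Sig) hgS
  have htyO := I.ordDatum_isType hfl hRO hbad hpB Sg (Sg.S ∪ I.Sig) hgS Dt
  let T' : TrRingG Sg.𝒪 Sg.ρbar P.p (RT.𝒟ord Sg.𝒪 I.p I.Smin (Sg.S ∪ I.Sig)) :=
    trOrdOf Sg (Sg.S ∪ I.Sig) hgS Dt htyO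
  obtain ⟨ν, hν⟩ := hNuO P hpR0 Sg (Sg.S ∪ I.Sig) hgS Dt
  set π' : T'.R →ₐ[Sg.𝒪] Sg.𝒪 := π₀.comp ν with hπ'
  have hπ'tr : ∀ σ : GQ, π' (T'.ρ.trace σ) = π₀ ((Tmin Sg).ρ.trace σ) :=
    fun σ => by rw [hπ', AlgHom.comp_apply]; exact congrArg π₀ (hν σ)
  obtain ⟨α, hroot, hHSp⟩ := hCore I hfl hRO hbad hpB hcard Sg hN hmod π₀ hold I.Sig hgS hSigS Dt π' hπ'tr
  -- (MIN-out)
  have hmin := minOut_hub Sg hN' hmod' (fun S' _ => hty.joins S')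
    (fun S' h _ _ _ _ ρ' hρ' => hty.mono h.1 ρ' hρ')
    (fun ρ' hρ' q hq hqS => hty.unr ρ' hρ' q hq hqS) π₀
  have hSigOK : RT.SigmaPrimes (Tmin Sg) I.Sig := sigmaPrimes_hub Sg hty I.Sig I.Sig_prime hSigS
  have h2u : IsUnit (2 : Sg.𝒪) := isUnit_two_of_odd_prime_mem I.pp I.hp2 Sg.hp𝒪
  have hwild : RT.WildClosed (𝒪 := Sg.𝒪) P.p (RT.𝒟ord Sg.𝒪 I.p I.Smin (Sg.S ∪ I.Sig))
      (P.𝒟 Sg.𝒪 (Sg.S ∪ I.Sig)) :=
    RT.wildClosed_𝒟ord_𝒟fl I.p I.Smin (Sg.S ∪ I.Sig)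
  have hjoinO : RT.HasJoins Sg.ρbar P.p (RT.𝒟ord Sg.𝒪 I.p I.Smin (Sg.S ∪ I.Sig)) :=
    RT.hasJoins_𝒟ord (p := I.p) I.hp2 Sg.habs h2u (exists_hs₀ Sg) I.Smin (Sg.S ∪ I.Sig)
  have htyρ : RT.𝒟ord Sg.𝒪 I.p I.Smin (Sg.S ∪ I.Sig) ρ :=
    RT.𝒟ord_of_𝒟so (I.tateType_strict hbad ρ hρ)
  haveI : Module.Finite Sg.𝒪 Sg.𝒪 := Module.Finite.self _
  haveI : Module.Finite Sg.𝒪 T'.R := finite_trOrdOf Sg (Sg.S ∪ I.Sig) hgS Dt htyO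
  haveI : Module.IsTorsionFree Sg.𝒪 T'.R := isTorsionFree_trOrdOf Sg (Sg.S ∪ I.Sig) hgS Dt htyO
  obtain ⟨χ, hχ⟩ := RT.exists_char_of_pStep (p := P.p) Sg.hp𝒪 (fun S' => P.𝒟 Sg.𝒪 S') hty.quot
    Sg.S I.Sig (Tmin Sg) (hty.mono Finset.subset_union_left _ (Tmin Sg).isType) π₀
    (length_congIdeal_F_ne_top Sg _ _ π₀) hmin hSigOK (hty.joins _) hwild hjoinO α hroot T' π' hπ'tr
    (length_congIdeal_trOrdOf_ne_top Sg (Sg.S ∪ I.Sig) hgS Dt htyO π') hHSp ρ htyρ hρ.det hres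
  -- the character of the anemic Hecke algebra
  let χ' : T'.R →+* Sg.𝒪 := χ
  refine ⟨lvlOrd P (Sg.S ∪ I.Sig), inferInstance, not_p_sq_dvd_lvlOrd hpR0 (Sg.S ∪ I.Sig),
    fun q hq => lvlOrd_hcube hpR0 hgS q hq, (Sg.S ∪ I.Sig) ∪ P.Aux, Sg.𝒪, inferInstance,
    inferInstance, inferInstance,
    RingHom.comp (β := heckeLocal (lvlOrd P (Sg.S ∪ I.Sig))
      (↑((Sg.S ∪ I.Sig) ∪ P.Aux) : Set ℕ) Sg.𝒪 Dt.θ) χ'
      (heckeLocal.π (lvlOrd P (Sg.S ∪ I.Sig)) (↑((Sg.S ∪ I.Sig) ∪ P.Aux) : Set ℕ) Sg.𝒪 Dt.θ), ?_⟩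
  intro ℓ hℓ hℓN hℓS
  have hℓS' : ℓ ∉ I.Smin ∪ ∅ ∪ I.Sig := fun h =>
    hℓS (Finset.mem_coe.2 (Finset.mem_union_left _ h))
  obtain ⟨h1, h2⟩ := I.good_of_not_mem hℓ hℓS'
  have h3 := trOrdOf_trace_frob Sg (Sg.S ∪ I.Sig) hgS Dt htyO ℓ hℓ hℓN hℓS
    (primeLocalPlace ⟨ℓ, hℓ⟩) (primeLocalPlace_liesOverPrime ⟨ℓ, hℓ⟩)
    (globFrobAt ⟨ℓ, hℓ⟩) (globFrobAt_isFrobeniusAt ⟨ℓ, hℓ⟩)
  show χ' (heckeLocal.π _ _ _ _ (heckeAlgebra.T hℓ hℓN hℓS)) = _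
  rw [← h3]
  show χ (T'.ρ.trace _) = _
  rw [hχ]
  exact trace_eq_of_charpoly_quad ρ _ _ _ (hρ.frob ℓ hℓ h1 h2 _
    (primeLocalPlace_liesOverPrime ⟨ℓ, hℓ⟩) _ (globFrobAt_isFrobeniusAt ⟨ℓ, hℓ⟩))

end WIn

/-- **Block PSTEP** from its bricks -/
theorem pStepStmt_of (hNuO : NuOrdStmt) (hCore : PStepCoreStmt) (hRO : ResOrdStmt) : PStepStmt := by
  classical
  intro p hp W hΔ hss hirr N hN hbad hpN
  obtain ⟨Aux, hAux, hAux3, hcard⟩ := exists_aux p hp W hΔ hss hirr N hN.pos.ne'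
  set I : WIn := wInOfOptimal p hp W hΔ hss hirr N hN Aux hAux hAux3 with hI
  have hNR0 : N ∣ I.B := dvd_rfl
  have hcard' : I.Aux.card ≤ 1 := hcard
  exact I.hasCharZeroSystem_of_pStep hNuO hCore hRO hbad hpN hcard' hNR0 hN.resMod

end Fermat.Agent.S59lib.Hub
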