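/-
S59lib / Hub / NuOrd (helper7) — PROJECT I, block PSTEP: **`NuOrdStmt`**, the old-subspace map
`ν' : 𝕋' → 𝕋_∅` from the ordinary Hecke ring of level `lvlTw P S' * p` to the minimal Hecke ring of the hub
(helper6's `Nu.exists_nu_of_data`).
-/
import Mathlib
import Fermat.Agent.S59lib.Hub.PStepAsm
import Fermat.Agent.S59lib.Nu.Hub

set_option autoImplicit false
set_option linter.unusedSectionVars false
set_option linter.unusedVariables false
set_option linter.style.haveILetI false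

noncomputable section

namespace Fermat.Agent.S59lib.Hub

open IsLocalRing Polynomial CuspForm

local notation "GQ" => (AlgebraicClosure ℚ ≃ₐ[ℚ] AlgebraicClosure ℚ)
local notation "Qb" => AlgebraicClosure ℚ

/-- **Brick ν at the ordinary level.** -/
theorem nuOrdStmt : NuOrdStmt := by
  intro P _ Sg S' hS' Dt
  have h0 : Sg.good (P.Smin ∪ ∅) := Sg.hgoodS (thyp_empty P)
  have hsub : P.Smin ∪ ∅ ∪ P.Aux ⊆ S' ∪ P.Aux := Finset.union_subset_union_left hS'.1
  have hdvd : lvlTw P (P.Smin ∪ ∅) ∣ lvlOrd P S' :=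
    (Fermat.Agent.S59lib.Nu.lvlTw_Smin_dvd P S').trans (lvlTw_dvd_lvlOrd S')
  obtain ⟨ν, -, -, htr, -, -, -⟩ :=
    Fermat.Agent.S59lib.Nu.exists_nu_of_data (p := P.p) hdvd hsub
      (fun q hq h => lvlOrd_primes_mem hS' q hq h)
      Dt.H Dt.hπ (Sg.D.H (P.Smin ∪ ∅) h0) (Sg.D.H_π (P.Smin ∪ ∅) h0)
      P.ρ₀ P.a P.S₀ P.h₀ Dt.hθ (Sg.D.hθ (P.Smin ∪ ∅) h0)
  exact ⟨ν, fun σ => (htr σ).symm⟩

end Fermat.Agent.S59lib.Hub
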