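/-
S59lib / Hub / ResOrdB (helper7) — Project I: **RES-ORD** (`ResOrdStmt`) from STRICT-W.

The `p`-adic Tate module of `W` over `ℤ_[p]` is strict ordinary at a prime of multiplicative reduction
(`StrictW.strictWStmt`); its reduction along `ℤ_[p] → ZMod (p^1) ≃ ZMod p` is the matrix representation `rhoE`
underlying `resRepE`.  "Ordinary at `p`" for a representation over a field is a property of its matrices in a basis
(`MatOrdAt`), stable under extension of the field; hence every `ρ` with `ρ.residual ≅ resRepE ⊗ k ⊗ κ(T)` has an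
ordinary residual representation.
-/
import Mathlib
import Fermat.Agent.S59lib.Hub.InstWType
import Fermat.Agent.S59lib.StrictW.Main
import Fermat.Agent.S59lib.RT.OrdType
import Fermat.Agent.S56lib.Dict.CondBaseChange

set_option autoImplicit false
set_option linter.unusedSectionVars false
set_option linter.unusedVariables false
set_option linter.style.haveILetI false

noncomputable section

namespace Fermat.Agent.S59lib.Hub

open IsLocalRing Matrix TensorProduct Fermat.Agent.S44lib.Q1 Fermat.Agent.S58lib.Tate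
  Fermat.Agent.S59lib.Curve Fermat.Agent.S29lib.E

local notation "GQ" => (AlgebraicClosure ℚ ≃ₐ[ℚ] AlgebraicClosure ℚ)
local notation "Qb" => AlgebraicClosure ℚ

/-! ### Ordinarity in matrix form -/

section MatOrd

variable {F : Type} [Field F]

/-- **ordinary at the place `P`, in matrix form**: a nonzero vector `v` which is an eigenvector of the decomposition
group and such that inertia acts trivially modulo `v`. -/
def MatOrdAt (m : GQ → Matrix (Fin 2) (Fin 2) F) (P : ValuationSubring Qb) : Prop :=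
  ∃ v : Fin 2 → F, v ≠ 0 ∧ (∀ σ ∈ P.decompositionSubgroup ℚ, ∃ c : F, m σ *ᵥ v = c • v) ∧
    (∀ σ ∈ P.inertiaSubgroupIn ℚ, ∃ u : Fin 2 → F, m σ - 1 = Matrix.vecMulVec v u)

/-- stability under extension of the field -/
theorem MatOrdAt.map {F' : Type} [Field F'] (φ : F →+* F') {m : GQ → Matrix (Fin 2) (Fin 2) F}
    {P : ValuationSubring Qb} (h : MatOrdAt m P) : MatOrdAt (fun σ => (m σ).map φ) P := by
  obtain ⟨v, hv, hD, hI⟩ := h
  refine ⟨fun i => φ (v i), ?_, ?_, ?_⟩
  · intro h0
    apply hv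
    funext i
    have := congrFun h0 i
    exact φ.injective (by rw [this, Pi.zero_apply, Pi.zero_apply, map_zero])
  · intro σ hσ
    obtain ⟨c, hc⟩ := hD σ hσ
    refine ⟨φ c, ?_⟩
    funext i
    have h1 := RingHom.map_mulVec φ (m σ) v i
    rw [hc] at h1
    show ((m σ).map φ *ᵥ (φ ∘ v)) i = φ c * φ (v i)
    rw [← h1, Pi.smul_apply, smul_eq_mul, map_mul]
  · intro σ hσ
    obtain ⟨u, hu⟩ := hI σ hσ
    refine ⟨fun i => φ (u i), ?_⟩
    show (m σ).map φ - 1 = _
    ext i j
    have h1 := congrFun (congrFun hu i) j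
    rw [Matrix.sub_apply, Matrix.vecMulVec_apply] at h1
    rw [Matrix.sub_apply, Matrix.vecMulVec_apply, Matrix.map_apply, ← map_mul, ← h1, map_sub]
    congr 1
    by_cases hij : i = j
    · rw [hij, Matrix.one_apply_eq, Matrix.one_apply_eq, map_one]
    · rw [Matrix.one_apply_ne hij, Matrix.one_apply_ne hij, map_zero]

variable (ρ : GaloisRepAdic F) (e : Module.Basis (Fin 2) F ρ.V)

/-- an ordinary representation over a field is ordinary in matrix form, in every basis -/
theorem matOrdAt_of_isOrdinaryAt {p : ℕ} (h : ρ.IsOrdinaryAt p) (P : ValuationSubring Qb)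
    (hP : P.LiesOverPrime p) : MatOrdAt (fun σ => LinearMap.toMatrix e e (ρ.ρ σ)) P := by
  obtain ⟨L, ⟨b, hb⟩, hD, hI⟩ := h P hP
  have hb0 : b 0 ∈ L := by rw [hb]; exact Submodule.mem_span_singleton_self _
  refine ⟨e.equivFun (b 0), ?_, ?_, ?_⟩
  · intro h0
    exact b.ne_zero 0 (e.equivFun.injective (by rw [h0, map_zero]))
  · intro σ hσ
    have h1 := hD σ hσ (b 0) hb0
    rw [hb] at h1
    obtain ⟨c, hc⟩ := Submodule.mem_span_singleton.mp h1
    refine ⟨c, ?_⟩
    have h2 := LinearMap.toMatrix_mulVec_repr e e (ρ.ρ σ) (b 0)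
    funext i
    have h3 := congrFun h2 i
    rw [Module.Basis.equivFun_apply, h3, ← hc, map_smul]
    rfl
  · intro σ hσ
    have h1 : ∀ i : Fin 2, ∃ c : F, c • b 0 = ρ.ρ σ (e i) - e i := by
      intro i
      have := hI σ hσ (e i)
      rw [hb] at this
      exact Submodule.mem_span_singleton.mp this
    choose u hu using h1
    refine ⟨u, ?_⟩
    show LinearMap.toMatrix e e (ρ.ρ σ) - 1 = _
    ext j i
    rw [Matrix.sub_apply, Matrix.vecMulVec_apply, LinearMap.toMatrix_apply]
    have h2 : e.repr (ρ.ρ σ (e i)) j = e.repr (u i • b 0 + e i) j := by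
      rw [hu i, sub_add_cancel]
    rw [h2, map_add, Finsupp.add_apply, map_smul, Finsupp.smul_apply, Module.Basis.repr_self,
      Finsupp.single_apply, Matrix.one_apply, smul_eq_mul, Module.Basis.equivFun_apply]
    by_cases hij : i = j
    · rw [if_pos hij, if_pos hij.symm]
      ring
    · rw [if_neg hij, if_neg (fun h => hij h.symm)]
      ring

/-- a representation over a field which is ordinary in matrix form in some basis is ordinary -/
theorem isOrdinaryAt_of_matOrdAt {p : ℕ}
    (h : ∀ P : ValuationSubring Qb, P.LiesOverPrime p →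
      MatOrdAt (fun σ => LinearMap.toMatrix e e (ρ.ρ σ)) P) : ρ.IsOrdinaryAt p := by
  intro P hP
  obtain ⟨v, hv, hD, hI⟩ := h P hP
  have hex : ∃ i, IsUnit (v i) := by
    by_contra hcon
    push Not at hcon
    apply hv
    funext i
    have := hcon i
    rw [isUnit_iff_ne_zero, not_not] at this
    exact this
  obtain ⟨b, hb⟩ := Fermat.Agent.S59lib.StrictW.exists_basis_of_isUnit v hex
  set x : ρ.V := e.equivFun.symm v with hx
  have hxv : e.equivFun x = v := by rw [hx, LinearEquiv.apply_symm_apply]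
  -- the action in coordinates
  have hact : ∀ (σ : GQ) (w : ρ.V), e.equivFun (ρ.ρ σ w) =
      LinearMap.toMatrix e e (ρ.ρ σ) *ᵥ e.equivFun w := by
    intro σ w
    have := LinearMap.toMatrix_mulVec_repr e e (ρ.ρ σ) w
    funext i
    rw [Module.Basis.equivFun_apply, ← this]
    rfl
  refine ⟨Submodule.span F {x}, ⟨b.map e.equivFun.symm, ?_⟩, ?_, ?_⟩
  · rw [Module.Basis.map_apply, hb]
  · intro σ hσ w hw
    obtain ⟨c, rfl⟩ := Submodule.mem_span_singleton.mp hw
    obtain ⟨d, hd⟩ := hD σ hσ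
    rw [map_smul]
    refine Submodule.smul_mem _ c (Submodule.mem_span_singleton.mpr ⟨d, ?_⟩)
    apply e.equivFun.injective
    rw [hact, hxv, map_smul, hxv]
    exact hd.symm
  · intro σ hσ w
    obtain ⟨u, hu⟩ := hI σ hσ
    refine Submodule.mem_span_singleton.mpr ⟨u ⬝ᵥ e.equivFun w, ?_⟩
    apply e.equivFun.injective
    rw [map_smul, hxv, map_sub, hact]
    have h1 : LinearMap.toMatrix e e (ρ.ρ σ) *ᵥ e.equivFun w - e.equivFun w =
        (LinearMap.toMatrix e e (ρ.ρ σ) - 1) *ᵥ e.equivFun w := by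
      rw [Matrix.sub_mulVec, Matrix.one_mulVec]
    rw [h1, hu]
    funext i
    rw [Matrix.mulVec, Pi.smul_apply, smul_eq_mul]
    simp only [dotProduct, Matrix.vecMulVec_apply, Fin.sum_univ_two]
    ring

end MatOrd

/-! ### The mod-`p` representation of `W` at a prime of multiplicative reduction -/

section Main

variable (p : ℕ) [hp : Fact p.Prime] (W : WeierstrassCurve ℤ) (hΔ : W.Δ ≠ 0)

/-- `ℤ_[p] → ZMod (p^1) ≃ ZMod p` -/
def phiZ : ℤ_[p] →+* ZMod p :=
  ((phiOne p : ZMod (p ^ 1) →+* ZMod p)).comp (PadicInt.toZModPow 1)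

theorem isLocalHom_phiZ : IsLocalHom (phiZ p) :=
  IsLocalHom.of_surjective _ (ZMod.ringHom_surjective (phiZ p))

/-- the matrices `rhoE` are the reductions of the matrices of the Tate module -/
theorem rhoE_eq_map_phiZ (σ : GQ) :
    rhoE W hΔ p σ = (tateMatZp (WQ' W) p (WQ'_Δ_ne_zero hΔ) σ).map (phiZ p) := by
  rw [rhoE_apply, ← tateMatZp_map_toZModPow, Matrix.map_map]
  rfl

/-- **`rhoE` is ordinary in matrix form at a prime of bad (multiplicative) reduction.** -/
theorem matOrdAt_rhoE (hp35 : p = 3 ∨ p = 5) (hss : W.IsSemistableModel)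
    (hbad : ¬ W.IsGoodPrimeFor p) (P : ValuationSubring Qb) (hP : P.LiesOverPrime p) :
    MatOrdAt (fun σ => rhoE W hΔ p σ) P := by
  classical
  haveI : Finite (ResidueField ℤ_[p]) :=
    Finite.of_equiv _ (PadicInt.residueField (p := p)).symm.toEquiv
  have hpZ : (p : ℤ_[p]) ∈ maximalIdeal ℤ_[p] := natCast_mem_maximalIdeal_padicInt p
  have hso : (tateRepO W hΔ p hpZ).IsStrictOrdinaryAt p :=
    Fermat.Agent.S59lib.StrictW.strictWStmt p hp35 W hΔ hss hbad ℤ_[p] hpZ
  have h1 : ((tateRepO W hΔ p hpZ).baseChangeAlong (phiZ p) (isLocalHom_phiZ p)).IsOrdinaryAt p :=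
    (Fermat.Agent.S56lib.Dict.isStrictOrdinaryAt_baseChangeAlong (phiZ p) (isLocalHom_phiZ p) _
      hso).isOrdinaryAt
  letI : Algebra ℤ_[p] (ZMod p) := (phiZ p).toAlgebra
  let e : Module.Basis (Fin 2) (ZMod p) (ZMod p ⊗[ℤ_[p]] (Fin 2 → ℤ_[p])) :=
    Algebra.TensorProduct.basis (ZMod p) (Pi.basisFun ℤ_[p] (Fin 2))
  have h2 := matOrdAt_of_isOrdinaryAt
    ((tateRepO W hΔ p hpZ).baseChangeAlong (phiZ p) (isLocalHom_phiZ p)) e h1 P hP
  have h3 : (fun σ => LinearMap.toMatrix e e
      (((tateRepO W hΔ p hpZ).baseChangeAlong (phiZ p) (isLocalHom_phiZ p)).ρ σ)) =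
      fun σ => rhoE W hΔ p σ := by
    funext σ
    have h4 : ((tateRepO W hΔ p hpZ).baseChangeAlong (phiZ p) (isLocalHom_phiZ p)).ρ σ =
        (Matrix.toLin' (tateMatZp (WQ' W) p (WQ'_Δ_ne_zero hΔ) σ)).baseChange (ZMod p) := rfl
    rw [h4, LinearMap.toMatrix_baseChange, LinearMap.toMatrix_eq_toMatrix',
      LinearMap.toMatrix'_toLin', rhoE_eq_map_phiZ]
    rfl
  exact (congrArg (fun m => MatOrdAt m P) h3).mp h2

/-- **RES-ORD**: the residual representation of a semistable `W` with bad reduction at `p` is ordinary at `p`. -/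
theorem resOrdStmt_b : ResOrdStmt := by
  intro p hpf hp35 W hΔ hss hbad T _ _ ρ k _ _ j hequiv
  classical
  have hR : (GaloisRepAdic.ofResidualGaloisRep
      (((resRepE W hΔ p).baseChange k).baseChangeAlong j)).IsOrdinaryAt p := by
    letI : Algebra k (ResidueField T) := j.toAlgebra
    let e₁ : Module.Basis (Fin 2) k (k ⊗[ZMod p] (Fin 2 → ZMod p)) :=
      Algebra.TensorProduct.basis k (Pi.basisFun (ZMod p) (Fin 2))
    let e₂ : Module.Basis (Fin 2) (ResidueField T)
        (ResidueField T ⊗[k] (k ⊗[ZMod p] (Fin 2 → ZMod p))) :=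
      Algebra.TensorProduct.basis (ResidueField T) e₁
    apply isOrdinaryAt_of_matOrdAt _ e₂
    intro P hP
    have h0 := (matOrdAt_rhoE p W hΔ hp35 hss hbad P hP).map (j.comp (algebraMap (ZMod p) k))
    have h3 : (fun σ => LinearMap.toMatrix e₂ e₂ ((GaloisRepAdic.ofResidualGaloisRep
        (((resRepE W hΔ p).baseChange k).baseChangeAlong j)).ρ σ)) =
        fun σ => (rhoE W hΔ p σ).map (j.comp (algebraMap (ZMod p) k)) := by
      funext σ
      have h4 : (GaloisRepAdic.ofResidualGaloisRep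
          (((resRepE W hΔ p).baseChange k).baseChangeAlong j)).ρ σ =
          ((Matrix.toLin' (rhoE W hΔ p σ)).baseChange k).baseChange (ResidueField T) := rfl
      rw [h4, LinearMap.toMatrix_baseChange, LinearMap.toMatrix_baseChange,
        LinearMap.toMatrix_eq_toMatrix', LinearMap.toMatrix'_toLin', Matrix.map_map]
      rfl
    exact (congrArg (fun m => MatOrdAt m P) h3).mpr h0
  obtain ⟨E⟩ := hequiv
  exact Fermat.Agent.S59lib.RT.isOrdinaryAt_of_equiv
    (⟨E.symm.toLinearEquiv, E.symm.map_apply⟩ :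
      GaloisRepAdic.Equiv (GaloisRepAdic.ofResidualGaloisRep
        (((resRepE W hΔ p).baseChange k).baseChangeAlong j))
        (GaloisRepAdic.ofResidualGaloisRep ρ.residual)) hR

end Main

end Fermat.Agent.S59lib.Hub
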