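/-
S59lib / Hub / Top (helper7) — PROJECT I: **S59 from the remaining named statements**.

`s59_of_stmts : HSSigmaStmt → ResOrdStmt → PStepCoreStmt → LowerSmallStmt → (statement of S59)`;
**`s59_of_cores : HSSigmaStmt → PStepCoreStmt → R7b.ALD.Lower32CoreStmt → Mazur5SmallStmt → (statement of S59)`**
(RES-ORD is the theorem `resOrdStmt_b`, `Hub/ResOrdB`; `LowerSmallStmt` is split by `lowerSmallStmt_of`, `Hub/LowerSmall`).

Everything else is a theorem: CURVE (`StrictW.curveBlock`), LLSQ (`LevelQ2.llsqBlock`), MRP (`MRp.mrpBlock`),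
LOWERONE (`lowerOneBlock_of`), RT (`rtBlock_of`), PSTEP (`pStepStmt_of`), ν (`Nu.nuStmt`, helper6; `nuOrdStmt`), OUT (`Out.mlc1_of_char`, inside `s59_of_blocks`).
-/
import Mathlib
import Fermat.Agent.S59lib.Hub.RTBlock
import Fermat.Agent.S59lib.Hub.PStepAsm
import Fermat.Agent.S59lib.Hub.NuOrd
import Fermat.Agent.S59lib.Nu.Stmt
import Fermat.Agent.S59lib.StrictW.Main
import Fermat.Agent.S59lib.LevelQ2.Final
import Fermat.Agent.S59lib.MRp.Main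
import Fermat.Agent.S59lib.Hub.ResOrdB
import Fermat.Agent.S59lib.Hub.LowerSmall
import Fermat.Agent.S59lib.Hub.Mazur5
import Fermat.Agent.S59lib.Nu.HSSigma

set_option autoImplicit false

namespace Fermat.Agent.S59lib.Hub

/-- **Block LIFT** from the remaining statements -/
theorem liftBlock_of_stmts (hNu : NuStmt) (hHS : HSSigmaStmt) (hRO : ResOrdStmt) (hPS : PStepStmt) :
    Fermat.Agent.S59lib.LiftBlock :=
  Fermat.Agent.S59lib.liftBlock_of_rt_curve (rtBlock_of hNu hHS hRO hPS)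
    Fermat.Agent.S59lib.StrictW.curveBlock

/-- **Block LEVELOPT** from the remaining statements -/
theorem levelOptBlock_of_stmts (hRO : ResOrdStmt) (hSmall : LowerSmallStmt) :
    Fermat.Agent.S59lib.LevelOptBlock :=
  Fermat.Agent.S59lib.levelOptBlock_of_blocks Fermat.Agent.S59lib.LevelQ2.llsqBlock
    (lowerOneBlock_of hRO hSmall) Fermat.Agent.S59lib.MRp.mrpBlock

/-- **S59 from the remaining statements** -/
theorem s59_of_stmts (hHS : HSSigmaStmt) (hRO : ResOrdStmt)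
    (hCore : PStepCoreStmt) (hSmall : LowerSmallStmt)
    (p : ℕ) (hp : p = 3 ∨ p = 5)
    (W : WeierstrassCurve ℤ) (hΔ : W.Δ ≠ 0) (hW : W.IsSemistableModel)
    (hirr : W.ModRepIsIrreducible p)
    (M₀ : ℕ) [NeZero M₀] (hres₀ : W.IsResiduallyModularOfLevel p M₀)
    (hM₀ : ¬ p ^ 2 ∣ M₀)
    (hM₀3 : ∀ q : ℕ, q.Prime → q ≠ p → ¬ q ^ 3 ∣ M₀) :
    Mlc1IsModularModelOfExactConductorLevel W :=
  Fermat.Agent.S59lib.s59_of_blocks (levelOptBlock_of_stmts hRO hSmall)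
    (liftBlock_of_stmts Fermat.Agent.S59lib.Nu.nuStmt hHS hRO (pStepStmt_of nuOrdStmt hCore hRO))
    p hp W hΔ hW hirr M₀ hres₀ hM₀ hM₀3

/-- **S59 from the four remaining cores**: (HS-Σ), (HS-p) + unit root, the core of R7b (`p = 3`, `q = 2`), Mazur's
principle at `p = 5`, `q ∈ {2, 3}`. -/
theorem s59_of_cores (hHS : HSSigmaStmt) (hCore : PStepCoreStmt)
    (h32 : Fermat.Agent.S59lib.R7b.ALD.Lower32CoreStmt) (h5 : Mazur5SmallStmt)
    (p : ℕ) (hp : p = 3 ∨ p = 5)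
    (W : WeierstrassCurve ℤ) (hΔ : W.Δ ≠ 0) (hW : W.IsSemistableModel)
    (hirr : W.ModRepIsIrreducible p)
    (M₀ : ℕ) [NeZero M₀] (hres₀ : W.IsResiduallyModularOfLevel p M₀)
    (hM₀ : ¬ p ^ 2 ∣ M₀)
    (hM₀3 : ∀ q : ℕ, q.Prime → q ≠ p → ¬ q ^ 3 ∣ M₀) :
    Mlc1IsModularModelOfExactConductorLevel W :=
  s59_of_stmts hHS resOrdStmt_b hCore (lowerSmallStmt_of h32 h5)
    p hp W hΔ hW hirr M₀ hres₀ hM₀ hM₀3

/-- **S59 from the three remaining cores** (`Mazur5SmallStmt` is the theorem `mazur5SmallStmt`, `Hub/Mazur5`). -/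
theorem s59_of_three (hHS : HSSigmaStmt) (hCore : PStepCoreStmt)
    (h32 : Fermat.Agent.S59lib.R7b.ALD.Lower32CoreStmt)
    (p : ℕ) (hp : p = 3 ∨ p = 5)
    (W : WeierstrassCurve ℤ) (hΔ : W.Δ ≠ 0) (hW : W.IsSemistableModel)
    (hirr : W.ModRepIsIrreducible p)
    (M₀ : ℕ) [NeZero M₀] (hres₀ : W.IsResiduallyModularOfLevel p M₀)
    (hM₀ : ¬ p ^ 2 ∣ M₀)
    (hM₀3 : ∀ q : ℕ, q.Prime → q ≠ p → ¬ q ^ 3 ∣ M₀) :
    Mlc1IsModularModelOfExactConductorLevel W :=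
  s59_of_cores hHS hCore h32 mazur5SmallStmt p hp W hΔ hW hirr M₀ hres₀ hM₀ hM₀3

/-- **S59 from the two remaining cores** (`HSSigmaStmt` is helper6's theorem `Nu.hsSigmaStmt`, `Nu/HSSigma`). -/
theorem s59_of_two (hCore : PStepCoreStmt)
    (h32 : Fermat.Agent.S59lib.R7b.ALD.Lower32CoreStmt)
    (p : ℕ) (hp : p = 3 ∨ p = 5)
    (W : WeierstrassCurve ℤ) (hΔ : W.Δ ≠ 0) (hW : W.IsSemistableModel)
    (hirr : W.ModRepIsIrreducible p)
    (M₀ : ℕ) [NeZero M₀] (hres₀ : W.IsResiduallyModularOfLevel p M₀)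
    (hM₀ : ¬ p ^ 2 ∣ M₀)
    (hM₀3 : ∀ q : ℕ, q.Prime → q ≠ p → ¬ q ^ 3 ∣ M₀) :
    Mlc1IsModularModelOfExactConductorLevel W :=
  s59_of_three Fermat.Agent.S59lib.Nu.hsSigmaStmt hCore h32 p hp W hΔ hW hirr M₀ hres₀ hM₀ hM₀3

end Fermat.Agent.S59lib.Hub
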