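/-
S59lib / Hub / Gal32 (helper7) — Project I, item R7b (helper3's (M2)): **the Galois data of `W` on a localised Hecke
algebra**.  For a residual eigensystem `θ` of level `L` with `θ(T_ℓ) = a_ℓ(W)` at the good primes, the localised Hecke
algebra `heckeLocal L S 𝒪 θ` carries a Hecke datum `H` with `H.π = heckeLocal.π`, cyclotomic determinant, and whose
residual representation is unramified at every prime `q ≠ p` where `ρ̄_{W,p}` is.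
-/
import Mathlib
import Fermat.Agent.S59lib.Hub.WHecke
import Fermat.Agent.S59lib.Hub.WFacts
import Fermat.Agent.S59lib.Hub.WUnram
import Fermat.Agent.S43lib.B2.DatumPi
import Fermat.Agent.S43lib.B3.HeckeType

set_option autoImplicit false
set_option linter.unusedSectionVars false
set_option linter.unusedVariables false
set_option linter.style.haveILetI false

noncomputable section

namespace Fermat.Agent.S59lib.Hub

open IsLocalRing Polynomial CuspForm Fermat.Agent.S43lib.B3 Fermat.Agent.S44lib.Q1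
  Fermat.Agent.S59lib.BigImg

local notation "GQ" => (AlgebraicClosure ℚ ≃ₐ[ℚ] AlgebraicClosure ℚ)
local notation "Qb" => AlgebraicClosure ℚ

/-- **The Galois data of `W` on a localised Hecke algebra** (general `p`, general `q`). -/
theorem exists_galoisData (p : ℕ) [hpf : Fact p.Prime] (hp2 : p ≠ 2) (W : WeierstrassCurve ℤ)
    (hΔ : W.Δ ≠ 0) (hirr : W.ModRepIsIrreducible p)
    {𝒪 : Type} [CommRing 𝒪] [IsDomain 𝒪] [IsDiscreteValuationRing 𝒪]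
    [IsAdicComplete (maximalIdeal 𝒪) 𝒪] [Finite (ResidueField 𝒪)] [CharZero 𝒪]
    [Algebra (ZMod p) (ResidueField 𝒪)]
    (hp𝒪 : ((p : ℕ) : 𝒪) ∈ maximalIdeal 𝒪) {L : ℕ} [NeZero L] (S : Finset ℕ) (hpS : p ∈ S)
    (hLS : ∀ q : ℕ, q.Prime → q ∣ L → q ∈ S)
    (θ : heckeAlgebra L 2 (↑S : Set ℕ) →+* ResidueField 𝒪)
    (hθ : ∀ (ℓ : ℕ) (hℓ : ℓ.Prime) (hℓL : ¬ ℓ ∣ L) (hℓS : ℓ ∉ (↑S : Set ℕ)),
      W.IsGoodPrimeFor ℓ →
        θ (heckeAlgebra.T hℓ hℓL hℓS) = ((W.apOfModel ℓ : ℤ) : ResidueField 𝒪)) :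
    ∃ H : HeckeGaloisRepDatum L (↑S : Set ℕ) 𝒪 θ (heckeLocal L (↑S : Set ℕ) 𝒪 θ),
      H.π = heckeLocal.π L (↑S : Set ℕ) 𝒪 θ ∧ H.ρ.DetIsCyclotomic p ∧
      H.ρ.residual.IsEquiv (((resRepE W hΔ p).baseChange (ResidueField 𝒪)).baseChangeAlong
        (ResidueField.map (algebraMap 𝒪 (heckeLocal L (↑S : Set ℕ) 𝒪 θ)))) ∧
      ∀ q : ℕ, Fermat.Agent.S59lib.ModPUnramifiedAt W p q → H.ρ.residual.IsUnramifiedAt q := by
  have hθ' : ∀ (ℓ : ℕ) (hℓ : ℓ.Prime) (hℓN : ¬ ℓ ∣ L) (hℓS : ℓ ∉ (↑S : Set ℕ)), ℓ ∉ wS₀ W p →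
      θ (heckeAlgebra.T hℓ hℓN hℓS) = (((fun ℓ => W.apOfModel ℓ) ℓ : ℤ) : ResidueField 𝒪) :=
    fun ℓ hℓ hℓN hℓS h => hθ ℓ hℓ hℓN hℓS ((not_mem_wS₀_iff W p hℓ hΔ).mp h).2
  obtain ⟨H, hH⟩ := Fermat.Agent.S43lib.B2.exists_heckeGaloisRepDatum_π hp2 hp𝒪 hpS hLS θ
    (resRepE W hΔ p) (wRes_isIrreducible W hΔ p hirr) (fun ℓ => W.apOfModel ℓ) (wS₀ W p)
    (wRes_h₀ W hΔ p) hθ'
  have he := heckeDatum_residual_isEquiv H (resRepE W hΔ p) (fun ℓ => W.apOfModel ℓ) (wS₀ W p)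
    (wRes_h₀ W hΔ p) hθ'
  refine ⟨H, hH, heckeDatum_detIsCyclotomic hpf.out hp𝒪 hLS H, he, fun q hq => ?_⟩
  exact residual_isUnramifiedAt W hΔ p H he ((modPUnramifiedAt_iff W hΔ p q).mp hq)

/-- **(M2)**: the case `p = 3`, `q = 2`, in the binders of helper3. -/
theorem exists_galoisData32 (W : WeierstrassCurve ℤ) (hΔ : W.Δ ≠ 0)
    (hirr : W.ModRepIsIrreducible 3) (hunr : Fermat.Agent.S59lib.ModPUnramifiedAt W 3 2)
    {𝒪 : Type} [CommRing 𝒪] [IsDomain 𝒪] [IsDiscreteValuationRing 𝒪]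
    [IsAdicComplete (maximalIdeal 𝒪) 𝒪] [Finite (ResidueField 𝒪)] [CharZero 𝒪]
    [Algebra (ZMod 3) (ResidueField 𝒪)]
    (h3 : ((3 : ℕ) : 𝒪) ∈ maximalIdeal 𝒪) {L : ℕ} [NeZero L] (S : Finset ℕ) (h3S : 3 ∈ S)
    (hLS : ∀ q : ℕ, q.Prime → q ∣ L → q ∈ S)
    (θ : heckeAlgebra L 2 (↑S : Set ℕ) →+* ResidueField 𝒪)
    (hθ : ∀ (ℓ : ℕ) (hℓ : ℓ.Prime) (hℓL : ¬ ℓ ∣ L) (hℓS : ℓ ∉ (↑S : Set ℕ)),
      W.IsGoodPrimeFor ℓ →
        θ (heckeAlgebra.T hℓ hℓL hℓS) = ((W.apOfModel ℓ : ℤ) : ResidueField 𝒪)) :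
    ∃ H : HeckeGaloisRepDatum L (↑S : Set ℕ) 𝒪 θ (heckeLocal L (↑S : Set ℕ) 𝒪 θ),
      H.π = heckeLocal.π L (↑S : Set ℕ) 𝒪 θ ∧ H.ρ.DetIsCyclotomic 3 ∧
      H.ρ.residual.IsUnramifiedAt 2 := by
  haveI : Fact (Nat.Prime 3) := ⟨Nat.prime_three⟩
  obtain ⟨H, hH, hdet, -, hur⟩ := exists_galoisData 3 (by norm_num) W hΔ hirr h3 S h3S hLS θ hθ
  exact ⟨H, hH, hdet, hur 2 hunr⟩

end Fermat.Agent.S59lib.Hub
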