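/-
S59lib / Hub / EmptyT (helper7) — the hub at `T = ∅` (no Ihara primes; the input of the minimal `R = 𝕋` theorem MIN):

* `subsingleton_G₀_empty` : the diamond group of the base level is trivial;
* `algebraMap_Lam_bijective` : `Λ = 𝒪[G₀] = 𝒪`;
* `beta0_surjective` : every base bridge `β₀ : F(Smin).R → 𝕋_∅` with the `T_ℓ`-formula of `exists_sideLevels` is
  SURJECTIVE (`𝕋_∅` is generated by the `T_ℓ`, `ℓ ∤ R0 p`, the diamond operators being trivial).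
-/
import Mathlib
import Fermat.Agent.S59lib.Hub.Final

set_option autoImplicit false
set_option linter.unusedSectionVars false
set_option linter.unusedVariables false
set_option linter.style.haveILetI false

noncomputable section

namespace Fermat.Agent.S59lib.Hub

open Fermat.Agent.S43lib.Mod4 Fermat.Agent.S43lib.Mod4.Hub

open IsLocalRing Polynomial CuspForm Fermat.Agent.S43lib.B3 Fermat.Agent.S43lib.Loc
  Fermat.Agent.S56lib.Main Fermat.Agent.S43lib.Mod4.HO Fermat.Agent.S56lib.TW ExtCitation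
  Fermat.Agent.S56lib.TWSel

variable {P : Ctx}

theorem mT_empty : mT (∅ : Finset ℕ) = 0 := by
  unfold mT
  rw [Fintype.card_eq_zero_iff]
  exact ⟨fun v => by
    have := TT_mem v
    simp at this⟩

instance subsingleton_G₀_empty : Subsingleton (G₀ P ∅) := by
  haveI : IsEmpty (Fin (mT (∅ : Finset ℕ))) := ⟨fun i => by
    have h1 : (i : ℕ) < mT (∅ : Finset ℕ) := i.2
    have h2 := mT_empty
    omega⟩
  infer_instance

/-- **`Λ = 𝒪` for `T = ∅`.** -/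
theorem algebraMap_Lam_bijective (𝒪 : Type) [CommRing 𝒪] :
    Function.Bijective (algebraMap 𝒪 (Lam P ∅ 𝒪)) := by
  constructor
  · intro a b h
    rw [MonoidAlgebra.coe_algebraMap] at h
    have h1 := congrArg (fun x : Lam P ∅ 𝒪 => x.coeff 1) h
    simpa [MonoidAlgebra.coeff_single] using h1
  · intro f
    refine ⟨f.coeff 1, ?_⟩
    rw [MonoidAlgebra.coe_algebraMap]
    apply MonoidAlgebra.coeff_injective
    ext g
    rw [Subsingleton.elim g 1]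
    simp [MonoidAlgebra.coeff_single]

/-! ### the base bridge is surjective -/

variable (Sg : SideGal P (∅ : Finset ℕ))

theorem tG_eq_one_empty (g : G₀ P ∅) : (H0 Sg).tG Set.univ g = 1 := by
  rw [Subsingleton.elim g 1, map_one]

/-- the primes not dividing `M₀ P ∅ = R0` and different from `p` are outside `Smin ∪ Aux` and do not divide the
level `lvlTw P Smin` -/
theorem not_mem_of_not_dvd_M₀_empty (hT : THyp P ∅) {ℓ : ℕ} (hℓ : ℓ.Prime) (hℓM : ¬ ℓ ∣ M₀ P ∅)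
    (hℓp : ℓ ≠ P.p) :
    ¬ ℓ ∣ lvlTw P Sg.S ∧ ℓ ∉ (↑(Sg.S ∪ P.Aux) : Set ℕ) := by
  have hM : M₀ P ∅ = P.R0 * tp P (P.Smin ∪ ∅) := M₀_eq hT
  have hR0 : ¬ ℓ ∣ P.R0 := fun h => hℓM (hM ▸ Dvd.dvd.mul_right h _)
  have htp : ¬ ℓ ∣ tp P (P.Smin ∪ ∅) := fun h => hℓM (hM ▸ Dvd.dvd.mul_left h _)
  refine ⟨?_, ?_⟩
  · intro h
    rw [lvlTw_def] at h
    rcases (Nat.Prime.dvd_mul hℓ).1 h with h1 | h1
    · rcases (Nat.Prime.dvd_mul hℓ).1 h1 with h2 | h2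
      · exact hR0 h2
      · exact htp h2
    · exact htp h1
  · intro h
    rcases Finset.mem_union.1 (Finset.mem_coe.1 h) with h1 | h1
    · rcases Finset.mem_union.1 h1 with h2 | h2
      · exact hR0 (P.Smin_dvd ℓ h2 hℓp)
      · exact absurd h2 (Finset.notMem_empty ℓ)
    · exact hR0 (P.Aux_dvd ℓ h1)

set_option synthInstance.maxHeartbeats 400000 in
set_option maxHeartbeats 1000000 in
/-- **for `T = ∅` the base bridge is surjective**: `𝕋_∅` is generated over `𝒪` by the `T_ℓ`, `ℓ ∤ R0 p`. -/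
theorem beta0_surjective (hH : HubHyp Sg)
    (β₀ : (Sg.F Sg.S (Sg.hgoodS hH.hT)).R →ₐ[Sg.𝒪] T0 Sg)
    (hβ₀ : ∀ (ℓ : ℕ) (hℓ : ℓ.Prime) (hℓN : ¬ ℓ ∣ lvlTw P Sg.S)
        (hℓS : ℓ ∉ (↑(Sg.S ∪ P.Aux) : Set ℕ)) (hi : ℓ.Prime ∧ ¬ ℓ ∣ M₀ P ∅ ∧ ℓ ≠ P.p)
        (hℓM : ℓ.Coprime (M₀ P ∅)) (g : G₀ P ∅),
        g * g * χ₀ P ∅ (ZMod.unitOfCoprime ℓ hℓM) = 1 →
        β₀ (heckeLocal.π _ _ _ _ (heckeAlgebra.T hℓ hℓN hℓS)) =
          (H0 Sg).tG Set.univ g * (H0 Sg).tX Set.univ (Sum.inl ⟨ℓ, hi⟩) (Set.mem_univ _)) :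
    Function.Surjective β₀ := by
  classical
  have key : ∀ s : AbsHecke.Sym Sg.𝒪 (G₀ P ∅) (Set.univ : Set (Idx P.p (M₀ P ∅))),
      (H0 Sg).heckeMk Set.univ s ∈ β₀.range := by
    intro s
    induction s using MvPolynomial.induction_on with
    | C a =>
      have : (H0 Sg).heckeMk Set.univ (MvPolynomial.C a) = algebraMap Sg.𝒪 (T0 Sg) a :=
        ((H0 Sg).heckeMk Set.univ).commutes a
      rw [this]
      exact Subalgebra.algebraMap_mem _ a
    | add s t hs ht =>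
      rw [map_add]
      exact Subalgebra.add_mem _ hs ht
    | mul_X s i hs =>
      rw [map_mul]
      refine Subalgebra.mul_mem _ hs ?_
      rcases i with ⟨j, hj⟩ | g
      · rcases j with ℓ | n
        · -- `T_ℓ`
          obtain ⟨hℓN, hℓS⟩ := not_mem_of_not_dvd_M₀_empty Sg hH.hT ℓ.2.1 ℓ.2.2.1 ℓ.2.2.2
          have hℓM : ℓ.1.Coprime (M₀ P ∅) :=
            (Nat.Prime.coprime_iff_not_dvd ℓ.2.1).2 ℓ.2.2.1
          have h1 := hβ₀ ℓ.1 ℓ.2.1 hℓN hℓS ℓ.2 hℓM 1 (Subsingleton.elim _ _)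
          rw [map_one, one_mul] at h1
          exact ⟨_, h1⟩
        · -- the diamond `⟨n⟩` is trivial
          have h2 := absLvl_tX_eq_tG (χ₀ P ∅) (idx₀ P.p (M₀ P ∅))
            (evOf P.p (M₀ P ∅) (𝒪 := Sg.𝒪) (tS Sg)) (evOf_C P.p (M₀ P ∅) _) Set.univ
            (Sum.inr n) (Set.mem_univ _) (ZMod.unitOfCoprime n.1 n.2) rfl
          have h3 : (H0 Sg).heckeMk Set.univ (MvPolynomial.X (Sum.inl ⟨Sum.inr n, hj⟩)) = 1 := by
            rw [AbsHecke.heckeMk_X_inl]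
            exact h2.trans (tG_eq_one_empty Sg _)
          rw [h3]
          exact Subalgebra.one_mem _
      · have h3 : (H0 Sg).heckeMk Set.univ (MvPolynomial.X (Sum.inr g)) = 1 :=
          tG_eq_one_empty Sg g
        rw [h3]
        exact Subalgebra.one_mem _
  intro t
  obtain ⟨s, rfl⟩ := (H0 Sg).heckeMk_surjective Set.univ t
  exact key s

/-! ### the package for MIN -/

theorem thyp_empty (P : Ctx) : THyp P ∅ :=
  ⟨fun v hv => absurd hv (Finset.notMem_empty v), Finset.disjoint_empty_right _,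
    Finset.disjoint_empty_left _, fun v hv => absurd hv (Finset.notMem_empty v),
    fun v hv => absurd hv (Finset.notMem_empty v)⟩

theorem M₀_empty (P : Ctx) : M₀ P ∅ = P.R0 := by
  unfold M₀
  simp

local notation "GQ" => (AlgebraicClosure ℚ ≃ₐ[ℚ] AlgebraicClosure ℚ)
local notation "Qb" => AlgebraicClosure ℚ

/-- **The Hecke side at `T = ∅`** (the input of MIN): `exists_sideLevels` together with `Λ = 𝒪` and the
surjectivity of the base bridge. -/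
theorem exists_sideLevels_empty (P : Ctx) {N : ℕ} (hN : N ∣ M₀ P ∅) (hmod : P.IsMod N) :
    ∃ (Sg : SideGal P ∅) (hH : HubHyp Sg) (d : ℕ) (hd : 0 < d) (hgood0 : (H0 Sg).Good P.p)
      (β₀ : (Sg.F Sg.S (Sg.hgoodS hH.hT)).R →ₐ[Sg.𝒪] T0 Sg),
      Function.Surjective β₀ ∧ Function.Bijective (algebraMap Sg.𝒪 (Lam P ∅ Sg.𝒪)) ∧
      (∀ (ℓ : ℕ) (hℓ : ℓ.Prime) (hℓN : ¬ ℓ ∣ lvlTw P Sg.S)
        (hℓS : ℓ ∉ (↑(Sg.S ∪ P.Aux) : Set ℕ)) (hi : ℓ.Prime ∧ ¬ ℓ ∣ M₀ P ∅ ∧ ℓ ≠ P.p),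
        β₀ (heckeLocal.π _ _ _ _ (heckeAlgebra.T hℓ hℓN hℓS)) =
          (H0 Sg).tX Set.univ (Sum.inl ⟨ℓ, hi⟩) (Set.mem_univ _)) ∧
      ∀ (r n : ℕ) (qv : Fin r → ℕ), Function.Injective qv →
        ∀ (hqv : ∀ i, (qv i).Prime ∧ qv i ∉ Sg.SA ∧ P.p ^ (n + 1) ∣ qv i - 1),
        (∀ i, ∀ A : ValuationSubring Qb, A.LiesOverPrime (qv i) →
          ∀ φ : GQ, A.IsFrobeniusAt φ (qv i) →
            ∃ α β : ResidueField Sg.𝒪, α ≠ β ∧
              LinearMap.charpoly (Sg.ρbar.ρ φ) = (X - C α) * (X - C β)) →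
        Nonempty (SideLevel (sideCore Sg hH d hd hgood0 β₀) r n qv (fun i => (hqv i).1)
          (Sg.hgoodQ hH.hT r qv fun i => ⟨(hqv i).1, (hqv i).2.1⟩)) := by
  obtain ⟨Sg, hH, d, hd, hgood0, β₀, hβ₀, hlev⟩ := exists_sideLevels P ∅ (thyp_empty P) hN hmod
  refine ⟨Sg, hH, d, hd, hgood0, β₀, beta0_surjective Sg hH β₀ hβ₀,
    algebraMap_Lam_bijective Sg.𝒪, ?_, hlev⟩
  intro ℓ hℓ hℓN hℓS hi
  have hℓM : ℓ.Coprime (M₀ P ∅) := (Nat.Prime.coprime_iff_not_dvd hℓ).2 hi.2.1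
  have h1 := hβ₀ ℓ hℓ hℓN hℓS hi hℓM 1 (Subsingleton.elim _ _)
  rwa [map_one, one_mul] at h1

end Fermat.Agent.S59lib.Hub
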