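/-
S59lib / Hub / WNew (helper7) — Project I: **the eigensystem of `ρ̄_{W,p}` is `r`-new at the primes `r ≠ p` where `ρ̄` is
ramified** (the hypothesis `hone` of helper2's (HS) at the primes `r ∈ Smin ∖ {p}`, `r ∥ N`).

If the residual character `θ` of level `N` factored through the Hecke algebra of a level `M' ∣ N`, `r ∤ M'`, then `ρ̄`
would be modular of level `M'` (FORM-OF-CHAR), hence unramified at `r`.
-/
import Mathlib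
import Fermat.Agent.S59lib.Hub.WHecke
import Fermat.Agent.S59lib.Hub.WUnram

set_option autoImplicit false
set_option linter.unusedSectionVars false
set_option linter.unusedVariables false
set_option linter.style.haveILetI false

noncomputable section

namespace Fermat.Agent.S59lib.Hub

open IsLocalRing Polynomial Matrix CuspForm Fermat.Agent.S44lib.Q1 Fermat.Agent.S43lib.B3

local notation "Qb" => AlgebraicClosure ℚ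
local notation "GQ" => (AlgebraicClosure ℚ ≃ₐ[ℚ] AlgebraicClosure ℚ)

/-- **FORM-OF-CHAR**, with a Hecke set `S` whose GOOD primes divide `M p` (the bad primes of `W` in `S` are free) -/
theorem isResiduallyModularOfLevel_of_charS {p : ℕ} [hpf : Fact p.Prime] {M : ℕ} [NeZero M]
    (W : WeierstrassCurve ℤ) (hΔ : W.Δ ≠ 0)
    (S : Finset ℕ) (hS : ∀ ℓ ∈ S, ℓ.Prime → W.IsGoodPrimeFor ℓ → ℓ ∣ M * p)
    (hMS : ∀ q : ℕ, q.Prime → q ∣ M → q ∈ S)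
    {k : Type} [Field k] [Algebra (ZMod p) k]
    (θ : heckeAlgebra M 2 (↑S : Set ℕ) →+* k)
    (hθ : ∀ (ℓ : ℕ) (hℓ : ℓ.Prime) (hℓM : ¬ ℓ ∣ M) (hℓS : ℓ ∉ (↑S : Set ℕ)), W.IsGoodPrimeFor ℓ →
      θ (heckeAlgebra.T hℓ hℓM hℓS) = ((W.apOfModel ℓ : ℤ) : k)) :
    W.IsResiduallyModularOfLevel p M := by
  classical
  set S₂ : Finset ℕ := S ∪ W.Δ.natAbs.primeFactors with hS₂
  have hsub : (↑S : Set ℕ) ⊆ (↑S₂ : Set ℕ) := by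
    intro x hx
    exact Finset.mem_coe.2 (Finset.mem_union_left _ (Finset.mem_coe.1 hx))
  let incl : heckeAlgebra M 2 (↑S₂ : Set ℕ) →+* heckeAlgebra M 2 (↑S : Set ℕ) :=
    (Subalgebra.inclusion (heckeAlgebra_mono hsub)).toRingHom
  have hincl : ∀ (ℓ : ℕ) (hℓ : ℓ.Prime) (hℓM : ¬ ℓ ∣ M) (hℓS₂ : ℓ ∉ (↑S₂ : Set ℕ)),
      incl (heckeAlgebra.T hℓ hℓM hℓS₂) = heckeAlgebra.T hℓ hℓM (fun h => hℓS₂ (hsub h)) := by
    intro ℓ hℓ hℓM hℓS₂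
    rfl
  have hgood : ∀ ℓ : ℕ, ℓ.Prime → ℓ ∉ (↑S₂ : Set ℕ) → W.IsGoodPrimeFor ℓ := by
    intro ℓ hℓ hℓS₂ hd
    apply hℓS₂
    refine Finset.mem_coe.2 (Finset.mem_union_right _ ?_)
    rw [Nat.mem_primeFactors]
    exact ⟨hℓ, Int.natCast_dvd.mp hd, Int.natAbs_ne_zero.mpr hΔ⟩
  have hMS₂ : ∀ q : ℕ, q.Prime → q ∣ M → q ∈ S₂ := fun q hq hqM =>
    Finset.mem_union_left _ (hMS q hq hqM)
  obtain ⟨θ₀, hθ₀⟩ := exists_zmod_char (p := p) S₂ hMS₂ (θ.comp incl) (fun ℓ => W.apOfModel ℓ)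
    (fun ℓ hℓ hℓM hℓS₂ => by
      rw [RingHom.comp_apply, hincl ℓ hℓ hℓM hℓS₂]
      exact hθ ℓ hℓ hℓM _ (hgood ℓ hℓ hℓS₂))
  obtain ⟨g, 𝔪', hg, h𝔪', hp𝔪', hcong⟩ :=
    Fermat.Agent.S59lib.S3Proj.exists_eigenform_of_modp_char (M := M) (↑S₂ : Set ℕ) θ₀
  refine ⟨g, 𝔪', hg, h𝔪', hp𝔪', ?_⟩
  intro ℓ hℓ hgoodℓ hℓM hℓp
  have hℓS₂ : ℓ ∉ (↑S₂ : Set ℕ) := by
    intro h
    rcases Finset.mem_union.1 (Finset.mem_coe.1 h) with h1 | h1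
    · have hdvd := hS ℓ h1 hℓ hgoodℓ
      rcases (Nat.Prime.dvd_mul hℓ).1 hdvd with h2 | h2
      · exact hℓM h2
      · exact hℓp ((Nat.prime_dvd_prime_iff_eq hℓ hpf.out).1 h2)
    · exact hgoodℓ (Int.natCast_dvd.2 (Nat.dvd_of_mem_primeFactors h1))
  exact hcong ℓ hℓ hℓM hℓS₂ (W.apOfModel ℓ) (hθ₀ ℓ hℓ hℓM hℓS₂)

section

variable (W : WeierstrassCurve ℤ) (hΔ : W.Δ ≠ 0) (p : ℕ) [hpf : Fact p.Prime]
variable {𝒪 : Type} [CommRing 𝒪] [IsDomain 𝒪] [IsDiscreteValuationRing 𝒪]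
  [IsAdicComplete (maximalIdeal 𝒪) 𝒪] [Algebra (ZMod p) (ResidueField 𝒪)]
  {N : ℕ} [NeZero N] {S : Finset ℕ}
  {θ : heckeAlgebra N 2 (↑S : Set ℕ) →+* ResidueField 𝒪}
  {T : Type} [CommRing T] [IsLocalRing T] [IsNoetherianRing T]
  [IsAdicComplete (maximalIdeal T) T] [Algebra 𝒪 T] [IsLocalHom (algebraMap 𝒪 T)]
  [Module.Finite 𝒪 T] [Module.Free 𝒪 T]
  (H : HeckeGaloisRepDatum N (↑S : Set ℕ) 𝒪 θ T)
  (he : H.ρ.residual.IsEquiv (((resRepE W hΔ p).baseChange (ResidueField 𝒪)).baseChangeAlong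
    (ResidueField.map (algebraMap 𝒪 T))))

include he in
/-- **the eigensystem is new at the primes where `ρ̄` is ramified** -/
theorem hnew_of_ramified (hp2 : p ≠ 2) (hirr : W.ModRepIsIrreducible p) (hpS : p ∈ S)
    (hNS : ∀ q : ℕ, q.Prime → q ∣ N → q ∈ S)
    {r : ℕ} (hr : r.Prime) (hrp : r ≠ p)
    (hram : ¬ Fermat.Agent.S59lib.ModPUnramifiedAt W p r)
    {M' : ℕ} [NeZero M'] (hM' : N = M' * r) (hrM' : ¬ r ∣ M')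
    (hSgood : ∀ ℓ ∈ S, ℓ.Prime → W.IsGoodPrimeFor ℓ → ℓ ∣ M' * p) :
    ¬ ∃ θ' : heckeAlgebra M' 2 (↑S : Set ℕ) →+* ResidueField 𝒪,
      ∀ (ℓ : ℕ) (hℓ : ℓ.Prime) (hℓN : ¬ ℓ ∣ N) (hℓM' : ¬ ℓ ∣ M') (hℓS : ℓ ∉ (↑S : Set ℕ)),
        θ' (heckeAlgebra.T hℓ hℓM' hℓS) = θ (heckeAlgebra.T hℓ hℓN hℓS) := by
  rintro ⟨θ', hθ'⟩
  have hdvd : M' ∣ N := ⟨r, hM'⟩
  have hpos : 0 < M' := Nat.pos_of_ne_zero (NeZero.ne _)
  refine hram (modPUnramifiedAt_of_resMod W hΔ p hp2 hirr hpos ?_ hr hrp hrM')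
  refine isResiduallyModularOfLevel_of_charS (p := p) W hΔ S hSgood ?_ θ' ?_
  · intro q hq hqM
    exact hNS q hq (hqM.trans hdvd)
  · intro ℓ hℓ hℓM hℓS hgood
    have hℓN : ¬ ℓ ∣ N := fun h => hℓS (Finset.mem_coe.2 (hNS ℓ hℓ h))
    rw [hθ' ℓ hℓ hℓN hℓM hℓS]
    exact theta_eq_ap W hΔ p H he hpS ℓ hℓ hℓN hℓS hgood

include he in
/-- **the eigensystem is `p`-new when no cube-free level prime to `p` exists** (`hnew_of_noLevel` with the level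
`M'` given by an equation `N = M' p`) -/
theorem hnew_of_noLevel' (hno : Fermat.Agent.S59lib.NoLevelPrimeTo W p) (hpS : p ∈ S)
    (hNS : ∀ q : ℕ, q.Prime → q ∣ N → q ∈ S)
    (hcube : ∀ q : ℕ, q.Prime → ¬ q ^ 3 ∣ N)
    {M' : ℕ} [NeZero M'] (hM' : N = M' * p) (hpM' : ¬ p ∣ M')
    (hSgood : ∀ ℓ ∈ S, ℓ.Prime → W.IsGoodPrimeFor ℓ → ℓ ∣ M' * p) :
    ¬ ∃ θ' : heckeAlgebra M' 2 (↑S : Set ℕ) →+* ResidueField 𝒪,
      ∀ (ℓ : ℕ) (hℓ : ℓ.Prime) (hℓN : ¬ ℓ ∣ N) (hℓM' : ¬ ℓ ∣ M') (hℓS : ℓ ∉ (↑S : Set ℕ)),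
        θ' (heckeAlgebra.T hℓ hℓM' hℓS) = θ (heckeAlgebra.T hℓ hℓN hℓS) := by
  rintro ⟨θ', hθ'⟩
  have hdvd : M' ∣ N := ⟨p, hM'⟩
  have hpos : 0 < M' := Nat.pos_of_ne_zero (NeZero.ne _)
  have hcf : Fermat.Agent.S59lib.IsCubeFree M' := fun q hq h3 => hcube q hq (h3.trans hdvd)
  refine hno M' hpos hpM' hcf ?_
  refine isResiduallyModularOfLevel_of_charS (p := p) W hΔ S hSgood ?_ θ' ?_
  · intro q hq hqM
    exact hNS q hq (hqM.trans hdvd)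
  · intro ℓ hℓ hℓM hℓS hgood
    have hℓN : ¬ ℓ ∣ N := fun h => hℓS (Finset.mem_coe.2 (hNS ℓ hℓ h))
    rw [hθ' ℓ hℓ hℓN hℓM hℓS]
    exact theta_eq_ap W hΔ p H he hpS ℓ hℓ hℓN hℓS hgood

end

end Fermat.Agent.S59lib.Hub
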