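/-
S59lib / Hub / HSHub (helper7) — Project I: **hub-side inputs of helper2's (HS)** for the contexts of `(W, p)`.

* `WIn.mem_Smin_of_dvd_lvlTw` : a prime `r ∉ Aux` dividing `lvlTw P S'` exactly once is a prime of `Smin`;
* `WIn.hone_hub` : **the hypothesis `hone` of `HS.hs_sigma` / `HS.hs_pstep`** at the level `lvlTw P S'`: for `r ∥ lvlTw P S'`,
  `r ∉ Aux`, `r ≠ p`, the residual character `Sg.D.θ S'` does not factor through the level `M'`, `lvlTw P S' = M' r`;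
* `WIn.hone_hub_ord` : the same at the ordinary level `lvlOrd P S' = lvlTw P S' · p`.
-/
import Mathlib
import Fermat.Agent.S59lib.Hub.WNew
import Fermat.Agent.S59lib.Hub.OrdT

set_option autoImplicit false
set_option linter.unusedSectionVars false
set_option linter.unusedVariables false
set_option linter.style.haveILetI false

noncomputable section

namespace Fermat.Agent.S59lib.Hub

open IsLocalRing Polynomial CuspForm Fermat.Agent.S43lib.B3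

local notation "GQ" => (AlgebraicClosure ℚ ≃ₐ[ℚ] AlgebraicClosure ℚ)
local notation "Qb" => AlgebraicClosure ℚ

namespace WIn

variable (I : WIn) (𝒟 : DefType) (gs : GSFor I.p I.Smin 𝒟) (hT : I.HeckeTypeFor 𝒟)

/-- a prime of `Smin ∖ {p}` is a prime of bad reduction -/
theorem bad_of_mem_Smin {q : ℕ} (hq : q.Prime) (hqp : q ≠ I.p) (hqS : q ∈ I.Smin) :
    ¬ I.W.IsGoodPrimeFor q := by
  intro hgood
  have h1 : q ∣ I.B := (I.mem_Smin_iff hq hqp).1 hqS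
  exact (I.B_ram q hq hqp).1 h1 (modPUnramifiedAt_of_good I.W I.p hq hqp hgood)

/-- a prime `r ∉ Aux` dividing `lvlTw P S'` exactly once is a prime of `Smin` -/
theorem mem_Smin_of_dvd_lvlTw (S' : Finset ℕ) {r : ℕ} (hr : r.Prime)
    (hrA : r ∉ I.Aux) (hrd : r ∣ lvlTw (I.mkCtx 𝒟 gs hT) S')
    (hr2 : ¬ r ^ 2 ∣ lvlTw (I.mkCtx 𝒟 gs hT) S') : r ∈ I.Smin := by
  set P : Ctx := I.mkCtx 𝒟 gs hT with hP
  have hrR0 : r ∣ P.R0 := by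
    rcases prime_dvd_lvlTw P hr hrd with h | h
    · exact h
    · exfalso
      apply hr2
      have h1 : r ∣ tp P S' := dvd_tp P hr h.1 h.2
      rw [lvlTw_def, pow_two, mul_assoc]
      exact Dvd.dvd.mul_left (Nat.mul_dvd_mul h1 h1) _
  rcases Finset.mem_union.1 (P.R0_primes r hr hrR0) with h | h
  · exact h
  · exact absurd h hrA

/-- a prime `r ∉ Aux`, `r ≠ p`, dividing `lvlTw P S'` exactly once is a prime where `ρ̄` is ramified -/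
theorem ram_of_dvd_lvlTw' (S' : Finset ℕ) {r : ℕ} (hr : r.Prime) (hrp : r ≠ I.p)
    (hrA : r ∉ I.Aux) (hrd : r ∣ lvlTw (I.mkCtx 𝒟 gs hT) S')
    (hr2 : ¬ r ^ 2 ∣ lvlTw (I.mkCtx 𝒟 gs hT) S') :
    ¬ Fermat.Agent.S59lib.ModPUnramifiedAt I.W I.p r :=
  (I.B_ram r hr hrp).1 ((I.mem_Smin_iff hr hrp).1
    (I.mem_Smin_of_dvd_lvlTw 𝒟 gs hT S' hr hrA hrd hr2))

/-- the good primes of `S' ∪ Aux` divide `M' p`, `lvlTw P S' = M' r` (resp. any multiple `L = M' r` of `lvlTw P S'`) -/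
theorem good_dvd_of_mem (S' : Finset ℕ) {r M' L : ℕ} (hr : r.Prime) (hrS : r ∈ I.Smin)
    (hrA : r ∉ I.Aux) (hL : lvlTw (I.mkCtx 𝒟 gs hT) S' ∣ L) (hM' : L = M' * r)
    (ℓ : ℕ) (hℓS : ℓ ∈ S' ∪ I.Aux) (hℓ : ℓ.Prime) (hgood : I.W.IsGoodPrimeFor ℓ) :
    ℓ ∣ M' * I.p := by
  have key : ℓ ∣ lvlTw (I.mkCtx 𝒟 gs hT) S' → ℓ ≠ r → ℓ ∣ M' * I.p := by
    intro h1 hne
    have h2 : ℓ ∣ M' * r := hM' ▸ h1.trans hL
    rcases (Nat.Prime.dvd_mul hℓ).1 h2 with h3 | h3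
    · exact h3.mul_right _
    · exact absurd ((Nat.prime_dvd_prime_iff_eq hℓ hr).1 h3) hne
  rcases Finset.mem_union.1 hℓS with h | h
  · by_cases hℓSmin : ℓ ∈ I.Smin
    · by_cases hℓp : ℓ = I.p
      · rw [hℓp]
        exact dvd_mul_left _ _
      · exact absurd hgood (I.bad_of_mem_Smin hℓ hℓp hℓSmin)
    · refine key ((dvd_tp (I.mkCtx 𝒟 gs hT) hℓ h hℓSmin).trans ?_) (fun he => hℓSmin (he ▸ hrS))
      rw [lvlTw_def, mul_assoc]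
      exact Dvd.dvd.mul_left (Dvd.intro _ rfl) _
  · exact key (((I.mkCtx 𝒟 gs hT).Aux_dvd ℓ h).trans (R0_dvd_lvlTw (I.mkCtx 𝒟 gs hT) S'))
      (fun he => hrA (he ▸ h))

theorem ram_of_dvd_lvlTw (S' : Finset ℕ) {r M' : ℕ} (hr : r.Prime) (hrp : r ≠ I.p)
    (hrA : r ∉ I.Aux) (hM' : lvlTw (I.mkCtx 𝒟 gs hT) S' = M' * r) (hrM' : ¬ r ∣ M') :
    ¬ Fermat.Agent.S59lib.ModPUnramifiedAt I.W I.p r := by
  refine I.ram_of_dvd_lvlTw' 𝒟 gs hT S' hr hrp hrA ⟨M', by rw [hM', mul_comm]⟩ ?_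
  intro h
  rw [hM', pow_two] at h
  exact hrM' ((Nat.mul_dvd_mul_iff_right hr.pos).1 h)

/-- **`hone` of (HS) on the hub**: the residual character of level `lvlTw P S'` is new at the primes `r ∥ lvlTw P S'`
outside `Aux ∪ {p}` -/
theorem hone_hub (Sg : SideGal (I.mkCtx 𝒟 gs hT) ∅) (S' : Finset ℕ) (hS' : Sg.good S')
    (r M' : ℕ) [NeZero M'] (hr : r.Prime) (hrp : r ≠ I.p) (hrA : r ∉ I.Aux)
    (hM' : lvlTw (I.mkCtx 𝒟 gs hT) S' = M' * r) (hrM' : ¬ r ∣ M') :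
    ¬ ∃ χ : heckeAlgebra M' 2 (↑(S' ∪ I.Aux) : Set ℕ) →+* ResidueField Sg.𝒪,
      ∀ (ℓ : ℕ) (hℓ : ℓ.Prime) (hℓM : ¬ ℓ ∣ lvlTw (I.mkCtx 𝒟 gs hT) S') (hℓM' : ¬ ℓ ∣ M')
        (hℓS : ℓ ∉ (↑(S' ∪ I.Aux) : Set ℕ)),
        χ (heckeAlgebra.T hℓ hℓM' hℓS) = Sg.D.θ S' hS' (heckeAlgebra.T hℓ hℓM hℓS) := by
  letI : Algebra (ZMod I.p) (ResidueField Sg.𝒪) := Sg.instAlgebraZMod
  have hrd : r ∣ lvlTw (I.mkCtx 𝒟 gs hT) S' := ⟨M', by rw [hM', mul_comm]⟩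
  have hr2 : ¬ r ^ 2 ∣ lvlTw (I.mkCtx 𝒟 gs hT) S' := by
    intro h
    rw [hM', pow_two] at h
    exact hrM' ((Nat.mul_dvd_mul_iff_right hr.pos).1 h)
  have hrS := I.mem_Smin_of_dvd_lvlTw 𝒟 gs hT S' hr hrA hrd hr2
  have hram := I.ram_of_dvd_lvlTw' 𝒟 gs hT S' hr hrp hrA hrd hr2
  have he := heckeDatum_residual_isEquiv (Sg.D.H S' hS') I.ρ₀ (I.mkCtx 𝒟 gs hT).a
    (I.mkCtx 𝒟 gs hT).S₀ (I.mkCtx 𝒟 gs hT).h₀ (Sg.D.hθ S' hS')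
  exact hnew_of_ramified I.W I.hΔ I.p (Sg.D.H S' hS') he I.hp2 I.hirr (Sg.D.p_mem' S' hS')
    (Sg.D.primes_mem S' hS') hr hrp hram hM' hrM'
    (I.good_dvd_of_mem 𝒟 gs hT S' hr hrS hrA dvd_rfl hM')

/-- **`hone` of (HS-p) on the hub**: the residual character of the ordinary level `lvlOrd P S'` is new at the primes
`r ∥ lvlOrd P S'` outside `Aux ∪ {p}` -/
theorem hone_hub_ord (Sg : SideGal (I.mkCtx 𝒟 gs hT) ∅) (S' : Finset ℕ) (hS' : Sg.good S')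
    (Dt : OrdDatum Sg S')
    (r M' : ℕ) [NeZero M'] (hr : r.Prime) (hrp : r ≠ I.p) (hrA : r ∉ I.Aux)
    (hM' : lvlOrd (I.mkCtx 𝒟 gs hT) S' = M' * r) (hrM' : ¬ r ∣ M') :
    ¬ ∃ χ : heckeAlgebra M' 2 (↑(S' ∪ I.Aux) : Set ℕ) →+* ResidueField Sg.𝒪,
      ∀ (ℓ : ℕ) (hℓ : ℓ.Prime) (hℓM : ¬ ℓ ∣ lvlOrd (I.mkCtx 𝒟 gs hT) S') (hℓM' : ¬ ℓ ∣ M')
        (hℓS : ℓ ∉ (↑(S' ∪ I.Aux) : Set ℕ)),
        χ (heckeAlgebra.T hℓ hℓM' hℓS) = Dt.θ (heckeAlgebra.T hℓ hℓM hℓS) := by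
  letI : Algebra (ZMod I.p) (ResidueField Sg.𝒪) := Sg.instAlgebraZMod
  have hrd : r ∣ lvlOrd (I.mkCtx 𝒟 gs hT) S' := ⟨M', by rw [hM', mul_comm]⟩
  have hr2 : ¬ r ^ 2 ∣ lvlOrd (I.mkCtx 𝒟 gs hT) S' := by
    intro h
    rw [hM', pow_two] at h
    exact hrM' ((Nat.mul_dvd_mul_iff_right hr.pos).1 h)
  have hrd' : r ∣ lvlTw (I.mkCtx 𝒟 gs hT) S' := by
    have := (pow_dvd_lvlOrd_iff (P := I.mkCtx 𝒟 gs hT) hr hrp S' 1).1 (by rwa [pow_one])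
    rwa [pow_one] at this
  have hr2' : ¬ r ^ 2 ∣ lvlTw (I.mkCtx 𝒟 gs hT) S' := fun h =>
    hr2 ((pow_dvd_lvlOrd_iff (P := I.mkCtx 𝒟 gs hT) hr hrp S' 2).2 h)
  have hrS := I.mem_Smin_of_dvd_lvlTw 𝒟 gs hT S' hr hrA hrd' hr2'
  have hram := I.ram_of_dvd_lvlTw' 𝒟 gs hT S' hr hrp hrA hrd' hr2'
  have he := heckeDatum_residual_isEquiv Dt.H I.ρ₀ (I.mkCtx 𝒟 gs hT).a
    (I.mkCtx 𝒟 gs hT).S₀ (I.mkCtx 𝒟 gs hT).h₀ Dt.hθ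
  exact hnew_of_ramified I.W I.hΔ I.p Dt.H he I.hp2 I.hirr
    (Finset.mem_union_left _ (goodTw_p_mem hS'))
    (fun q hq h => lvlOrd_primes_mem hS' q hq h) hr hrp hram hM' hrM'
    (I.good_dvd_of_mem 𝒟 gs hT S' hr hrS hrA (lvlTw_dvd_lvlOrd S') hM')

/-- **`hone` of (HS) on the hub at `r = p`** (`p ∥ lvlTw P S'`, no cube-free level prime to `p`): the residual
character is `p`-new -/
theorem hone_hub_p (hno : Fermat.Agent.S59lib.NoLevelPrimeTo I.W I.p)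
    (Sg : SideGal (I.mkCtx 𝒟 gs hT) ∅) (S' : Finset ℕ) (hS' : Sg.good S')
    (M' : ℕ) [NeZero M'] (hM' : lvlTw (I.mkCtx 𝒟 gs hT) S' = M' * I.p) (hpM' : ¬ I.p ∣ M') :
    ¬ ∃ χ : heckeAlgebra M' 2 (↑(S' ∪ I.Aux) : Set ℕ) →+* ResidueField Sg.𝒪,
      ∀ (ℓ : ℕ) (hℓ : ℓ.Prime) (hℓM : ¬ ℓ ∣ lvlTw (I.mkCtx 𝒟 gs hT) S') (hℓM' : ¬ ℓ ∣ M')
        (hℓS : ℓ ∉ (↑(S' ∪ I.Aux) : Set ℕ)),
        χ (heckeAlgebra.T hℓ hℓM' hℓS) = Sg.D.θ S' hS' (heckeAlgebra.T hℓ hℓM hℓS) := by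
  letI : Algebra (ZMod I.p) (ResidueField Sg.𝒪) := Sg.instAlgebraZMod
  have he := heckeDatum_residual_isEquiv (Sg.D.H S' hS') I.ρ₀ (I.mkCtx 𝒟 gs hT).a
    (I.mkCtx 𝒟 gs hT).S₀ (I.mkCtx 𝒟 gs hT).h₀ (Sg.D.hθ S' hS')
  refine hnew_of_noLevel' I.W I.hΔ I.p (Sg.D.H S' hS') he hno (Sg.D.p_mem' S' hS')
    (Sg.D.primes_mem S' hS') (Sg.D.hcube S' hS') hM' hpM' ?_
  exact I.good_dvd_of_mem 𝒟 gs hT S' I.pp I.hpSmin
    (fun h => (I.Aux_spec I.p h).2.2.1 rfl) dvd_rfl hM'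

end WIn

end Fermat.Agent.S59lib.Hub
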