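/-
S59lib / Hub / HSInst (helper7) — Project I: **hub-side inputs of the (HS) instantiations, II**.

* `residue_point_datum` : `residue (ψ (H.π t)) = θ t` for every point `ψ` of a Hecke datum;
* `WIn.residue_point_eq_ap` : for a point `π` of the hub's Hecke ring of level `lvlTw P S'`,
  `residue (π (π T_ℓ)) = a_ℓ(W)` at the good primes;
* `WIn.hnew_B`, `WIn.hnew_B_p` : **newness at the `Aux`-free level `B`** (for the choice of the signs at the level `B`,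
  helper5's `exists_signs_of_anemic`): a system `t` with `t ℓ = a_ℓ(W)` at the good primes does not occur at the level
  `B / r`, `r ∥ B` (`r ≠ p`: `ρ̄` is ramified at `r`; `r = p`: no cube-free level prime to `p`).
-/
import Mathlib
import Fermat.Agent.S59lib.Hub.HSHub
import Fermat.Agent.S59lib.Hub.RTAsm
import Fermat.Agent.S59lib.Nu.Restrict
import Fermat.Agent.S59lib.HS.Chain

set_option autoImplicit false
set_option linter.unusedSectionVars false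
set_option linter.unusedVariables false
set_option linter.style.haveILetI false

noncomputable section

namespace Fermat.Agent.S59lib.Hub

open IsLocalRing Polynomial CuspForm Fermat.Agent.S43lib.B3

local notation "GQ" => (AlgebraicClosure ℚ ≃ₐ[ℚ] AlgebraicClosure ℚ)
local notation "Qb" => AlgebraicClosure ℚ

/-- **the residual eigenvalues of a point of a Hecke datum** -/
theorem residue_point_datum {N : ℕ} [NeZero N] {S : Set ℕ}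
    {𝒪 : Type} [CommRing 𝒪] [IsDomain 𝒪] [IsDiscreteValuationRing 𝒪]
    [IsAdicComplete (maximalIdeal 𝒪) 𝒪]
    {θ : heckeAlgebra N 2 S →+* ResidueField 𝒪}
    {T : Type} [CommRing T] [IsLocalRing T] [IsNoetherianRing T]
    [IsAdicComplete (maximalIdeal T) T] [Algebra 𝒪 T] [IsLocalHom (algebraMap 𝒪 T)]
    [Module.Finite 𝒪 T] [Module.Free 𝒪 T]
    (H : HeckeGaloisRepDatum N S 𝒪 θ T) (ψ : T →ₐ[𝒪] 𝒪) (t : heckeAlgebra N 2 S) :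
    residue 𝒪 (ψ (H.π t)) = θ t := by
  have hsurj : Function.Surjective (ψ : T →+* 𝒪) := fun c => ⟨algebraMap 𝒪 T c, by
    show ψ (algebraMap 𝒪 T c) = c
    rw [AlgHom.commutes]
    rfl⟩
  haveI hloc : IsLocalHom (ψ : T →+* 𝒪) := IsLocalHom.of_surjective _ hsurj
  have h1 : residue 𝒪 (ψ (H.π t)) = ResidueField.map (ψ : T →+* 𝒪) (residue T (H.π t)) :=
    (ResidueField.map_residue (ψ : T →+* 𝒪) (H.π t)).symm
  rw [h1, H.residue_π]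
  have h2 : (ResidueField.map (ψ : T →+* 𝒪)).comp (ResidueField.map (algebraMap 𝒪 T)) =
      RingHom.id (ResidueField 𝒪) := by
    rw [← ResidueField.map_comp]
    have h3 : (ψ : T →+* 𝒪).comp (algebraMap 𝒪 T) = RingHom.id 𝒪 := by
      ext c
      show ψ (algebraMap 𝒪 T c) = c
      rw [AlgHom.commutes]
      rfl
    simp only [h3]
    exact ResidueField.map_id
  exact RingHom.congr_fun h2 (θ t)

/-! ### generic hub contexts -/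

section Generic

open Fermat.Agent.S43lib.Mod4 Fermat.Agent.S43lib.Mod4.Hub Fermat.Agent.S56lib.TWSel ExtCitation

variable {P : Ctx} (Sg : SideGal P ∅)

/-- `hev` at the base: `π₀(T_ℓ) = aBase ℓ` -/
theorem hev0_hub (π₀ : (Tmin Sg).R →ₐ[Sg.𝒪] Sg.𝒪) (ℓ : ℕ) (hℓ : ℓ.Prime)
    (hℓN : ¬ ℓ ∣ lvlTw P Sg.S) (hℓS : ℓ ∉ (↑(Sg.S ∪ P.Aux) : Set ℕ)) :
    π₀ (heckeLocal.π _ _ _ _ (heckeAlgebra.T hℓ hℓN hℓS)) = aBase Sg π₀ ℓ := by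
  rw [aBase_of_prime Sg π₀ hℓ]
  have h := heckeTr_trace_frob Sg.D Sg.S (Sg.hgoodS (thyp_empty P)) ℓ hℓ hℓN hℓS
    (primeLocalPlace ⟨ℓ, hℓ⟩) (primeLocalPlace_liesOverPrime ⟨ℓ, hℓ⟩)
    (globFrobAt ⟨ℓ, hℓ⟩) (globFrobAt_isFrobeniusAt ⟨ℓ, hℓ⟩)
  exact (congrArg π₀ h).symm

/-- `hev` at the level `Σ`: `π_Σ(T_ℓ) = aBase ℓ` -/
theorem hev_hub (π₀ : (Tmin Sg).R →ₐ[Sg.𝒪] Sg.𝒪) (Sig : Finset ℕ)
    (hSig : Sg.good (Sg.S ∪ Sig)) (πS : (Sg.F (Sg.S ∪ Sig) hSig).R →ₐ[Sg.𝒪] Sg.𝒪)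
    (htr : ∀ σ : GQ, πS ((Sg.F (Sg.S ∪ Sig) hSig).ρ.trace σ) = π₀ ((Tmin Sg).ρ.trace σ))
    (ℓ : ℕ) (hℓ : ℓ.Prime) (hℓM : ¬ ℓ ∣ lvlTw P (Sg.S ∪ Sig))
    (hℓS : ℓ ∉ (↑((Sg.S ∪ Sig) ∪ P.Aux) : Set ℕ)) :
    πS (heckeLocal.π _ _ _ _ (heckeAlgebra.T hℓ hℓM hℓS)) = aBase Sg π₀ ℓ := by
  rw [aBase_of_prime Sg π₀ hℓ, ← htr]
  have h := heckeTr_trace_frob Sg.D (Sg.S ∪ Sig) hSig ℓ hℓ hℓM hℓS
    (primeLocalPlace ⟨ℓ, hℓ⟩) (primeLocalPlace_liesOverPrime ⟨ℓ, hℓ⟩)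
    (globFrobAt ⟨ℓ, hℓ⟩) (globFrobAt_isFrobeniusAt ⟨ℓ, hℓ⟩)
  exact (congrArg πS h).symm

/-- `hev` at the ordinary level: `π'(T_ℓ) = aBase ℓ` -/
theorem hev_hub_ord (π₀ : (Tmin Sg).R →ₐ[Sg.𝒪] Sg.𝒪) (S' : Finset ℕ) (Dt : OrdDatum Sg S')
    (π' : heckeLocal (lvlOrd P S') (↑(S' ∪ P.Aux) : Set ℕ) Sg.𝒪 Dt.θ →ₐ[Sg.𝒪] Sg.𝒪)
    (htr : ∀ σ : GQ, π' (Dt.H.ρ.trace σ) = π₀ ((Tmin Sg).ρ.trace σ))
    (ℓ : ℕ) (hℓ : ℓ.Prime) (hℓM : ¬ ℓ ∣ lvlOrd P S')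
    (hℓS : ℓ ∉ (↑(S' ∪ P.Aux) : Set ℕ)) :
    π' (heckeLocal.π _ _ _ _ (heckeAlgebra.T hℓ hℓM hℓS)) = aBase Sg π₀ ℓ := by
  rw [aBase_of_prime Sg π₀ hℓ, ← htr]
  have h1 := heckeDatum_trace_frob Dt.H ℓ hℓ hℓM hℓS
    (primeLocalPlace ⟨ℓ, hℓ⟩) (primeLocalPlace_liesOverPrime ⟨ℓ, hℓ⟩)
    (globFrobAt ⟨ℓ, hℓ⟩) (globFrobAt_isFrobeniusAt ⟨ℓ, hℓ⟩)
  rw [Dt.hπ] at h1
  exact (congrArg π' h1).symm

/-- the residue of `aBase ℓ` is the Frobenius trace of `ρ̄` -/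
theorem residue_aBase (π₀ : (Tmin Sg).R →ₐ[Sg.𝒪] Sg.𝒪) (ℓ : ℕ) (hℓ : ℓ.Prime)
    (hℓN : ¬ ℓ ∣ lvlTw P Sg.S) (hℓS : ℓ ∉ (↑(Sg.S ∪ P.Aux) : Set ℕ)) :
    residue Sg.𝒪 (aBase Sg π₀ ℓ) = tS Sg ℓ := by
  rw [← hev0_hub Sg π₀ ℓ hℓ hℓN hℓS]
  have h1 := residue_point_datum (Sg.D.H Sg.S (Sg.hgoodS (thyp_empty P))) π₀
    (heckeAlgebra.T hℓ hℓN hℓS)
  rw [Sg.D.H_π Sg.S (Sg.hgoodS (thyp_empty P))] at h1
  exact h1.trans (hubHyp_hθ Sg Sg.S (Sg.hgoodS (thyp_empty P)) ℓ hℓ hℓN hℓS)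

/-- **non-Eisenstein primes for the base point** -/
theorem hu_hub (π₀ : (Tmin Sg).R →ₐ[Sg.𝒪] Sg.𝒪) (S₁ : Finset ℕ) :
    ∃ ℓ₁ : ℕ, ℓ₁.Prime ∧ ℓ₁ ∉ S₁ ∧ ¬ ℓ₁ ∣ lvlTw P Sg.S ∧ ℓ₁ ∉ (↑(Sg.S ∪ P.Aux) : Set ℕ) ∧
      IsUnit (aBase Sg π₀ ℓ₁ - ((ℓ₁ : Sg.𝒪) + 1)) := by
  classical
  obtain ⟨ℓ₁, hℓ₁, hℓS, -, hne⟩ := hubHyp_hne Sg 1 Nat.one_pos
    (S₁ ∪ (Sg.S ∪ P.Aux) ∪ (lvlTw P Sg.S).primeFactors)
  have h1 : ℓ₁ ∉ S₁ := fun h =>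
    hℓS (Finset.mem_union_left _ (Finset.mem_union_left _ h))
  have hℓS' : ℓ₁ ∉ (↑(Sg.S ∪ P.Aux) : Set ℕ) := fun h =>
    hℓS (Finset.mem_union_left _ (Finset.mem_union_right _ (Finset.mem_coe.1 h)))
  have hℓN : ¬ ℓ₁ ∣ lvlTw P Sg.S := fun h =>
    hℓS (Finset.mem_union_right _ (Nat.mem_primeFactors.2 ⟨hℓ₁, h, NeZero.ne _⟩))
  refine ⟨ℓ₁, hℓ₁, h1, hℓN, hℓS', ?_⟩
  by_contra hnu
  have hm : aBase Sg π₀ ℓ₁ - ((ℓ₁ : Sg.𝒪) + 1) ∈ maximalIdeal Sg.𝒪 :=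
    (mem_maximalIdeal _).mpr hnu
  have h4 := (residue_eq_zero_iff _).mpr hm
  rw [map_sub, residue_aBase Sg π₀ ℓ₁ hℓ₁ hℓN hℓS', sub_eq_zero] at h4
  apply hne
  rw [h4]
  simp

/-- the base level -/
theorem lvlTw_S : lvlTw P Sg.S = P.R0 := by
  classical
  have h1 : tp P Sg.S = 1 := by
    unfold tp
    apply Finset.prod_eq_one
    intro ℓ hℓ
    exfalso
    obtain ⟨h2, -⟩ := Finset.mem_filter.1 hℓ
    obtain ⟨h3, h4⟩ := Finset.mem_sdiff.1 h2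
    rcases Finset.mem_union.1 h3 with h | h
    · exact h4 h
    · exact absurd h (Finset.notMem_empty ℓ)
  rw [lvlTw_def, h1, mul_one, mul_one]

/-- the two forms of the constant of the `Σ`-step generate the same ideal -/
theorem span_cTw_eq_span_cTame (a : ℕ → Sg.𝒪) (q : ℕ) :
    (Ideal.span {Fermat.Agent.S59lib.HS.cTw q (a q)} : Ideal Sg.𝒪) =
      Ideal.span {Fermat.Agent.S59lib.RT.cTame a q} := by
  have h : Fermat.Agent.S59lib.HS.cTw q (a q) = - Fermat.Agent.S59lib.RT.cTame a q := by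
    unfold Fermat.Agent.S59lib.HS.cTw Fermat.Agent.S59lib.RT.cTame
    ring
  rw [h, Ideal.span_singleton_neg]

/-- **the list of the primes of `Σ`** and the level `lvlTw P (Smin ∪ Σ) = R0 ∏ q²` in the shape of (HS-Σ) -/
theorem exists_list_sigma (Sig : Finset ℕ) (hSigp : ∀ q ∈ Sig, q.Prime)
    (hSigS : Disjoint Sg.S Sig) :
    ∃ l : List Nat.Primes, l.Nodup ∧ (∀ q' ∈ l, ((q' : Nat.Primes) : ℕ) ∈ Sig) ∧
      (∀ q ∈ Sig, ∃ q' ∈ l, ((q' : Nat.Primes) : ℕ) = q) ∧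
      lvlTw P (Sg.S ∪ Sig) = Fermat.Agent.S59lib.HS.lvlP P.R0 l ∧
      ∀ f : ℕ → ℕ∞, (l.map fun q' : Nat.Primes => f (q' : ℕ)).sum = ∑ q ∈ Sig, f q := by
  classical
  let g : {x // x ∈ Sig} → Nat.Primes := fun x => ⟨x.1, hSigp x.1 x.2⟩
  have hg : Function.Injective g := by
    intro x y hxy
    apply Subtype.ext
    exact congrArg (fun z : Nat.Primes => (z : ℕ)) hxy
  refine ⟨Sig.attach.toList.map g, (Finset.nodup_toList _).map hg, ?_, ?_, ?_, ?_⟩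
  · intro q' hq'
    obtain ⟨x, -, rfl⟩ := List.mem_map.1 hq'
    exact x.2
  · intro q hq
    refine ⟨g ⟨q, hq⟩, List.mem_map.2 ⟨⟨q, hq⟩, ?_, rfl⟩, rfl⟩
    exact Finset.mem_toList.2 (Finset.mem_attach _ _)
  · have hprod : ((Sig.attach.toList.map g).map (fun q : Nat.Primes => (q : ℕ))).prod =
        ∏ q ∈ Sig, q := by
      rw [List.map_map]
      have h1 : ((fun q : Nat.Primes => (q : ℕ)) ∘ g) = fun x : {x // x ∈ Sig} => (x : ℕ) := rfl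
      rw [h1, Finset.prod_map_toList]
      exact Finset.prod_attach Sig (fun q => q)
    have htp : tp P (Sg.S ∪ Sig) = ∏ q ∈ Sig, q := by
      rw [tp_eq]
      · congr 1
        ext q
        rw [Finset.mem_sdiff]
        constructor
        · rintro ⟨h1, h2⟩
          rcases Finset.mem_union.1 h1 with h | h
          · rcases Finset.mem_union.1 h with h' | h'
            · exact absurd h' h2
            · exact absurd h' (Finset.notMem_empty q)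
          · exact h
        · intro h
          refine ⟨Finset.mem_union_right _ h, fun h2 => ?_⟩
          exact Finset.disjoint_left.1 hSigS (Finset.mem_union_left _ h2) h
      · intro ℓ hℓ
        rcases Finset.mem_union.1 hℓ with h | h
        · rcases Finset.mem_union.1 h with h' | h'
          · exact P.Smin_prime ℓ h'
          · exact absurd h' (Finset.notMem_empty ℓ)
        · exact hSigp ℓ h
    rw [Fermat.Agent.S59lib.HS.lvlP_eq, hprod, lvlTw_def, htp]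
  · intro f
    rw [List.map_map]
    have h1 : ((fun q' : Nat.Primes => f (q' : ℕ)) ∘ g) = fun x : {x // x ∈ Sig} => f (x : ℕ) :=
      rfl
    rw [h1, Finset.sum_map_toList]
    exact Finset.sum_attach Sig f

end Generic

namespace WIn

variable (I : WIn) (𝒟 : DefType) (gs : GSFor I.p I.Smin 𝒟) (hT : I.HeckeTypeFor 𝒟)

/-- **the residual eigenvalues of a point of the hub's Hecke ring** are the `a_ℓ(W)` at the good primes -/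
theorem residue_point_eq_ap (Sg : SideGal (I.mkCtx 𝒟 gs hT) ∅) (S' : Finset ℕ) (hS' : Sg.good S')
    (π : (Sg.F S' hS').R →ₐ[Sg.𝒪] Sg.𝒪) (ℓ : ℕ) (hℓ : ℓ.Prime)
    (hℓN : ¬ ℓ ∣ lvlTw (I.mkCtx 𝒟 gs hT) S') (hℓS : ℓ ∉ (↑(S' ∪ I.Aux) : Set ℕ))
    (hgood : I.W.IsGoodPrimeFor ℓ) :
    residue Sg.𝒪 (π (heckeLocal.π _ _ _ _ (heckeAlgebra.T hℓ hℓN hℓS))) =
      ((I.W.apOfModel ℓ : ℤ) : ResidueField Sg.𝒪) := by
  letI : Algebra (ZMod I.p) (ResidueField Sg.𝒪) := Sg.instAlgebraZMod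
  have he := heckeDatum_residual_isEquiv (Sg.D.H S' hS') I.ρ₀ (I.mkCtx 𝒟 gs hT).a
    (I.mkCtx 𝒟 gs hT).S₀ (I.mkCtx 𝒟 gs hT).h₀ (Sg.D.hθ S' hS')
  have h1 := residue_point_datum (Sg.D.H S' hS') π (heckeAlgebra.T hℓ hℓN hℓS)
  rw [Sg.D.H_π S' hS'] at h1
  exact h1.trans
    (theta_eq_ap I.W I.hΔ I.p (Sg.D.H S' hS') he (Sg.D.p_mem' S' hS') ℓ hℓ hℓN hℓS hgood)

/-! ### newness at the `Aux`-free level `B` -/

section LevelB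

variable {k : Type} [Field k] [Algebra (ZMod I.p) k]

/-- a system `t` with `t ℓ = a_ℓ(W)` at the good primes which occurs at a level `M' ∣ B` (Hecke set `Smin ∪ Aux`) makes
`ρ̄_{W,p}` modular of level `M' ∏ Aux` -/
theorem isMod_of_char_B (S' : Finset ℕ) (hS' : S' = I.Smin ∪ ∅) (t : ℕ → k)
    (ht : ∀ ℓ : ℕ, ℓ.Prime → ℓ ∉ S' ∪ I.Aux → I.W.IsGoodPrimeFor ℓ →
      t ℓ = ((I.W.apOfModel ℓ : ℤ) : k))
    (M' : ℕ) [NeZero M'] (hM' : M' ∣ I.B)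
    (χ : heckeAlgebra M' 2 (↑(S' ∪ I.Aux) : Set ℕ) →+* k)
    (hχ : ∀ (ℓ : ℕ) (hℓ : ℓ.Prime) (hℓM : ¬ ℓ ∣ I.B) (hℓM' : ¬ ℓ ∣ M')
      (hℓS : ℓ ∉ (↑(S' ∪ I.Aux) : Set ℕ)), χ (heckeAlgebra.T hℓ hℓM' hℓS) = t ℓ) :
    I.IsMod (M' * I.auxProd) := by
  classical
  have hauxpos : I.auxProd ≠ 0 := I.squarefree_auxProd.ne_zero
  haveI : NeZero (M' * I.auxProd) := ⟨mul_ne_zero (NeZero.ne M') hauxpos⟩
  have hBS : ∀ q : ℕ, q.Prime → q ∣ I.B → q ∈ S' ∪ I.Aux := by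
    intro q hq hd
    rw [hS']
    exact Finset.mem_union_left _ (Finset.mem_union_left _
      (Finset.mem_insert_of_mem (Nat.mem_primeFactors.2 ⟨hq, hd, I.B_ne_zero⟩)))
  have hLS : ∀ q : ℕ, q.Prime → q ∣ M' * I.auxProd → q ∈ S' ∪ I.Aux := by
    intro q hq hd
    rcases (Nat.Prime.dvd_mul hq).1 hd with h | h
    · exact hBS q hq (h.trans hM')
    · exact Finset.mem_union_right _ (I.prime_dvd_auxProd hq h)
  have hLS' : ∀ q : ℕ, q.Prime → q ∣ M' * I.auxProd → q ∈ (↑(S' ∪ I.Aux) : Set ℕ) :=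
    fun q hq hd => Finset.mem_coe.2 (hLS q hq hd)
  have hdvd : M' ∣ M' * I.auxProd := Dvd.intro _ rfl
  refine isResiduallyModularOfLevel_of_charS (p := I.p) I.W I.hΔ (S' ∪ I.Aux) ?_ hLS
    (χ.comp (Fermat.Agent.S59lib.Nu.restrictHecke hdvd 2 (↑(S' ∪ I.Aux) : Set ℕ) hLS')) ?_
  · -- the good primes of the Hecke set divide the level times `p`
    intro ℓ hℓS hℓ hgood
    rcases Finset.mem_union.1 hℓS with h | h
    · rw [hS'] at h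
      rcases Finset.mem_union.1 h with h1 | h1
      · by_cases hℓp : ℓ = I.p
        · rw [hℓp]
          exact dvd_mul_left _ _
        · exact absurd hgood (I.bad_of_mem_Smin hℓ hℓp h1)
      · exact absurd h1 (Finset.notMem_empty ℓ)
    · exact ((I.Aux_dvd_auxProd ℓ h).mul_left M').mul_right _
  · intro ℓ hℓ hℓL hℓS hgood
    have hℓM' : ¬ ℓ ∣ M' := fun h => hℓL (h.trans hdvd)
    have hℓB : ¬ ℓ ∣ I.B := fun h => hℓS (Finset.mem_coe.2 (hBS ℓ hℓ h))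
    rw [RingHom.comp_apply,
      Fermat.Agent.S59lib.Nu.restrictHecke_T hdvd 2 _ hLS' hℓ hℓL hℓS hℓM', hχ ℓ hℓ hℓB hℓM' hℓS]
    exact ht ℓ hℓ (fun h => hℓS (Finset.mem_coe.2 h)) hgood

/-- **newness at `r ∥ B`, `r ≠ p`, at the `Aux`-free level**: `ρ̄` is ramified at `r` -/
theorem hnew_B (S' : Finset ℕ) (hS' : S' = I.Smin ∪ ∅) (t : ℕ → k)
    (ht : ∀ ℓ : ℕ, ℓ.Prime → ℓ ∉ S' ∪ I.Aux → I.W.IsGoodPrimeFor ℓ →
      t ℓ = ((I.W.apOfModel ℓ : ℤ) : k))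
    (r M' : ℕ) [NeZero M'] (hr : r.Prime) (hrp : r ≠ I.p) (hB : I.B = M' * r) (hrM' : ¬ r ∣ M') :
    ¬ ∃ χ : heckeAlgebra M' 2 (↑(S' ∪ I.Aux) : Set ℕ) →+* k,
      ∀ (ℓ : ℕ) (hℓ : ℓ.Prime) (hℓM : ¬ ℓ ∣ I.B) (hℓM' : ¬ ℓ ∣ M')
        (hℓS : ℓ ∉ (↑(S' ∪ I.Aux) : Set ℕ)), χ (heckeAlgebra.T hℓ hℓM' hℓS) = t ℓ := by
  rintro ⟨χ, hχ⟩
  have hM'B : M' ∣ I.B := ⟨r, hB⟩
  have hmod := I.isMod_of_char_B S' hS' t ht M' hM'B χ hχ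
  have hrB : r ∣ I.B := ⟨M', by rw [hB, mul_comm]⟩
  have hrL : ¬ r ∣ M' * I.auxProd := by
    intro h
    rcases (Nat.Prime.dvd_mul hr).1 h with h1 | h1
    · exact hrM' h1
    · exact (I.Aux_spec r (I.prime_dvd_auxProd hr h1)).2.1 hrB
  have hpos : 0 < M' * I.auxProd :=
    Nat.pos_of_ne_zero (mul_ne_zero (NeZero.ne M') I.squarefree_auxProd.ne_zero)
  exact (I.B_ram r hr hrp).1 hrB
    (modPUnramifiedAt_of_resMod I.W I.hΔ I.p I.hp2 I.hirr hpos hmod hr hrp hrL)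

/-- **newness at `p ∥ B` at the `Aux`-free level**: no cube-free level prime to `p` -/
theorem hnew_B_p (hno : Fermat.Agent.S59lib.NoLevelPrimeTo I.W I.p)
    (S' : Finset ℕ) (hS' : S' = I.Smin ∪ ∅) (t : ℕ → k)
    (ht : ∀ ℓ : ℕ, ℓ.Prime → ℓ ∉ S' ∪ I.Aux → I.W.IsGoodPrimeFor ℓ →
      t ℓ = ((I.W.apOfModel ℓ : ℤ) : k))
    (M' : ℕ) [NeZero M'] (hB : I.B = M' * I.p) (hpM' : ¬ I.p ∣ M') :
    ¬ ∃ χ : heckeAlgebra M' 2 (↑(S' ∪ I.Aux) : Set ℕ) →+* k,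
      ∀ (ℓ : ℕ) (hℓ : ℓ.Prime) (hℓM : ¬ ℓ ∣ I.B) (hℓM' : ¬ ℓ ∣ M')
        (hℓS : ℓ ∉ (↑(S' ∪ I.Aux) : Set ℕ)), χ (heckeAlgebra.T hℓ hℓM' hℓS) = t ℓ := by
  rintro ⟨χ, hχ⟩
  have hM'B : M' ∣ I.B := ⟨I.p, hB⟩
  have hmod := I.isMod_of_char_B S' hS' t ht M' hM'B χ hχ
  have hpos : 0 < M' * I.auxProd :=
    Nat.pos_of_ne_zero (mul_ne_zero (NeZero.ne M') I.squarefree_auxProd.ne_zero)
  have hpL : ¬ I.p ∣ M' * I.auxProd := by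
    intro h
    rcases (Nat.Prime.dvd_mul I.pp).1 h with h1 | h1
    · exact hpM' h1
    · exact (I.Aux_spec I.p (I.prime_dvd_auxProd I.pp h1)).2.2.1 rfl
  have hLR : M' * I.auxProd ∣ I.R0 := Nat.mul_dvd_mul_right hM'B _
  have hcf : Fermat.Agent.S59lib.IsCubeFree (M' * I.auxProd) := by
    intro q hq h3
    have h2 : q * q ∣ I.R0 := by
      refine dvd_trans ?_ (h3.trans hLR)
      exact ⟨q, by ring⟩
    exact hq.one_lt.ne' (Nat.isUnit_iff.mp (I.R0_sq q h2))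
  exact hno (M' * I.auxProd) hpos hpL hcf hmod

end LevelB

end WIn

end Fermat.Agent.S59lib.Hub
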