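/-
S59lib / Hub / AsmW (helper7): re-issue of `S43lib/B2/Bridge/AsmQ` (helper5) for a general squarefree base part
`N₁` (instead of `2`) of the levels `N₁ · T²`, `M₀ · ∏Q = N₁ · T`: the hypothesis `Odd T` becomes
`Nat.Coprime N₁ T` + "the character is trivial on the units `≡ 1 mod T`"; and of the compatibility lemmas
`AsmC.e₀_mul_tX`, `AsmQ.e₀_idxD_mul_idxT` without the spurious `[Invertible (3 : 𝒪)]`.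
-/
import Mathlib
import Fermat.Agent.S43lib.B2.Bridge.AsmQ
import Fermat.Agent.S59lib.Hub.TWDataW

set_option autoImplicit false
set_option linter.unusedSectionVars false
set_option linter.style.haveILetI false

noncomputable section

namespace Fermat.Agent.S59lib.Hub

open Fermat.Agent.S43lib.B2.Bridge

open IsLocalRing MvPolynomial CuspForm ModularCurve
open Fermat.Agent.S43lib Fermat.Agent.S43lib.B1 Fermat.Agent.S43lib.Loc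
open Fermat.Agent.S43lib.Mod4 Fermat.Agent.S43lib.Mod4.HO

section CompatC

variable {𝒪 : Type} [CommRing 𝒪] [IsDomain 𝒪] [IsLocalRing 𝒪] [IsNoetherianRing 𝒪]
  [IsAdicComplete (maximalIdeal 𝒪) 𝒪] [Finite (ResidueField 𝒪)]
  [Invertible (2 : 𝒪)]
  {p : ℕ} [hp : Fact p.Prime] {M₀ : ℕ} [NeZero M₀]
  {G₀ : Type} [CommGroup G₀] [Fintype G₀] {m : ℕ} {a : Fin m → ℕ}
  {χ₀ : (ZMod M₀)ˣ →* G₀} {Q : List ℕ} [NeZero (M₀ * Q.prod)] {hcop : M₀.Coprime Q.prod}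
  {κ : (ZMod Q.prod)ˣ →* DeltaGrp p a} {t α : ℕ → ResidueField 𝒪}
  (D : TWData p χ₀ Q hcop κ t α)

/-- **BRIDGE-ASM (c)** -/
theorem e₀_mul_tX (hodd : Odd (Fintype.card G₀)) (iT : Idx p M₀) (hiT : iT ∈ JQ p M₀ Q)
    (nQ n₀ : {n : ℕ // n.Coprime M₀}) (hnQ : Sum.inr nQ ∈ JQ p M₀ Q)
    (hsq : χ₀ (ZMod.unitOfCoprime nQ.1 nQ.2) * χ₀ (ZMod.unitOfCoprime nQ.1 nQ.2) =
      χ₀ (ZMod.unitOfCoprime n₀.1 n₀.2) * χ₀ (ZMod.unitOfCoprime n₀.1 n₀.2)) :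
    D.e₀ ((absQ p χ₀ Q hcop κ t α).tX (JQ p M₀ Q) (Sum.inr nQ) hnQ *
        (absQ p χ₀ Q hcop κ t α).tX (JQ p M₀ Q) iT hiT) =
      (abs0 (𝒪 := 𝒪) p χ₀ t).tX Set.univ (Sum.inr n₀) (Set.mem_univ _) *
        (abs0 (𝒪 := 𝒪) p χ₀ t).tX Set.univ iT (Set.mem_univ _) := by
  rw [map_mul, TWDataW.e₀_tX D, TWDataW.e₀_tX D]
  congr 1
  refine tX_inr_eq_of_chi_eq p χ₀ t Set.univ nQ n₀ _ _ ?_
  refine eq_of_sq_eq_of_odd_pow hodd hsq ?_ ?_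
  · exact pow_card_eq_one
  · exact pow_card_eq_one

end CompatC

/-! ### Level `Q` -/

section LevelQ

variable {𝒪 : Type} [CommRing 𝒪] [IsDomain 𝒪] [IsDiscreteValuationRing 𝒪]
  [IsAdicComplete (maximalIdeal 𝒪) 𝒪] [CharZero 𝒪]
  (p : ℕ) {M₀ : ℕ} [NeZero M₀]
  {G₀ Δ : Type} [CommGroup G₀] [CommGroup Δ] [Fintype G₀] [Fintype Δ]
  (χ₀ : (ZMod M₀)ˣ →* G₀) (Q : List ℕ) [NeZero (M₀ * Q.prod)] (hcop : M₀.Coprime Q.prod)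
  (κ : (ZMod Q.prod)ˣ →* Δ) (t α : ℕ → ResidueField 𝒪)

theorem dvd_sq_of_eq {M₀ Qp T N₁ : ℕ} (hM : M₀ * Qp = N₁ * T) : M₀ ∣ N₁ * T * T :=
  (Dvd.intro Qp rfl : M₀ ∣ M₀ * Qp).trans (hM ▸ Dvd.intro T rfl)

theorem lvl_dvd_sq_of_eq {M₀ Qp T N₁ : ℕ} (hM : M₀ * Qp = N₁ * T) : M₀ * Qp ∣ N₁ * T * T :=
  hM ▸ Dvd.intro T rfl

variable {N₁ T : ℕ} [NeZero (N₁ * T * T)] {S : Set ℕ}

theorem not_dvd_lvlQ (hM : M₀ * Q.prod = N₁ * T) (ℓ : GoodPrime (N₁ * T * T) S) :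
    ¬ ℓ.1 ∣ M₀ * Q.prod :=
  fun h => ℓ.2.2.1 (h.trans (lvl_dvd_sq_of_eq hM))

theorem not_mem_Q_of_good (hM : M₀ * Q.prod = N₁ * T) (ℓ : GoodPrime (N₁ * T * T) S) :
    ℓ.1 ∉ Q := fun h =>
  not_dvd_lvlQ Q hM ℓ (Dvd.dvd.mul_left (List.dvd_prod h) M₀)

variable (hM : M₀ * Q.prod = N₁ * T) (hpS : p ∈ S)

theorem idxT_mem_JQ (hQp : ∀ q ∈ Q, q.Prime ∧ ¬ q ∣ M₀ ∧ q ≠ p) (ℓ : GoodPrime (N₁ * T * T) S) :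
    idxT p (dvd_sq_of_eq hM) hpS ℓ ∈ JQ p M₀ Q := by
  intro q hq h
  have h1 : oIdx p M₀ q = Sum.inl ⟨q, hQp q hq⟩ := by
    unfold oIdx
    rw [dif_pos (hQp q hq)]
  rw [h1] at h
  have h2 : ℓ.1 = q := congrArg (fun i : {ℓ : ℕ // ℓ.Prime ∧ ¬ ℓ ∣ M₀ ∧ ℓ ≠ p} => i.1)
    (Sum.inl_injective h)
  exact not_mem_Q_of_good Q hM ℓ (h2 ▸ hq)

theorem idxD_mem_JQ (hQp : ∀ q ∈ Q, q.Prime ∧ ¬ q ∣ M₀ ∧ q ≠ p) (k : ℕ)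
    (ℓ : GoodPrime (N₁ * T * T) S) : idxD p (dvd_sq_of_eq hM) k ℓ ∈ JQ p M₀ Q := by
  intro q hq h
  have h1 : oIdx p M₀ q = Sum.inl ⟨q, hQp q hq⟩ := by
    unfold oIdx
    rw [dif_pos (hQp q hq)]
  rw [h1] at h
  exact Sum.inr_ne_inl h

/-- the unit of level `M₀ ∏Q` of the diamond index `⟨ℓ^k⟩` is the class of `ℓ^k` -/
theorem idxQ_idxD (k : ℕ) (ℓ : GoodPrime (N₁ * T * T) S) (v : (ZMod (M₀ * Q.prod))ˣ)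
    (hv : ((v : (ZMod (M₀ * Q.prod))ˣ) : ZMod (M₀ * Q.prod)) = (ℓ.1 : ZMod (M₀ * Q.prod))) :
    idxQ p hcop (idxD p (dvd_sq_of_eq hM) k ℓ) = Sum.inr (v ^ k) := by
  unfold idxD
  rw [idxQ_inr]
  congr 1
  have hvk : (((v ^ k : (ZMod (M₀ * Q.prod))ˣ) : (ZMod (M₀ * Q.prod))ˣ) : ZMod (M₀ * Q.prod)) =
      ((ℓ.1 ^ k : ℕ) : ZMod (M₀ * Q.prod)) := by
    rw [Units.val_pow_eq_pow_val, hv, Nat.cast_pow]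
  have hcopQ : (ℓ.1 ^ k).Coprime Q.prod := by
    refine Nat.Coprime.pow_left k ((Nat.Prime.coprime_iff_not_dvd ℓ.2.1).mpr fun h => ?_)
    exact not_dvd_lvlQ Q hM ℓ (Dvd.dvd.mul_left h M₀)
  have h2 : unitQ Q.prod (ℓ.1 ^ k) = ZMod.unitOfCoprime (ℓ.1 ^ k) hcopQ := by
    unfold unitQ
    rw [dif_pos hcopQ]
  rw [h2, ← unitsMap_eq_unitOfCoprime (dvd_mul_right M₀ Q.prod) (ℓ.1 ^ k) _ (v ^ k) hvk,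
    ← unitsMap_eq_unitOfCoprime (dvd_mul_left Q.prod M₀) (ℓ.1 ^ k) hcopQ (v ^ k) hvk]
  exact crtU_unitsMap hcop (v ^ k)

set_option synthInstance.maxHeartbeats 400000 in
set_option maxHeartbeats 2000000 in
/-- **BRIDGE-ASM at level `Q`** -/
theorem exists_betaQW (hsq : Squarefree T) (hcop2 : Nat.Coprime N₁ T)
    (hχT : ∀ (hTM : T ∣ M₀ * Q.prod) (u : (ZMod (M₀ * Q.prod))ˣ), ZMod.unitsMap hTM u = 1 →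
      chiQ χ₀ κ u = 1)
    (hS : ∀ q : ℕ, q.Prime → q ∣ N₁ * T * T → q ∈ S)
    (θ : heckeAlgebra (N₁ * T * T) 2 S →+* ResidueField 𝒪)
    [hint : Fact (HasIntegralStructure (N₁ * T * T) 2)]
    {p' : ℕ} (hH : (absQ p χ₀ Q hcop κ t α).Good p')
    (hodd : Odd (Fintype.card (G₀ × Δ)))
    (hQp : ∀ q ∈ Q, q.Prime ∧ ¬ q ∣ M₀ ∧ q ≠ p)
    (hθ : ∀ ℓ : GoodPrime (N₁ * T * T) S, θ (heckeAlgebra.T ℓ.2.1 ℓ.2.2.1 ℓ.2.2.2) = t ℓ.1)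
    {ℓ₀ : ℕ} [Fact ℓ₀.Prime] (hℓ₀ : ¬ ℓ₀ ∣ N₁ * T * T) (hℓ₀p : ℓ₀ ≠ p)
    (h1 : ((N₁ * T * T : ℕ) : ℤ) ∣ (ℓ₀ : ℤ) - 1)
    (hne : t ℓ₀ ≠ ((1 + ℓ₀ : ℕ) : ResidueField 𝒪)) :
    ∃ β : heckeLocal (N₁ * T * T) S 𝒪 θ →ₐ[𝒪] BQ p χ₀ Q hcop κ t α,
      ∀ ℓ : GoodPrime (N₁ * T * T) S,
        β (heckeLocal.π (N₁ * T * T) S 𝒪 θ (heckeAlgebra.T ℓ.2.1 ℓ.2.2.1 ℓ.2.2.2)) =
          (absQ p χ₀ Q hcop κ t α).tX (JQ p M₀ Q)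
            (idxD p (dvd_sq_of_eq hM) ((Fintype.card (G₀ × Δ) - 1) / 2) ℓ)
            (idxD_mem_JQ p Q hM hQp _ ℓ) *
          (absQ p χ₀ Q hcop κ t α).tX (JQ p M₀ Q) (idxT p (dvd_sq_of_eq hM) hpS ℓ)
            (idxT_mem_JQ p Q hM hpS hQp ℓ) := by
  classical
  set k := (Fintype.card (G₀ × Δ) - 1) / 2 with hk
  have hTM : T ∣ M₀ * Q.prod := hM ▸ Dvd.intro_left N₁ rfl
  -- the units of level `M₀ ∏Q` of the good primes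
  have hunit : ∀ ℓ : GoodPrime (N₁ * T * T) S, ∃ v : (ZMod (M₀ * Q.prod))ˣ,
      ((v : (ZMod (M₀ * Q.prod))ˣ) : ZMod (M₀ * Q.prod)) = (ℓ.1 : ZMod (M₀ * Q.prod)) := by
    intro ℓ
    have hc : ℓ.1.Coprime (M₀ * Q.prod) :=
      (Nat.Prime.coprime_iff_not_dvd ℓ.2.1).mpr (not_dvd_lvlQ Q hM ℓ)
    exact ⟨ZMod.unitOfCoprime ℓ.1 hc, ZMod.coe_unitOfCoprime ℓ.1 hc⟩
  choose vv hvv using hunit
  have hℓ₀M₀ : ¬ ℓ₀ ∣ M₀ := fun h => hℓ₀ (h.trans (dvd_sq_of_eq hM))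
  have hℓ₀M : ¬ ℓ₀ ∣ M₀ * Q.prod := fun h => hℓ₀ (h.trans (lvl_dvd_sq_of_eq hM))
  have hℓ₀Q : ℓ₀ ∉ Q := fun h => hℓ₀M (Dvd.dvd.mul_left (List.dvd_prod h) M₀)
  set i₀ : Idx p M₀ := Sum.inl ⟨ℓ₀, Fact.out, hℓ₀M₀, hℓ₀p⟩ with hi₀
  refine exists_beta_absHecke (N₁ * T * T) S 𝒪 θ (absQ p χ₀ Q hcop κ t α) hH (JQ p M₀ Q)
    (idxT p (dvd_sq_of_eq hM) hpS) (idxD p (dvd_sq_of_eq hM) k)
    (idxT_mem_JQ p Q hM hpS hQp) (idxD_mem_JQ p Q hM hQp k) hS ?_ ?_ ?_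
  · -- the relations
    intro P hP y
    refine bridge_levelSys_loc (chiQ χ₀ κ) (idxQ p hcop) 𝒪 (idxT p (dvd_sq_of_eq hM) hpS)
      (idxD p (dvd_sq_of_eq hM) k) hM hsq hcop2 hTM ?_ hodd ?_ (fun ℓ => vv ℓ ^ k) ?_ ?_ P hP hℓ₀ h1
      i₀ ⟨hℓ₀M, idxQ_inl_of_not_dvd p hcop _ hℓ₀M⟩ (RingHom.ker (evOf p M₀ (tQ t α Q))) ?_ y
    · intro u hu
      exact hχT hTM u hu
    · intro ℓ
      exact ⟨not_dvd_lvlQ Q hM ℓ, idxQ_inl_of_not_dvd p hcop _ (not_dvd_lvlQ Q hM ℓ)⟩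
    · intro ℓ
      exact idxQ_idxD p Q hcop hM k ℓ (vv ℓ) (hvv ℓ)
    · intro ℓ v hv
      have h2 : v = vv ℓ := Units.ext (hv.trans (hvv ℓ).symm)
      rw [h2, map_pow]
      exact pow_half_sq_mul hodd _
    · rw [RingHom.mem_ker, map_sub, evOf_X_inl, evOf_C, map_natCast]
      have h3 : tQ t α Q ℓ₀ = t ℓ₀ := by
        unfold tQ
        rw [if_neg hℓ₀Q]
      rw [h3]
      exact sub_ne_zero.mpr hne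
  · intro ℓ
    show evOf p M₀ (tQ t α Q) (X (idxT p (dvd_sq_of_eq hM) hpS ℓ)) = _
    unfold idxT
    rw [evOf_X_inl, hθ ℓ]
    unfold tQ
    rw [if_neg (not_mem_Q_of_good Q hM ℓ)]
  · intro ℓ
    show evOf p M₀ (tQ t α Q) (X (idxD p (dvd_sq_of_eq hM) k ℓ)) = 1
    unfold idxD
    rw [evOf_X_inr]

end LevelQ

/-! ### The base level -/

section Level0

variable {𝒪 : Type} [CommRing 𝒪] [IsDomain 𝒪] [IsDiscreteValuationRing 𝒪]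
  [IsAdicComplete (maximalIdeal 𝒪) 𝒪] [CharZero 𝒪]
  (p : ℕ) {M₀ : ℕ} [NeZero M₀] {G₀ : Type} [CommGroup G₀] [Fintype G₀]
  (χ₀ : (ZMod M₀)ˣ →* G₀) (t : ℕ → ResidueField 𝒪)

theorem dvd_sq_of_eq₀ {M₀ T₀ N₁ : ℕ} (hM₀ : M₀ = N₁ * T₀) : M₀ ∣ N₁ * T₀ * T₀ :=
  hM₀ ▸ Dvd.intro T₀ rfl

variable {N₁ T₀ : ℕ} [NeZero (N₁ * T₀ * T₀)] {S : Set ℕ} (hM₀ : M₀ = N₁ * T₀) (hpS : p ∈ S)

set_option synthInstance.maxHeartbeats 400000 in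
set_option maxHeartbeats 2000000 in
/-- **BRIDGE-ASM at the base level** -/
theorem exists_beta0W (hsq : Squarefree T₀) (hcop2 : Nat.Coprime N₁ T₀)
    (hχT : ∀ (hTM : T₀ ∣ M₀) (u : (ZMod M₀)ˣ), ZMod.unitsMap hTM u = 1 → χ₀ u = 1)
    (hS : ∀ q : ℕ, q.Prime → q ∣ N₁ * T₀ * T₀ → q ∈ S)
    (θ : heckeAlgebra (N₁ * T₀ * T₀) 2 S →+* ResidueField 𝒪)
    [hint : Fact (HasIntegralStructure (N₁ * T₀ * T₀) 2)]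
    {p' : ℕ} (hH : (abs0 (𝒪 := 𝒪) p χ₀ t).Good p')
    (hodd : Odd (Fintype.card G₀))
    (hθ : ∀ ℓ : GoodPrime (N₁ * T₀ * T₀) S, θ (heckeAlgebra.T ℓ.2.1 ℓ.2.2.1 ℓ.2.2.2) = t ℓ.1)
    {ℓ₀ : ℕ} [Fact ℓ₀.Prime] (hℓ₀ : ¬ ℓ₀ ∣ N₁ * T₀ * T₀) (hℓ₀p : ℓ₀ ≠ p)
    (h1 : ((N₁ * T₀ * T₀ : ℕ) : ℤ) ∣ (ℓ₀ : ℤ) - 1)
    (hne : t ℓ₀ ≠ ((1 + ℓ₀ : ℕ) : ResidueField 𝒪)) :
    ∃ β : heckeLocal (N₁ * T₀ * T₀) S 𝒪 θ →ₐ[𝒪] T0 (𝒪 := 𝒪) p χ₀ t,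
      ∀ ℓ : GoodPrime (N₁ * T₀ * T₀) S,
        β (heckeLocal.π (N₁ * T₀ * T₀) S 𝒪 θ (heckeAlgebra.T ℓ.2.1 ℓ.2.2.1 ℓ.2.2.2)) =
          (abs0 (𝒪 := 𝒪) p χ₀ t).tX Set.univ
            (idxD p (dvd_sq_of_eq₀ hM₀) ((Fintype.card G₀ - 1) / 2) ℓ) (Set.mem_univ _) *
          (abs0 (𝒪 := 𝒪) p χ₀ t).tX Set.univ (idxT p (dvd_sq_of_eq₀ hM₀) hpS ℓ)
            (Set.mem_univ _) := by
  classical
  set k := (Fintype.card G₀ - 1) / 2 with hk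
  have hTM : T₀ ∣ M₀ := hM₀ ▸ Dvd.intro_left N₁ rfl
  have hℓ₀M₀ : ¬ ℓ₀ ∣ M₀ := fun h => hℓ₀ (h.trans (dvd_sq_of_eq₀ hM₀))
  set i₀ : Idx p M₀ := Sum.inl ⟨ℓ₀, Fact.out, hℓ₀M₀, hℓ₀p⟩ with hi₀
  refine exists_beta_absHecke (N₁ * T₀ * T₀) S 𝒪 θ (abs0 (𝒪 := 𝒪) p χ₀ t) hH Set.univ
    (idxT p (dvd_sq_of_eq₀ hM₀) hpS) (idxD p (dvd_sq_of_eq₀ hM₀) k)
    (fun _ => Set.mem_univ _) (fun _ => Set.mem_univ _) hS ?_ ?_ ?_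
  · -- the relations
    intro P hP y
    refine bridge_levelSys_loc χ₀ (idx₀ p M₀) 𝒪 (idxT p (dvd_sq_of_eq₀ hM₀) hpS)
      (idxD p (dvd_sq_of_eq₀ hM₀) k) hM₀ hsq hcop2 hTM ?_ hodd ?_
      (fun ℓ => ZMod.unitOfCoprime (ℓ.1 ^ k) (coprime_pow_of_good (dvd_sq_of_eq₀ hM₀) ℓ k))
      (fun ℓ => rfl) ?_ P hP hℓ₀ h1 i₀ ⟨hℓ₀M₀, rfl⟩ (RingHom.ker (evOf p M₀ (𝒪 := 𝒪) t)) ?_ y
    · intro u hu
      exact hχT hTM u hu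
    · intro ℓ
      exact ⟨not_dvd_of_good (dvd_sq_of_eq₀ hM₀) ℓ, rfl⟩
    · intro ℓ v hv
      have h2 : ZMod.unitOfCoprime (ℓ.1 ^ k) (coprime_pow_of_good (dvd_sq_of_eq₀ hM₀) ℓ k) =
          v ^ k := by
        apply coe_unitOfCoprime_eq
        rw [Units.val_pow_eq_pow_val, hv, Nat.cast_pow]
      rw [h2, map_pow]
      exact pow_half_sq_mul hodd _
    · rw [RingHom.mem_ker, map_sub, evOf_X_inl, evOf_C, map_natCast]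
      exact sub_ne_zero.mpr hne
  · intro ℓ
    show evOf p M₀ t (X (idxT p (dvd_sq_of_eq₀ hM₀) hpS ℓ)) = _
    unfold idxT
    rw [evOf_X_inl, hθ ℓ]
  · intro ℓ
    show evOf p M₀ t (X (idxD p (dvd_sq_of_eq₀ hM₀) k ℓ)) = 1
    unfold idxD
    rw [evOf_X_inr]

end Level0

/-! ### Compatibility with `e₀` -/

section Compat

variable {𝒪 : Type} [CommRing 𝒪] [IsDomain 𝒪] [IsLocalRing 𝒪] [IsNoetherianRing 𝒪]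
  [IsAdicComplete (maximalIdeal 𝒪) 𝒪] [Finite (ResidueField 𝒪)]
  [Invertible (2 : 𝒪)]
  {p : ℕ} [hp : Fact p.Prime] {M₀ : ℕ} [NeZero M₀]
  {G₀ : Type} [CommGroup G₀] [Fintype G₀] {m : ℕ} {a : Fin m → ℕ}
  {χ₀ : (ZMod M₀)ˣ →* G₀} {Q : List ℕ} [NeZero (M₀ * Q.prod)] {hcop : M₀.Coprime Q.prod}
  {κ : (ZMod Q.prod)ˣ →* DeltaGrp p a} {t α : ℕ → ResidueField 𝒪}
  (D : TWData p χ₀ Q hcop κ t α)

/-- **BRIDGE-ASM (c), concrete form**: `e₀ (t_{⟨ℓ^{k_Q}⟩} t_{T_ℓ}) = t_{⟨ℓ^{k₀}⟩} t_{T_ℓ}` -/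
theorem e₀_idxD_mul_idxT {N N' : ℕ} {S S' : Set ℕ} (hM₀N : M₀ ∣ N) (hM₀N' : M₀ ∣ N')
    (hpS : p ∈ S) (hpS' : p ∈ S') (hodd : Odd (Fintype.card (G₀ × DeltaGrp p a)))
    (ℓ : GoodPrime N S) (ℓ' : GoodPrime N' S') (hℓ : ℓ.1 = ℓ'.1)
    (h1 : idxD p hM₀N ((Fintype.card (G₀ × DeltaGrp p a) - 1) / 2) ℓ ∈ JQ p M₀ Q)
    (h2 : idxT p hM₀N hpS ℓ ∈ JQ p M₀ Q) :
    D.e₀ ((absQ p χ₀ Q hcop κ t α).tX (JQ p M₀ Q)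
        (idxD p hM₀N ((Fintype.card (G₀ × DeltaGrp p a) - 1) / 2) ℓ) h1 *
        (absQ p χ₀ Q hcop κ t α).tX (JQ p M₀ Q) (idxT p hM₀N hpS ℓ) h2) =
      (abs0 (𝒪 := 𝒪) p χ₀ t).tX Set.univ
          (idxD p hM₀N' ((Fintype.card G₀ - 1) / 2) ℓ') (Set.mem_univ _) *
        (abs0 (𝒪 := 𝒪) p χ₀ t).tX Set.univ (idxT p hM₀N' hpS' ℓ') (Set.mem_univ _) := by
  have hG₀odd : Odd (Fintype.card G₀) := by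
    rw [Fintype.card_prod] at hodd
    exact (Nat.odd_mul.mp hodd).1
  have hdvd : Fintype.card G₀ ∣ Fintype.card (G₀ × DeltaGrp p a) := by
    rw [Fintype.card_prod]
    exact Dvd.intro _ rfl
  have hT : idxT p hM₀N hpS ℓ = idxT p hM₀N' hpS' ℓ' := by
    unfold idxT
    congr 1
    exact Subtype.ext hℓ
  have key := e₀_mul_tX D hG₀odd (idxT p hM₀N hpS ℓ) h2
    ⟨ℓ.1 ^ ((Fintype.card (G₀ × DeltaGrp p a) - 1) / 2), coprime_pow_of_good hM₀N ℓ _⟩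
    ⟨ℓ'.1 ^ ((Fintype.card G₀ - 1) / 2), coprime_pow_of_good hM₀N' ℓ' _⟩ h1 (by
      -- both squares are `χ₀(ℓ)⁻¹`
      have hc : ℓ.1.Coprime M₀ :=
        (Nat.Prime.coprime_iff_not_dvd ℓ.2.1).mpr (not_dvd_of_good hM₀N ℓ)
      set w : (ZMod M₀)ˣ := ZMod.unitOfCoprime ℓ.1 hc with hw
      have e1 : ZMod.unitOfCoprime (ℓ.1 ^ ((Fintype.card (G₀ × DeltaGrp p a) - 1) / 2))
          (coprime_pow_of_good hM₀N ℓ _) = w ^ ((Fintype.card (G₀ × DeltaGrp p a) - 1) / 2) := by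
        apply coe_unitOfCoprime_eq
        rw [Units.val_pow_eq_pow_val, hw, ZMod.coe_unitOfCoprime, Nat.cast_pow]
      have e2 : ZMod.unitOfCoprime (ℓ'.1 ^ ((Fintype.card G₀ - 1) / 2))
          (coprime_pow_of_good hM₀N' ℓ' _) = w ^ ((Fintype.card G₀ - 1) / 2) := by
        apply coe_unitOfCoprime_eq
        rw [Units.val_pow_eq_pow_val, hw, ZMod.coe_unitOfCoprime, Nat.cast_pow, hℓ]
      show χ₀ (ZMod.unitOfCoprime _ _) * χ₀ (ZMod.unitOfCoprime _ _) =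
        χ₀ (ZMod.unitOfCoprime _ _) * χ₀ (ZMod.unitOfCoprime _ _)
      rw [e1, e2, map_pow, map_pow]
      have e3 := pow_half_sq_mul' hodd hdvd (χ₀ w)
      have e4 := pow_half_sq_mul hG₀odd (χ₀ w)
      exact mul_right_cancel (e3.trans e4.symm))
  rw [← hT]
  exact key

end Compat

end Fermat.Agent.S59lib.Hub
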