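/-
S43lib / Mod4x / LGCGlueTR  (helper3).

Project H (S43), LAYER 4, brick TR in the SPEC shape: helper2's `tr_T_of_glue` / `tr_Q_of_glue`
(`Mod4x/TR.lean`) fed with `tr_eq_of_LGC` (`Mod4x/LGCGlue.lean`).
-/
import Mathlib
import Fermat.Agent.S59lib.Hub.LGCGlue

set_option autoImplicit false
set_option linter.unusedSectionVars false
set_option linter.unusedVariables false

noncomputable section

namespace Fermat.Agent.S59lib.Hub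

open Fermat.Agent.S43lib.Mod4.Hub

open IsLocalRing Polynomial CuspForm Fermat.Agent.S43lib.B3 Fermat.Agent.S43lib.Loc
  Fermat.Agent.S56lib.Main Fermat.Agent.S43lib.Mod4.HO Fermat.Agent.S56lib.TW ExtCitation
  Fermat.Agent.S43lib.BigImg WeierstrassCurve WeierstrassCurve.Affine WeierstrassCurve.Affine.Point FreyPackage

local notation "GQ" => (AlgebraicClosure ℚ ≃ₐ[ℚ] AlgebraicClosure ℚ)
local notation "Qb" => AlgebraicClosure ℚ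

variable {P : Ctx} {Ts : Finset ℕ} (Sg : SideGal P Ts)

/-! ## brick TR -/
section TR

variable (hLGC : LGCPointW) (hH : HubHyp Sg)
    {r : ℕ} (n : ℕ) (qv : Fin r → ℕ) (hinj : Function.Injective qv)
    (hqv : ∀ i, (qv i).Prime ∧ qv i ∉ Sg.SA ∧ P.p ^ (n + 1) ∣ qv i - 1)
    [NeZero (M₀ P Ts * (QL qv).prod)] (hcop : (M₀ P Ts).Coprime (QL qv).prod)
    (hgood : (HQ Sg n qv hcop).Good P.p) (hS' : Sg.good (SQ P Ts qv))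
    (hfree : Module.Free Sg.𝒪 (MQ Sg n qv hcop))
    (β : (Sg.F (SQ P Ts qv) hS').R →ₐ[Sg.𝒪] TQ Sg n qv hcop)
    (hβ : ∀ (ℓ : ℕ) (hℓ : ℓ.Prime) (hℓN : ¬ ℓ ∣ lvlTw P (SQ P Ts qv))
        (hℓS : ℓ ∉ (↑(SQ P Ts qv ∪ P.Aux) : Set ℕ)) (hi : ℓ.Prime ∧ ¬ ℓ ∣ M₀ P Ts ∧ ℓ ≠ P.p)
        (hJ : (Sum.inl ⟨ℓ, hi⟩ : Idx P.p (M₀ P Ts)) ∈ JQ P.p (M₀ P Ts) (QL qv))
        (hℓM : ℓ.Coprime (M₀ P Ts * (QL qv).prod)) (g : G₀ P Ts × DelQ P r n),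
        g * g * chiQ (χ₀ P Ts) (kapQ P n qv) (ZMod.unitOfCoprime ℓ hℓM) = 1 →
        β (heckeLocal.π _ _ _ _ (heckeAlgebra.T hℓ hℓN hℓS)) =
          (HQ Sg n qv hcop).tG (JQ P.p (M₀ P Ts) (QL qv)) g *
            (HQ Sg n qv hcop).tX (JQ P.p (M₀ P Ts) (QL qv)) (Sum.inl ⟨ℓ, hi⟩) hJ)

include hLGC hH hinj hqv hgood hfree hβ

theorem tr_T_of (v : TT Ts) :
    β ((Sg.F (SQ P Ts qv) hS').ρ.trace (globGenAt (v : Nat.Primes) P.p)) =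
      (HQ Sg n qv hcop).tG (JQ P.p (M₀ P Ts) (QL qv)) (deltaGen P.p (aT Ts) (eT Ts v), 1) +
        (HQ Sg n qv hcop).tG (JQ P.p (M₀ P Ts) (QL qv)) ((deltaGen P.p (aT Ts) (eT Ts v))⁻¹, 1) :=
  tr_T_of_glue Sg (fun v _ hvM hvp A hA σ hσ u hu1 hu2 g hg =>
      tr_eq_of_LGC Sg hLGC hH n qv hinj hqv hcop hgood hS' hfree β hβ v hvM hvp A hA σ hσ
        u hu1 hu2 g hg) hH hinj hqv v

theorem tr_Q_of (i : Fin r) :
    β ((Sg.F (SQ P Ts qv) hS').ρ.trace (globGenAt ⟨qv i, (hqv i).1⟩ P.p)) =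
      (HQ Sg n qv hcop).tG (JQ P.p (M₀ P Ts) (QL qv)) (1, deltaGen P.p (aQ r n) i) +
        (HQ Sg n qv hcop).tG (JQ P.p (M₀ P Ts) (QL qv)) (1, (deltaGen P.p (aQ r n) i)⁻¹) :=
  tr_Q_of_glue Sg (fun v _ hvM hvp A hA σ hσ u hu1 hu2 g hg =>
      tr_eq_of_LGC Sg hLGC hH n qv hinj hqv hcop hgood hS' hfree β hβ v hvM hvp A hA σ hσ
        u hu1 hu2 g hg) hH hinj hqv i

end TR

end Fermat.Agent.S59lib.Hub
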